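import Fermat.Agent.LanglandsTunnell.Seed.SeedFun

/-!
# The seed function is nonzero

At the ideal prime to the level in the inverse class of the different there is exactly one index
of a certain frequency, so the series cannot vanish identically.
This gives `exists_seedFun_ne_zero`.
-/

set_option autoImplicit false

open NumberField Complex MeasureTheory Matrix
open scoped Real nonZeroDivisors

noncomputable section

namespace FLTAgent.LanglandsTunnell.Seed

open FLTAgent.LanglandsTunnell FLTAgent.LanglandsTunnell.SeedCoeff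
open FLTAgent.LanglandsTunnell.Geom

variable {M L ι : Type} [Field M] [NumberField M] [Field L] [NumberField L] [Algebra M L]
  [Fintype ι]

/-- The coordinates of a frequency along `m • 𝓞 M`. -/
def freq (m : ℕ) (μ : M) (j : Module.Free.ChooseBasisIndex ℤ (𝓞 M)) : ℝ :=
  (Algebra.trace ℚ M (μ * ((m : M) * (RingOfIntegers.basis M j : 𝓞 M))) : ℚ)

theorem echar_comb (Φ : PlaceChoice M ι) (m : ℕ) (μ : M)
    (s : Module.Free.ChooseBasisIndex ℤ (𝓞 M) → ℝ) :
    echar Φ μ (fun i => ∑ j, (s j : ℂ) * Φ.emb i ((m : M) * (RingOfIntegers.basis M j : 𝓞 M))) =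
      wave (freq m μ) s := by
  rw [echar, wave, ← Complex.exp_sum]
  congr 1
  have e : ∑ i, (Φ.emb i μ *
      ∑ j, (s j : ℂ) * Φ.emb i ((m : M) * (RingOfIntegers.basis M j : 𝓞 M))).re =
      ∑ j, s j * (freq m μ j / 2) := by
    simp only [Finset.mul_sum, Complex.re_sum]
    rw [Finset.sum_comm]
    refine Finset.sum_congr rfl fun j _ => ?_
    simp only [freq, trace_eq_sum_re Φ, Finset.sum_div, Finset.mul_sum, map_mul]
    refine Finset.sum_congr rfl fun i _ => ?_
    rw [mul_left_comm (Φ.emb i μ) (s j : ℂ), Complex.re_ofReal_mul]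
    ring
  rw [e]
  push_cast
  simp only [Finset.mul_sum, Finset.sum_mul]
  exact Finset.sum_congr rfl fun j _ => by ring

theorem eq_of_freq_eq {m : ℕ} (hm : m ≠ 0) {μ ν : M} (h : freq m μ = freq m ν) : μ = ν := by
  by_contra hne
  have hne' : μ - ν ≠ 0 := sub_ne_zero.mpr hne
  have hlin : Algebra.trace ℚ M ∘ₗ LinearMap.mulLeft ℚ (μ - ν) = 0 := by
    refine (NumberField.integralBasis M).ext fun j => ?_
    have h' := congrFun h j
    simp only [freq, Rat.cast_inj] at h'
    rw [← sub_eq_zero, ← map_sub, ← sub_mul, mul_left_comm, ← nsmul_eq_mul, map_nsmul,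
      smul_eq_zero] at h'
    simpa [NumberField.integralBasis_apply] using h'.resolve_left hm
  have h1 := LinearMap.congr_fun hlin (μ - ν)⁻¹
  rw [LinearMap.comp_apply, LinearMap.mulLeft_apply, mul_inv_cancel₀ hne',
    ← map_one (algebraMap ℚ M), Algebra.trace_algebraMap, nsmul_one, LinearMap.zero_apply,
    Nat.cast_eq_zero] at h1
  exact Module.finrank_pos.ne' h1

namespace SeedSys

variable (D : SeedSys M L ι)

theorem eq_top_of_isTerm {Y : FractionalIdeal (𝓞 M)⁰ M} {B : Ideal (𝓞 L)} {β : M}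
    (h : D.IsTerm Y ⊤ β) (hB : D.IsTerm Y B β) : B = ⊤ := by
  have e := hB.2.2.symm.trans h.2.2
  rw [Ideal.map_top, FractionalIdeal.coeIdeal_top, one_mul, ← FractionalIdeal.coeIdeal_mul,
    ← FractionalIdeal.coeIdeal_top (R := 𝓞 L) (S := (𝓞 L)⁰) (P := L)] at e
  exact top_le_iff.mp ((FractionalIdeal.coeIdeal_injective e).symm.le.trans Ideal.mul_le_left)

theorem termW_shift (β : M) (X : ι → ℂ) (P : ι → H3) :
    D.termW β (fun i => H3.shift (X i) (P i)) = echar D.T.Φ β X * D.termW β P := by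
  simp only [termW, echar_eq_prod, ← Finset.prod_mul_distrib]
  refine Finset.prod_congr rfl fun i _ => ?_
  rw [wfun_affine (D.T.Φ.emb i β) (D := 1) (κ := X i) (P := P i) (by simp [H3.shift])
    (by simp [H3.shift]), norm_one, Complex.ofReal_one, one_mul, mul_one]

/-- The series is not identically zero when some index has trivial ideal. -/
theorem exists_series_ne_zero {Y : FractionalIdeal (𝓞 M)⁰ M} (hY : Y ≠ 0) {β : M}
    (h : D.IsTerm Y ⊤ β) : ∃ P, D.series Y P ≠ 0 := by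
  classical
  by_contra! hall
  obtain ⟨n₀, hn₀, hnY⟩ := exists_nat_mem hY
  set P₀ : ι → H3 := fun _ => ⟨0, 1, one_pos⟩ with hP₀
  set t₀ : D.Term Y := ⟨(⊤, β), h⟩ with ht₀
  set c : D.Term Y → ℂ := fun t => D.ψ t.1.1 * D.termW t.1.2 P₀ with hc
  obtain ⟨U, hU, hb⟩ := D.exists_termW_bound Y one_pos
  have hcs : Summable fun t => ‖c t‖ := Summable.of_nonneg_of_le (fun t => norm_nonneg _)
    (fun t => by
      rw [hc, norm_mul, D.norm_psi _ t.2.1, one_mul]
      exact hb t P₀ fun _ => le_rfl) hU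
  have hc0 : c t₀ ≠ 0 := by
    simp only [hc, ht₀, D.psi_top, one_mul, termW]
    exact Finset.prod_ne_zero_iff.mpr fun i _ => wfun_ne_zero (D.T.emb_ne_zero h.2.1 i) rfl
  have hint : ∀ (t : D.Term Y) j, ∃ k : ℤ, freq n₀ t.1.2 j = k := fun t j => by
    have hmem : (n₀ : M) * ((RingOfIntegers.basis M j : 𝓞 M) : M) ∈ Y := by
      rw [← FractionalIdeal.mem_coe] at hnY ⊢
      simpa [Algebra.smul_def, mul_comm] using
        Submodule.smul_mem _ (RingOfIntegers.basis M j) hnY
    obtain ⟨k, hk⟩ := (expM_eq_one_iff D.T.Φ _).mp (D.expM_mul_eq_one t.2 hmem)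
    exact ⟨k, by simp only [freq, hk, Rat.cast_intCast]⟩
  set r : D.Term Y → Module.Free.ChooseBasisIndex ℤ (𝓞 M) → ℝ :=
    fun t => freq n₀ t.1.2 - freq n₀ β with hr
  have hG : ∀ s, -c t₀ = ∑' t, Function.update c t₀ 0 t * wave (r t) s := by
    intro s
    set X : ι → ℂ := fun i => ∑ j, (s j : ℂ) *
      D.T.Φ.emb i ((n₀ : M) * (RingOfIntegers.basis M j : 𝓞 M)) with hX
    have h0 : ∑' t, c t * wave (freq n₀ t.1.2) s = 0 := by
      refine Eq.trans (tsum_congr fun t => ?_) (hall fun i => H3.shift (X i) (P₀ i))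
      rw [← echar_comb D.T.Φ, D.termW_shift]
      simp only [hc, hX]
      ring
    have hs : Summable fun t => c t * wave (freq n₀ t.1.2) s := Summable.of_norm (by
      simpa [norm_mul, norm_wave] using hcs)
    rw [hs.tsum_eq_add_tsum_ite t₀] at h0
    refine mul_right_cancel₀ (b := wave (freq n₀ β) s)
      (norm_ne_zero_iff.mp (by rw [norm_wave]; exact one_ne_zero)) ?_
    rw [← tsum_mul_right, neg_mul, neg_eq_of_add_eq_zero_right h0]
    refine tsum_congr fun t => ?_
    rcases eq_or_ne t t₀ with rfl | ht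
    · simp
    · rw [if_neg ht, Function.update_of_ne ht]
      simp only [hr]
      rw [mul_assoc (c t), wave_sub]
  have hmean := cube_mean_zero (Function.update c t₀ 0)
    (Summable.of_nonneg_of_le (fun t => norm_nonneg _) (fun t => by
      rcases eq_or_ne t t₀ with rfl | ht
      · simp
      · rw [Function.update_of_ne ht]) hcs)
    r one_ne_zero (fun t j => ?_) (fun t ht => ?_) hG fun _ _ => rfl
  · rw [setIntegral_const, Measure.real, volume_cube] at hmean
    simp [hc0] at hmean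
  · obtain ⟨k, hk⟩ := hint t j
    obtain ⟨k', hk'⟩ := hint t₀ j
    refine ⟨k - k', ?_⟩
    simp only [hr, Pi.sub_apply]
    rw [Nat.cast_one, one_mul, hk,
      show freq n₀ β j = (k' : ℝ) from hk', Int.cast_sub]
  · have hβ : t.1.2 = β := eq_of_freq_eq hn₀ (sub_eq_zero.mp ht)
    obtain ⟨⟨B, β'⟩, hB⟩ := t
    obtain rfl : β' = β := hβ
    obtain rfl : B = ⊤ := D.eq_top_of_isTerm h hB
    exact Function.update_self _ _ _

/-- An ideal prime to the level with an index whose ideal is trivial. -/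
theorem exists_isTerm_top : ∃ (Q : Ideal (𝓞 M)) (β : M), Q ≠ ⊥ ∧ Q ⊔ D.n = ⊤ ∧
    D.IsTerm (Q : FractionalIdeal (𝓞 M)⁰ M) ⊤ β := by
  have hd : D.T.diffM ≠ ⊥ := differentIdeal_ne_bot
  obtain ⟨a, ha0, haI, ha⟩ : ∃ a : 𝓞 M, a ≠ 0 ∧ a ∈ D.T.diffM ∧
      D.T.diffM * D.n ⊔ Ideal.span {a} = D.T.diffM := by
    obtain ⟨a, ha⟩ := IsDedekindDomain.exists_sup_span_eq
      (I := D.T.diffM * D.n) (J := D.T.diffM) Ideal.mul_le_left (mul_ne_zero hd D.n_ne)
    rcases eq_or_ne a 0 with rfl | ha0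
    · rw [Ideal.span_singleton_eq_bot.mpr rfl, sup_bot_eq] at ha
      obtain ⟨b, hb, hb0⟩ := Submodule.exists_mem_ne_zero_of_ne_bot hd
      refine ⟨b, hb0, hb, ?_⟩
      rw [ha]
      exact sup_eq_left.mpr ((Ideal.span_singleton_le_iff_mem _).mpr hb)
    · exact ⟨a, ha0, ha ▸ Ideal.mem_sup_right (Ideal.mem_span_singleton_self a), ha⟩
  obtain ⟨Q, hQ⟩ := (Ideal.dvd_span_singleton.mpr haI : D.T.diffM ∣ Ideal.span {a})
  have hcop : Q ⊔ D.n = ⊤ := by
    rw [hQ, ← Ideal.mul_sup, sup_comm] at ha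
    exact mul_left_cancel₀ (b := Q ⊔ D.n) hd (ha.trans (Ideal.mul_top _).symm)
  have hQ0 : Q ≠ ⊥ := fun e => ha0 (Ideal.span_singleton_eq_bot.mp (by rw [hQ, e, Ideal.mul_bot]))
  have haM : algebraMap (𝓞 M) M a ≠ 0 :=
    (map_ne_zero_iff _ (IsFractionRing.injective (𝓞 M) M)).mpr ha0
  refine ⟨Q, (algebraMap (𝓞 M) M a)⁻¹, hQ0, hcop, Cop.top, inv_ne_zero haM, ?_⟩
  rw [Ideal.map_top, FractionalIdeal.coeIdeal_top, one_mul, mul_assoc, ← map_mul D.T.EL,
    ← FractionalIdeal.coeIdeal_mul, mul_comm Q, ← hQ, FractionalIdeal.coeIdeal_span_singleton,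
    D.T.EL_spanSingleton, ← princ_mul', ← map_mul, inv_mul_cancel₀ haM, map_one, princ,
    FractionalIdeal.spanSingleton_one]

end SeedSys

theorem exists_seedFun_ne_zero (D : SeedSys M L ι) : ∃ x, seedFun D x ≠ 0 := by
  obtain ⟨Q, β, hQ0, hQn, hβ⟩ := D.exists_isTerm_top
  obtain ⟨t, ht⟩ := exists_isUniformizerAt (n := D.n) hQ0 hQn
  have hY : ideleFrac t = (Q : FractionalIdeal (𝓞 M)⁰ M) := ideleFrac_uniformizer hQ0 ht
  obtain ⟨P, hP⟩ := D.exists_series_ne_zero (FractionalIdeal.coeIdeal_ne_zero.mpr hQ0) hβ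
  refine ⟨(GeneralLinearGroup.map (toAF M) (1 : GL (Fin 2) M) •
    ((diagUnit t : GL (Fin 2) (AF M)) : FinPt M D.n), P), ?_⟩
  rw [seedFun_eval, hY]
  simp only [map_one, inv_one, one_smul, SeedSys.form]
  refine mul_ne_zero (Complex.ofReal_ne_zero.mpr (inv_ne_zero (Real.sqrt_pos.mpr ?_).ne')) hP
  exact nrm_pos (FractionalIdeal.coeIdeal_ne_zero.mpr hQ0)

end FLTAgent.LanglandsTunnell.Seed

end
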