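import Fermat.Agent.LanglandsTunnell.Seed.Bound
import Mathlib.RingTheory.ClassGroup.Basic
import Mathlib.GroupTheory.FiniteAbelian.Basic
import Mathlib.GroupTheory.Finiteness

/-!
# The data of the theta series and complete systems of pairs

`SeedSys` holds the setting, level and character, with the periodic coefficient `chiL`. A `System`
is a finite complete system of inequivalent pairs `(A, e)` at `Y`; `exists_system` produces one.
-/

set_option autoImplicit false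

open NumberField Complex
open scoped nonZeroDivisors

noncomputable section

namespace FLTAgent.LanglandsTunnell.Seed

open FLTAgent.LanglandsTunnell

theorem princ_mul' {L : Type} [Field L] [NumberField L] (x y : L) :
    princ L (x * y) = princ L x * princ L y :=
  (FractionalIdeal.spanSingleton_mul_spanSingleton _ _).symm

theorem princ_div' {L : Type} [Field L] [NumberField L] (x y : L) :
    princ L (x / y) = princ L x / princ L y :=
  (FractionalIdeal.spanSingleton_div_spanSingleton _ _ _).symm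

theorem princ_ne_zero' {L : Type} [Field L] [NumberField L] {x : L} (h : x ≠ 0) : princ L x ≠ 0 :=
  FractionalIdeal.spanSingleton_ne_zero_iff.mpr h

/-- Nonzero and prime to `s`. -/
def Cop {R : Type} [CommRing R] (s : ℕ) (I : Ideal R) : Prop :=
  I ≠ ⊥ ∧ I ⊔ Ideal.span {(s : R)} = ⊤

section Cop

variable {R : Type} [CommRing R] [IsDomain R] {s : ℕ}

theorem Cop.top : Cop s (⊤ : Ideal R) := ⟨top_ne_bot, top_sup_eq _⟩

theorem Cop.mul {I J : Ideal R} (hI : Cop s I) (hJ : Cop s J) : Cop s (I * J) :=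
  ⟨mul_ne_zero hI.1 hJ.1, Ideal.isCoprime_iff_sup_eq.mp
    ((Ideal.isCoprime_iff_sup_eq.mpr hI.2).mul_left (Ideal.isCoprime_iff_sup_eq.mpr hJ.2))⟩

omit [IsDomain R] in
theorem Cop.of_le {I J : Ideal R} (hI : Cop s I) (h : I ≤ J) : Cop s J :=
  ⟨fun e => hI.1 (le_bot_iff.mp (e ▸ h)),
    top_le_iff.mp (hI.2.symm.le.trans (sup_le_sup_right h _))⟩

omit [IsDomain R] in
theorem Cop.of_mul_left {I J : Ideal R} (h : Cop s (I * J)) : Cop s I := h.of_le Ideal.mul_le_left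

omit [IsDomain R] in
theorem Cop.of_mul_right {I J : Ideal R} (h : Cop s (I * J)) : Cop s J := h.of_le Ideal.mul_le_right

omit [IsDomain R] in
theorem Cop.map {R' : Type} [CommRing R'] (f : R →+* R') (hf : Function.Injective f) {I : Ideal R}
    (hI : Cop s I) : Cop s (I.map f) := by
  refine ⟨fun h => hI.1 ((Ideal.map_eq_bot_iff_of_injective hf).mp h), ?_⟩
  have h := congrArg (Ideal.map f) hI.2
  rwa [Ideal.map_sup, Ideal.map_span, Set.image_singleton, map_natCast, Ideal.map_top] at h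

end Cop

/-- The data of the theta series. -/
structure SeedSys (M L ι : Type) [Field M] [NumberField M] [Field L] [NumberField L] [Algebra M L]
    [Fintype ι] : Type where
  T : Setting M L ι
  s : ℕ
  s_ne : s ≠ 0
  n : Ideal (𝓞 M)
  n_ne : n ≠ ⊥
  n_le_span : n ≤ Ideal.span {(s : 𝓞 M)}
  n_le_diff : n.map (algebraMap (𝓞 M) (𝓞 L)) ≤
    ((Ideal.span {(s : 𝓞 M)}).map (algebraMap (𝓞 M) (𝓞 L))) ^ 2 *
      (T.diffR * T.diffR.map (T.cO : 𝓞 L →+* 𝓞 L))
  mem_of_le : ∀ P : Ideal (𝓞 M), P.IsMaximal → n ≤ P → (s : 𝓞 M) ∈ P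
  unram : ∀ P : Ideal (𝓞 M), P.IsMaximal → ¬ n ≤ P → T.ringData.Unram P
  ψ : Ideal (𝓞 L) → ℂ
  psi_top : ψ ⊤ = 1
  psi_mul : ∀ I J, Cop s I → Cop s J → ψ (I * J) = ψ I * ψ J
  norm_psi : ∀ I, Cop s I → ‖ψ I‖ = 1
  psi_congr : ∀ a b : 𝓞 L, a ≠ 0 → b ≠ 0 → Cop s (Ideal.span {a}) →
    a - b ∈ Ideal.span {(s : 𝓞 L)} → ψ (Ideal.span {a}) = ψ (Ideal.span {b})
  psi_c : ∀ I, Cop s I → ψ (I.map (T.cO : 𝓞 L →+* 𝓞 L)) * ψ I = 1
  psi_inert : ∀ P : Ideal (𝓞 M), P.IsMaximal → ¬ n ≤ P → ¬ T.ringData.Splits P →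
    ψ (P.map (algebraMap (𝓞 M) (𝓞 L))) = -1
  exists_aux : ∀ m : ℕ, m ≠ 0 → ∃ Q : Ideal (𝓞 L), Q.IsMaximal ∧ Cop (m * s) Q ∧ ψ Q * ψ Q ≠ 1

variable {M L ι : Type} [Field M] [NumberField M] [Field L] [NumberField L] [Algebra M L]
  [Fintype ι]

namespace SeedSys

variable (D : SeedSys M L ι)

theorem psi_ne_zero {I : Ideal (𝓞 L)} (h : Cop D.s I) : D.ψ I ≠ 0 := fun e => by
  have := D.norm_psi I h; rw [e, norm_zero] at this; exact one_ne_zero this.symm

theorem cop_map_cO {I : Ideal (𝓞 L)} (h : Cop D.s I) :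
    Cop D.s (I.map (D.T.cO : 𝓞 L →+* 𝓞 L)) :=
  h.map _ D.T.cO.injective

theorem cop_mapL {I : Ideal (𝓞 M)} (h : Cop D.s I) :
    Cop D.s (I.map (algebraMap (𝓞 M) (𝓞 L))) :=
  h.map _ (D.T.ringData.inj)

/-! ### The character of elements -/

open Classical in
/-- `ψ` on integers, extended periodically. -/
def psiC (x : 𝓞 L) : ℂ :=
  if Ideal.span {x} ⊔ Ideal.span {(D.s : 𝓞 L)} = ⊤ then
    (if x = 0 then 1 else D.ψ (Ideal.span {x})) else 0

theorem psiC_periodic {x y : 𝓞 L} (h : x - y ∈ Ideal.span {(D.s : 𝓞 L)}) :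
    D.psiC x = D.psiC y := by
  classical
  have key : Ideal.span {x} ⊔ Ideal.span {(D.s : 𝓞 L)} =
      Ideal.span {y} ⊔ Ideal.span {(D.s : 𝓞 L)} := by
    refine le_antisymm (sup_le ((Ideal.span_singleton_le_iff_mem _).mpr ?_) le_sup_right)
      (sup_le ((Ideal.span_singleton_le_iff_mem _).mpr ?_) le_sup_right)
    · rw [show x = y + (x - y) by ring]
      exact Submodule.add_mem_sup (Ideal.mem_span_singleton_self y) h
    · rw [show y = x + -(x - y) by ring]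
      exact Submodule.add_mem_sup (Ideal.mem_span_singleton_self x) (neg_mem h)
  by_cases hc : Ideal.span {x} ⊔ Ideal.span {(D.s : 𝓞 L)} = ⊤
  swap
  · have hcy : ¬ Ideal.span {y} ⊔ Ideal.span {(D.s : 𝓞 L)} = ⊤ := by rw [← key]; exact hc
    rw [psiC, psiC, if_neg hc, if_neg hcy]
  have hcy : Ideal.span {y} ⊔ Ideal.span {(D.s : 𝓞 L)} = ⊤ := by rw [← key]; exact hc
  rw [psiC, psiC, if_pos hc, if_pos hcy]
  have hzero : ∀ {a b : 𝓞 L}, a = 0 → b ≠ 0 → a - b ∈ Ideal.span {(D.s : 𝓞 L)} →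
      Ideal.span {a} ⊔ Ideal.span {(D.s : 𝓞 L)} = ⊤ → D.ψ (Ideal.span {b}) = 1 := by
    intro a b ha hb hab htop
    rw [ha, Ideal.span_singleton_eq_bot.mpr rfl, bot_sup_eq] at htop
    rw [← D.psi_top, ← Ideal.span_singleton_one]
    exact D.psi_congr b 1 hb one_ne_zero
      ⟨fun e => hb (Ideal.span_singleton_eq_bot.mp e), by rw [htop, sup_top_eq]⟩
      (htop ▸ Submodule.mem_top)
  by_cases hx : x = 0 <;> by_cases hy : y = 0
  · rw [if_pos hx, if_pos hy]
  · rw [if_pos hx, if_neg hy, hzero hx hy h hc]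
  · rw [if_neg hx, if_pos hy, hzero hy hx (by rw [← neg_sub]; exact neg_mem h) hcy]
  · rw [if_neg hx, if_neg hy]
    exact D.psi_congr x y hx hy ⟨fun e => hx (Ideal.span_singleton_eq_bot.mp e), hc⟩ h

theorem psiC_of_eq_mul {x : 𝓞 L} (hx : x ≠ 0) {A B : Ideal (𝓞 L)} (hA : Cop D.s A)
    (hB : Cop D.s B) (h : Ideal.span {x} = A * B) : D.psiC x = D.ψ A * D.ψ B := by
  classical
  rw [psiC, if_pos (h ▸ (hA.mul hB).2), if_neg hx, h, D.psi_mul _ _ hA hB]

theorem psiC_ne_zero_iff {x : 𝓞 L} (hx : x ≠ 0) :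
    D.psiC x ≠ 0 ↔ Cop D.s (Ideal.span {x}) := by
  classical
  refine ⟨fun h => ⟨fun e => hx (Ideal.span_singleton_eq_bot.mp e), ?_⟩, fun h => ?_⟩
  · by_contra hc; exact h (by rw [psiC, if_neg hc])
  · rw [psiC, if_pos h.2, if_neg hx]
    exact D.psi_ne_zero h

theorem norm_psiC_le (x : 𝓞 L) : ‖D.psiC x‖ ≤ 1 := by
  classical
  unfold psiC
  split_ifs with h h'
  · exact norm_one.le
  · exact (D.norm_psi _ ⟨fun e => h' (Ideal.span_singleton_eq_bot.mp e), h⟩).le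
  · simp

open Classical in
/-- The coefficient function on `L`. -/
def chiL (x : L) : ℂ := if h : IsIntegral ℤ x then D.psiC ⟨x, h⟩ else 0

theorem chiL_coe (x : 𝓞 L) : D.chiL (algebraMap (𝓞 L) L x) = D.psiC x := by
  classical
  rw [chiL, dif_pos (RingOfIntegers.isIntegral_coe x)]
  rfl

theorem norm_chiL_le (x : L) : ‖D.chiL x‖ ≤ 1 := by
  classical
  unfold chiL
  split_ifs
  · exact D.norm_psiC_le _
  · simp

theorem chiL_periodic (A : Ideal (𝓞 L)) {I : Ideal (𝓞 L)} (hI : I ≤ Ideal.span {(D.s : 𝓞 L)}) :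
    PeriodicOn (idealSet A) (idealSet I) D.chiL := by
  intro x hx y hy
  obtain ⟨a, -, rfl⟩ := mem_idealSet.mp hx
  obtain ⟨b, hb, rfl⟩ := mem_idealSet.mp hy
  rw [← map_add, D.chiL_coe, D.chiL_coe]
  exact D.psiC_periodic (by rw [add_sub_cancel_left]; exact hI hb)

theorem chiL_mul_of_sub_one_mem {A : Ideal (𝓞 L)} {x : L} (hx : x ∈ idealSet A) {d : 𝓞 L}
    (hd : d - 1 ∈ Ideal.span {(D.s : 𝓞 L)}) :
    D.chiL (algebraMap (𝓞 L) L d * x) = D.chiL x := by
  obtain ⟨a, -, rfl⟩ := mem_idealSet.mp hx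
  rw [← map_mul, D.chiL_coe, D.chiL_coe]
  exact D.psiC_periodic (by rw [← sub_one_mul]; exact Ideal.mul_mem_right _ _ hd)

/-! ### Pairs -/

/-- `e A cA Y 𝔡 = 1`. -/
def IsPair (Y : FractionalIdeal (𝓞 M)⁰ M) (A : Ideal (𝓞 L)) (e : M) : Prop :=
  Cop D.s A ∧ e ≠ 0 ∧ princ L (algebraMap M L e) * (A : FractionalIdeal (𝓞 L)⁰ L) *
    ((A.map (D.T.cO : 𝓞 L →+* 𝓞 L) : Ideal (𝓞 L)) : FractionalIdeal (𝓞 L)⁰ L) * D.T.EL Y *
      D.T.EL (D.T.diffM : FractionalIdeal (𝓞 M)⁰ M) = 1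

/-- `A = l A'` and `e' = e N l`. -/
def Eqv (_D : SeedSys M L ι) (p q : Ideal (𝓞 L) × M) : Prop :=
  ∃ l : L, l ≠ 0 ∧ princ L l * (q.1 : FractionalIdeal (𝓞 L)⁰ L) = p.1 ∧
    q.2 = p.2 * Algebra.norm M l

theorem eqv_refl (p : Ideal (𝓞 L) × M) : D.Eqv p p :=
  ⟨1, one_ne_zero, by rw [princ, FractionalIdeal.spanSingleton_one, one_mul], by simp⟩

theorem eqv_symm {p q : Ideal (𝓞 L) × M} (h : D.Eqv p q) : D.Eqv q p := by
  have := D.T.finiteDimensional
  obtain ⟨l, hl, h1, h2⟩ := h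
  refine ⟨l⁻¹, inv_ne_zero hl, ?_, ?_⟩
  · rw [← h1, ← mul_assoc, princ, FractionalIdeal.spanSingleton_mul_spanSingleton,
      inv_mul_cancel₀ hl, FractionalIdeal.spanSingleton_one, one_mul]
  · rw [h2, mul_assoc, ← map_mul, mul_inv_cancel₀ hl, map_one, mul_one]

theorem eqv_trans {p q r : Ideal (𝓞 L) × M} (h : D.Eqv p q) (h' : D.Eqv q r) : D.Eqv p r := by
  obtain ⟨l, hl, h1, h2⟩ := h
  obtain ⟨l', hl', h1', h2'⟩ := h'
  refine ⟨l * l', mul_ne_zero hl hl', ?_, ?_⟩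
  · rw [← h1, ← h1', ← mul_assoc, princ, princ, FractionalIdeal.spanSingleton_mul_spanSingleton]
  · rw [h2', h2, map_mul, mul_assoc]

/-- A generator of `B` up to an ideal prime to `s`. -/
theorem exists_mem_span_eq_mul {B : Ideal (𝓞 L)} (hB : B ≠ ⊥) :
    ∃ (μ : 𝓞 L) (C : Ideal (𝓞 L)), μ ≠ 0 ∧ Cop D.s C ∧ Ideal.span {μ} = B * C := by
  set J : Ideal (𝓞 L) := Ideal.span {((2 * D.s : ℕ) : 𝓞 L)} with hJ
  have hJ0 : J ≠ ⊥ := by
    rw [hJ, Ne, Ideal.span_singleton_eq_bot, Nat.cast_eq_zero]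
    exact mul_ne_zero two_ne_zero D.s_ne
  have hJtop : J ≠ ⊤ := by
    intro h
    have h1 := congrArg Ideal.absNorm h
    rw [hJ, Ideal.absNorm_span_natCast, Ideal.absNorm_top, Nat.pow_eq_one] at h1
    rcases h1 with h1 | h1
    · omega
    · exact (Module.finrank_pos (R := ℤ) (M := 𝓞 L)).ne' h1
  obtain ⟨μ, hμ⟩ := IsDedekindDomain.exists_sup_span_eq
    (Ideal.mul_le_left : B * J ≤ B) (mul_ne_zero hB hJ0)
  have hμB : Ideal.span {μ} ≤ B := le_sup_right.trans hμ.le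
  obtain ⟨C, hC⟩ := Ideal.dvd_iff_le.mpr hμB
  have hcop : J ⊔ C = ⊤ := by
    rw [hC, ← Ideal.mul_sup] at hμ
    exact mul_left_cancel₀ hB (hμ.trans (Ideal.mul_top B).symm)
  have hC0 : C ≠ ⊥ := fun h => hJtop (by rwa [h, sup_bot_eq] at hcop)
  refine ⟨μ, C, fun h => ?_, ⟨hC0, top_le_iff.mp (hcop.symm.le.trans ?_)⟩, hC⟩
  · rw [h, Ideal.span_singleton_eq_bot.mpr rfl] at hC
    exact mul_ne_zero hB hC0 hC.symm
  · rw [sup_comm]
    refine sup_le_sup_left ?_ _
    rw [hJ, Ideal.span_singleton_le_span_singleton]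
    exact ⟨2, by push_cast; ring⟩

theorem princ_norm (x : 𝓞 L) :
    princ L (algebraMap M L (Algebra.norm M (algebraMap (𝓞 L) L x))) =
      ((Ideal.span {x} : Ideal (𝓞 L)) : FractionalIdeal (𝓞 L)⁰ L) *
        (((Ideal.span {x}).map (D.T.cO : 𝓞 L →+* 𝓞 L) : Ideal (𝓞 L)) :
          FractionalIdeal (𝓞 L)⁰ L) := by
  rw [D.T.algebraMap_norm, Ideal.map_span, Set.image_singleton,
    FractionalIdeal.coeIdeal_span_singleton, FractionalIdeal.coeIdeal_span_singleton,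
    princ, FractionalIdeal.spanSingleton_mul_spanSingleton, ← D.T.coe_cO]
  rfl

/-- A complete system of inequivalent pairs. -/
structure System (Y : FractionalIdeal (𝓞 M)⁰ M) (κ : Type) : Type where
  A : κ → Ideal (𝓞 L)
  e : κ → M
  pair : ∀ j, D.IsPair Y (A j) (e j)
  complete : ∀ A' e', D.IsPair Y A' e' → ∃ j, D.Eqv (A', e') (A j, e j)
  inj : ∀ i j, D.Eqv (A i, e i) (A j, e j) → i = j

theorem finite_unitsModSquares :
    Finite ((𝓞 M)ˣ ⧸ (powMonoidHom 2 : (𝓞 M)ˣ →* (𝓞 M)ˣ).range) := by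
  have : Group.FG (𝓞 M)ˣ := (Group.fg_iff_monoid_fg).mpr inferInstance
  have : Group.FG ((𝓞 M)ˣ ⧸ (powMonoidHom 2 : (𝓞 M)ˣ →* (𝓞 M)ˣ).range) :=
    Group.fg_of_surjective (f := QuotientGroup.mk' _) QuotientGroup.mk_surjective
  refine CommGroup.finite_of_fg_isMulTorsion _ fun x => ?_
  induction x using QuotientGroup.induction_on with
  | H v =>
    exact isOfFinOrder_iff_pow_eq_one.mpr ⟨2, two_pos,
      (QuotientGroup.eq_one_iff _).mpr ⟨v, rfl⟩⟩

include D in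
theorem exists_unit_of_princ_eq_one {v : M} (h : princ L (algebraMap M L v) = 1) :
    ∃ u : (𝓞 M)ˣ, algebraMap (𝓞 M) M u = v := by
  rw [← D.T.EL_spanSingleton, ← map_one D.T.EL] at h
  have h1 := D.T.EL_injective h
  have hv : v ≠ 0 := fun e => by simp [e] at h1
  obtain ⟨a, ha⟩ := (FractionalIdeal.mem_one_iff _).mp
    (h1 ▸ FractionalIdeal.mem_spanSingleton_self _ v : v ∈ (1 : FractionalIdeal (𝓞 M)⁰ M))
  obtain ⟨b, hb⟩ := (FractionalIdeal.mem_spanSingleton _).mp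
    (h1.symm ▸ FractionalIdeal.one_mem_one _ : (1 : M) ∈ FractionalIdeal.spanSingleton (𝓞 M)⁰ v)
  refine ⟨Units.mkOfMulEqOne a b (IsFractionRing.injective (𝓞 M) M ?_), ha⟩
  rw [map_mul, map_one, ha, ← hb, Algebra.smul_def, mul_comm]

/-- A complete finite system exists. -/
theorem exists_system (Y : FractionalIdeal (𝓞 M)⁰ M) :
    ∃ (κ : Type) (_ : Fintype κ), Nonempty (D.System Y κ) := by
  classical
  have := D.T.finiteDimensional
  let st : Setoid {p : Ideal (𝓞 L) × M // D.IsPair Y p.1 p.2} :=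
    ⟨fun p q => D.Eqv p.1 q.1, ⟨fun p => D.eqv_refl _, fun h => D.eqv_symm h,
      fun h h' => D.eqv_trans h h'⟩⟩
  have := finite_unitsModSquares (M := M)
  let cl : {p : Ideal (𝓞 L) × M // D.IsPair Y p.1 p.2} → ClassGroup (𝓞 L) := fun p =>
    ClassGroup.mk0 ⟨p.1.1, mem_nonZeroDivisors_iff_ne_zero.mpr p.2.1.1⟩
  have hv : ∀ p q : {p : Ideal (𝓞 L) × M // D.IsPair Y p.1 p.2}, cl p = cl q →
      ∃ (l : L) (u : (𝓞 M)ˣ), l ≠ 0 ∧ princ L l * (q.1.1 : FractionalIdeal (𝓞 L)⁰ L) = p.1.1 ∧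
        q.1.2 * algebraMap (𝓞 M) M u = p.1.2 * Algebra.norm M l := by
    intro p q h
    obtain ⟨l, hl, hl'⟩ := (ClassGroup.mk0_eq_mk0_iff_exists_fraction_ring L).mp h.symm
    simp only at hl'
    have hq := q.2.2.1
    have key : princ L (algebraMap M L (p.1.2 * Algebra.norm M l / q.1.2)) = 1 := by
      obtain ⟨a, b, hb, hab⟩ := IsFractionRing.div_surjective (A := 𝓞 L) l
      have hb0 : b ≠ 0 := nonZeroDivisors.ne_zero hb
      have e1 : Ideal.span {b} * p.1.1 = Ideal.span {a} * q.1.1 := by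
        refine FractionalIdeal.coeIdeal_injective (K := L) ?_
        simp only [FractionalIdeal.coeIdeal_mul, FractionalIdeal.coeIdeal_span_singleton, ← hl',
          ← mul_assoc, FractionalIdeal.spanSingleton_mul_spanSingleton, ← hab]
        rw [mul_div_cancel₀ _ ((map_ne_zero_iff _ (IsFractionRing.injective (𝓞 L) L)).mpr hb0)]
      have e2 := congrArg (Ideal.map (D.T.cO : 𝓞 L →+* 𝓞 L)) e1
      rw [Ideal.map_mul, Ideal.map_mul] at e2
      have e3 := congrArg (fun I : Ideal (𝓞 L) => (I : FractionalIdeal (𝓞 L)⁰ L))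
        (congrArg₂ (· * ·) e1 e2)
      simp only [FractionalIdeal.coeIdeal_mul] at e3
      have hNb : Algebra.norm M (algebraMap (𝓞 L) L b) ≠ 0 :=
        Algebra.norm_ne_zero_iff.mpr
          ((map_ne_zero_iff _ (IsFractionRing.injective (𝓞 L) L)).mpr hb0)
      have hp2 := p.2.2.2
      have hq2 := q.2.2.2
      set X := D.T.EL Y * D.T.EL (D.T.diffM : FractionalIdeal (𝓞 M)⁰ M)
      have e4 : princ L (algebraMap M L (p.1.2 * Algebra.norm M (algebraMap (𝓞 L) L a))) =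
          princ L (algebraMap M L (q.1.2 * Algebra.norm M (algebraMap (𝓞 L) L b))) := by
        rw [map_mul, map_mul, princ_mul', princ_mul', D.princ_norm, D.princ_norm]
        set Pp := princ L (algebraMap M L p.1.2)
        set Pq := princ L (algebraMap M L q.1.2)
        calc _ = Pp * (((Ideal.span {a} : Ideal (𝓞 L)) : FractionalIdeal (𝓞 L)⁰ L) *
              (((Ideal.span {a}).map (D.T.cO : 𝓞 L →+* 𝓞 L) : Ideal (𝓞 L)) :
                FractionalIdeal (𝓞 L)⁰ L)) * (Pq * (q.1.1 : FractionalIdeal (𝓞 L)⁰ L) *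
              ((q.1.1.map (D.T.cO : 𝓞 L →+* 𝓞 L) : Ideal (𝓞 L)) : FractionalIdeal (𝓞 L)⁰ L) *
              X) := by rw [← mul_assoc _ (D.T.EL Y), hq2, mul_one]
          _ = Pp * Pq * X *
              (((Ideal.span {b} : Ideal (𝓞 L)) : FractionalIdeal (𝓞 L)⁰ L) * p.1.1 *
                ((((Ideal.span {b}).map (D.T.cO : 𝓞 L →+* 𝓞 L) : Ideal (𝓞 L)) :
                  FractionalIdeal (𝓞 L)⁰ L) *
                ((p.1.1.map (D.T.cO : 𝓞 L →+* 𝓞 L) : Ideal (𝓞 L)) :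
                  FractionalIdeal (𝓞 L)⁰ L))) := by
            rw [e3]; ring
          _ = Pq * (((Ideal.span {b} : Ideal (𝓞 L)) : FractionalIdeal (𝓞 L)⁰ L) *
                (((Ideal.span {b}).map (D.T.cO : 𝓞 L →+* 𝓞 L) : Ideal (𝓞 L)) :
                  FractionalIdeal (𝓞 L)⁰ L)) *
              (Pp * (p.1.1 : FractionalIdeal (𝓞 L)⁰ L) *
              ((p.1.1.map (D.T.cO : 𝓞 L →+* 𝓞 L) : Ideal (𝓞 L)) : FractionalIdeal (𝓞 L)⁰ L) *
              X) := by ring
          _ = _ := by rw [← mul_assoc _ (D.T.EL Y), hp2, mul_one]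
      have hNl : Algebra.norm M l * Algebra.norm M (algebraMap (𝓞 L) L b) =
          Algebra.norm M (algebraMap (𝓞 L) L a) := by
        rw [← map_mul, ← hab,
          div_mul_cancel₀ _ ((map_ne_zero_iff _ (IsFractionRing.injective (𝓞 L) L)).mpr hb0)]
      have e5 : p.1.2 * Algebra.norm M l / q.1.2 = (p.1.2 * Algebra.norm M (algebraMap (𝓞 L) L a)) /
          (q.1.2 * Algebra.norm M (algebraMap (𝓞 L) L b)) := by
        rw [← hNl]; field_simp
      rw [e5, map_div₀, princ_div', e4]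
      exact div_self (princ_ne_zero' ((map_ne_zero _).mpr (mul_ne_zero hq hNb)))
    obtain ⟨u, hu⟩ := D.exists_unit_of_princ_eq_one key
    exact ⟨l, u, hl, hl', by rw [hu, mul_div_cancel₀ _ hq]⟩
  let base : ClassGroup (𝓞 L) → Option {p : Ideal (𝓞 L) × M // D.IsPair Y p.1 p.2} := fun c =>
    if h : ∃ p, cl p = c then some h.choose else none
  have hbase : ∀ p, ∃ b, base (cl p) = some b ∧ cl b = cl p := fun p => by
    have h : ∃ p', cl p' = cl p := ⟨p, rfl⟩
    exact ⟨h.choose, dif_pos h, h.choose_spec⟩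
  choose b hb hbc using hbase
  choose l u hl hlA hle using fun p => hv p (b p) (hbc p).symm
  let F : Quotient st → ClassGroup (𝓞 L) ×
      ((𝓞 M)ˣ ⧸ (powMonoidHom 2 : (𝓞 M)ˣ →* (𝓞 M)ˣ).range) :=
    fun q => (cl q.out, QuotientGroup.mk (u q.out))
  have hF : Function.Injective F := fun q q' h => by
    simp only [F, Prod.mk.injEq] at h
    obtain ⟨hc, hu⟩ := h
    rw [← Quotient.out_eq q, ← Quotient.out_eq q']
    refine Quotient.sound ?_
    have hbb : b q.out = b q'.out :=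
      Option.some_injective _ ((hb _).symm.trans (by rw [hc]; exact hb _))
    obtain ⟨w, hw⟩ := QuotientGroup.eq.mp hu
    set p := q.out
    set p' := q'.out
    set W : L := algebraMap M L (algebraMap (𝓞 M) M (w : (𝓞 M)ˣ)) with hW
    have hW0 : W ≠ 0 := by simp [hW]
    have hWp : princ L W = 1 := by
      rw [hW, ← D.T.algebraMap_coe, princ, ← FractionalIdeal.coeIdeal_span_singleton,
        Ideal.span_singleton_eq_top.mpr ((Units.isUnit _).map _), FractionalIdeal.coeIdeal_top]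
    refine ⟨l p / l p' * W, mul_ne_zero (div_ne_zero (hl p) (hl p')) hW0, ?_, ?_⟩
    · show princ L _ * (p'.1.1 : FractionalIdeal (𝓞 L)⁰ L) = p.1.1
      rw [← hlA p', ← hlA p, hbb, ← mul_assoc, princ_mul', hWp, mul_one, ← princ_mul',
        div_mul_cancel₀ _ (hl p')]
    · show p'.1.2 = p.1.2 * _
      have e1 := hle p
      have e2 := hle p'
      rw [hbb] at e1
      have hN : Algebra.norm M (l p') ≠ 0 := Algebra.norm_ne_zero_iff.mpr (hl p')
      have hw' : algebraMap (𝓞 M) M (u p) * algebraMap (𝓞 M) M (w : (𝓞 M)ˣ) ^ 2 =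
          algebraMap (𝓞 M) M (u p') := by
        have h2 : u p * w ^ 2 = u p' := by
          rw [show w ^ 2 = (u p)⁻¹ * u p' from hw, mul_inv_cancel_left]
        rw [← map_pow, ← map_mul, ← h2]
        rfl
      refine mul_right_cancel₀ hN ?_
      rw [mul_assoc, ← map_mul, show l p / l p' * W * l p' = l p * W by
        field_simp [hl p'], map_mul, hW, Algebra.norm_algebraMap, D.T.finrank_eq, ← e2, ← hw']
      linear_combination algebraMap (𝓞 M) M (w : (𝓞 M)ˣ) ^ 2 * e1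
  have : Finite (Quotient st) := Finite.of_injective F hF
  refine ⟨Quotient st, Fintype.ofFinite _, ⟨⟨fun q => q.out.1.1, fun q => q.out.1.2,
    fun q => q.out.2, fun A' e' h => ?_, fun i j h => ?_⟩⟩⟩
  · exact ⟨Quotient.mk st ⟨(A', e'), h⟩, D.eqv_symm (Quotient.mk_out (s := st) ⟨(A', e'), h⟩)⟩
  · rw [← Quotient.out_eq i, ← Quotient.out_eq j]
    exact Quotient.sound h

end SeedSys

end FLTAgent.LanglandsTunnell.Seed

end
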