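import Fermat.Agent.LanglandsTunnell.Seed.SeedSpherical
import Fermat.Agent.LanglandsTunnell.Seed.SeedNonzero
import Fermat.Agent.LanglandsTunnell.SeedCoeff.DatumSeed
import Fermat.Agent.LanglandsTunnell.CFT.Reciprocity

/-!
# The dihedral form over `M`

`seedSpec` proves the specification `SeedSpec`: a Galois-invariant cuspidal eigenform over `M` with
the prescribed traces, assembled from the seed function and Artin reciprocity.
-/

set_option autoImplicit false

open NumberField

noncomputable section

namespace FLTAgent.LanglandsTunnell.Seed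

open FLTAgent.LanglandsTunnell FLTAgent.LanglandsTunnell.SeedCoeff

/-- The seed eigenform over `M` exists, given reciprocity. -/
theorem seedSpec_of_reciprocity (hrec : ReciprocitySpec) : SeedSpec := by
  intro D P
  obtain ⟨k, B, S, a, hB, hT, hn, hk, hgal, heig, htr⟩ := exists_datumSeed P hrec
  have hΦ : P.placesM = S.T.Φ := by rw [hT, seedSetting_Φ]
  have key : IsEigenform P.placesM (seedFun S) a := by
    rw [hΦ]
    exact
      { automorphic := isAutomorphic_seedFun S
        cuspidal := isCuspidal_seedFun S
        ne_zero := exists_seedFun_ne_zero S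
        spherical := sphericalZero_seedFun S
        eigen := heig }
  suffices h : ∀ n, S.n = n → ∃ φ : Pt D.M (Fin 3) n → ℂ, IsEigenform P.placesM φ a ∧
      GalInvariant P φ ∧ ∀ w : Ideal (𝓞 D.M), w.IsPrime → w ≠ ⊥ → ¬ w ∣ n →
        ∀ g, IsFrobOver D.M w g → a w = trLift (D.ρ g) by
    obtain ⟨φ, h1, h2, h3⟩ := h _ hn
    exact ⟨k, B, φ, a, h1, h2, hk, h3⟩
  rintro n rfl
  exact ⟨seedFun S, key, hgal, htr⟩

/-- The seed eigenform over `M` exists. -/
theorem seedSpec : SeedSpec :=
  seedSpec_of_reciprocity LanglandsTunnell.CFT.reciprocitySpec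

end FLTAgent.LanglandsTunnell.Seed

end
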