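import Fermat.Agent.LanglandsTunnell.Seed.Whittaker
import Fermat.Agent.LanglandsTunnell.Killing.Abel

/-!
# The Whittaker function is an eigenfunction of every point pair invariant

Writing the kernel as an integral of Gaussians in the height reduces the convolution to the Abel
transform (`spherical_kern`, `spherical_wfun`).
-/

set_option autoImplicit false

open MeasureTheory Complex Filter Set
open scoped Real Topology

noncomputable section

namespace FLTAgent.LanglandsTunnell.Seed

open FLTAgent.LanglandsTunnell FLTAgent.LanglandsTunnell.Killing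

variable {k : ℝ → ℝ}

theorem integral_volH3 (f : H3 → ℂ) :
    ∫ Q, f Q ∂H3.volH3 = ∫ x in H3.halfSpace, (1 / x.2 ^ 3 : ℝ) • f (H3.mkPt x) := by
  have h1 := H3.measurableEmbedding_coords.integral_map (μ := H3.volH3) fun x => f (H3.mkPt x)
  simp only [H3.mkPt_coords] at h1
  rw [← h1, H3.volH3, H3.measurableEmbedding_coords.map_comap, H3.range_coords,
    restrict_withDensity H3.isOpen_halfSpace.measurableSet,
    integral_withDensity_eq_integral_toReal_smul H3.measurable_density
      (Eventually.of_forall fun x => ENNReal.ofReal_lt_top)]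
  refine setIntegral_congr_fun H3.isOpen_halfSpace.measurableSet fun x hx => ?_
  have hx' : 0 < x.2 := hx
  simp only [ENNReal.toReal_ofReal (show 0 ≤ 1 / x.2 ^ 3 by positivity)]

theorem integrable_volH3_iff (F : H3 → ℂ) :
    Integrable F H3.volH3 ↔ IntegrableOn
      (fun x : ℂ × ℝ => (ENNReal.ofReal (1 / x.2 ^ 3)).toReal • F (H3.mkPt x)) H3.halfSpace := by
  have h := H3.measurableEmbedding_coords.integrable_map_iff (μ := H3.volH3)
    (g := fun x => F (H3.mkPt x))
  simp only [Function.comp_def, H3.mkPt_coords] at h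
  rw [← h, H3.volH3, H3.measurableEmbedding_coords.map_comap, H3.range_coords,
    restrict_withDensity H3.isOpen_halfSpace.measurableSet,
    integrable_withDensity_iff_integrable_smul' H3.measurable_density
      (Eventually.of_forall fun x => ENNReal.ofReal_lt_top)]
  rfl

/-- Where a point pair invariant can be nonzero. -/
theorem bounds_of_coshDist_le {R : ℝ} {P Q : H3} (h : H3.coshDist P Q ≤ R) :
    P.t / (2 * R) ≤ Q.t ∧ Q.t ≤ 2 * R * P.t ∧ ‖Q.z‖ ≤ ‖P.z‖ + 2 * R * P.t := by
  have hR : 1 ≤ R := (H3.one_le_coshDist P Q).trans h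
  have hP := P.t_pos
  have hQ := Q.t_pos
  rw [H3.coshDist, div_le_iff₀ (by positivity)] at h
  have hA : P.t / (2 * R) ≤ Q.t := by
    rw [div_le_iff₀ (by positivity)]
    nlinarith [sq_nonneg ‖P.z - Q.z‖]
  have hB : Q.t ≤ 2 * R * P.t := by nlinarith [sq_nonneg ‖P.z - Q.z‖]
  refine ⟨hA, hB, ?_⟩
  have h2 : ‖P.z - Q.z‖ ≤ 2 * R * P.t :=
    pow_le_pow_iff_left₀ (norm_nonneg _) (by positivity) two_ne_zero |>.mp (by nlinarith)
  have h3 := norm_sub_norm_le Q.z P.z
  rw [norm_sub_rev] at h3
  linarith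

theorem exists_kernel_compact (hs : HasCompactSupport k) (P : H3) :
    ∃ c C Z : ℝ, 0 < c ∧ ∀ Q : H3, k (H3.coshDist P Q) ≠ 0 → c ≤ Q.t ∧ Q.t ≤ C ∧ ‖Q.z‖ ≤ Z := by
  obtain ⟨R, hR1, hR⟩ := exists_support_bound hs
  refine ⟨P.t / (2 * R), 2 * R * P.t, ‖P.z‖ + 2 * R * P.t, by have := P.t_pos; positivity,
    fun Q hQ => bounds_of_coshDist_le ?_⟩
  by_contra! h
  exact hQ (hR _ (h.trans_le (le_abs_self _)))

theorem continuous_coshDist_right (P : H3) : Continuous (H3.coshDist P) := by
  unfold H3.coshDist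
  exact ((((continuous_const.sub H3.continuous_z).norm.pow 2).add continuous_const).add
    (H3.continuous_t.pow 2)).div (continuous_const.mul H3.continuous_t)
    fun Q => by have := P.t_pos; have := Q.t_pos; positivity

theorem integrable_kernel_mul (hk : Continuous k) (hs : HasCompactSupport k) (P : H3) {f : H3 → ℂ}
    (hf : Continuous f) : Integrable (fun Q => (k (H3.coshDist P Q) : ℂ) * f Q) H3.volH3 := by
  obtain ⟨c, C, Z, hc, hb⟩ := exists_kernel_compact hs P
  set S : Set (ℂ × ℝ) := Metric.closedBall 0 Z ×ˢ Icc c C with hS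
  have hSc : IsCompact S := (isCompact_closedBall _ _).prod isCompact_Icc
  have hSh : S ⊆ H3.halfSpace := fun x hx => lt_of_lt_of_le hc hx.2.1
  have hF : Continuous fun Q => (k (H3.coshDist P Q) : ℂ) * f Q :=
    (Complex.continuous_ofReal.comp (hk.comp (continuous_coshDist_right P))).mul hf
  rw [integrable_volH3_iff]
  set G := fun x : ℂ × ℝ => (ENNReal.ofReal (1 / x.2 ^ 3)).toReal •
    ((k (H3.coshDist P (H3.mkPt x)) : ℂ) * f (H3.mkPt x))
  have hmk : ContinuousOn H3.mkPt H3.halfSpace := by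
    rw [continuousOn_iff_continuous_domRestrict, H3.continuous_mk_iff]
    refine ⟨(continuous_fst.comp continuous_subtype_val).congr fun x => ?_,
      (continuous_snd.comp continuous_subtype_val).congr fun x => ?_⟩
    · exact (congrArg Prod.fst (H3.coords_mkPt x.2)).symm
    · exact (congrArg Prod.snd (H3.coords_mkPt x.2)).symm
  have hG : ContinuousOn G S := by
    have h1 : ContinuousOn (fun x : ℂ × ℝ => (ENNReal.ofReal (1 / x.2 ^ 3)).toReal) S := by
      refine ((continuousOn_const (c := (1 : ℝ))).div ((continuous_snd.pow 3).continuousOn)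
        fun x hx => pow_ne_zero _ (lt_of_lt_of_le hc hx.2.1).ne').congr fun x hx => ?_
      simp only [Pi.div_apply]
      exact ENNReal.toReal_ofReal (by have := lt_of_lt_of_le hc hx.2.1; positivity)
    exact h1.smul (hF.comp_continuousOn (hmk.mono hSh))
  refine IntegrableOn.of_forall_sdiff_eq_zero (hG.integrableOn_compact hSc)
    H3.isOpen_halfSpace.measurableSet fun x hx => ?_
  simp only [G]
  rcases eq_or_ne (k (H3.coshDist P (H3.mkPt x))) 0 with h | h
  · simp [h]
  · obtain ⟨h1, h2, h3⟩ := hb _ h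
    have e := H3.coords_mkPt (x := x) hx.1
    rw [show (H3.mkPt x).t = x.2 from congrArg Prod.snd e] at h1 h2
    rw [show (H3.mkPt x).z = x.1 from congrArg Prod.fst e] at h3
    exact absurd ⟨mem_closedBall_zero_iff.mpr h3, h1, h2⟩ hx.2

/-- A point pair invariant on a function of the height. -/
theorem integral_kernel_mul_height (hk : Continuous k) (hs : HasCompactSupport k) (P : H3)
    {f : ℝ → ℂ} (hf : Continuous fun Q : H3 => f Q.t) :
    ∫ Q, (k (H3.coshDist P Q) : ℂ) * f Q.t ∂H3.volH3 =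
      ∫ r : ℝ, ((abel k r * Real.exp (-r) : ℝ) : ℂ) * f (P.t * Real.exp r) := by
  have hP := P.t_pos
  have hint := integrable_kernel_mul hk hs P hf
  rw [integrable_volH3_iff, IntegrableOn] at hint
  have hhs : (H3.halfSpace : Set (ℂ × ℝ)) = univ ×ˢ Ioi (0 : ℝ) := by
    ext x; simp [H3.halfSpace]
  rw [integral_volH3, hhs]
  rw [hhs, Measure.volume_eq_prod, ← Measure.prod_restrict, Measure.restrict_univ] at hint
  rw [Measure.volume_eq_prod, ← Measure.prod_restrict, Measure.restrict_univ]
  rw [integral_prod_symm _ (hint.congr (by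
    rw [← Measure.restrict_univ (μ := (volume : Measure ℂ)), Measure.prod_restrict]
    filter_upwards [ae_restrict_mem (MeasurableSet.univ.prod measurableSet_Ioi)] with x hx
    have hx' : 0 < x.2 := hx.2
    rw [ENNReal.toReal_ofReal (by positivity)]))]
  have h1 : ∀ t ∈ Ioi (0 : ℝ), (∫ z : ℂ, (1 / t ^ 3 : ℝ) •
      ((k (H3.coshDist P (H3.mkPt (z, t))) : ℂ) * f (H3.mkPt (z, t)).t))
      = (fun u : ℝ => ((P.t / u ^ 2 * abel k (Real.log (u / P.t)) : ℝ) : ℂ) * f u) t := by
    intro t ht
    have ht' : 0 < t := ht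
    have e : ∀ z : ℂ, H3.mkPt (z, t) = ⟨z, t, ht'⟩ := fun z => dif_pos ht'
    simp only [e, Complex.real_smul, ← mul_assoc, ← Complex.ofReal_mul, integral_mul_const,
      integral_complex_ofReal, integral_const_mul, integral_horosphere k P ht']
    congr 2
    field_simp
  rw [setIntegral_congr_fun measurableSet_Ioi h1]
  have himg : (fun r => P.t * Real.exp r) '' univ = Ioi (0 : ℝ) := by
    ext t
    simp only [image_univ, mem_range, mem_Ioi]
    exact ⟨fun ⟨r, hr⟩ => hr ▸ mul_pos hP (Real.exp_pos r),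
      fun ht => ⟨Real.log (t / P.t), by rw [Real.exp_log (div_pos ht hP)]; field_simp⟩⟩
  rw [← himg, integral_image_eq_integral_abs_deriv_smul MeasurableSet.univ
    (fun r _ => ((Real.hasDerivAt_exp r).const_mul P.t).hasDerivWithinAt)
    (fun a _ b _ h => Real.exp_injective (mul_left_cancel₀ hP.ne' h)), setIntegral_univ]
  refine integral_congr_ae (Eventually.of_forall fun r => ?_)
  simp only [Complex.real_smul, ← mul_assoc, ← Complex.ofReal_mul, mul_div_cancel_left₀ _ hP.ne',
    Real.log_exp, abs_of_pos (mul_pos hP (Real.exp_pos r))]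
  congr 2
  rw [Real.exp_neg]
  field_simp

theorem integral_kernel_mul_height_smul (hk : Continuous k) (hs : HasCompactSupport k) (P : H3)
    (g : GL (Fin 2) ℂ) {f : ℝ → ℂ} (hf : Continuous fun Q : H3 => f Q.t) :
    ∫ Q, (k (H3.coshDist P Q) : ℂ) * f (g • Q).t ∂H3.volH3 =
      ∫ r : ℝ, ((abel k r * Real.exp (-r) : ℝ) : ℂ) * f ((g • P).t * Real.exp r) := by
  rw [← integral_kernel_mul_height hk hs (g • P) hf]
  have h := (H3.measurePreserving_smul g).integral_comp (Homeomorph.smul g).measurableEmbedding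
    fun Q => (k (H3.coshDist (g • P) Q) : ℂ) * f Q.t
  simp only [H3.coshDist_smul] at h
  exact h

/-- The total mass of the Abel transform. -/
theorem integral_abel (hk : Continuous k) (hs : HasCompactSupport k) :
    ∫ r, abel k r = sphValue k := by
  obtain ⟨R, hR1, hR⟩ := exists_support_bound hs
  have hev : ∫ r, abel k r = 2 * ∫ r in Ioi (0 : ℝ), abel k r := by
    rw [← integral_comp_abs]
    refine integral_congr_ae (Eventually.of_forall fun r => ?_)
    rcases abs_choice r with h | h <;> simp [h, abel_neg]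
  have hpol : ∀ u ∈ Ioi (0 : ℝ),
      abel k u = 2 * π * ∫ ρ in Ioi u, k (Real.cosh ρ) * Real.sinh ρ := by
    intro u hu
    rw [abel, ← Complex.integral_comp_polarCoord_symm, polarCoord_target, Measure.volume_eq_prod]
    have e : EqOn (fun p : ℝ × ℝ => p.1 • k (Real.cosh u + ‖Complex.polarCoord.symm p‖ ^ 2 / 2))
        (fun p => (p.1 * k (Real.cosh u + p.1 ^ 2 / 2)) * (1 : ℝ)) (Ioi (0 : ℝ) ×ˢ Ioo (-π) π) :=
      fun p _ => by simp [sq_abs]
    rw [setIntegral_congr_fun (measurableSet_Ioi.prod measurableSet_Ioo) e,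
      setIntegral_prod_mul (fun r => r * k (Real.cosh u + r ^ 2 / 2)) (fun _ => (1 : ℝ))]
    simp only [setIntegral_const, smul_eq_mul, mul_one,
      Real.volume_real_Ioo_of_le (by linarith [Real.pi_pos] : -π ≤ π)]
    have hu' : (0 : ℝ) < u := hu
    set φ := fun r : ℝ => Real.arcosh (Real.cosh u + r ^ 2 / 2)
    have hc1 : ∀ r : ℝ, 0 < r → 1 < Real.cosh u + r ^ 2 / 2 := fun r hr => by
      have := Real.one_le_cosh u; have := sq_pos_of_pos hr; linarith
    have himg : φ '' Ioi 0 = Ioi u := by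
      ext ρ
      simp only [mem_image, mem_Ioi, φ]
      constructor
      · rintro ⟨r, hr, rfl⟩
        calc u = Real.arcosh (Real.cosh u) := (Real.arcosh_cosh hu'.le).symm
          _ < _ := (Real.arcosh_lt_arcosh (Real.cosh_pos u) (by linarith [hc1 r hr])).mpr
            (by have := sq_pos_of_pos hr; linarith)
      · intro hρ
        have h1 : Real.cosh u < Real.cosh ρ :=
          Real.cosh_strictMonoOn hu'.le (show (0 : ℝ) ≤ ρ by linarith) hρ
        refine ⟨Real.sqrt (2 * (Real.cosh ρ - Real.cosh u)), Real.sqrt_pos.mpr (by linarith), ?_⟩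
        rw [Real.sq_sqrt (by linarith), mul_div_cancel_left₀ _ two_ne_zero, add_sub_cancel,
          Real.arcosh_cosh (by linarith)]
    have hder : ∀ r ∈ Ioi (0 : ℝ), HasDerivWithinAt φ
        (r / Real.sqrt ((Real.cosh u + r ^ 2 / 2) ^ 2 - 1)) (Ioi 0) r := fun r hr => by
      have h1 : HasDerivAt (fun r : ℝ => Real.cosh u + r ^ 2 / 2) r r := by
        refine (((hasDerivAt_pow 2 r).div_const 2).const_add _).congr_deriv ?_
        push_cast
        ring
      refine (((Real.hasDerivAt_arcosh (hc1 r hr)).comp r h1).congr_deriv ?_).hasDerivWithinAt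
      ring
    have hinj : InjOn φ (Ioi 0) := fun a ha b hb h => by
      have := congrArg Real.cosh h
      simp only [φ, Real.cosh_arcosh (hc1 a ha).le, Real.cosh_arcosh (hc1 b hb).le] at this
      exact (pow_left_inj₀ (le_of_lt ha) (le_of_lt hb) two_ne_zero).mp (by linarith : a ^ 2 = b ^ 2)
    rw [← himg, integral_image_eq_integral_abs_deriv_smul measurableSet_Ioi hder hinj,
      show π - -π = 2 * π by ring, mul_comm]
    congr 1
    refine setIntegral_congr_fun measurableSet_Ioi fun r hr => ?_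
    have hr' : (0 : ℝ) < r := hr
    have hs' : 0 < Real.sqrt ((Real.cosh u + r ^ 2 / 2) ^ 2 - 1) :=
      Real.sqrt_pos.mpr (by have := hc1 r hr'; nlinarith)
    simp only [φ, smul_eq_mul, Real.cosh_arcosh (hc1 r hr').le, Real.sinh_arcosh (hc1 r hr').le,
      abs_of_pos (div_pos hr' hs')]
    rw [mul_comm (k _), ← mul_assoc (r / _), div_mul_cancel₀ _ hs'.ne']
  rw [hev, setIntegral_congr_fun measurableSet_Ioi hpol, integral_const_mul]
  -- exchange the order of integration on `0 < u < ρ`
  set h := fun ρ => k (Real.cosh ρ) * Real.sinh ρ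
  have hh : Continuous h := (hk.comp Real.continuous_cosh).mul Real.continuous_sinh
  have hzero : ∀ ρ, Real.arcosh R < ρ → h ρ = 0 := fun ρ hρ => by
    have h1 : R < Real.cosh ρ := by
      rw [← Real.cosh_arcosh hR1]
      exact Real.cosh_strictMonoOn (Real.arcosh_nonneg hR1)
        (show (0 : ℝ) ≤ ρ by linarith [Real.arcosh_nonneg hR1]) hρ
    simp [h, hR _ (lt_of_lt_of_le h1 (le_abs_self _))]
  set S := Real.arcosh R + 1
  have hint : IntegrableOn (fun p : ℝ × ℝ => {q : ℝ × ℝ | q.1 < q.2}.indicator (fun q => h q.2) p)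
      (Ioi (0 : ℝ) ×ˢ Ioi (0 : ℝ)) := by
    refine IntegrableOn.of_forall_sdiff_eq_zero (s := Icc (0 : ℝ) S ×ˢ Icc (0 : ℝ) S) ?_
      (measurableSet_Ioi.prod measurableSet_Ioi) fun p hp => ?_
    · exact ((hh.comp continuous_snd).continuousOn.integrableOn_compact
        (isCompact_Icc.prod isCompact_Icc)).indicator
          (measurableSet_lt measurable_fst measurable_snd)
    · by_cases hlt : p.1 < p.2
      · rw [indicator_of_mem (show p ∈ {q : ℝ × ℝ | q.1 < q.2} from hlt)]
        refine hzero _ ?_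
        by_contra! hle
        exact hp.2 ⟨⟨le_of_lt hp.1.1, by linarith⟩, le_of_lt hp.1.2, by linarith⟩
      · exact indicator_of_notMem hlt _
  rw [IntegrableOn, Measure.volume_eq_prod, ← Measure.prod_restrict] at hint
  have hswap := integral_integral_swap
    (f := fun u ρ => {q : ℝ × ℝ | q.1 < q.2}.indicator (fun q => h q.2) (u, ρ)) hint
  have e1 : ∀ u ∈ Ioi (0 : ℝ), ∫ ρ in Ioi (0 : ℝ), {q : ℝ × ℝ | q.1 < q.2}.indicator
      (fun q => h q.2) (u, ρ) = ∫ ρ in Ioi u, h ρ := by
    intro u hu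
    have : (fun ρ => {q : ℝ × ℝ | q.1 < q.2}.indicator (fun q => h q.2) (u, ρ))
        = (Ioi u).indicator h := by
      funext ρ
      by_cases hlt : u < ρ <;> simp [hlt]
    rw [this, setIntegral_indicator measurableSet_Ioi, Ioi_inter_Ioi, max_eq_right (le_of_lt hu)]
  have e2 : ∀ ρ ∈ Ioi (0 : ℝ), ∫ u in Ioi (0 : ℝ), {q : ℝ × ℝ | q.1 < q.2}.indicator
      (fun q => h q.2) (u, ρ) = ρ * h ρ := by
    intro ρ hρ
    have : (fun u => {q : ℝ × ℝ | q.1 < q.2}.indicator (fun q => h q.2) (u, ρ))
        = (Iio ρ).indicator fun _ => h ρ := by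
      funext u
      by_cases hlt : u < ρ <;> simp [hlt]
    rw [this, setIntegral_indicator measurableSet_Iio, Ioi_inter_Iio, setIntegral_const,
      Real.volume_real_Ioo_of_le (le_of_lt hρ), smul_eq_mul, sub_zero]
  rw [setIntegral_congr_fun measurableSet_Ioi e1,
    setIntegral_congr_fun measurableSet_Ioi e2] at hswap
  rw [hswap, sphValue, ← mul_assoc, ← mul_assoc, show (2 : ℝ) * 2 * π = 4 * π by ring]
  congr 1
  refine setIntegral_congr_fun measurableSet_Ioi fun r _ => ?_
  simp only [h]
  ring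

/-! ### The Whittaker function -/

/-- The element of `GL(2)` measuring the form at `(v, -1)`. -/
def heightElt (v : ℂ) : GL (Fin 2) ℂ :=
  Matrix.GeneralLinearGroup.mkOfDetNeZero !![0, -1; 1, v] (by simp [Matrix.det_fin_two_of])

theorem heightElt_smul_t (v : ℂ) (Q : H3) :
    (heightElt v • Q).t = Q.t / (‖Q.z + v‖ ^ 2 + Q.t ^ 2) := by
  simp [H3.smul_t, H3.denom, heightElt, Matrix.GeneralLinearGroup.val_mkOfDetNeZero,
    Matrix.det_fin_two, Complex.sq_norm]

/-- A Gaussian in `v`. -/
def gaussH3 (l : ℝ) (v : ℂ) (Q : H3) : ℝ :=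
  Real.exp (-(π * l * ((‖Q.z + v‖ ^ 2 + Q.t ^ 2) / Q.t)))

/-- The character in `v`. -/
def vChar (b v : ℂ) : ℂ := cexp (((-(4 * π * (b * v).re) : ℝ) : ℂ) * I)

theorem norm_vChar (b v : ℂ) : ‖vChar b v‖ = 1 := by
  rw [vChar, Complex.norm_exp_ofReal_mul_I]

theorem gaussH3_eq (l : ℝ) (v : ℂ) (Q : H3) :
    gaussH3 l v Q = Real.exp (-(π * l / (heightElt v • Q).t)) := by
  rw [gaussH3, heightElt_smul_t, ← mul_div_assoc, div_div_eq_mul_div]

theorem continuous_gaussH3 (l : ℝ) :
    Continuous fun p : ℂ × H3 => gaussH3 l p.1 p.2 := by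
  unfold gaussH3
  exact Real.continuous_exp.comp (continuous_const.mul
    (((((H3.continuous_z.comp continuous_snd).add continuous_fst).norm.pow 2).add
      ((H3.continuous_t.comp continuous_snd).pow 2)).div (H3.continuous_t.comp continuous_snd)
        fun p => p.2.t_pos.ne')).neg

theorem continuous_vChar (b : ℂ) : Continuous (vChar b) := by
  unfold vChar; fun_prop

theorem gaussH3_le {l c C Z : ℝ} (hl : 0 ≤ l) {Q : H3} (hc : c ≤ Q.t) (hC : Q.t ≤ C)
    (hZ : ‖Q.z‖ ≤ Z) (hc0 : 0 < c) (v : ℂ) :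
    gaussH3 l v Q ≤ Real.exp (π * l * Z ^ 2 / c) * Real.exp (-(π * l / (2 * C)) * ‖v‖ ^ 2) := by
  rw [gaussH3, ← Real.exp_add]
  refine Real.exp_le_exp.mpr ?_
  have ht := Q.t_pos
  have h1 : ‖v‖ ^ 2 / 2 - Z ^ 2 ≤ ‖Q.z + v‖ ^ 2 := by
    have h := norm_sub_norm_le v (-Q.z)
    rw [norm_neg, sub_neg_eq_add, add_comm v] at h
    have h3 : ‖v‖ ≤ ‖Q.z + v‖ + Z := by linarith
    nlinarith [norm_nonneg (Q.z + v), norm_nonneg v, sq_nonneg (‖Q.z + v‖ - Z)]
  have h2 : ‖v‖ ^ 2 / (2 * C) - Z ^ 2 / c ≤ (‖Q.z + v‖ ^ 2 + Q.t ^ 2) / Q.t := by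
    rcases le_or_gt (‖v‖ ^ 2 / 2) (Z ^ 2) with hh | hh
    · have e : ‖v‖ ^ 2 / (2 * C) ≤ Z ^ 2 / c := by
        rw [← div_div]
        exact div_le_div₀ (sq_nonneg _) hh hc0 (hc.trans hC)
      have : 0 ≤ (‖Q.z + v‖ ^ 2 + Q.t ^ 2) / Q.t := by positivity
      linarith
    · have e1 : Z ^ 2 / C ≤ Z ^ 2 / c :=
        div_le_div_of_nonneg_left (sq_nonneg _) hc0 (hc.trans hC)
      have e2 : (‖v‖ ^ 2 / 2 - Z ^ 2) / C ≤ (‖Q.z + v‖ ^ 2 + Q.t ^ 2) / Q.t :=
        div_le_div₀ (by positivity) (by nlinarith) ht hC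
      rw [sub_div, div_div] at e2
      linarith
  have h4 := mul_le_mul_of_nonneg_left h2 (show 0 ≤ π * l by positivity)
  have e : π * l * (‖v‖ ^ 2 / (2 * C) - Z ^ 2 / c)
      = π * l / (2 * C) * ‖v‖ ^ 2 - π * l * Z ^ 2 / c := by ring
  rw [e] at h4
  linarith

theorem integrable_gauss_norm {a : ℝ} (ha : 0 < a) :
    Integrable fun v : ℂ => Real.exp (-a * ‖v‖ ^ 2) := by
  refine (integrable_gauss_complex ha 0 0).norm.congr (Eventually.of_forall fun v => ?_)
  simp only [Complex.norm_exp, zero_mul, add_zero, ← Complex.ofReal_neg, ← Complex.ofReal_mul,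
    Complex.ofReal_re]

/-- The kernel as an integral of Gaussians. -/
theorem kern_eq_integral_gauss {b : ℂ} (hb : b ≠ 0) (s : ℝ) (P : H3) :
    kern b (1, 1) s P = ((2 * ‖b‖ * Real.exp (2 * s) : ℝ) : ℂ) *
      ∫ v : ℂ, (gaussH3 (2 * ‖b‖ * Real.exp (2 * s)) v P : ℂ) * vChar b v := by
  have hb' : 0 < ‖b‖ := norm_pos_iff.mpr hb
  have ht := P.t_pos
  set l := 2 * ‖b‖ * Real.exp (2 * s) with hl
  have hl0 : 0 < l := by positivity
  have ha : 0 < π * l / P.t := by positivity
  have e1 : ∀ v : ℂ, (gaussH3 l v P : ℂ) * vChar b v =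
      cexp (((-(π * l * ((‖P.z‖ ^ 2 + P.t ^ 2) / P.t)) : ℝ) : ℂ)) *
      cexp (-((π * l / P.t : ℝ) : ℂ) * ((‖v‖ ^ 2 : ℝ) : ℂ)
        + (((-(2 * π * l * P.z.re / P.t) : ℝ) : ℂ) + ((-(4 * π * b.re) : ℝ) : ℂ) * I) * (v.re : ℂ)
        + (((-(2 * π * l * P.z.im / P.t) : ℝ) : ℂ) + ((4 * π * b.im : ℝ) : ℂ) * I) *
          (v.im : ℂ)) := by
    intro v
    rw [gaussH3, vChar, Complex.ofReal_exp, ← Complex.exp_add, ← Complex.exp_add]
    congr 1
    apply Complex.ext
    · simp only [Complex.add_re, Complex.mul_re, Complex.ofReal_re, Complex.ofReal_im, Complex.I_re,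
        Complex.I_im, Complex.neg_re, Complex.neg_im, Complex.add_im, Complex.mul_im,
        Complex.sq_norm, Complex.normSq_apply]
      ring
    · simp only [Complex.add_re, Complex.mul_re, Complex.ofReal_re, Complex.ofReal_im, Complex.I_re,
        Complex.I_im, Complex.neg_re, Complex.neg_im, Complex.add_im, Complex.mul_im]
      ring
  simp only [e1]
  rw [integral_const_mul, integral_gauss_complex ha, kern, mul_left_comm _ ((π / _ : ℝ) : ℂ),
    ← mul_assoc, ← Complex.ofReal_mul, ← Complex.exp_add]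
  congr 1
  · congr 1
    field_simp
  · congr 1
    rw [kernDecay, kernPhase]
    have hbn : ‖b‖ ^ 2 = b.re * b.re + b.im * b.im := by rw [Complex.sq_norm, Complex.normSq_apply]
    have hzn : ‖P.z‖ ^ 2 = P.z.re * P.z.re + P.z.im * P.z.im := by
      rw [Complex.sq_norm, Complex.normSq_apply]
    have hsq : ((((-(2 * π * l * P.z.re / P.t) : ℝ) : ℂ) + ((-(4 * π * b.re) : ℝ) : ℂ) * I) ^ 2 +
        (((-(2 * π * l * P.z.im / P.t) : ℝ) : ℂ) + ((4 * π * b.im : ℝ) : ℂ) * I) ^ 2)
          / (4 * ((π * l / P.t : ℝ) : ℂ))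
        = ((((2 * π * l / P.t) ^ 2 * ‖P.z‖ ^ 2 - 16 * π ^ 2 * ‖b‖ ^ 2) /
          (4 * (π * l / P.t)) : ℝ) : ℂ)
          + (((16 * π ^ 2 * l / P.t * (P.z.re * b.re - P.z.im * b.im)) /
            (4 * (π * l / P.t)) : ℝ) : ℂ)
            * I := by
      rw [hbn, hzn]
      push_cast
      linear_combination ((16 * (π : ℂ) ^ 2 * ((b.re : ℂ) ^ 2 + (b.im : ℂ) ^ 2))
        / (4 * ((π : ℂ) * (l : ℂ) / (P.t : ℂ)))) * Complex.I_sq
    rw [hsq, ← add_assoc, ← Complex.ofReal_add]
    congr 1
    · congr 1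
      simp only [norm_one, one_pow, one_mul]
      rw [hl, Real.exp_neg]
      field_simp
      ring
    · congr 2
      simp only [mul_one, Complex.mul_re]
      field_simp
      ring

theorem spherical_kern {b : ℂ} (hb : b ≠ 0) (hk : Continuous k) (hs : HasCompactSupport k)
    (s : ℝ) (P : H3) :
    ∫ Q, (k (H3.coshDist P Q) : ℂ) * kern b (1, 1) s Q ∂H3.volH3 =
      ∫ r : ℝ, (abel k r : ℂ) * kern b (1, 1) (s - r / 2) P := by
  have hb' : 0 < ‖b‖ := norm_pos_iff.mpr hb
  set l := 2 * ‖b‖ * Real.exp (2 * s) with hl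
  have hl0 : 0 < l := by positivity
  simp only [kern_eq_integral_gauss hb, ← hl, ← mul_assoc, mul_comm ((k _ : ℝ) : ℂ) (l : ℂ)]
  simp only [mul_assoc, integral_const_mul]
  simp only [← integral_const_mul (α := ℂ) ((k _ : ℝ) : ℂ)]
  obtain ⟨c, C, Z, hc, hbd⟩ := exists_kernel_compact hs P
  have hswap : Integrable (Function.uncurry fun (Q : H3) (v : ℂ) =>
      (k (H3.coshDist P Q) : ℂ) * ((gaussH3 l v Q : ℂ) * vChar b v)) (H3.volH3.prod volume) := by
    have hmaj := (integrable_kernel_mul hk hs P (continuous_const (y := (1 : ℂ)))).norm.mul_prod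
      ((integrable_gauss_norm (a := π * l / (2 * max C 1)) (by positivity)).const_mul
        (Real.exp (π * l * Z ^ 2 / c)))
    refine hmaj.mono' ?_ (Eventually.of_forall fun p => ?_)
    · exact ((Complex.continuous_ofReal.comp (hk.comp ((continuous_coshDist_right P).comp
        continuous_fst))).mul ((Complex.continuous_ofReal.comp ((continuous_gaussH3 l).comp
          continuous_swap)).mul ((continuous_vChar b).comp continuous_snd))).aestronglyMeasurable
    · simp only [Function.uncurry, norm_mul, norm_vChar, mul_one, Complex.norm_real,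
        Real.norm_eq_abs]
      rcases eq_or_ne (k (H3.coshDist P p.1)) 0 with h | h
      · simp [h]
      · obtain ⟨h1, h2, h3⟩ := hbd p.1 h
        refine mul_le_mul_of_nonneg_left ?_ (abs_nonneg _)
        rw [abs_of_pos (show (0 : ℝ) < gaussH3 l p.2 p.1 from Real.exp_pos _)]
        exact gaussH3_le hl0.le h1 (h2.trans (le_max_left C 1)) h3 hc p.2
  have : SigmaFinite H3.volH3 := H3.sigmaFinite_volH3
  rw [integral_integral_swap hswap]
  have hinner : ∀ v : ℂ,
      ∫ Q, (k (H3.coshDist P Q) : ℂ) * ((gaussH3 l v Q : ℂ) * vChar b v) ∂H3.volH3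
      = ∫ r : ℝ, ((abel k r * Real.exp (-r) : ℝ) : ℂ) *
          ((gaussH3 (l * Real.exp (-r)) v P : ℂ) * vChar b v) := by
    intro v
    simp only [← mul_assoc, integral_mul_const]
    congr 1
    have hf : Continuous fun Q : H3 => ((Real.exp (-(π * l / Q.t)) : ℝ) : ℂ) :=
      Complex.continuous_ofReal.comp (Real.continuous_exp.comp
        (continuous_const.div H3.continuous_t fun Q => Q.t_pos.ne').neg)
    simp only [gaussH3_eq]
    rw [integral_kernel_mul_height_smul hk hs P (heightElt v)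
      (f := fun t => ((Real.exp (-(π * l / t)) : ℝ) : ℂ)) hf]
    refine integral_congr_ae (Eventually.of_forall fun r => ?_)
    simp only
    congr 3
    rw [Real.exp_neg]
    field_simp
  simp only [hinner]
  obtain ⟨S, hS0, hS⟩ := exists_abel_eq_zero hs
  have hswap2 : Integrable (Function.uncurry fun (v : ℂ) (r : ℝ) =>
      ((abel k r * Real.exp (-r) : ℝ) : ℂ) *
        ((gaussH3 (l * Real.exp (-r)) v P : ℂ) * vChar b v)) (volume.prod volume) := by
    have hp : Continuous fun r => abel k r * Real.exp (-r) :=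
      (continuous_abel hk hs).mul (Real.continuous_exp.comp continuous_neg)
    have hmaj := ((integrable_gauss_norm (a := π * (l * Real.exp (-S)) / (2 * P.t))
      (by have := P.t_pos; positivity)).const_mul
        (Real.exp (π * (l * Real.exp (-S)) * ‖P.z‖ ^ 2 / P.t))).mul_prod
      (hp.integrable_of_hasCompactSupport (μ := (volume : Measure ℝ))
        (hasCompactSupport_abel hs).mul_right).norm
    refine hmaj.mono' ?_ (Eventually.of_forall fun p => ?_)
    · refine Continuous.aestronglyMeasurable ?_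
      have hg : Continuous fun p : ℂ × ℝ => gaussH3 (l * Real.exp (-p.2)) p.1 P := by
        unfold gaussH3; fun_prop
      exact (Complex.continuous_ofReal.comp (hp.comp continuous_snd)).mul
        ((Complex.continuous_ofReal.comp hg).mul ((continuous_vChar b).comp continuous_fst))
    · simp only [Function.uncurry, norm_mul, norm_vChar, mul_one, Complex.norm_real]
      rw [mul_comm (Real.exp _ * Real.exp _) _]
      rcases lt_or_ge S |p.2| with h | h
      · simp [hS _ h]
      · refine mul_le_mul_of_nonneg_left ?_ (mul_nonneg (norm_nonneg _) (norm_nonneg _))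
        rw [Real.norm_eq_abs, abs_of_pos (show (0 : ℝ) < gaussH3 _ p.1 P from Real.exp_pos _)]
        refine le_trans ?_ (gaussH3_le (by positivity) le_rfl le_rfl le_rfl P.t_pos p.1)
        unfold gaussH3
        refine Real.exp_le_exp.mpr (neg_le_neg (mul_le_mul_of_nonneg_right ?_
          (by have := P.t_pos; positivity)))
        refine mul_le_mul_of_nonneg_left (mul_le_mul_of_nonneg_left (Real.exp_le_exp.mpr ?_) hl0.le)
          Real.pi_pos.le
        linarith [(abs_le.mp h).2]
  rw [integral_integral_swap hswap2, ← integral_const_mul]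
  refine integral_congr_ae (Eventually.of_forall fun r => ?_)
  simp only
  have e : 2 * ‖b‖ * Real.exp (2 * (s - r / 2)) = l * Real.exp (-r) := by
    rw [hl, mul_assoc (2 * ‖b‖), ← Real.exp_add]
    ring_nf
  rw [← mul_assoc (2 : ℝ) ‖b‖, e, integral_const_mul]
  push_cast
  ring

/-- The Whittaker function is an eigenfunction. -/
theorem spherical_wfun {b : ℂ} (hb : b ≠ 0) (hk : Continuous k) (hs : HasCompactSupport k)
    (P : H3) :
    ∫ Q, (k (H3.coshDist P Q) : ℂ) * wfun b Q ∂H3.volH3 = (sphValue k : ℂ) * wfun b P := by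
  obtain ⟨c, C, Z, hc, hbd⟩ := exists_kernel_compact hs P
  simp only [wfun, ← integral_const_mul]
  have hswap : Integrable (Function.uncurry fun (Q : H3) (s : ℝ) =>
      (k (H3.coshDist P Q) : ℂ) * kern b (1, 1) s Q) (H3.volH3.prod volume) := by
    have hmaj := (integrable_kernel_mul hk hs P (continuous_const (y := (1 : ℂ)))).norm.mul_prod
      (integrable_bound hb hc C)
    refine hmaj.mono' ?_ (Eventually.of_forall fun p => ?_)
    · exact ((Complex.continuous_ofReal.comp (hk.comp ((continuous_coshDist_right P).comp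
        continuous_fst))).mul ((continuous_kern b).comp
          ((continuous_const (y := ((1 : ℂ), (1 : ℂ)))).prodMk
            (continuous_snd.prodMk continuous_fst)))).aestronglyMeasurable
    · simp only [Function.uncurry, norm_mul, mul_one]
      rcases eq_or_ne (k (H3.coshDist P p.1)) 0 with h | h
      · simp [h]
      · obtain ⟨h1, h2, -⟩ := hbd p.1 h
        exact mul_le_mul_of_nonneg_left (norm_kern_one_le p.2 h1 h2) (norm_nonneg _)
  have : SigmaFinite H3.volH3 := H3.sigmaFinite_volH3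
  rw [integral_integral_swap hswap]
  simp only [spherical_kern hb hk hs]
  have hA : Integrable fun r => (abel k r : ℂ) :=
    (Complex.continuous_ofReal.comp (continuous_abel hk hs)).integrable_of_hasCompactSupport
      ((hasCompactSupport_abel hs).comp_left (g := ((↑) : ℝ → ℂ)) Complex.ofReal_zero)
  have hK := integrable_kern_one hb P
  have hswap2 : Integrable (Function.uncurry fun (s r : ℝ) =>
      (abel k r : ℂ) * kern b (1, 1) (s - r / 2) P) (volume.prod volume) := by
    have hcont : Continuous (Function.uncurry fun (s r : ℝ) =>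
        (abel k r : ℂ) * kern b (1, 1) (s - r / 2) P) :=
      (Complex.continuous_ofReal.comp ((continuous_abel hk hs).comp continuous_snd)).mul
        ((continuous_kern_one b P).comp (continuous_fst.sub (continuous_snd.div_const 2)))
    rw [integrable_prod_iff' hcont.aestronglyMeasurable]
    refine ⟨Eventually.of_forall fun r => by
      simpa only [Function.uncurry] using (hK.comp_sub_right (r / 2)).const_mul (abel k r : ℂ), ?_⟩
    simp only [Function.uncurry, norm_mul, integral_const_mul]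
    refine (hA.norm.mul_const (∫ s, ‖kern b (1, 1) s P‖)).congr (Eventually.of_forall fun r => ?_)
    simp only
    congr 1
    exact (integral_sub_right_eq_self (fun s => ‖kern b (1, 1) s P‖) (r / 2)).symm
  rw [integral_integral_swap hswap2]
  simp only [integral_const_mul]
  have e : ∀ r : ℝ, ∫ s, kern b (1, 1) (s - r / 2) P = ∫ s, kern b (1, 1) s P := fun r =>
    integral_sub_right_eq_self (fun s => kern b (1, 1) s P) (r / 2)
  simp only [e, integral_mul_const, integral_complex_ofReal, integral_abel hk hs]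

end FLTAgent.LanglandsTunnell.Seed

end
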