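import Mathlib.Analysis.Fourier.AddCircleMulti
import Mathlib.MeasureTheory.Integral.Bochner.Set
import Mathlib.MeasureTheory.Measure.Lebesgue.Basic
import Mathlib.Analysis.Normed.Group.FunctionSeries

/-!
# Poisson summation for the lattice `ℤ^d` in `ℝ^d`

`periodize_eq_tsum`: for a continuous function with locally uniformly summable translates
(`HasLatticeBound`) and summable Fourier transform, the periodisation is its Fourier series.
-/

set_option autoImplicit false

open MeasureTheory Set Filter
open scoped Topology Real

noncomputable section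

namespace FLTAgent.LanglandsTunnell.Seed

variable {d : Type*} [Fintype d]

/-- An integral vector as a real vector. -/
def intVec (n : d → ℤ) : d → ℝ := fun i => (n i : ℝ)

/-- `exp (2 π i ⟨m, x⟩)`. -/
def charVec (m : d → ℤ) (x : d → ℝ) : ℂ :=
  Complex.exp (2 * π * Complex.I * ((∑ i, (m i : ℝ) * x i : ℝ) : ℂ))

lemma charVec_add (m : d → ℤ) (x y : d → ℝ) :
    charVec m (x + y) = charVec m x * charVec m y := by
  simp only [charVec, ← Complex.exp_add, Pi.add_apply, mul_add, Finset.sum_add_distrib]
  push_cast
  ring_nf

lemma charVec_intVec (m n : d → ℤ) : charVec m (intVec n) = 1 := by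
  rw [charVec, Complex.exp_eq_one_iff]
  refine ⟨∑ i, m i * n i, ?_⟩
  simp only [intVec]
  push_cast
  ring

lemma norm_charVec (m : d → ℤ) (x : d → ℝ) : ‖charVec m x‖ = 1 := by
  rw [charVec, Complex.norm_exp]
  simp

lemma continuous_charVec (m : d → ℤ) : Continuous (charVec m) := by
  unfold charVec
  fun_prop

lemma mFourier_coe_vec (m : d → ℤ) (x : d → ℝ) :
    UnitAddTorus.mFourier m (fun i => ((x i : ℝ) : UnitAddCircle)) = charVec m x := by
  simp only [UnitAddTorus.mFourier, ContinuousMap.coe_mk, fourier_coe_apply, charVec]
  rw [← Complex.exp_sum]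
  congr 1
  push_cast
  rw [Finset.mul_sum]
  refine Finset.sum_congr rfl fun i _ => ?_
  ring

/-- The Fourier transform at an integral vector. -/
def fourierVec (g : (d → ℝ) → ℂ) (m : d → ℤ) : ℂ := ∫ x, charVec (-m) x * g x

/-- Locally uniformly summable translates. -/
def HasLatticeBound (g : (d → ℝ) → ℂ) : Prop :=
  ∀ R : ℝ, ∃ u : (d → ℤ) → ℝ, Summable u ∧ ∀ x, ‖x‖ ≤ R → ∀ n, ‖g (x + intVec n)‖ ≤ u n

/-- The periodisation. -/
def periodize (g : (d → ℝ) → ℂ) (x : d → ℝ) : ℂ := ∑' n : d → ℤ, g (x + intVec n)

omit [Fintype d] in
lemma periodize_add_intVec (g : (d → ℝ) → ℂ) (x : d → ℝ) (m : d → ℤ) :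
    periodize g (x + intVec m) = periodize g x := by
  rw [periodize, periodize, ← (Equiv.addLeft m).tsum_eq (fun n => g (x + intVec n))]
  refine tsum_congr fun n => ?_
  congr 1
  funext i
  simp [intVec]
  ring

lemma continuous_periodize {g : (d → ℝ) → ℂ} (hg : Continuous g) (hb : HasLatticeBound g) :
    Continuous (periodize g) := by
  refine continuous_iff_continuousAt.mpr fun x => ?_
  obtain ⟨u, hu, hle⟩ := hb (‖x‖ + 1)
  have h : ContinuousOn (periodize g) (Metric.closedBall x 1) :=
    continuousOn_tsum (fun n => (hg.comp (continuous_add_const _)).continuousOn) hu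
      fun n y hy => hle y (by
        have := norm_le_norm_add_norm_sub' y x
        rw [Metric.mem_closedBall, dist_eq_norm] at hy
        linarith) n
  exact h.continuousAt (Metric.closedBall_mem_nhds x one_pos)

/-- The half open unit cube with lower corner `n`. -/
def unitCube (n : d → ℤ) : Set (d → ℝ) := {x | ∀ i, x i ∈ Ioc (n i : ℝ) (n i + 1)}

lemma measurableSet_unitCube (n : d → ℤ) : MeasurableSet (unitCube n) := by
  have : unitCube n = Set.univ.pi fun i => Ioc (n i : ℝ) (n i + 1) := by
    ext x; simp [unitCube, Set.mem_pi]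
  rw [this]
  exact MeasurableSet.univ_pi fun i => measurableSet_Ioc

omit [Fintype d] in
lemma iUnion_unitCube : ⋃ n, unitCube (d := d) n = Set.univ := by
  refine Set.eq_univ_of_forall fun x => Set.mem_iUnion.mpr ⟨fun i => ⌈x i⌉ - 1, fun i => ?_⟩
  have h1 := Int.le_ceil (x i)
  have h2 := Int.ceil_lt_add_one (x i)
  push_cast
  constructor <;> linarith

omit [Fintype d] in
lemma pairwise_disjoint_unitCube : Pairwise (Function.onFun Disjoint (unitCube (d := d))) := by
  intro m n hmn
  refine Set.disjoint_left.mpr fun x hm hn => hmn (funext fun i => ?_)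
  have h1 := hm i
  have h2 := hn i
  have e1 : (m i : ℝ) < (n i : ℝ) + 1 := lt_of_lt_of_le h1.1 h2.2
  have e2 : (n i : ℝ) < (m i : ℝ) + 1 := lt_of_lt_of_le h2.1 h1.2
  have : m i < n i + 1 := by exact_mod_cast e1
  have : n i < m i + 1 := by exact_mod_cast e2
  omega

lemma setIntegral_unitCube (f : (d → ℝ) → ℂ) (n : d → ℤ) :
    ∫ x in unitCube n, f x = ∫ x in unitCube (0 : d → ℤ), f (x + intVec n) := by
  have h := (measurePreserving_add_right
    (volume : Measure (d → ℝ)) (intVec n)).setIntegral_preimage_emb
    (MeasurableEquiv.addRight (intVec n)).measurableEmbedding f (unitCube n)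
  rw [← h]
  congr 1
  congr 1
  ext x
  simp only [Set.mem_preimage, unitCube, Set.mem_ofPred_eq, Pi.add_apply, intVec, Pi.zero_apply,
    Int.cast_zero, zero_add, Set.mem_Ioc]
  refine forall_congr' fun i => ?_
  constructor <;> rintro ⟨a, b⟩ <;> constructor <;> linarith

lemma norm_le_one_of_mem_unitCube_zero {x : d → ℝ} (hx : x ∈ unitCube (0 : d → ℤ)) : ‖x‖ ≤ 1 := by
  refine (pi_norm_le_iff_of_nonneg zero_le_one).mpr fun i => ?_
  have := hx i
  simp only [Pi.zero_apply, Int.cast_zero, zero_add, Set.mem_Ioc] at this
  rw [Real.norm_eq_abs, abs_le]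
  constructor <;> linarith

lemma volume_unitCube_lt_top (n : d → ℤ) : volume (unitCube n) < ⊤ := by
  have : unitCube n = Set.univ.pi fun i => Ioc (n i : ℝ) (n i + 1) := by
    ext x; simp [unitCube, Set.mem_pi]
  rw [this, volume_pi_pi]
  exact ENNReal.prod_lt_top fun i _ => by simp

lemma integrable_of_hasLatticeBound {g : (d → ℝ) → ℂ} (hg : Continuous g)
    (hb : HasLatticeBound g) : Integrable g := by
  obtain ⟨u, hu, hle⟩ := hb 1
  rw [← integrableOn_univ, ← iUnion_unitCube (d := d)]
  have hbound : ∀ n, ∀ x ∈ unitCube n, ‖g x‖ ≤ u n := fun n x hx => by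
    have := hle (x - intVec n) (norm_le_one_of_mem_unitCube_zero fun i => by
      have := hx i
      simp only [Pi.sub_apply, intVec, Pi.zero_apply, Int.cast_zero, Set.mem_Ioc] at this ⊢
      constructor <;> linarith) n
    simpa using this
  have hI : ∀ n, IntegrableOn g (unitCube n) := fun n =>
    IntegrableOn.of_bound (volume_unitCube_lt_top n) hg.aestronglyMeasurable (u n)
      ((ae_restrict_iff' (measurableSet_unitCube n)).mpr (Filter.Eventually.of_forall (hbound n)))
  refine integrableOn_iUnion_of_summable_integral_norm hI ?_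
  refine Summable.of_nonneg_of_le (fun n => setIntegral_nonneg (measurableSet_unitCube n)
    fun x _ => norm_nonneg _) (fun n => ?_) (hu.mul_right (volume.real (unitCube (0 : d → ℤ))))
  calc ∫ x in unitCube n, ‖g x‖ ≤ ∫ _ in unitCube n, u n :=
        setIntegral_mono_on (hI n).norm (integrableOn_const (hs := (volume_unitCube_lt_top n).ne))
          (measurableSet_unitCube n) (hbound n)
    _ = _ := by
        rw [setIntegral_const, smul_eq_mul, mul_comm]
        congr 1
        have h0 := (measurePreserving_add_right (volume : Measure (d → ℝ))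
          (intVec n)).measure_preimage (measurableSet_unitCube n).nullMeasurableSet
        rw [Measure.real, Measure.real, ← h0]
        congr 2
        ext x
        simp only [Set.mem_preimage, unitCube, Set.mem_ofPred_eq, Pi.add_apply, intVec,
          Pi.zero_apply, Int.cast_zero, zero_add, Set.mem_Ioc]
        refine forall_congr' fun i => ?_
        constructor <;> rintro ⟨a, b⟩ <;> constructor <;> linarith

/-- Poisson summation. -/
theorem periodize_eq_tsum {g : (d → ℝ) → ℂ} (hg : Continuous g) (hb : HasLatticeBound g)
    (hs : Summable fun m : d → ℤ => fourierVec g m) (x : d → ℝ) :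
    periodize g x = ∑' m : d → ℤ, charVec m x * fourierVec g m := by
  have hmk : IsOpenQuotientMap fun (y : d → ℝ) (i : d) => ((y i : ℝ) : UnitAddCircle) :=
    IsOpenQuotientMap.piMap fun _ => QuotientAddGroup.isOpenQuotientMap_mk
  let rep : UnitAddTorus d → d → ℝ := fun q i => (AddCircle.equivIoc 1 0 (q i) : ℝ)
  have hrep : ∀ y : d → ℝ,
      periodize g (rep fun i => ((y i : ℝ) : UnitAddCircle)) = periodize g y := by
    intro y
    have hn : ∀ i, ∃ k : ℤ, rep (fun i => ((y i : ℝ) : UnitAddCircle)) i = y i + k := by
      intro i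
      have h : (((rep (fun i => ((y i : ℝ) : UnitAddCircle)) i : ℝ) : UnitAddCircle))
          = ((y i : ℝ) : UnitAddCircle) := AddCircle.coe_equivIoc
      obtain ⟨k, hk⟩ := AddSubgroup.mem_zmultiples_iff.mp ((QuotientAddGroup.eq).mp h.symm)
      exact ⟨k, by rw [zsmul_one] at hk; linarith⟩
    choose k hk using hn
    rw [show rep (fun i => ((y i : ℝ) : UnitAddCircle)) = y + intVec k from funext hk,
      periodize_add_intVec]
  let F : C(UnitAddTorus d, ℂ) := ⟨fun q => periodize g (rep q), by
    refine hmk.isQuotientMap.continuous_iff.mpr ?_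
    exact (continuous_periodize hg hb).congr fun y => (hrep y).symm⟩
  have hF : ∀ y : d → ℝ, F (fun i => ((y i : ℝ) : UnitAddCircle)) = periodize g y := hrep
  have hint := integrable_of_hasLatticeBound hg hb
  have hcoef : ∀ m, UnitAddTorus.mFourierCoeff F m = fourierVec g m := by
    intro m
    obtain ⟨u, hu, hle⟩ := hb 1
    rw [UnitAddTorus.mFourierCoeff_eq_integral _ _ (0 : d → ℝ)]
    have hcube : {y : d → ℝ | ∀ i, y i ∈ Ioc ((0 : d → ℝ) i) ((0 : d → ℝ) i + 1)}
        = unitCube (0 : d → ℤ) := by ext y; simp [unitCube]
    rw [hcube]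
    calc ∫ y in unitCube (0 : d → ℤ),
          UnitAddTorus.mFourier (-m) (fun i => ((y i : ℝ) : UnitAddCircle)) •
          F (fun i => ((y i : ℝ) : UnitAddCircle))
        = ∫ y in unitCube (0 : d → ℤ), ∑' n : d → ℤ, charVec (-m) y * g (y + intVec n) := by
          refine setIntegral_congr_fun (measurableSet_unitCube _) fun y _ => ?_
          simp only [mFourier_coe_vec, hF, smul_eq_mul, periodize, tsum_mul_left]
      _ = ∑' n : d → ℤ, ∫ y in unitCube (0 : d → ℤ), charVec (-m) y * g (y + intVec n) := by
          have hI : ∀ n, IntegrableOn (fun y => charVec (-m) y * g (y + intVec n))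
              (unitCube (0 : d → ℤ)) := fun n =>
            IntegrableOn.of_bound (volume_unitCube_lt_top _)
              (((continuous_charVec _).mul (hg.comp (continuous_add_const _))).aestronglyMeasurable)
              (u n) ((ae_restrict_iff' (measurableSet_unitCube _)).mpr
                (Filter.Eventually.of_forall fun y hy => by
                  rw [norm_mul, norm_charVec, one_mul]
                  exact hle y (norm_le_one_of_mem_unitCube_zero hy) n))
          refine (integral_tsum_of_summable_integral_norm hI ?_).symm
          refine Summable.of_nonneg_of_le (fun n => integral_nonneg fun y => norm_nonneg _)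
            (fun n => ?_) (hu.mul_left (volume.real (unitCube (0 : d → ℤ))))
          calc ∫ y in unitCube (0 : d → ℤ), ‖charVec (-m) y * g (y + intVec n)‖
              ≤ ∫ _ in unitCube (0 : d → ℤ), u n :=
                setIntegral_mono_on (hI n).norm
                  (integrableOn_const (hs := (volume_unitCube_lt_top _).ne))
                  (measurableSet_unitCube _) fun y hy => by
                    rw [norm_mul, norm_charVec, one_mul]
                    exact hle y (norm_le_one_of_mem_unitCube_zero hy) n
            _ = _ := by rw [setIntegral_const, smul_eq_mul]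
      _ = ∑' n : d → ℤ, ∫ y in unitCube n, charVec (-m) y * g y := by
          refine tsum_congr fun n => ?_
          rw [setIntegral_unitCube (fun y => charVec (-m) y * g y) n]
          refine setIntegral_congr_fun (measurableSet_unitCube _) fun y _ => ?_
          simp only [charVec_add, charVec_intVec, mul_one]
      _ = fourierVec g m := by
          have hIg : Integrable fun y => charVec (-m) y * g y :=
            hint.bdd_mul (continuous_charVec _).aestronglyMeasurable
              (Filter.Eventually.of_forall fun y => (norm_charVec _ y).le)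
          rw [fourierVec, ← integral_iUnion measurableSet_unitCube pairwise_disjoint_unitCube
            (by rw [iUnion_unitCube]; exact hIg.integrableOn), iUnion_unitCube, setIntegral_univ]
  have hsF : Summable (UnitAddTorus.mFourierCoeff F) := by
    simpa only [funext hcoef] using hs
  have h := UnitAddTorus.hasSum_mFourier_series_apply_of_summable hsF
    (fun i => ((x i : ℝ) : UnitAddCircle))
  rw [hF] at h
  rw [← h.tsum_eq]
  refine tsum_congr fun m => ?_
  rw [hcoef, mFourier_coe_vec, smul_eq_mul, mul_comm]

end FLTAgent.LanglandsTunnell.Seed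

end
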