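import Fermat.Agent.LanglandsTunnell.Seed.Weight
import Fermat.Agent.LanglandsTunnell.Geom.Heights

/-!
# Uniform bounds for the theta kernel away from zero

`exists_bound` and `exists_bound_set` dominate the kernel on nonzero integers, or lattice points
with bounded denominators, uniformly in the unit variable. `integral_kernL` computes the orbit
integral as a Whittaker function.
-/

set_option autoImplicit false

open NumberField Complex MeasureTheory
open scoped Real nonZeroDivisors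

noncomputable section

namespace FLTAgent.LanglandsTunnell.Seed

open FLTAgent.LanglandsTunnell

variable {M L ι : Type} [Field M] [NumberField M] [Field L] [NumberField L] [Algebra M L]
  [Fintype ι]

theorem mul_exp_neg_le {a t : ℝ} (ha : 0 < a) : t * Real.exp (-(a * t)) ≤ 1 / a := by
  have h := Real.add_one_le_exp (a * t)
  rw [Real.exp_neg, ← div_eq_mul_inv, div_le_div_iff₀ (Real.exp_pos _) ha]
  linarith

namespace Setting

variable (T : Setting M L ι)

include T

theorem abs_norm_eq (x : L) :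
    |(Algebra.norm ℚ x : ℝ)| = (∏ i, ‖T.τ i x‖ * ‖T.τ i (T.c x)‖) ^ 2 := by
  have := T.finiteDimensional
  rw [← Algebra.norm_norm (R := ℚ) (S := M), ← LanglandsTunnell.Geom.prod_norm_sq_emb T.Φ,
    ← Finset.prod_pow]
  exact Finset.prod_congr rfl fun i _ => by rw [T.emb_norm, norm_mul]

theorem one_le_prod_norm {a : 𝓞 L} (ha : a ≠ 0) :
    1 ≤ ∏ i, ‖T.τ i (algebraMap (𝓞 L) L a)‖ * ‖T.τ i (T.c (algebraMap (𝓞 L) L a))‖ := by
  have h : (1 : ℝ) ≤ |(Algebra.norm ℚ (algebraMap (𝓞 L) L a) : ℝ)| := by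
    rw [← Algebra.coe_norm_int a, Rat.cast_intCast, ← Int.cast_abs]
    exact_mod_cast Int.one_le_abs (Algebra.norm_ne_zero_iff.mpr ha)
  rw [T.abs_norm_eq] at h
  exact (one_le_sq_iff₀ (Finset.prod_nonneg fun i _ => by positivity)).mp h

/-- Uniform domination of the kernel on nonzero integers. -/
theorem exists_bound {e : M} (he : e ≠ 0) (R : ℝ) {c : ℝ} (hc : 0 < c) :
    ∃ u : 𝓞 L → ℝ, Summable u ∧ (∀ a, 0 ≤ u a) ∧ ∀ a : 𝓞 L, a ≠ 0 → ∀ s : ι → ℝ, ‖s‖ ≤ R →
      ∀ P : ι → H3, (∀ i, c ≤ (P i).t) →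
        ‖T.kernL e (algebraMap (𝓞 L) L a) s P‖ ≤ u a := by
  set E := Real.exp (-(2 * R)) with hE
  have hE0 : 0 < E := Real.exp_pos _
  set t₀ := c * E / 2 with ht₀
  have ht₀p : 0 < t₀ := by positivity
  set P₀ : ι → H3 := fun _ => ⟨0, t₀, ht₀p⟩
  have hsum : Summable fun a : 𝓞 L => ‖T.kernL e (algebraMap (𝓞 L) L a) 0 P₀‖ := by
    have h := T.summable_kernL_idealSet he (top_ne_bot : (⊤ : Ideal (𝓞 L)) ≠ ⊥) 0 0 P₀
    simp only [zero_add] at h
    exact h.comp_injective (i := fun a : 𝓞 L => (⟨algebraMap (𝓞 L) L a,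
      coe_mem_idealSet.mpr Submodule.mem_top⟩ : idealSet (⊤ : Ideal (𝓞 L))))
      fun a b h => IsFractionRing.injective (𝓞 L) L (by simpa using h)
  set K := ∏ i, (2 * π * ‖T.Φ.emb i e‖ * E)⁻¹ * t₀⁻¹ with hK
  have hK0 : 0 ≤ K := Finset.prod_nonneg fun i _ => by positivity
  refine ⟨fun a => K * ‖T.kernL e (algebraMap (𝓞 L) L a) 0 P₀‖, hsum.mul_left K,
    fun a => mul_nonneg hK0 (norm_nonneg _), fun a ha s hs P hP => ?_⟩
  set x := algebraMap (𝓞 L) L a with hxdef
  have hx : x ≠ 0 := (map_ne_zero_iff _ (IsFractionRing.injective (𝓞 L) L)).mpr ha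
  set q := fun i => ‖T.τ i x‖ ^ 2 + ‖T.τ i (T.c x)‖ ^ 2 with hq
  have hqp : ∀ i, 0 < q i := fun i => by
    have h := (T.norm_tau_ne_zero hx i).1
    positivity
  have hq1 : 1 ≤ ∏ i, q i / 2 := by
    refine (T.one_le_prod_norm ha).trans (Finset.prod_le_prod (fun i _ => by positivity)
      fun i _ => ?_)
    rw [le_div_iff₀ two_pos]
    nlinarith [sq_nonneg (‖T.τ i x‖ - ‖T.τ i (T.c x)‖)]
  simp only [kernL, kernV, norm_prod, norm_kern, vec_apply, hK, Pi.zero_apply, P₀]
  calc ∏ i, (P i).t * Real.exp (kernDecay (T.Φ.emb i e) (T.τ i x, T.τ i (T.c x)) (s i) (P i))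
      ≤ ∏ i, (2 * π * ‖T.Φ.emb i e‖ * E)⁻¹ * t₀⁻¹ * (1 / (q i / 2)) *
          (t₀ * Real.exp (-(2 * π * ‖T.Φ.emb i e‖ * t₀ * q i))) := by
        refine Finset.prod_le_prod (fun i _ => mul_nonneg (P i).t_pos.le (Real.exp_pos _).le)
          fun i _ => ?_
        have hse := abs_le.mp ((norm_le_pi_norm s i).trans hs)
        have h1 : E ≤ Real.exp (2 * s i) := Real.exp_le_exp.mpr (by linarith [hse.1])
        have h2 : E ≤ Real.exp (-(2 * s i)) := Real.exp_le_exp.mpr (by linarith [hse.2])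
        have hk : (2 * π * ‖T.Φ.emb i e‖ * (E * q i)) * (P i).t ≤
            -kernDecay (T.Φ.emb i e) (T.τ i x, T.τ i (T.c x)) (s i) (P i) := by
          rw [kernDecay, neg_neg]
          have h3 := add_le_add (mul_le_mul_of_nonneg_left h1 (sq_nonneg ‖T.τ i x‖))
            (mul_le_mul_of_nonneg_left h2 (sq_nonneg ‖T.τ i (T.c x)‖))
          have hk0 : 0 ≤ 2 * π * ‖T.Φ.emb i e‖ * (P i).t := by
            have := (P i).t_pos; positivity
          have h4 := mul_le_mul_of_nonneg_left h3 hk0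
          simp only [hq]
          linarith
        set α := 2 * π * ‖T.Φ.emb i e‖ * (E * q i) with hα
        have hα0 : 0 < α := by
          have := norm_pos_iff.mpr (T.emb_ne_zero he i); have := hqp i; positivity
        refine (mul_le_mul_of_nonneg_left (Real.exp_le_exp.mpr (le_neg.mp hk))
          (P i).t_pos.le).trans ?_
        have h5 := mul_le_mul_of_nonneg_left (hP i) hα0.le
        calc (P i).t * Real.exp (-(α * (P i).t))
            ≤ (P i).t * (Real.exp (-(α / 2 * (P i).t)) * Real.exp (-(α / 2 * c))) := by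
              rw [← Real.exp_add]
              exact mul_le_mul_of_nonneg_left (Real.exp_le_exp.mpr (by linarith)) (P i).t_pos.le
          _ ≤ 1 / (α / 2) * Real.exp (-(α / 2 * c)) := by
              rw [← mul_assoc]
              exact mul_le_mul_of_nonneg_right (mul_exp_neg_le (half_pos hα0)) (Real.exp_pos _).le
          _ = _ := by
              rw [hα, ht₀]
              have := norm_pos_iff.mpr (T.emb_ne_zero he i); have := hqp i
              field_simp
    _ ≤ (∏ i, (2 * π * ‖T.Φ.emb i e‖ * E)⁻¹ * t₀⁻¹) *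
          ∏ i, t₀ * Real.exp
            (kernDecay (T.Φ.emb i e) (T.τ i x, T.τ i (T.c x)) 0 ⟨0, t₀, ht₀p⟩) := by
        rw [← Finset.prod_mul_distrib]
        simp only [mul_assoc, kernDecay, mul_zero, neg_zero, Real.exp_zero, mul_one]
        simp only [Finset.prod_mul_distrib, hq]
        refine mul_le_mul_of_nonneg_left
          (mul_le_mul_of_nonneg_left (mul_le_of_le_one_left ?_ ?_) ?_) ?_
        · positivity
        · rw [Finset.prod_div_distrib, Finset.prod_const_one, one_div]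
          exact inv_le_one_of_one_le₀ hq1
        · positivity
        · positivity

/-- Uniform domination on a set with bounded denominators. -/
theorem exists_bound_set {e : M} (he : e ≠ 0) (R : ℝ) {c : ℝ} (hc : 0 < c) {κ : Type} {g : κ → L}
    (hg : Function.Injective g) {m : ℕ} (hm : m ≠ 0)
    (hint : ∀ k, IsIntegral ℤ ((m : L) * g k)) :
    ∃ u : κ → ℝ, Summable u ∧ (∀ k, 0 ≤ u k) ∧ ∀ k, g k ≠ 0 → ∀ s : ι → ℝ, ‖s‖ ≤ R →
      ∀ P : ι → H3, (∀ i, c ≤ (P i).t) → ‖T.kernL e (g k) s P‖ ≤ u k := by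
  have hmM : ((m : M)⁻¹) ≠ 0 := inv_ne_zero (Nat.cast_ne_zero.mpr hm)
  have hmL : (m : L) ≠ 0 := Nat.cast_ne_zero.mpr hm
  obtain ⟨u, hu, hu0, hb⟩ := T.exists_bound (mul_ne_zero (mul_ne_zero he hmM) hmM) R hc
  set h : κ → 𝓞 L := fun k => ⟨(m : L) * g k, hint k⟩ with hdef
  have hinj : Function.Injective h := fun a b e => hg (mul_left_cancel₀ hmL
    (congrArg (algebraMap (𝓞 L) L) e))
  refine ⟨u ∘ h, hu.comp_injective hinj, fun k => hu0 _, fun k hk s hs P hP => ?_⟩
  have e1 : g k = algebraMap M L (m : M)⁻¹ * algebraMap (𝓞 L) L (h k) := by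
    show g k = algebraMap M L (m : M)⁻¹ * ((m : L) * g k)
    rw [map_inv₀, map_natCast, inv_mul_cancel_left₀ hmL]
  rw [e1, T.kernL_smul_arg e _ hmM]
  refine hb _ (fun h0 => hk ?_) s hs P hP
  rw [e1, h0, map_zero, mul_zero]

omit [NumberField M] in
theorem continuous_kernL (e : M) (x : L) :
    Continuous fun p : (ι → ℝ) × (ι → H3) => T.kernL e x p.1 p.2 :=
  continuous_finsetProd _ fun i _ => (continuous_kern (T.Φ.emb i e)).comp
    (f := fun p : (ι → ℝ) × (ι → H3) => (T.vec x i, p.1 i, p.2 i))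
    (continuous_const.prodMk (((continuous_apply i).comp continuous_fst).prodMk
      ((continuous_apply i).comp continuous_snd)))

/-- The orbit integral of the kernel. -/
theorem integral_kernL (e : M) {x : L} (hx : x ≠ 0) (P : ι → H3) :
    ∫ s : ι → ℝ, T.kernL e x s P = ∏ i, wfun (T.Φ.emb i (e * Algebra.norm M x)) (P i) := by
  refine (integral_fintype_prod_volume_eq_prod fun i (r : ℝ) =>
    kern (T.Φ.emb i e) (T.vec x i) r (P i)).trans (Finset.prod_congr rfl fun i _ => ?_)
  rw [integral_kern_orbit _ (T.vec_ne_zero hx i).1 (T.vec_ne_zero hx i).2, map_mul, T.emb_norm,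
    vec_apply, mul_assoc]

end Setting

end FLTAgent.LanglandsTunnell.Seed

end
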