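import Mathlib

/-!
# Means of periodic exponential sums over a period cube

`wave r` is the exponential of frequency `r`; `cube_mean_zero` says that a periodic absolutely
summable sum of waves with rational nonzero frequencies has mean zero. Used for cuspidality.
-/

set_option autoImplicit false

open MeasureTheory Complex Set
open scoped Real

noncomputable section

namespace FLTAgent.LanglandsTunnell.Seed

variable {κ : Type} [Fintype κ]

/-- The exponential with frequency `r`. -/
def wave (r s : κ → ℝ) : ℂ := ∏ j, cexp (2 * π * I * r j * s j)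

/-- The unit cube. -/
def cube (κ : Type) : Set (κ → ℝ) := univ.pi fun _ => Icc (0 : ℝ) 1

theorem norm_wave (r s : κ → ℝ) : ‖wave r s‖ = 1 := by
  simp [wave, norm_prod, Complex.norm_exp]

theorem wave_add (r s s' : κ → ℝ) : wave r (fun j => s j + s' j) = wave r s * wave r s' := by
  simp only [wave, ← Finset.prod_mul_distrib, ← Complex.exp_add]
  refine Finset.prod_congr rfl fun j _ => ?_
  push_cast
  ring_nf

theorem wave_sub (r r' s : κ → ℝ) : wave (r - r') s * wave r' s = wave r s := by
  simp only [wave, ← Finset.prod_mul_distrib, ← Complex.exp_add, Pi.sub_apply]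
  refine Finset.prod_congr rfl fun j _ => ?_
  push_cast
  ring_nf

theorem continuous_wave (r : κ → ℝ) : Continuous (wave r) := by
  unfold wave; fun_prop

theorem volume_cube : (volume : Measure (κ → ℝ)) (cube κ) = 1 := by
  rw [cube, volume_pi_pi]
  simp

theorem integral_cube_wave (r : κ → ℝ) :
    ∫ s in cube κ, wave r s = ∏ j, ∫ x in Icc (0 : ℝ) 1, cexp (2 * π * I * r j * x) := by
  rw [cube, volume_pi, Measure.restrict_pi_pi]
  exact integral_fintype_prod_eq_prod fun (j : κ) (x : ℝ) => cexp (2 * π * I * r j * x)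

/-- The average of a rational frequency over a multiple of its period. -/
theorem sum_wave_mul_integral {M0 : ℕ} {r : ℝ} (hr0 : r ≠ 0) (hr : ∃ k : ℤ, M0 * r = k) :
    (∑ i : Fin M0, cexp (2 * π * I * r * ((i : ℕ) : ℝ))) *
      ∫ x in Icc (0 : ℝ) 1, cexp (2 * π * I * r * x) = 0 := by
  set a : ℂ := 2 * π * I * r with ha
  have ha0 : a ≠ 0 := mul_ne_zero Complex.two_pi_I_ne_zero (Complex.ofReal_ne_zero.mpr hr0)
  have hpow : cexp a ^ M0 = 1 := by
    obtain ⟨k, hk⟩ := hr
    rw [← Complex.exp_nat_mul, Complex.exp_eq_one_iff]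
    refine ⟨k, ?_⟩
    rw [show ((k : ℤ) : ℂ) = ((M0 * r : ℝ) : ℂ) by rw [hk]; norm_cast, ha]
    push_cast
    ring
  have hsum : ∑ i : Fin M0, cexp (a * ((i : ℕ) : ℝ)) = ∑ i ∈ Finset.range M0, cexp a ^ i := by
    rw [← Fin.sum_univ_eq_sum_range (fun i => cexp a ^ i)]
    refine Finset.sum_congr rfl fun i _ => ?_
    rw [← Complex.exp_nat_mul]
    push_cast
    ring_nf
  rw [integral_Icc_eq_integral_Ioc, ← intervalIntegral.integral_of_le zero_le_one,
    integral_exp_mul_complex ha0, hsum, Complex.ofReal_one, mul_one, Complex.ofReal_zero, mul_zero,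
    Complex.exp_zero, ← mul_div_assoc, geom_sum_mul, hpow, sub_self, zero_div]

theorem sum_wave_mul_integral_cube [DecidableEq κ] {M0 : ℕ} {r : κ → ℝ} (hr0 : r ≠ 0)
    (hr : ∀ j, ∃ k : ℤ, M0 * r j = k) :
    (∑ k : κ → Fin M0, wave r fun j => ((k j : ℕ) : ℝ)) * ∫ s in cube κ, wave r s = 0 := by
  classical
  obtain ⟨j, hj⟩ := Function.ne_iff.mp hr0
  rw [integral_cube_wave,
    show (∑ k : κ → Fin M0, wave r fun j => ((k j : ℕ) : ℝ)) =
      ∏ j, ∑ i : Fin M0, cexp (2 * π * I * r j * ((i : ℕ) : ℝ)) from
      (Fintype.prod_sum fun j (i : Fin M0) => cexp (2 * π * I * r j * ((i : ℕ) : ℝ))).symm,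
    ← Finset.prod_mul_distrib]
  exact Finset.prod_eq_zero (Finset.mem_univ j) (sum_wave_mul_integral hj (hr j))

/-- A periodic sum of exponentials with rational nonzero frequencies has mean zero. -/
theorem cube_mean_zero {N : Type} (c : N → ℂ) (hc : Summable fun ν => ‖c ν‖) (r : N → κ → ℝ)
    {M0 : ℕ} (hM0 : M0 ≠ 0) (hr : ∀ ν j, ∃ k : ℤ, M0 * r ν j = k)
    (hzero : ∀ ν, r ν = 0 → c ν = 0) {G : (κ → ℝ) → ℂ}
    (hG : ∀ s, G s = ∑' ν, c ν * wave (r ν) s)
    (hper : ∀ s (k : κ → ℕ), G (fun j => s j + k j) = G s) :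
    ∫ s in cube κ, G s = 0 := by
  classical
  set S : Set N := {ν | c ν ≠ 0}
  have hS : Countable S :=
      (hc.countable_support.mono fun ν (h : c ν ≠ 0) => by simpa using h).to_subtype
  have hG' : ∀ s, G s = ∑' ν : S, c ν * wave (r ν) s := fun s => by
    rw [hG, tsum_subtype_eq_of_support_subset (s := S) (f := fun ν => c ν * wave (r ν) s)]
    exact fun ν hν h => hν (by simp [h])
  have hc' : Summable fun ν : S => ‖c ν‖ := hc.comp_injective Subtype.val_injective
  have hfin : (volume : Measure (κ → ℝ)) (cube κ) ≠ ⊤ := by simp [volume_cube]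
  have : Fact ((volume : Measure (κ → ℝ)) (cube κ) < ⊤) := ⟨lt_top_iff_ne_top.mpr hfin⟩
  set W : S → ℂ := fun ν => ∫ s in cube κ, wave (r ν) s
  set F : (κ → Fin M0) → (κ → ℝ) := fun k j => ((k j : ℕ) : ℝ)
  have key : ∀ k, ∫ s in cube κ, G s = ∑' ν : S, c ν * wave (r ν) (F k) * W ν := by
    intro k
    calc ∫ s in cube κ, G s
        = ∫ s in cube κ, ∑' ν : S, c ν * wave (r ν) (F k) * wave (r ν) s := by
          refine integral_congr_ae (Filter.Eventually.of_forall fun s => ?_)
          simp only
          rw [← hper s fun j => (k j : ℕ), hG']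
          refine tsum_congr fun ν => ?_
          rw [wave_add]
          ring
      _ = ∑' ν : S, ∫ s in cube κ, c ν * wave (r ν) (F k) * wave (r ν) s := by
          refine (integral_tsum_of_summable_integral_norm (fun ν => ?_) ?_).symm
          · exact (continuous_const.mul (continuous_wave _)).continuousOn.integrableOn_compact
              (isCompact_univ_pi fun _ => isCompact_Icc)
          · simpa [norm_wave, integral_const, Measure.real, volume_cube] using hc'
      _ = _ := by simp only [integral_const_mul, W]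
  have hsum : ∀ k : κ → Fin M0, Summable fun ν : S => c ν * wave (r ν) (F k) * W ν := by
    intro k
    refine Summable.of_norm_bounded hc' fun ν => ?_
    rw [norm_mul, norm_mul, norm_wave, mul_one]
    refine mul_le_of_le_one_right (norm_nonneg _) ((norm_setIntegral_le_of_norm_le_const
      (C := 1) (lt_top_iff_ne_top.mpr hfin) fun s _ => (norm_wave _ _).le).trans ?_)
    simp [Measure.real, volume_cube]
  have h : ∑ k : κ → Fin M0, ∫ s in cube κ, G s = 0 := by
    rw [Finset.sum_congr rfl fun k _ => key k, ← Summable.tsum_finsetSum fun k _ => hsum k]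
    refine (tsum_congr fun ν : S => ?_).trans tsum_zero
    have h := sum_wave_mul_integral_cube (r := r ν) (fun e => ν.2 (hzero ν e)) (hr ν)
    calc ∑ k : κ → Fin M0, c ν * wave (r ν) (F k) * W ν
        = c ν * ((∑ k : κ → Fin M0, wave (r ν) (F k)) * W ν) := by
          rw [Finset.sum_mul, Finset.mul_sum]
          simp only [mul_assoc]
      _ = 0 := by rw [h, mul_zero]
  rw [Finset.sum_const, nsmul_eq_mul, mul_eq_zero] at h
  refine h.resolve_left ?_
  simp [Fintype.card_pi, hM0]

end FLTAgent.LanglandsTunnell.Seed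

end
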