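import Fermat.Agent.LanglandsTunnell.Seed.Form

/-!
# The theta series at a general cusp

`theta_cusp` expands the theta series at a finite cusp over dual lattices with coefficients
`cuspCoeff`; `sum_cuspCoeff_zero` is the cancellation of its constant term.
-/

set_option autoImplicit false

open NumberField Complex
open scoped Real nonZeroDivisors

noncomputable section

namespace FLTAgent.LanglandsTunnell.Seed

open FLTAgent.LanglandsTunnell FLTAgent.LanglandsTunnell.SeedCoeff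

variable {M L ι : Type} [Field M] [NumberField M] [Field L] [NumberField L] [Algebra M L]
  [Fintype ι]

theorem card_idealSet_quot {A : Ideal (𝓞 L)} (hA : A ≠ ⊥) (J : Ideal (𝓞 L)) :
    Nat.card (idealSet A ⧸ (idealSet (A * J)).addSubgroupOf (idealSet A)) = Ideal.absNorm J := by
  have h1 : Nat.card (idealSet A ⧸ (idealSet (A * J)).addSubgroupOf (idealSet A)) =
      (A * J).toAddSubgroup.relIndex A.toAddSubgroup :=
    AddSubgroup.relIndex_map_map_of_injective (f := (algebraMap (𝓞 L) L).toAddMonoidHom)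
      (A * J).toAddSubgroup A.toAddSubgroup (IsFractionRing.injective (𝓞 L) L)
  have hidx : ∀ I : Ideal (𝓞 L), I.toAddSubgroup.index = Ideal.absNorm I := fun I => by
    rw [Ideal.absNorm_apply, Submodule.cardQuot_apply]; rfl
  have h2 := AddSubgroup.relIndex_mul_index
    (show (A * J).toAddSubgroup ≤ A.toAddSubgroup from Ideal.mul_le_left)
  rw [hidx, hidx, map_mul, mul_comm] at h2
  rw [h1]
  exact mul_left_cancel₀ (fun h => hA (Ideal.absNorm_eq_zero_iff.mp h)) h2

theorem mem_idealSet_iff_of_princ {A B : Ideal (𝓞 L)} {l : L} (hl : l ≠ 0)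
    (h : princ L l * (B : FractionalIdeal (𝓞 L)⁰ L) = (A : FractionalIdeal (𝓞 L)⁰ L)) (y : L) :
    l * y ∈ idealSet A ↔ y ∈ idealSet B := by
  rw [← mem_coeIdeal_iff_idealSet, ← mem_coeIdeal_iff_idealSet, ← h, ← princ_le_iff, ← princ_le_iff,
    princ_mul']
  exact mul_le_mul_iff_of_pos_left (pos_iff_ne_zero.mpr (princ_ne_zero' hl))

/-- `A ∩ mA ⊂ A J` when `J` is prime to `m`, and `A = A J + mA`. -/
theorem qsum_restrict {A J : Ideal (𝓞 L)} {m : 𝓞 L} (hJ : J ⊔ Ideal.span {m} = ⊤) {G : L → ℂ}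
    (hG : PeriodicOn (idealSet A) (idealSet (Ideal.span {m} * A)) G) :
    qsum (idealSet A) (idealSet (Ideal.span {m} * A)) G =
      qsum (idealSet (A * J)) (idealSet (Ideal.span {m} * (A * J))) G := by
  obtain ⟨p, hp, q, hq, hpq⟩ := Submodule.mem_sup.mp ((Ideal.eq_top_iff_one _).mp hJ)
  have hJA : idealSet (A * J) ≤ idealSet A := idealSet_mono Ideal.mul_le_left
  refine qsum_map (J' := idealSet (A * J)) (I' := idealSet (Ideal.span {m} * (A * J))) hG
    (AddMonoidHom.id L) (fun x hx => hJA hx) (fun x hx => ⟨fun hxm => ?_, fun h => ?_⟩)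
    fun y hy => ?_
  · obtain ⟨a, ha, rfl⟩ := mem_idealSet.mp hx
    rw [AddMonoidHom.id_apply] at hxm
    have ham := coe_mem_idealSet.mp hxm
    refine coe_mem_idealSet.mpr ?_
    rw [show a = p * a + q * a by rw [← add_mul, hpq, one_mul]]
    refine add_mem ?_ (Ideal.mul_mem_mul hq ha)
    have h := Ideal.mul_mem_mul hp ham
    rwa [← mul_assoc, mul_comm J, mul_assoc, mul_comm J] at h
  · exact idealSet_mono (Ideal.mul_mono le_rfl Ideal.mul_le_left) h
  · obtain ⟨a, ha, rfl⟩ := mem_idealSet.mp hy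
    refine ⟨algebraMap (𝓞 L) L (a * p), coe_mem_idealSet.mpr (Ideal.mul_mem_mul ha hp), ?_⟩
    rw [AddMonoidHom.id_apply, ← map_sub, coe_mem_idealSet, show a * p - a = -(q * a) by
      linear_combination a * hpq]
    exact neg_mem (Ideal.mul_mem_mul hq ha)

namespace Setting

variable (T : Setting M L ι)

include T

/-- The constant of Poisson summation on a lattice. -/
def IsPoissonConst (e : M) (A : Ideal (𝓞 L)) (C : ℂ) : Prop :=
  ∀ (r : L) (s : ι → ℝ) (P : ι → H3),
    ∑' u : idealSet A, T.kernL e (r + u) s P =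
      C * ∑' η : T.dualSet e (idealSet A),
        expM T.Φ (e * Algebra.trace M L (r * T.c η)) * T.kernL e η s (fun i => inv3 (P i))

theorem pairQ_int_iff (e : M) (x η : L) :
    (∃ k : ℤ, T.pairQ e x η = k) ↔ expM T.Φ (e * Algebra.trace M L (x * T.c η)) = 1 := by
  rw [expM_eq_one_iff, T.trace_M_L]

theorem mem_dualSet_iff {e : M} {Λ : AddSubgroup L} {η : L} :
    η ∈ T.dualSet e Λ ↔ ∀ x ∈ Λ, ∃ k : ℤ, T.pairQ e x η = k := Iff.rfl

theorem sum_dual_ne_zero {e : M} (he : e ≠ 0) {A : Ideal (𝓞 L)} (hA : A ≠ ⊥) :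
    ∑' η : T.dualSet e (idealSet A), T.kernL e η 0 (fun _ => inv3 ⟨0, 1, one_pos⟩) ≠ 0 := by
  have hs := T.summable_kernL_dualSet he hA 0 (fun _ => inv3 ⟨0, 1, one_pos⟩)
  have hre : ∀ η : L, T.kernL e η 0 (fun _ => inv3 ⟨0, 1, one_pos⟩) =
      ((‖T.kernL e η 0 (fun _ => inv3 ⟨0, 1, one_pos⟩)‖ : ℝ) : ℂ) := by
    intro η
    simp only [kernL, kernV, norm_prod, Complex.ofReal_prod, norm_kern]
    refine Finset.prod_congr rfl fun i _ => ?_
    simp [kern, kernPhase, inv3]
  rw [tsum_congr (fun η : T.dualSet e (idealSet A) => hre η), ← Complex.ofReal_tsum, Ne,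
    Complex.ofReal_eq_zero]
  refine (hs.tsum_pos (fun _ => norm_nonneg _) 0 ?_).ne'
  simp only [kernL, kernV, norm_prod, norm_kern]
  exact Finset.prod_pos fun i _ => mul_pos (H3.t_pos _) (Real.exp_pos _)

theorem qsum_char {e : M} {A J : Ideal (𝓞 L)} (hAJ : A * J ≠ ⊥) {η : L}
    (hη : η ∈ T.dualSet e (idealSet (A * J))) (hA : A ≠ ⊥) :
    (η ∈ T.dualSet e (idealSet A) → qsum (idealSet A) (idealSet (A * J))
        (fun r => expM T.Φ (e * Algebra.trace M L (r * T.c η))) = (Ideal.absNorm J : ℂ)) ∧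
    (η ∉ T.dualSet e (idealSet A) → qsum (idealSet A) (idealSet (A * J))
        (fun r => expM T.Φ (e * Algebra.trace M L (r * T.c η))) = 0) := by
  have hfin := finite_idealSet_quot (A := A) hAJ
  set χ := fun r : L => expM T.Φ (e * Algebra.trace M L (r * T.c η)) with hχ
  have hadd : ∀ x y, χ (x + y) = χ x * χ y := fun x y => by
    simp only [hχ, add_mul, map_add, mul_add, expM_add]
  have hper : PeriodicOn (idealSet A) (idealSet (A * J)) χ := fun x _ y hy => by
    rw [hadd, show χ y = 1 from (T.pairQ_int_iff e y η).mp (hη y hy), mul_one]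
  refine ⟨fun h => ?_, fun h => ?_⟩
  · have := Fintype.ofFinite (idealSet A ⧸ (idealSet (A * J)).addSubgroupOf (idealSet A))
    rw [qsum_congr (F' := fun _ => 1) fun r hr => (T.pairQ_int_iff e r η).mp (h r hr), qsum,
      finsum_eq_sum_of_fintype, Finset.sum_const, Finset.card_univ, ← Nat.card_eq_fintype_card,
      card_idealSet_quot hA, nsmul_eq_mul, mul_one]
  · rw [T.mem_dualSet_iff] at h
    push Not at h
    obtain ⟨x₀, hx₀, hne⟩ := h
    have hne' : χ x₀ ≠ 1 := fun e' => by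
      obtain ⟨k, hk⟩ := (T.pairQ_int_iff e x₀ η).mpr e'
      exact hne k hk
    have h1 := qsum_translate hper hx₀
    rw [qsum_congr (F' := fun r => χ x₀ * χ r) fun r _ => by rw [hadd, mul_comm],
      qsum_const_mul] at h1
    by_contra hz
    exact hne' (mul_right_cancel₀ hz (h1.trans (one_mul _).symm))

theorem IsPoissonConst.eq_index_mul {e : M} {A J : Ideal (𝓞 L)} {C C₁ : ℂ} (he : e ≠ 0)
    (hA : A ≠ ⊥) (hJ : J ≠ ⊥) (hC : T.IsPoissonConst e A C)
    (hC₁ : T.IsPoissonConst e (A * J) C₁) : C = (Ideal.absNorm J : ℂ) * C₁ := by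
  classical
  have hAJ : A * J ≠ ⊥ := mul_ne_zero hA hJ
  have hfin := finite_idealSet_quot (A := A) hAJ
  set P₀ : ι → H3 := fun _ => ⟨0, 1, one_pos⟩
  set K := fun η : L => T.kernL e η 0 (fun i => inv3 (P₀ i))
  have h0 := hC 0 0 P₀
  simp only [zero_mul, map_zero, mul_zero, expM_zero, one_mul, zero_add] at h0
  have hsum : Summable fun x : idealSet A => ‖T.kernL e x 0 P₀‖ := by
    simpa using T.summable_kernL_idealSet he hA 0 0 P₀
  have hsplit := tsum_eq_qsum (J := idealSet A) (I := idealSet (A * J)) (F := fun _ => (1 : ℂ))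
    (h := fun x => T.kernL e x 0 P₀) (idealSet_mono Ideal.mul_le_left)
    (fun _ _ _ _ => rfl) hsum
  simp only [one_mul] at hsplit
  have hle : T.dualSet e (idealSet A) ≤ T.dualSet e (idealSet (A * J)) :=
    fun η hη x hx => hη x (idealSet_mono Ideal.mul_le_left hx)
  have hdual := T.summable_kernL_dualSet he hAJ 0 (fun i => inv3 (P₀ i))
  rw [hsplit, qsum_congr (fun r _ => hC₁ r 0 P₀), qsum_const_mul,
    qsum_congr (F' := fun r => 1 * ∑' η : T.dualSet e (idealSet (A * J)),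
      expM T.Φ (e * Algebra.trace M L (r * T.c η)) * K η) (fun r _ => (one_mul _).symm),
    MoveData.qsum_tsum_swap _ _ (fun _ => (1 : ℂ))
      (fun (η : T.dualSet e (idealSet (A * J))) r => expM T.Φ (e * Algebra.trace M L (r * T.c η)))
      (fun η => K η) (fun η r => (norm_expM _ _).le) hdual] at h0
  have hq : ∀ η : T.dualSet e (idealSet (A * J)),
      qsum (idealSet A) (idealSet (A * J))
        (fun r => (1 : ℂ) * expM T.Φ (e * Algebra.trace M L (r * T.c η))) * K η =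
      if (η : L) ∈ T.dualSet e (idealSet A) then (Ideal.absNorm J : ℂ) * K η else 0 := by
    intro η
    simp only [one_mul]
    split_ifs with h
    · rw [(T.qsum_char hAJ η.2 hA).1 h]
    · rw [(T.qsum_char hAJ η.2 hA).2 h, zero_mul]
  rw [tsum_congr hq] at h0
  let g : T.dualSet e (idealSet A) → T.dualSet e (idealSet (A * J)) := fun η => ⟨η.1, hle η.2⟩
  have hg : Function.Injective g := fun a b h =>
      Subtype.ext (congrArg (fun z : T.dualSet e (idealSet (A * J)) => (z : L)) h)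
  rw [← hg.tsum_eq (by
    intro η hη
    rw [Function.mem_support] at hη
    split_ifs at hη with h
    · exact ⟨⟨η.1, h⟩, rfl⟩
    · exact absurd rfl hη)] at h0
  simp only [g, SetLike.coe_mem, if_true, tsum_mul_left, ← mul_assoc] at h0
  rw [mul_comm C₁] at h0
  exact (mul_right_cancel₀ (T.sum_dual_ne_zero he hA) h0).symm

theorem IsPoissonConst.scale {e : M} {A B : Ideal (𝓞 L)} {C : ℂ} {l : L} (hl : l ≠ 0)
    (h : princ L l * (B : FractionalIdeal (𝓞 L)⁰ L) = (A : FractionalIdeal (𝓞 L)⁰ L))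
    (hC : T.IsPoissonConst e A C) : T.IsPoissonConst (e * Algebra.norm M l) B C := by
  intro r s P
  have hmem := mem_idealSet_iff_of_princ hl h
  have hpair : ∀ y θ : L, T.pairQ e (l * y) (l * θ) = T.pairQ (e * Algebra.norm M l) y θ := by
    intro y θ
    rw [Setting.pairQ, Setting.pairQ, map_mul T.c, map_mul (algebraMap M L), T.algebraMap_norm]
    congr 1
    ring
  let eA : idealSet B ≃ idealSet A :=
    Equiv.subtypeEquiv (Equiv.mulLeft₀ l hl) fun y => (hmem y).symm
  let eD : T.dualSet (e * Algebra.norm M l) (idealSet B) ≃ T.dualSet e (idealSet A) :=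
    Equiv.subtypeEquiv (Equiv.mulLeft₀ l hl) fun θ => by
      rw [T.mem_dualSet_iff, T.mem_dualSet_iff]
      constructor
      · intro hθ x hx
        obtain ⟨y, rfl⟩ : ∃ y, l * y = x := ⟨l⁻¹ * x, mul_inv_cancel_left₀ hl x⟩
        rw [Equiv.mulLeft₀_apply, hpair]
        exact hθ y ((hmem y).mp hx)
      · intro hθ y hy
        rw [← hpair]
        exact hθ (l * y) ((hmem y).mpr hy)
  have hk : ∀ (x : L) (Q : ι → H3), T.kernL e (l * x) (s - T.ell l) Q =
      T.kernL (e * Algebra.norm M l) x s Q := fun x Q => by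
    rw [T.kernL_mul_left e hl, sub_add_cancel]
  have h1 := hC (l * r) (s - T.ell l) P
  rw [← eA.tsum_eq, ← eD.tsum_eq] at h1
  have hA' : ∀ c : idealSet B, (eA c : L) = l * c := fun _ => rfl
  have hD' : ∀ c : T.dualSet (e * Algebra.norm M l) (idealSet B), (eD c : L) = l * c :=
    fun _ => rfl
  simp only [hA', hD', ← mul_add, hk] at h1
  rw [h1]
  refine congrArg _ (tsum_congr fun θ => ?_)
  congr 2
  refine (algebraMap M L).injective ?_
  simp only [map_mul, T.algebraMap_norm, T.algebraMap_trace, T.c_c]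
  ring

theorem exists_isPoissonConst {e : M} (he : e ≠ 0) {A : Ideal (𝓞 L)} (hA : A ≠ ⊥) :
    ∃ C, T.IsPoissonConst e A C :=
  T.ideal_poisson he hA

end Setting

namespace SeedSys

variable (D : SeedSys M L ι) {Y : FractionalIdeal (𝓞 M)⁰ M} {κ : Type} [Fintype κ]
  (S : D.System Y κ)

/-- The periodicity lattice. -/
def cuspLattice (m : ℕ) (j : κ) : Ideal (𝓞 L) := Ideal.span {(m : 𝓞 L)} * S.A j

/-- The periodic coefficient at a cusp. -/
def cuspFun (k : M) (j : κ) (x : L) : ℂ :=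
  D.chiL x * expM D.T.Φ (k * S.e j * Algebra.norm M x)

/-- The coefficient of a dual vector at a cusp. -/
def cuspCoeff (D₀ k : M) (m : ℕ) (j : κ) (η : L) : ℂ :=
  qsum (idealSet (S.A j)) (idealSet (D.cuspLattice S m j))
    fun r => D.cuspFun S k j r * expM D.T.Φ (S.e j * D₀ * Algebra.trace M L (r * D.T.c η))

omit [Fintype κ] in
theorem cuspLattice_ne {m : ℕ} (hm : m ≠ 0) (j : κ) : D.cuspLattice S m j ≠ ⊥ :=
  mul_ne_zero (by rw [Ne, Ideal.zero_eq_bot, Ideal.span_singleton_eq_bot]; exact_mod_cast hm)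
    (S.pair j).1.1

omit [Fintype κ] in
theorem cuspFun_periodic {k : M} {m : ℕ} (hms : D.s ∣ m) (hmk : (m : M) * k ∈ Y) (j : κ) :
    PeriodicOn (idealSet (S.A j)) (idealSet (D.cuspLattice S m j)) (D.cuspFun S k j) := by
  have := D.T.finiteDimensional
  obtain ⟨hA, he, heq⟩ := S.pair j
  set A := S.A j with hAdef
  set W : Ideal (𝓞 L) := Ideal.span {(m : 𝓞 L)} * (A * A.map (D.T.cO : 𝓞 L →+* 𝓞 L)) with hW
  have hw : ∀ w ∈ idealSet W, algebraMap M L (k * S.e j) * w ∈
      (D.T.EL (D.T.diffM : FractionalIdeal (𝓞 M)⁰ M))⁻¹ := by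
    intro w hwW
    rw [← princ_le_iff, princ_mul', map_mul, princ_mul']
    refine (mul_le_mul_right (princ_le_iff.mpr (mem_coeIdeal_iff_idealSet.mpr hwW)) _).trans ?_
    have hd : D.T.EL (D.T.diffM : FractionalIdeal (𝓞 M)⁰ M) ≠ 0 :=
      D.T.EL_ne_zero D.T.diffM_ne_zero
    rw [← one_mul (D.T.EL _)⁻¹, ← div_eq_mul_inv, le_div_iff₀ (pos_iff_ne_zero.mpr hd), hW,
      FractionalIdeal.coeIdeal_mul, FractionalIdeal.coeIdeal_mul, coeIdeal_span_eq_princ,
      map_natCast]
    calc _ = princ L (algebraMap M L k) * princ L (m : L) *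
          (princ L (algebraMap M L (S.e j)) * (A : FractionalIdeal (𝓞 L)⁰ L) *
          ((A.map (D.T.cO : 𝓞 L →+* 𝓞 L) : Ideal (𝓞 L)) : FractionalIdeal (𝓞 L)⁰ L)) *
          D.T.EL (D.T.diffM : FractionalIdeal (𝓞 M)⁰ M) := by ring
      _ ≤ D.T.EL Y * (princ L (algebraMap M L (S.e j)) * (A : FractionalIdeal (𝓞 L)⁰ L) *
          ((A.map (D.T.cO : 𝓞 L →+* 𝓞 L) : Ideal (𝓞 L)) : FractionalIdeal (𝓞 L)⁰ L)) *
          D.T.EL (D.T.diffM : FractionalIdeal (𝓞 M)⁰ M) := by
            refine mul_le_mul_left (mul_le_mul_left ?_ _) _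
            rw [← map_natCast (algebraMap M L), ← princ_mul', ← map_mul, ← D.T.EL_spanSingleton,
              mul_comm k]
            exact D.T.EL_mono (FractionalIdeal.spanSingleton_le_iff_mem.mpr hmk)
      _ = _ := by rw [← heq]; ring
  intro x hx y hy
  have hy' : y ∈ idealSet (Ideal.span {(m : 𝓞 L)}) := idealSet_mono Ideal.mul_le_left hy
  have hchi : D.chiL (x + y) = D.chiL x := by
    refine D.chiL_periodic A ?_ x hx y hy'
    rw [Ideal.span_singleton_le_span_singleton]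
    exact Nat.cast_dvd_cast hms
  have h1 : y * D.T.c y ∈ idealSet W := by
    have h :=
        MoveData.mul_c_mem (T := D.T) hy (idealSet_mono Ideal.mul_le_right hy : y ∈ idealSet A)
    rwa [cuspLattice, mul_assoc] at h
  have h2 : x * D.T.c y + D.T.c x * y ∈ idealSet W := by
    refine add_mem ?_ ?_
    · have h := MoveData.mul_c_mem (T := D.T) hx hy
      rwa [cuspLattice, Ideal.map_mul, Ideal.map_span, Set.image_singleton, map_natCast,
        mul_left_comm] at h
    · have h := MoveData.mul_c_mem (T := D.T) hy hx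
      rw [cuspLattice, mul_assoc] at h
      rwa [mul_comm (D.T.c x)]
  have e1 : expM D.T.Φ (k * S.e j * Algebra.trace M L (x * D.T.c y)) = 1 := by
    refine D.T.expM_eq_one_of_mem ?_
    rw [map_mul, D.T.algebraMap_trace, map_mul D.T.c, D.T.c_c]
    exact hw _ h2
  have e2 : expM D.T.Φ (k * S.e j * Algebra.norm M y) = 1 := by
    refine D.T.expM_eq_one_of_mem ?_
    rw [map_mul, D.T.algebraMap_norm]
    exact hw _ h1
  rw [cuspFun, cuspFun, hchi, D.T.norm_add_eq, mul_add, mul_add, expM_add, expM_add, e1, e2,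
    mul_one, mul_one]

/-- The theta series at a general cusp. -/
theorem theta_cusp {D₀ k : M} (hD₀ : D₀ ≠ 0) {m : ℕ} (hm : m ≠ 0) (hms : D.s ∣ m)
    (hmk : (m : M) * k ∈ Y) {C : κ → ℂ}
    (hC : ∀ j, D.T.IsPoissonConst (S.e j * D₀) (D.cuspLattice S m j) (C j))
    (s : ι → ℝ) {P Q : ι → H3}
    (hz : ∀ i, (P i).z = D.T.Φ.emb i D₀ * (inv3 (Q i)).z + D.T.Φ.emb i k)
    (ht : ∀ i, (P i).t = ‖D.T.Φ.emb i D₀‖ * (inv3 (Q i)).t) :
    D.theta S s P = (∏ i, (‖D.T.Φ.emb i D₀‖ : ℂ)) * ∑ j, (D.ψ (S.A j))⁻¹ * (C j *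
      ∑' η : D.T.dualSet (S.e j * D₀) (idealSet (D.cuspLattice S m j)),
        D.cuspCoeff S D₀ k m j η * D.T.kernL (S.e j * D₀) η s Q) := by
  rw [theta, Finset.mul_sum]
  refine Finset.sum_congr rfl fun j _ => ?_
  have he := mul_ne_zero (S.pair j).2.1 hD₀
  have hfin := finite_idealSet_quot (A := S.A j) (D.cuspLattice_ne S hm j)
  have hsum : Summable fun x : idealSet (S.A j) =>
      ‖D.T.kernL (S.e j * D₀) x s (fun i => inv3 (Q i))‖ := by
    simpa using D.T.summable_kernL_idealSet he (S.pair j).1.1 0 s (fun i => inv3 (Q i))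
  have hsplit := tsum_eq_qsum (J := idealSet (S.A j)) (I := idealSet (D.cuspLattice S m j))
    (F := D.cuspFun S k j) (h := fun x => D.T.kernL (S.e j * D₀) x s (fun i => inv3 (Q i)))
    (idealSet_mono Ideal.mul_le_right) (D.cuspFun_periodic S hms hmk j) hsum
  have hdual := D.T.summable_kernL_dualSet he (D.cuspLattice_ne S hm j) s Q
  have hx : ∀ x : idealSet (S.A j), D.chiL x * D.T.kernL (S.e j) x s P =
      (∏ i, (‖D.T.Φ.emb i D₀‖ : ℂ)) * (D.cuspFun S k j x *
        D.T.kernL (S.e j * D₀) x s (fun i => inv3 (Q i))) := fun x => by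
    rw [D.T.kernL_affine (S.e j) x s (P := fun i => inv3 (Q i)) hz ht, cuspFun]
    ring
  rw [tsum_congr hx, tsum_mul_left, hsplit,
    qsum_congr (F' := fun r => C j * (D.cuspFun S k j r *
      ∑' η : D.T.dualSet (S.e j * D₀) (idealSet (D.cuspLattice S m j)),
        expM D.T.Φ (S.e j * D₀ * Algebra.trace M L (r * D.T.c η)) *
          D.T.kernL (S.e j * D₀) η s Q)) (fun r _ => by
      rw [hC j r s (fun i => inv3 (Q i))]
      simp only [inv3_inv3]
      ring),
    qsum_const_mul, MoveData.qsum_tsum_swap _ _ (D.cuspFun S k j)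
      (fun (η : D.T.dualSet (S.e j * D₀) (idealSet (D.cuspLattice S m j))) r =>
        expM D.T.Φ (S.e j * D₀ * Algebra.trace M L (r * D.T.c η)))
      (fun η => D.T.kernL (S.e j * D₀) η s Q) (fun η r => (norm_expM _ _).le) hdual]
  simp only [cuspCoeff]
  ring

/-- The constant terms cancel. -/
theorem sum_cuspCoeff_zero {D₀ k : M} (hD₀ : D₀ ≠ 0) {m : ℕ} (hm : m ≠ 0) (hms : D.s ∣ m)
    (hmk : (m : M) * k ∈ Y) {C : κ → ℂ}
    (hC : ∀ j, D.T.IsPoissonConst (S.e j * D₀) (D.cuspLattice S m j) (C j)) :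
    ∑ j, (D.ψ (S.A j))⁻¹ * (C j * D.cuspCoeff S D₀ k m j 0) = 0 := by
  have := D.T.finiteDimensional
  obtain ⟨Q, hQmax, hQ, hne⟩ := D.exists_aux m hm
  set cQ := Q.map (D.T.cO : 𝓞 L →+* 𝓞 L) with hcQdef
  have hQs : Cop D.s Q := ⟨hQ.1, top_le_iff.mp (hQ.2.symm.le.trans (sup_le_sup_left
    (Ideal.span_singleton_le_span_singleton.mpr (Nat.cast_dvd_cast ⟨m, mul_comm m D.s⟩)) _))⟩
  have hQm : Q ⊔ Ideal.span {(m : 𝓞 L)} = ⊤ := top_le_iff.mp (hQ.2.symm.le.trans (sup_le_sup_left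
    (Ideal.span_singleton_le_span_singleton.mpr (Nat.cast_dvd_cast ⟨D.s, rfl⟩)) _))
  have hcQm : cQ ⊔ Ideal.span {(m : 𝓞 L)} = ⊤ := by
    have h := congrArg (Ideal.map (D.T.cO : 𝓞 L →+* 𝓞 L)) hQm
    rwa [Ideal.map_sup, Ideal.map_span, Set.image_singleton, map_natCast, Ideal.map_top] at h
  have hcQ0 : cQ ≠ ⊥ := (D.cop_map_cO hQs).1
  have hNcQ : Ideal.absNorm cQ = Ideal.absNorm Q := by
    rw [← Ideal.absNorm_relNorm (R := 𝓞 M) (I := cQ), relNorm_conjI D.T Q,
      Ideal.absNorm_relNorm]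
  obtain ⟨σ, l, hl⟩ := D.exists_twist S hQs
  have hZ : ∀ j, (D.ψ (S.A j))⁻¹ * (C j * D.cuspCoeff S D₀ k m j 0) = D.ψ Q * D.ψ Q *
      ((D.ψ (S.A (σ j)))⁻¹ * (C (σ j) * D.cuspCoeff S D₀ k m (σ j) 0)) := by
    intro j
    obtain ⟨h0, h1, h2⟩ := hl j
    have hA := (S.pair j).1
    have hA' := (S.pair (σ j)).1
    -- constants
    have hnej : D.cuspLattice S m j * Q ≠ ⊥ := mul_ne_zero (D.cuspLattice_ne S hm j) hQ.1
    obtain ⟨C₁, hC₁⟩ := D.T.exists_isPoissonConst (mul_ne_zero (S.pair j).2.1 hD₀) hnej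
    have e1 := (hC j).eq_index_mul D.T (mul_ne_zero (S.pair j).2.1 hD₀)
      (D.cuspLattice_ne S hm j) hQ.1 hC₁
    have hprinc : princ L (l j) * ((D.cuspLattice S m (σ j) * cQ : Ideal (𝓞 L)) :
        FractionalIdeal (𝓞 L)⁰ L) =
        ((D.cuspLattice S m j * Q : Ideal (𝓞 L)) : FractionalIdeal (𝓞 L)⁰ L) := by
      rw [cuspLattice, cuspLattice, mul_assoc _ (S.A j), FractionalIdeal.coeIdeal_mul _ (S.A j * Q),
        ← h1]
      simp only [FractionalIdeal.coeIdeal_mul, hcQdef]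
      ring
    have hC₁' : D.T.IsPoissonConst (S.e (σ j) * D₀) (D.cuspLattice S m (σ j) * cQ) C₁ := by
      have h := hC₁.scale D.T h0 hprinc
      rwa [show S.e j * D₀ * Algebra.norm M (l j) = S.e (σ j) * D₀ by rw [h2]; ring] at h
    have e2 := (hC (σ j)).eq_index_mul D.T (mul_ne_zero (S.pair _).2.1 hD₀)
      (D.cuspLattice_ne S hm _) hcQ0 hC₁'
    rw [hNcQ, ← e1] at e2
    -- coefficients
    have hq : ∀ i, D.cuspCoeff S D₀ k m i 0 =
        qsum (idealSet (S.A i)) (idealSet (D.cuspLattice S m i)) (D.cuspFun S k i) := fun i =>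
      qsum_congr fun r _ => by simp [expM_zero]
    have hper := D.cuspFun_periodic S hms hmk
    have hq1 : (D.ψ (S.A j))⁻¹ * D.cuspCoeff S D₀ k m j 0 =
        D.ψ Q * D.ψ Q * ((D.ψ (S.A (σ j)))⁻¹ * D.cuspCoeff S D₀ k m (σ j) 0) := by
      have hle : idealSet (S.A j * Q) ≤ idealSet (S.A j) := idealSet_mono Ideal.mul_le_left
      have hperQ : PeriodicOn (idealSet (S.A j * Q))
          (idealSet (Ideal.span {(m : 𝓞 L)} * (S.A j * Q))) (D.cuspFun S k j) :=
        fun x hx y hy => hper j x (hle hx) y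
          (idealSet_mono (Ideal.mul_mono le_rfl Ideal.mul_le_left) hy)
      have hprincA : princ L (l j) * ((S.A (σ j) * cQ : Ideal (𝓞 L)) :
          FractionalIdeal (𝓞 L)⁰ L) = ((S.A j * Q : Ideal (𝓞 L)) : FractionalIdeal (𝓞 L)⁰ L) := by
        rw [← h1, mul_comm (S.A (σ j))]
      have hprincmA : princ L (l j) *
          ((Ideal.span {(m : 𝓞 L)} * (S.A (σ j) * cQ) : Ideal (𝓞 L)) :
            FractionalIdeal (𝓞 L)⁰ L) =
          ((Ideal.span {(m : 𝓞 L)} * (S.A j * Q) : Ideal (𝓞 L)) :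
            FractionalIdeal (𝓞 L)⁰ L) := by
        rw [FractionalIdeal.coeIdeal_mul _ (S.A j * Q), ← hprincA]
        simp only [FractionalIdeal.coeIdeal_mul]
        ring
      rw [hq, hq, cuspLattice, cuspLattice, qsum_restrict hQm (hper j),
        qsum_restrict hcQm (hper (σ j)),
        qsum_map (J' := idealSet (S.A (σ j) * cQ))
          (I' := idealSet (Ideal.span {(m : 𝓞 L)} * (S.A (σ j) * cQ))) hperQ
          (AddMonoidHom.mulLeft (l j))
          (fun y hy => (mem_idealSet_iff_of_princ h0 hprincA y).mpr hy)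
          (fun y _ => mem_idealSet_iff_of_princ h0 hprincmA y)
          (fun x hx => ⟨(l j)⁻¹ * x, (mem_idealSet_iff_of_princ h0 hprincA _).mp (by
            rwa [mul_inv_cancel_left₀ h0]), by simp [mul_inv_cancel_left₀ h0]⟩)]
      rw [← qsum_const_mul, ← qsum_const_mul, ← qsum_const_mul]
      refine qsum_congr fun y hy => ?_
      have hy' : y ∈ idealSet (cQ * S.A (σ j)) := by rwa [mul_comm]
      have hχ := D.psiC_twist hA hA' hQs h0 h1 hy'
      simp only [AddMonoidHom.coe_mulLeft, cuspFun]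
      rw [← mul_assoc, hχ, show k * S.e j * Algebra.norm M (l j * y) =
        k * S.e (σ j) * Algebra.norm M y by rw [h2, map_mul]; ring]
      ring
    calc _ = C j * ((D.ψ (S.A j))⁻¹ * D.cuspCoeff S D₀ k m j 0) := by ring
      _ = _ := by rw [hq1, e2]; ring
  have h : ∑ j, (D.ψ (S.A j))⁻¹ * (C j * D.cuspCoeff S D₀ k m j 0) =
      D.ψ Q * D.ψ Q * ∑ j, (D.ψ (S.A j))⁻¹ * (C j * D.cuspCoeff S D₀ k m j 0) := by
    conv_rhs => rw [← σ.sum_comp, Finset.mul_sum]
    exact Finset.sum_congr rfl fun j _ => hZ j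
  by_contra hz
  exact hne (mul_right_cancel₀ hz (h.symm.trans (one_mul _).symm))

end SeedSys

end FLTAgent.LanglandsTunnell.Seed

end
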