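import Fermat.Agent.LanglandsTunnell.Seed.Expansion
import Fermat.Agent.LanglandsTunnell.Seed.Mean

/-!
# The expansions of the form at the cusps

The series has an expansion at infinity (`hasExpansion_series`) and at a finite cusp
(`hasExpansion_cusp`, via the theta series there); hence every translate by `GL₂(M)` has one
(`hasExpansion_form_smul`).
-/

set_option autoImplicit false

open NumberField Complex MeasureTheory
open scoped Real nonZeroDivisors

noncomputable section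

namespace FLTAgent.LanglandsTunnell.Seed

open FLTAgent.LanglandsTunnell

variable {M L ι : Type} [Field M] [NumberField M] [Field L] [NumberField L] [Algebra M L]
  [Fintype ι]

theorem smul_upper (g : GL (Fin 2) ℂ) (hc : g.val 1 0 = 0) (P : H3) :
    (g • P).z = g.val 0 0 / g.val 1 1 * P.z + g.val 0 1 / g.val 1 1 ∧
      (g • P).t = ‖g.val 0 0 / g.val 1 1‖ * P.t := by
  have hd : g.val 1 1 ≠ 0 := (H3.row_ne_zero g).resolve_left (not_not.mpr hc)
  have hd' : (starRingEnd ℂ) (g.val 1 1) ≠ 0 := (map_ne_zero _).mpr hd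
  refine ⟨?_, ?_⟩
  · rw [H3.smul_z, H3.ofReal_denom]
    simp only [hc, zero_mul, zero_add, map_zero, mul_zero, add_zero]
    field_simp
  · rw [H3.smul_t, H3.denom, Matrix.det_fin_two]
    simp only [hc, zero_mul, mul_zero, sub_zero, zero_add, map_zero, add_zero,
      Complex.normSq_eq_norm_sq, norm_mul, norm_div]
    have := norm_pos_iff.mpr hd
    field_simp

theorem smul_lower (g : GL (Fin 2) ℂ) (hc : g.val 1 0 ≠ 0) (P : H3) :
    (g • P).z = g.val.det / g.val 1 0 ^ 2 * (inv3 (H3.shift (g.val 1 1 / g.val 1 0) P)).z +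
        g.val 0 0 / g.val 1 0 ∧
      (g • P).t = ‖g.val.det / g.val 1 0 ^ 2‖ *
        (inv3 (H3.shift (g.val 1 1 / g.val 1 0) P)).t := by
  rw [H3.smul_z, H3.smul_t, Matrix.det_fin_two]
  set a := g.val 0 0
  set b := g.val 0 1
  set c := g.val 1 0
  set d := g.val 1 1
  set w := P.z + d / c with hw
  have hP := P.t_pos
  have hN : (0 : ℝ) < ‖w‖ ^ 2 + P.t ^ 2 := by positivity
  have h1 : c * P.z + d = c * w := by rw [hw, mul_add, mul_div_cancel₀ _ hc]
  have h2 : a * P.z + b = a * w - (a * d - b * c) / c := by rw [hw]; field_simp; ring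
  have hden : H3.denom g P = ‖c‖ ^ 2 * (‖w‖ ^ 2 + P.t ^ 2) := by
    rw [H3.denom, h1, Complex.normSq_eq_norm_sq, Complex.normSq_eq_norm_sq, norm_mul]
    ring
  refine ⟨?_, ?_⟩
  · rw [hden, h1, h2, map_mul]
    simp only [inv3, H3.shift, ← hw]
    have hcc : (starRingEnd ℂ) c ≠ 0 := (map_ne_zero _).mpr hc
    have hcast : ((‖c‖ ^ 2 : ℝ) : ℂ) = (starRingEnd ℂ) c * c := by
      rw [← Complex.normSq_eq_norm_sq, Complex.normSq_eq_conj_mul_self]
    have hwcast : ((‖w‖ ^ 2 + P.t ^ 2 : ℝ) : ℂ) = (starRingEnd ℂ) w * w + (P.t : ℂ) ^ 2 := by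
      rw [Complex.ofReal_add, ← Complex.normSq_eq_norm_sq, Complex.normSq_eq_conj_mul_self,
        Complex.ofReal_pow]
    have hN' : (starRingEnd ℂ) w * w + (P.t : ℂ) ^ 2 ≠ 0 :=
      hwcast ▸ Complex.ofReal_ne_zero.mpr hN.ne'
    rw [Complex.ofReal_mul, hcast, hwcast]
    have hN'' : w * (starRingEnd ℂ) w + (P.t : ℂ) ^ 2 ≠ 0 := by rwa [mul_comm w]
    field_simp
    ring
  · rw [hden]
    simp only [inv3, H3.shift, ← hw, norm_div, norm_pow]
    field_simp

theorem exists_nat_mul_integral {K : Type} [Field K] [NumberField K] (s : Finset K) :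
    ∃ d : ℕ, d ≠ 0 ∧ ∀ x ∈ s, IsIntegral ℤ ((d : K) * x) := by
  obtain ⟨y, hy, hint⟩ := exists_integral_multiples ℤ ℚ s
  refine ⟨y.natAbs, Int.natAbs_ne_zero.mpr hy, fun x hx => ?_⟩
  have h := hint x hx
  rw [zsmul_eq_mul] at h
  rcases Int.natAbs_eq y with e | e
  · rw [e, Int.cast_natCast] at h
    exact h
  · rw [e, Int.cast_neg, Int.cast_natCast, neg_mul] at h
    simpa using h.neg

theorem exists_trace_int {m : M} (h : IsIntegral ℤ m) : ∃ k : ℤ, Algebra.trace ℚ M m = k := by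
  obtain ⟨k, hk⟩ := IsIntegrallyClosed.isIntegral_iff.mp (Algebra.isIntegral_trace (L := ℚ) h)
  exact ⟨k, by rw [← hk]; simp⟩

theorem exists_nat_mem {Y : FractionalIdeal (𝓞 M)⁰ M} (hY : Y ≠ 0) :
    ∃ n : ℕ, n ≠ 0 ∧ (n : M) ∈ Y := by
  obtain ⟨a, I, ha, rfl⟩ := FractionalIdeal.exists_eq_spanSingleton_mul Y
  have hI : I ≠ ⊥ := by
    rintro rfl
    simp at hY
  refine ⟨Ideal.absNorm I, fun h => hI (Ideal.absNorm_eq_zero_iff.mp h), ?_⟩
  refine FractionalIdeal.mem_singleton_mul.mpr ⟨algebraMap (𝓞 M) M a * (Ideal.absNorm I : M),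
    ?_, by rw [inv_mul_cancel_left₀ ((map_ne_zero_iff _ (IsFractionRing.injective _ _)).mpr ha)]⟩
  exact (FractionalIdeal.mem_coeIdeal _).mpr
    ⟨a * (Ideal.absNorm I : 𝓞 M), Ideal.mul_mem_left _ _ (Ideal.absNorm_mem I), by simp⟩

theorem norm_qsum_le {G : Type} [AddCommGroup G] {J I : AddSubgroup G}
    [Finite (J ⧸ I.addSubgroupOf J)] {F : G → ℂ} (hF : ∀ x, ‖F x‖ ≤ 1) :
    ‖qsum J I F‖ ≤ Nat.card (J ⧸ I.addSubgroupOf J) := by
  have := Fintype.ofFinite (J ⧸ I.addSubgroupOf J)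
  rw [qsum, finsum_eq_sum_of_fintype]
  refine (norm_sum_le _ _).trans ((Finset.sum_le_sum fun q _ => hF _).trans ?_)
  simp [Nat.card_eq_fintype_card]

namespace Setting

variable (T : Setting M L ι)

include T

theorem kernL_shift (e : M) (η : L) (s : ι → ℝ) (X : ι → ℂ) (P : ι → H3) :
    T.kernL e η s (fun i => H3.shift (X i) (P i)) =
      echar T.Φ (e * Algebra.norm M η) X * T.kernL e η s P := by
  rw [echar_eq_prod, kernL, kernV, kernL, kernV, ← Finset.prod_mul_distrib]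
  refine Finset.prod_congr rfl fun i _ => ?_
  rw [kern_affine (T.Φ.emb i e) (D := 1) (κ := X i) (T.vec η i) (s i) (P := P i)
    (by simp [H3.shift]) (by simp [H3.shift]), norm_one, Complex.ofReal_one, one_mul, mul_one,
    map_mul, T.emb_norm, vec_apply, ← mul_assoc (T.Φ.emb i e)]

theorem exists_denom_dualSet {e : M} (he : e ≠ 0) {A : Ideal (𝓞 L)} (hA : A ≠ ⊥) :
    ∃ d : ℕ, d ≠ 0 ∧ ∀ η ∈ T.dualSet e (idealSet A), IsIntegral ℤ ((d : L) * η) := by
  classical
  obtain ⟨κ, _, b, hb⟩ := exists_basis_idealSet hA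
  obtain ⟨b', hdual⟩ := T.exists_dual he b
  obtain ⟨d, hd, hint⟩ := exists_nat_mul_integral (Finset.univ.image b')
  refine ⟨d, hd, fun η hη => ?_⟩
  obtain ⟨m, rfl⟩ := (T.mem_dualSet_iff_comb hb hdual η).mp hη
  rw [comb, Finset.mul_sum]
  refine IsIntegral.sum _ fun j _ => ?_
  rw [Rat.smul_def, Rat.cast_intCast, mul_left_comm]
  exact (isIntegral_algebraMap (R := ℤ) (x := m j)).mul
    (hint _ (Finset.mem_image_of_mem _ (Finset.mem_univ j)))

theorem countable_dualSet {e : M} (he : e ≠ 0) {A : Ideal (𝓞 L)} (hA : A ≠ ⊥) :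
    Countable (T.dualSet e (idealSet A)) := by
  classical
  obtain ⟨κ, _, b, hb⟩ := exists_basis_idealSet hA
  obtain ⟨b', hdual⟩ := T.exists_dual he b
  exact Countable.of_equiv _ (T.combEquiv (T.mem_dualSet_iff_comb hb hdual))

end Setting

namespace SeedSys

variable (D : SeedSys M L ι) {Y : FractionalIdeal (𝓞 M)⁰ M}

/-- The expansion at infinity. -/
theorem hasExpansion_series (hY : Y ≠ 0) : HasExpansion D.T.Φ (D.series Y) := by
  obtain ⟨n₀, hn₀, hnY⟩ := exists_nat_mem hY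
  refine ⟨D.Term Y, fun t P => D.ψ t.1.1 * D.termW t.1.2 P, fun t => t.1.2, n₀, hn₀, fun t a => ?_,
    fun t X P => ?_, fun t ht => absurd ht t.2.2.1, fun t => ?_, fun c₀ hc₀ => ?_, fun P => rfl⟩
  · refine (expM_eq_one_iff D.T.Φ _).mp ?_
    rw [show (n₀ : M) * t.1.2 * a = t.1.2 * ((a : M) * n₀) by ring]
    refine D.expM_mul_eq_one t.2 ?_
    rw [← FractionalIdeal.mem_coe] at hnY ⊢
    simpa [Algebra.smul_def] using Submodule.smul_mem _ a hnY
  · simp only [termW, echar_eq_prod]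
    rw [mul_left_comm, ← Finset.prod_mul_distrib]
    congr 1
    refine Finset.prod_congr rfl fun i _ => ?_
    rw [wfun_affine (D.T.Φ.emb i t.1.2) (D := 1) (κ := X i) (P := P i) (by simp [H3.shift])
      (by simp [H3.shift]), norm_one, Complex.ofReal_one, one_mul, mul_one]
  · exact continuous_const.mul (continuous_finsetProd _ fun i _ =>
      (continuous_wfun (D.T.emb_ne_zero t.2.2.1 i)).comp (continuous_apply i))
  · obtain ⟨U, hU, hb⟩ := D.exists_termW_bound Y hc₀
    exact ⟨U, hU, fun t P hP => by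
      rw [norm_mul, D.norm_psi _ t.2.1, one_mul]; exact hb t P hP⟩

theorem continuous_integral_kernL (e : M) (η : L) :
    Continuous fun P : ι → H3 => ∫ s, (D.wt.w s : ℂ) * D.T.kernL e η s P := by
  have hsupp : ∀ P : ι → H3, ∫ s, (D.wt.w s : ℂ) * D.T.kernL e η s P =
      ∫ s in Metric.closedBall 0 D.wt.R, (D.wt.w s : ℂ) * D.T.kernL e η s P := fun P => by
    refine (setIntegral_eq_integral_of_forall_compl_eq_zero fun s hs => ?_).symm
    by_contra h
    exact hs (mem_closedBall_zero_iff.mpr (D.wt.supp s fun h0 => h (by simp [h0])))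
  simp only [hsupp]
  refine continuous_parametric_integral_of_continuous ?_ (isCompact_closedBall _ _)
  exact ((Complex.continuous_ofReal.comp D.wt.cont).comp continuous_snd).mul
    ((D.T.continuous_kernL e η).comp (continuous_snd.prodMk continuous_fst))

theorem norm_cuspCoeff_le {κ : Type} [Fintype κ] (S : D.System Y κ) (D₀ k : M) {m : ℕ}
    (hm : m ≠ 0) (j : κ) (η : L) :
    ‖D.cuspCoeff S D₀ k m j η‖ ≤ (Nat.card (idealSet (S.A j) ⧸
      (idealSet (D.cuspLattice S m j)).addSubgroupOf (idealSet (S.A j))) : ℝ) := by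
  have := finite_idealSet_quot (A := S.A j) (D.cuspLattice_ne S hm j)
  refine norm_qsum_le fun r => ?_
  rw [norm_mul, cuspFun, norm_mul, norm_expM, norm_expM, mul_one, mul_one]
  exact D.norm_chiL_le r

/-- The expansion at a finite cusp. -/
theorem hasExpansion_cusp (hY : Y ≠ 0) {D₀ k : M} (hD₀ : D₀ ≠ 0) {g : (ι → H3) → (ι → H3)}
    (hz : ∀ Q i, (g Q i).z = D.T.Φ.emb i D₀ * (inv3 (Q i)).z + D.T.Φ.emb i k)
    (ht : ∀ Q i, (g Q i).t = ‖D.T.Φ.emb i D₀‖ * (inv3 (Q i)).t) :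
    HasExpansion D.T.Φ fun Q => D.series Y (g Q) := by
  classical
  have := D.T.finiteDimensional
  obtain ⟨κ, _, ⟨S⟩⟩ := D.exists_system Y
  obtain ⟨n₀, hn₀, hnY⟩ := exists_nat_mem hY
  obtain ⟨d₀, hd₀, hdk⟩ := exists_nat_mul_integral ({k} : Finset M)
  set m := D.s * (n₀ * d₀) with hm_def
  have hm : m ≠ 0 := mul_ne_zero D.s_ne (mul_ne_zero hn₀ hd₀)
  have hms : D.s ∣ m := dvd_mul_right _ _
  have hmk : (m : M) * k ∈ Y := by
    rw [← FractionalIdeal.mem_coe] at hnY ⊢
    obtain ⟨w, hw⟩ : ∃ w : 𝓞 M, algebraMap (𝓞 M) M w = (d₀ : M) * k :=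
      ⟨⟨_, hdk k (Finset.mem_singleton_self k)⟩, rfl⟩
    have h := Submodule.smul_mem _ ((D.s : 𝓞 M) * w) hnY
    rw [Algebra.smul_def, map_mul, map_natCast, hw] at h
    rw [show (m : M) * k = (D.s : M) * ((d₀ : M) * k) * n₀ by rw [hm_def]; push_cast; ring]
    exact h
  set e : κ → M := fun j => S.e j * D₀ with he_def
  have he : ∀ j, e j ≠ 0 := fun j => mul_ne_zero (S.pair j).2.1 hD₀
  choose C hC using fun j => D.T.exists_isPoissonConst (he j) (D.cuspLattice_ne S hm j)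
  set Λ := fun j => D.T.dualSet (e j) (idealSet (D.cuspLattice S m j)) with hΛ
  have hcnt : ∀ j, Countable (Λ j) := fun j =>
    D.T.countable_dualSet (he j) (D.cuspLattice_ne S hm j)
  choose d hd hdint using fun j => D.T.exists_denom_dualSet (he j) (D.cuspLattice_ne S hm j)
  choose q hq hqint using fun j => exists_nat_mul_integral ({e j} : Finset M)
  set P₀ : ℂ := ∏ i, (‖D.T.Φ.emb i D₀‖ : ℂ) with hP₀
  set a : ∀ j, L → ℂ := fun j η =>
    P₀ * ((D.ψ (S.A j))⁻¹ * (C j * D.cuspCoeff S D₀ k m j η)) with ha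
  obtain ⟨K, hK⟩ : ∃ K : κ → ℕ, ∀ j η, ‖D.cuspCoeff S D₀ k m j η‖ ≤ K j :=
    ⟨_, fun j η => D.norm_cuspCoeff_le S D₀ k hm j η⟩
  have hnorm : ∀ j η, ‖a j η‖ ≤ ‖P₀‖ * (‖C j‖ * K j) := fun j η => by
    simp only [ha, norm_mul, norm_inv, D.norm_psi _ (S.pair j).1, inv_one, one_mul]
    exact mul_le_mul_of_nonneg_left (mul_le_mul_of_nonneg_left (hK j η) (norm_nonneg _))
      (norm_nonneg _)
  let N : Type := Σ j, {η : Λ j // (η : L) ≠ 0}
  set term : N → (ι → ℝ) → (ι → H3) → ℂ := fun ν s Q =>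
    a ν.1 ν.2.1 * D.T.kernL (e ν.1) ν.2.1 s Q with hterm
  -- uniform domination
  have hdom : ∀ (R c₀ : ℝ), 0 < c₀ → ∃ u : N → ℝ, Summable u ∧ ∀ ν s, ‖s‖ ≤ R →
      ∀ Q : ι → H3, (∀ i, c₀ ≤ (Q i).t) → ‖term ν s Q‖ ≤ u ν := by
    intro R c₀ hc₀
    choose u hu hu0 hb using fun j => D.T.exists_bound_set (he j) R hc₀
      (g := fun η : Λ j => (η : L)) Subtype.val_injective (hd j) (fun η => hdint j η η.2)
    have hB : ∀ j, 0 ≤ ‖P₀‖ * (‖C j‖ * (K j : ℝ)) := fun j =>
      mul_nonneg (norm_nonneg _) (mul_nonneg (norm_nonneg _) (Nat.cast_nonneg _))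
    refine ⟨fun ν : N => ‖P₀‖ * (‖C ν.1‖ * (K ν.1 : ℝ)) * u ν.1 ν.2.1, ?_, fun ν s hs Q hQ => ?_⟩
    · have hnn : ∀ ν : N, 0 ≤ ‖P₀‖ * (‖C ν.1‖ * (K ν.1 : ℝ)) * u ν.1 ν.2.1 :=
        fun ν => mul_nonneg (hB _) (hu0 _ _)
      refine (summable_sigma_of_nonneg hnn).mpr ⟨fun j => ?_, Summable.of_finite⟩
      exact ((hu j).comp_injective Subtype.val_injective).mul_left (‖P₀‖ * (‖C j‖ * (K j : ℝ)))
    · obtain ⟨j, η, hη⟩ := ν
      simp only [hterm, norm_mul]
      exact mul_le_mul (hnorm j η) (hb j η hη s hs Q hQ) (norm_nonneg _) (hB j)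
  -- the theta series
  have htheta : ∀ s Q, D.theta S s (g Q) = ∑' ν : N, term ν s Q := by
    intro s Q
    obtain ⟨c₀, hc₀, hQ⟩ := exists_height_bound Q
    obtain ⟨u, hu, hb⟩ := hdom ‖s‖ c₀ hc₀
    have hsum : Summable fun ν : N => term ν s Q :=
      Summable.of_norm_bounded hu fun ν => hb ν s le_rfl Q fun i => (hQ i).le
    rw [D.theta_cusp S hD₀ hm hms hmk hC s (P := g Q) (Q := Q) (hz Q) (ht Q), hsum.tsum_sigma,
      tsum_fintype, ← sub_eq_zero, Finset.mul_sum, ← Finset.sum_sub_distrib]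
    have hzero : ∑ j, a j 0 * D.T.kernL (e j) 0 s Q = 0 := by
      simp only [ha, D.kernL_zero, ← Finset.sum_mul, ← Finset.mul_sum,
        D.sum_cuspCoeff_zero S hD₀ hm hms hmk hC, mul_zero, zero_mul]
    refine Eq.trans (Finset.sum_congr rfl fun j _ => ?_) hzero
    have hs' : Summable fun η : Λ j => a j η * D.T.kernL (e j) η s Q := by
      refine Summable.of_norm_bounded
        ((D.T.summable_kernL_dualSet (he j) (D.cuspLattice_ne S hm j) s Q).mul_left
          (‖P₀‖ * (‖C j‖ * (K j : ℝ)))) fun η => ?_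
      rw [norm_mul]
      exact mul_le_mul_of_nonneg_right (hnorm j η) (norm_nonneg _)
    rw [show P₀ * ((D.ψ (S.A j))⁻¹ * (C j * ∑' η : Λ j,
        D.cuspCoeff S D₀ k m j η * D.T.kernL (e j) η s Q)) =
      ∑' η : Λ j, a j η * D.T.kernL (e j) η s Q by
      simp only [ha, ← tsum_mul_left]
      exact tsum_congr fun η => by ring,
      hs'.tsum_eq_add_tsum_ite (0 : Λ j)]
    rw [← Subtype.val_injective.tsum_eq (g := Subtype.val) (f := fun η : Λ j =>
      if η = 0 then 0 else a j η * D.T.kernL (e j) η s Q) (fun η hη => ?_)]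
    · simp only [hterm]
      rw [tsum_congr fun η : {η : Λ j // (η : L) ≠ 0} =>
        if_neg fun h => η.2 (by rw [h]; rfl)]
      simp
    · rw [Function.mem_support] at hη
      split_ifs at hη with h
      · exact absurd rfl hη
      · exact ⟨⟨η, fun h0 => h (Subtype.ext h0)⟩, rfl⟩
  obtain ⟨M0, hM0, hMint⟩ : ∃ M0 : ℕ, M0 ≠ 0 ∧
      ∀ ν : N, IsIntegral ℤ ((M0 : M) * (e ν.1 * Algebra.norm M (ν.2.1 : L))) := by
    refine ⟨∏ j, q j * (d j * d j),
      Finset.prod_ne_zero_iff.mpr fun j _ => mul_ne_zero (hq j) (mul_ne_zero (hd j) (hd j)),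
      fun ν => ?_⟩
    obtain ⟨j, η, hη⟩ := ν
    obtain ⟨r, hr⟩ := Finset.dvd_prod_of_mem (fun j => q j * (d j * d j)) (Finset.mem_univ j)
    have hN : Algebra.norm M ((d j : L) * (η : L)) =
        (d j : M) * (d j : M) * Algebra.norm M (η : L) := by
      rw [map_mul, ← map_natCast (algebraMap M L), Algebra.norm_algebraMap, D.T.finrank_eq, sq]
    rw [hr, show (((q j * (d j * d j) * r : ℕ)) : M) * (e j * Algebra.norm M (η : L)) =
      (r : M) * (((q j : M) * e j) * Algebra.norm M ((d j : L) * (η : L))) by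
      rw [hN]; push_cast; ring]
    exact (isIntegral_algebraMap (R := ℤ) (x := (r : ℤ))).mul
      ((hqint j _ (Finset.mem_singleton_self _)).mul
      (Algebra.isIntegral_norm M (hdint j η η.2))) |> fun h => by simpa using h
  refine ⟨N, fun ν Q => ∫ s, (D.wt.w s : ℂ) * term ν s Q,
    fun ν => e ν.1 * Algebra.norm M (ν.2.1 : L), M0, hM0, fun ν x => ?_, fun ν X Q => ?_,
    fun ν hν => absurd hν (mul_ne_zero (he _) (Algebra.norm_ne_zero_iff.mpr ν.2.2)), fun ν => ?_,
    fun c₀ hc₀ => ?_, fun Q => ?_⟩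
  · exact exists_trace_int ((hMint ν).mul (RingOfIntegers.isIntegral_coe x))
  · rw [← integral_const_mul]
    refine integral_congr_ae (Filter.Eventually.of_forall fun s => ?_)
    simp only [hterm, D.T.kernL_shift]
    ring
  · simp only [hterm, mul_left_comm _ (a _ _), integral_const_mul]
    exact continuous_const.mul (D.continuous_integral_kernL _ _)
  · obtain ⟨u, hu, hb⟩ := hdom D.wt.R c₀ hc₀
    refine ⟨fun ν => (∫ s, |D.wt.w s|) * u ν, hu.mul_left _, fun ν Q hQ => ?_⟩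
    simp only
    rw [← integral_mul_const]
    exact norm_integral_le_of_norm_le (D.integrable_wt.mul_const _)
      (Filter.Eventually.of_forall fun s => D.norm_wt_mul_le s fun hs => hb ν s hs Q hQ)
  · have : Countable κ := Finite.to_countable
    have : Countable N := inferInstanceAs (Countable (Σ j, {η : Λ j // (η : L) ≠ 0}))
    obtain ⟨c₀, hc₀, hQ⟩ := exists_height_bound Q
    obtain ⟨u, hu, hb⟩ := hdom D.wt.R c₀ hc₀
    have hcont : ∀ ν : N, Continuous fun s => term ν s Q := fun ν =>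
      continuous_const.mul (D.continuous_kernL_left _ _ Q)
    simp only [D.series_eq_integral S, htheta, ← tsum_mul_left]
    rw [integral_tsum_of_summable_integral_norm
      (fun ν => D.integrable_wt_mul (hcont ν))
      (Summable.of_nonneg_of_le (fun ν => integral_nonneg fun s => norm_nonneg _) (fun ν => ?_)
        (hu.mul_left (∫ s, |D.wt.w s|)))]
    · rw [← integral_mul_const]
      exact integral_mono (D.integrable_wt_mul (hcont ν)).norm (D.integrable_wt.mul_const _)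
        fun s => D.norm_wt_mul_le s fun hs => hb ν s hs Q fun i => (hQ i).le

/-- Every translate of the form has an expansion. -/
theorem hasExpansion_form_smul (hY : Y ≠ 0) (γ : GL (Fin 2) M) :
    HasExpansion D.T.Φ fun P : ι → H3 =>
      D.form Y (fun i => Matrix.GeneralLinearGroup.map (D.T.Φ.emb i) γ • P i) := by
  have hdet : γ.val.det ≠ 0 := γ.det_ne_zero
  set G := fun i => Matrix.GeneralLinearGroup.map (D.T.Φ.emb i) γ with hG
  have hval : ∀ i r r', (G i).val r r' = D.T.Φ.emb i (γ.val r r') := fun i r r' => rfl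
  refine (HasExpansion.congr ?_ (g := fun P => D.series Y (fun i => G i • P i))
    fun _ => rfl).const_mul _
  rcases eq_or_ne (γ.val 1 0) 0 with hc | hc
  · rw [Matrix.det_fin_two, hc, mul_zero, sub_zero] at hdet
    refine (D.hasExpansion_series hY).comp_affine
      (div_ne_zero (left_ne_zero_of_mul hdet) (right_ne_zero_of_mul hdet))
      (fun i => D.T.Φ.emb i (γ.val 0 1 / γ.val 1 1)) (fun P i => ?_) fun P i => ?_
    · rw [(smul_upper (G i) (by rw [hval, hc, map_zero]) (P i)).1]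
      simp only [hval, map_div₀]
    · rw [(smul_upper (G i) (by rw [hval, hc, map_zero]) (P i)).2]
      simp only [hval, map_div₀]
  · have hD₀ : γ.val.det / γ.val 1 0 ^ 2 ≠ 0 := div_ne_zero hdet (pow_ne_zero 2 hc)
    set g : (ι → H3) → (ι → H3) := fun Q i =>
      ⟨D.T.Φ.emb i (γ.val.det / γ.val 1 0 ^ 2) * (inv3 (Q i)).z +
          D.T.Φ.emb i (γ.val 0 0 / γ.val 1 0),
        ‖D.T.Φ.emb i (γ.val.det / γ.val 1 0 ^ 2)‖ * (inv3 (Q i)).t,
        mul_pos (norm_pos_iff.mpr (D.T.emb_ne_zero hD₀ i)) (inv3 (Q i)).t_pos⟩ with hg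
    refine HasExpansion.congr ((D.hasExpansion_cusp hY hD₀ (g := g) (fun _ _ => rfl)
      fun _ _ => rfl).comp_affine one_ne_zero (fun i => D.T.Φ.emb i (γ.val 1 1 / γ.val 1 0))
      (g := fun P i => H3.shift (D.T.Φ.emb i (γ.val 1 1 / γ.val 1 0)) (P i))
      (fun P i => by simp [H3.shift]) fun P i => by simp [H3.shift]) fun P => ?_
    refine congrArg (D.series Y) (funext fun i => ?_)
    obtain ⟨h1, h2⟩ := smul_lower (G i) (by rw [hval]; exact (map_ne_zero _).mpr hc) (P i)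
    have hdG : (G i).val.det = D.T.Φ.emb i γ.val.det := ((D.T.Φ.emb i).map_det γ.val).symm
    ext
    · rw [h1]; simp only [hg, hdG, hval, map_div₀, map_pow]
    · rw [h2]; simp only [hg, hdG, hval, map_div₀, map_pow]

end SeedSys

end FLTAgent.LanglandsTunnell.Seed

end
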