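import Fermat.Agent.LanglandsTunnell.Basic
import Mathlib.RingTheory.Trace.Basic
import Mathlib.RingTheory.Norm.Transitivity
import Mathlib.FieldTheory.Galois.Basic

/-!
# A totally complex quadratic extension with its places

`Setting` bundles `L/M` with conjugation `c` and one embedding over each chosen embedding of `M`.
It provides the coordinate map `vec` and the character `expM` with its triviality criterion
(`expM_eq_one_iff`).
-/

set_option autoImplicit false
set_option linter.unusedSectionVars false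

open NumberField Complex
open scoped Real ComplexConjugate

noncomputable section

namespace FLTAgent.LanglandsTunnell.Seed

open FLTAgent.LanglandsTunnell

variable (M L ι : Type) [Field M] [NumberField M] [Field L] [NumberField L] [Algebra M L]
  [Fintype ι]

/-- The quadratic extension with one embedding of `L` over each chosen embedding of `M`. -/
structure Setting : Type where
  Φ : PlaceChoice M ι
  τ : ι → (L →+* ℂ)
  τ_ext : ∀ i, (τ i).comp (algebraMap M L) = Φ.emb i
  c : L ≃ₐ[M] L
  c_ne : c ≠ 1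
  finrank_eq : Module.finrank M L = 2

namespace Setting

variable {M L ι} (T : Setting M L ι)

include T

theorem finiteDimensional : FiniteDimensional M L :=
  FiniteDimensional.of_finrank_pos (by rw [T.finrank_eq]; exact Nat.two_pos)

theorem card_aut : Nat.card (L ≃ₐ[M] L) = 2 := by
  have := T.finiteDimensional
  refine le_antisymm ?_ ?_
  · rw [Nat.card_eq_fintype_card, ← T.finrank_eq]
    exact AlgEquiv.card_le
  · exact Finite.one_lt_card_iff_nontrivial.mpr ⟨_, _, T.c_ne⟩

theorem isGalois : IsGalois M L := by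
  have := T.finiteDimensional
  exact IsGalois.of_card_aut_eq_finrank M L (by rw [T.card_aut, T.finrank_eq])

theorem univ_aut [DecidableEq (L ≃ₐ[M] L)] [Fintype (L ≃ₐ[M] L)] :
    (Finset.univ : Finset (L ≃ₐ[M] L)) = {1, T.c} := by
  refine (Finset.eq_univ_of_card _ ?_).symm
  rw [Finset.card_pair T.c_ne.symm, ← Nat.card_eq_fintype_card, T.card_aut]

theorem c_c (x : L) : T.c (T.c x) = x := by
  have h : T.c * T.c = 1 := by
    have h2 := pow_card_eq_one' (G := L ≃ₐ[M] L) (x := T.c)
    rw [T.card_aut, sq] at h2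
    exact h2
  exact DFunLike.congr_fun h x

theorem algebraMap_trace (x : L) :
    algebraMap M L (Algebra.trace M L x) = x + T.c x := by
  classical
  have := T.finiteDimensional
  have := T.isGalois
  rw [trace_eq_sum_automorphisms, T.univ_aut, Finset.sum_pair T.c_ne.symm]
  rfl

theorem algebraMap_norm (x : L) :
    algebraMap M L (Algebra.norm M x) = x * T.c x := by
  classical
  have := T.finiteDimensional
  have := T.isGalois
  rw [Algebra.norm_eq_prod_automorphisms, T.univ_aut, Finset.prod_pair T.c_ne.symm]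
  rfl

theorem emb_apply (i : ι) (m : M) : T.Φ.emb i m = T.τ i (algebraMap M L m) := by
  rw [← T.τ_ext i]; rfl

theorem emb_norm (i : ι) (x : L) : T.Φ.emb i (Algebra.norm M x) = T.τ i x * T.τ i (T.c x) := by
  rw [T.emb_apply, T.algebraMap_norm, map_mul]

theorem emb_trace (i : ι) (x : L) : T.Φ.emb i (Algebra.trace M L x) = T.τ i x + T.τ i (T.c x) := by
  rw [T.emb_apply, T.algebraMap_trace, map_add]

/-- The coordinates of an element of `L`. -/
def vec : L →+ (ι → ℂ × ℂ) where
  toFun x i := (T.τ i x, T.τ i (T.c x))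
  map_zero' := by funext i; simp
  map_add' x y := by funext i; simp

theorem vec_apply (x : L) (i : ι) : T.vec x i = (T.τ i x, T.τ i (T.c x)) := rfl

theorem vec_ne_zero {x : L} (hx : x ≠ 0) (i : ι) : (T.vec x i).1 ≠ 0 ∧ (T.vec x i).2 ≠ 0 :=
  ⟨by simpa [vec_apply] using (map_ne_zero (T.τ i)).mpr hx,
    by simpa [vec_apply] using (map_ne_zero (T.τ i)).mpr ((map_ne_zero T.c).mpr hx)⟩

end Setting

/-! ### The additive character of `M` -/

variable {M ι}

theorem emb_equiv_bijective (Φ : PlaceChoice M ι) :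
    Function.Bijective fun p : ι × Bool =>
      if p.2 then ComplexEmbedding.conjugate (Φ.emb p.1) else Φ.emb p.1 := by
  constructor
  · rintro ⟨i, a⟩ ⟨j, b⟩ h
    have hij : i = j := Φ.bijective.1 (by
      have h' := congrArg InfinitePlace.mk h
      cases a <;> cases b <;> simpa [InfinitePlace.mk_conjugate_eq] using h')
    subst hij
    have hr : ¬ ComplexEmbedding.IsReal (Φ.emb i) := fun hr =>
      (InfinitePlace.not_isComplex_iff_isReal.mpr (InfinitePlace.isReal_mk_iff.mpr hr))
        (Φ.isComplex i)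
    rw [ComplexEmbedding.isReal_iff] at hr
    cases a <;> cases b
    · rfl
    · exact absurd (by simpa using h.symm) hr
    · exact absurd (by simpa using h) hr
    · rfl
  · intro ψ
    obtain ⟨i, hi⟩ := Φ.bijective.2 (InfinitePlace.mk ψ)
    rcases InfinitePlace.mk_eq_iff.mp hi with h | h
    · exact ⟨(i, false), by simpa using h⟩
    · exact ⟨(i, true), by simpa using h⟩

theorem trace_eq_sum_re (Φ : PlaceChoice M ι) (m : M) :
    ((Algebra.trace ℚ M m : ℚ) : ℝ) = ∑ i, 2 * (Φ.emb i m).re := by
  classical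
  have h := trace_eq_sum_embeddings (K := ℚ) (L := M) ℂ (x := m)
  have h2 : ∑ σ : M →ₐ[ℚ] ℂ, σ m = ∑ p : ι × Bool,
      (if p.2 then ComplexEmbedding.conjugate (Φ.emb p.1) else Φ.emb p.1) m :=
    (Fintype.sum_equiv ((Equiv.ofBijective _ (emb_equiv_bijective Φ)).trans
      (RingHom.equivRatAlgHom M ℂ)) _ _ fun p => rfl).symm
  rw [h2, eq_ratCast, Fintype.sum_prod_type] at h
  have h3 := congrArg Complex.re h
  simp only [Complex.ratCast_re] at h3
  rw [h3, Complex.re_sum]
  refine Finset.sum_congr rfl fun i _ => ?_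
  simp [ComplexEmbedding.conjugate_coe_eq, two_mul]

/-- The additive character `exp (2 π i Tr m)`. -/
def expM (Φ : PlaceChoice M ι) (m : M) : ℂ :=
  cexp (((4 * π * ∑ i, (Φ.emb i m).re : ℝ) : ℂ) * I)

theorem expM_eq_prod (Φ : PlaceChoice M ι) (m : M) :
    expM Φ m = ∏ i, cexp (((4 * π * (Φ.emb i m).re : ℝ) : ℂ) * I) := by
  rw [expM, ← Complex.exp_sum]
  congr 1
  push_cast
  rw [Finset.mul_sum, Finset.sum_mul]

theorem expM_eq (Φ : PlaceChoice M ι) (m : M) :
    expM Φ m = cexp (2 * π * I * ((Algebra.trace ℚ M m : ℚ) : ℂ)) := by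
  rw [expM,
    show ((Algebra.trace ℚ M m : ℚ) : ℂ) = (((Algebra.trace ℚ M m : ℚ) : ℝ) : ℂ) by norm_cast,
    trace_eq_sum_re Φ, ← Finset.mul_sum]
  congr 1
  push_cast
  ring

theorem expM_add (Φ : PlaceChoice M ι) (a b : M) : expM Φ (a + b) = expM Φ a * expM Φ b := by
  simp only [expM, ← Complex.exp_add, map_add, Complex.add_re, Finset.sum_add_distrib]
  congr 1
  push_cast
  ring

theorem expM_zero (Φ : PlaceChoice M ι) : expM Φ 0 = 1 := by simp [expM]

theorem norm_expM (Φ : PlaceChoice M ι) (m : M) : ‖expM Φ m‖ = 1 := by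
  rw [expM, Complex.norm_exp_ofReal_mul_I]

theorem expM_eq_one_iff (Φ : PlaceChoice M ι) (m : M) :
    expM Φ m = 1 ↔ ∃ k : ℤ, Algebra.trace ℚ M m = k := by
  rw [expM_eq Φ, Complex.exp_eq_one_iff]
  refine exists_congr fun k => ?_
  rw [mul_comm ((k : ℤ) : ℂ), mul_right_inj' Complex.two_pi_I_ne_zero]
  norm_cast

end FLTAgent.LanglandsTunnell.Seed

end
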