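import Fermat.Agent.LanglandsTunnell.Seed.Cube
import Fermat.Agent.LanglandsTunnell.Seed.Setting
import Fermat.Agent.LanglandsTunnell.Geom.H3Measure

/-!
# Functions with an expansion in nonzero frequencies

`HasExpansion Φ f` is stable under scalars and affine changes over `M` (`comp_affine`) and implies
continuity, boundedness away from zero and vanishing of the mean over a period (`mean_zero`).
-/

set_option autoImplicit false

open NumberField Complex MeasureTheory
open scoped Real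

noncomputable section

namespace FLTAgent.LanglandsTunnell.Seed

open FLTAgent.LanglandsTunnell

variable {M ι : Type} [Field M] [NumberField M] [Fintype ι] (Φ : PlaceChoice M ι)

/-- The character of frequency `μ` of the space of translations. -/
def echar (μ : M) (X : ι → ℂ) : ℂ :=
  cexp (((4 * π * ∑ i, (Φ.emb i μ * X i).re : ℝ) : ℂ) * I)

omit [NumberField M] in
theorem echar_eq_prod (μ : M) (X : ι → ℂ) :
    echar Φ μ X = ∏ i, cexp (((4 * π * (Φ.emb i μ * X i).re : ℝ) : ℂ) * I) := by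
  rw [echar, ← Complex.exp_sum]
  congr 1
  push_cast
  rw [Finset.mul_sum, Finset.sum_mul]

/-- An expansion, uniformly summable away from zero, in nonzero frequencies with bounded
denominators. -/
def HasExpansion (f : (ι → H3) → ℂ) : Prop :=
  ∃ (N : Type) (c : N → (ι → H3) → ℂ) (μ : N → M) (M0 : ℕ), M0 ≠ 0 ∧
    (∀ ν (a : 𝓞 M), ∃ k : ℤ, Algebra.trace ℚ M ((M0 : M) * μ ν * a) = k) ∧
    (∀ ν (X : ι → ℂ) (P : ι → H3),
      c ν (fun i => H3.shift (X i) (P i)) = echar Φ (μ ν) X * c ν P) ∧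
    (∀ ν, μ ν = 0 → ∀ P, c ν P = 0) ∧ (∀ ν, Continuous (c ν)) ∧
    (∀ c₀ > 0, ∃ u : N → ℝ, Summable u ∧ ∀ ν P, (∀ i, c₀ ≤ (P i).t) → ‖c ν P‖ ≤ u ν) ∧
    ∀ P, f P = ∑' ν, c ν P

variable {Φ}

theorem exists_height_bound (P : ι → H3) : ∃ c : ℝ, 0 < c ∧ ∀ i, c < (P i).t := by
  obtain ⟨c, hc, hP⟩ : ∃ c : ℝ, 0 < c ∧ ∀ i, c ≤ (P i).t := by
    rcases isEmpty_or_nonempty ι with h | h
    · exact ⟨1, one_pos, fun i => isEmptyElim i⟩
    · obtain ⟨i, hi⟩ := Finite.exists_min fun i => (P i).t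
      exact ⟨_, (P i).t_pos, hi⟩
  exact ⟨c / 2, half_pos hc, fun i => by linarith [hP i]⟩

namespace HasExpansion

variable {f : (ι → H3) → ℂ}

theorem congr (hf : HasExpansion Φ f) {g : (ι → H3) → ℂ} (h : ∀ P, g P = f P) :
    HasExpansion Φ g := by
  obtain ⟨N, c, μ, M0, h1, h2, h3, h4, h5, h6, h7⟩ := hf
  exact ⟨N, c, μ, M0, h1, h2, h3, h4, h5, h6, fun P => (h P).trans (h7 P)⟩

theorem const_mul (hf : HasExpansion Φ f) (a : ℂ) : HasExpansion Φ fun P => a * f P := by
  obtain ⟨N, c, μ, M0, h1, h2, h3, h4, h5, h6, h7⟩ := hf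
  refine ⟨N, fun ν P => a * c ν P, μ, M0, h1, h2, fun ν X P => by simp only [h3]; ring,
    fun ν hν P => by simp only [h4 ν hν, mul_zero], fun ν => continuous_const.mul (h5 ν),
    fun c₀ hc₀ => ?_, fun P => by simp only [h7, tsum_mul_left]⟩
  obtain ⟨u, hu, hb⟩ := h6 c₀ hc₀
  exact ⟨fun ν => ‖a‖ * u ν, hu.mul_left _, fun ν P hP => by
    rw [norm_mul]; exact mul_le_mul_of_nonneg_left (hb ν P hP) (norm_nonneg _)⟩

theorem continuous (hf : HasExpansion Φ f) : Continuous f := by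
  obtain ⟨N, c, μ, M0, -, -, -, -, h5, h6, h7⟩ := hf
  refine continuous_iff_continuousAt.mpr fun P => ?_
  obtain ⟨c₀, hc₀, hP⟩ := exists_height_bound P
  obtain ⟨u, hu, hb⟩ := h6 c₀ hc₀
  have hS : IsOpen {Q : ι → H3 | ∀ i, c₀ < (Q i).t} := by
    simp only [Set.ofPred_forall]
    exact isOpen_iInter_of_finite fun i =>
      isOpen_lt continuous_const (H3.continuous_t.comp (continuous_apply i))
  refine ((continuousOn_tsum (fun ν => (h5 ν).continuousOn) hu
    fun ν Q hQ => hb ν Q fun i => (hQ i).le).congr fun Q _ => h7 Q).continuousAt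
      (hS.mem_nhds hP)

theorem exists_bound (hf : HasExpansion Φ f) {c₀ : ℝ} (hc₀ : 0 < c₀) :
    ∃ B, ∀ P : ι → H3, (∀ i, c₀ ≤ (P i).t) → ‖f P‖ ≤ B := by
  obtain ⟨N, c, μ, M0, -, -, -, -, -, h6, h7⟩ := hf
  obtain ⟨u, hu, hb⟩ := h6 c₀ hc₀
  exact ⟨∑' ν, u ν, fun P hP => by
    rw [h7]; exact tsum_of_norm_bounded hu.hasSum fun ν => hb ν P hP⟩

/-- Precomposition with an affine map defined over `M`. -/
theorem comp_affine (hf : HasExpansion Φ f) {D : M} (hD : D ≠ 0) (k : ι → ℂ)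
    {g : (ι → H3) → (ι → H3)} (hz : ∀ P i, (g P i).z = Φ.emb i D * (P i).z + k i)
    (ht : ∀ P i, (g P i).t = ‖Φ.emb i D‖ * (P i).t) :
    HasExpansion Φ fun P => f (g P) := by
  obtain ⟨N, c, μ, M0, h1, h2, h3, h4, h5, h6, h7⟩ := hf
  obtain ⟨d, hd, hdD⟩ : ∃ d : ℕ, d ≠ 0 ∧ IsIntegral ℤ ((d : M) * D) := by
    obtain ⟨y, hy, hint⟩ := exists_integral_multiples ℤ ℚ ({D} : Finset M)
    refine ⟨y.natAbs, Int.natAbs_ne_zero.mpr hy, ?_⟩
    have h := hint D (Finset.mem_singleton_self D)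
    rw [zsmul_eq_mul] at h
    rcases Int.natAbs_eq y with e | e
    · rw [e, Int.cast_natCast] at h
      exact h
    · rw [e, Int.cast_neg, Int.cast_natCast, neg_mul] at h
      simpa using h.neg
  have hD' : ∀ i, 0 < ‖Φ.emb i D‖ := fun i => norm_pos_iff.mpr ((map_ne_zero _).mpr hD)
  have hg : Continuous g := continuous_pi fun i => H3.continuous_mk_iff.mpr
    ⟨by simp only [hz]; exact (continuous_const.mul
        (H3.continuous_z.comp (continuous_apply i))).add continuous_const,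
      by simp only [ht]; exact continuous_const.mul (H3.continuous_t.comp (continuous_apply i))⟩
  refine ⟨N, fun ν P => c ν (g P), fun ν => μ ν * D, M0 * d, mul_ne_zero h1 hd, fun ν a => ?_,
    fun ν X P => ?_, fun ν hν P => h4 ν ((mul_eq_zero.mp hν).resolve_right hD) _,
    fun ν => (h5 ν).comp hg, fun c₀ hc₀ => ?_, fun P => h7 _⟩
  · obtain ⟨k, hk⟩ := h2 ν (⟨_, hdD⟩ * a)
    refine ⟨k, ?_⟩
    rw [← hk]
    congr 1
    rw [show ((⟨_, hdD⟩ * a : 𝓞 M) : M) = (d : M) * D * a from rfl]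
    push_cast
    ring
  · have e : g (fun i => H3.shift (X i) (P i)) =
        fun i => H3.shift (Φ.emb i D * X i) (g P i) := by
      funext i
      ext
      · simp only [hz, H3.shift]; ring
      · simp only [ht, H3.shift]
    simp only [e, h3]
    congr 1
    simp only [echar, map_mul, mul_assoc]
  · set δ : ℝ := (1 + ∑ i, ‖Φ.emb i D‖⁻¹)⁻¹
    have hpos : 0 < 1 + ∑ i, ‖Φ.emb i D‖⁻¹ := by positivity
    have hδ : ∀ i, δ ≤ ‖Φ.emb i D‖ := fun i => by
      refine inv_le_of_inv_le₀ (hD' i) ?_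
      have h : ‖Φ.emb i D‖⁻¹ ≤ ∑ i, ‖Φ.emb i D‖⁻¹ :=
        Finset.single_le_sum (f := fun i => ‖Φ.emb i D‖⁻¹) (fun j _ => (inv_pos.mpr (hD' j)).le)
          (Finset.mem_univ i)
      linarith
    obtain ⟨u, hu, hb⟩ := h6 (δ * c₀) (mul_pos (inv_pos.mpr hpos) hc₀)
    refine ⟨u, hu, fun ν P hP => hb ν _ fun i => ?_⟩
    rw [ht]
    exact mul_le_mul (hδ i) (hP i) hc₀.le (hD' i).le

/-- The mean over a period cube vanishes. -/
theorem mean_zero (hf : HasExpansion Φ f) (P : ι → H3) {m : ℕ} (hm : m ≠ 0)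
    (hper : ∀ (a : 𝓞 M) (Q : ι → H3),
      f (fun i => H3.shift (Φ.emb i ((m : M) * a)) (Q i)) = f Q) :
    ∫ s in Set.univ.pi (fun _ : Module.Free.ChooseBasisIndex ℤ (𝓞 M) => Set.Icc (0 : ℝ) 1),
      f (fun i => H3.shift
        (∑ j, (s j : ℂ) * (m * Φ.emb i (RingOfIntegers.basis M j : 𝓞 M))) (P i)) = 0 := by
  obtain ⟨N, c, μ, M0, h1, h2, h3, h4, h5, h6, h7⟩ := hf
  obtain ⟨c₀, hc₀, hP⟩ := exists_height_bound P
  obtain ⟨u, hu, hb⟩ := h6 c₀ hc₀
  set b : Module.Free.ChooseBasisIndex ℤ (𝓞 M) → M :=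
    fun j => (m : M) * ((RingOfIntegers.basis M j : 𝓞 M) : M)
  set r : N → Module.Free.ChooseBasisIndex ℤ (𝓞 M) → ℝ :=
    fun ν j => (Algebra.trace ℚ M (μ ν * b j) : ℚ)
  set X : (Module.Free.ChooseBasisIndex ℤ (𝓞 M) → ℝ) → ι → ℂ :=
    fun s i => ∑ j, (s j : ℂ) * (m * Φ.emb i (RingOfIntegers.basis M j : 𝓞 M))
  have hX : ∀ s i, X s i = ∑ j, (s j : ℂ) * Φ.emb i (b j) := fun s i =>
    Finset.sum_congr rfl fun j _ => by simp only [b, map_mul, map_natCast]
  have hwave : ∀ ν s, echar Φ (μ ν) (X s) = wave (r ν) s := fun ν s => by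
    rw [echar, wave, ← Complex.exp_sum]
    congr 1
    have e : ∑ i, (Φ.emb i (μ ν) * X s i).re = ∑ j, s j * (r ν j / 2) := by
      simp only [hX, Finset.mul_sum, Complex.re_sum]
      rw [Finset.sum_comm]
      refine Finset.sum_congr rfl fun j _ => ?_
      simp only [r, trace_eq_sum_re Φ, Finset.sum_div, Finset.mul_sum, map_mul]
      refine Finset.sum_congr rfl fun i _ => ?_
      rw [show Φ.emb i (μ ν) * ((s j : ℂ) * Φ.emb i (b j)) =
        (s j : ℂ) * (Φ.emb i (μ ν) * Φ.emb i (b j)) by ring, Complex.re_ofReal_mul]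
      ring
    rw [e]
    push_cast
    simp only [Finset.mul_sum, Finset.sum_mul]
    exact Finset.sum_congr rfl fun j _ => by ring
  refine cube_mean_zero (fun ν => c ν P)
    (Summable.of_nonneg_of_le (fun _ => norm_nonneg _) (fun ν => hb ν P fun i => (hP i).le) hu)
    r h1 (fun ν j => ?_) (fun ν hν => ?_) (fun s => ?_) (fun s k => ?_)
  · obtain ⟨k, hk⟩ := h2 ν ((m : 𝓞 M) * RingOfIntegers.basis M j)
    refine ⟨k, ?_⟩
    simp only [r, b]
    rw [show (M0 : M) * μ ν * (((m : 𝓞 M) * RingOfIntegers.basis M j : 𝓞 M) : M) =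
        M0 • (μ ν * ((m : M) * (RingOfIntegers.basis M j : 𝓞 M))) by
      rw [nsmul_eq_mul]; push_cast; ring, map_nsmul, nsmul_eq_mul] at hk
    exact_mod_cast hk
  · refine h4 ν ?_ P
    by_contra hne
    have hlin : Algebra.trace ℚ M ∘ₗ LinearMap.mulLeft ℚ (μ ν) = 0 := by
      refine (NumberField.integralBasis M).ext fun j => ?_
      have h := congrFun hν j
      simp only [r, Pi.zero_apply, Rat.cast_eq_zero, b] at h
      rw [mul_left_comm, ← nsmul_eq_mul, map_nsmul, smul_eq_zero] at h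
      simpa [NumberField.integralBasis_apply] using h.resolve_left hm
    have h := LinearMap.congr_fun hlin (μ ν)⁻¹
    rw [LinearMap.comp_apply, LinearMap.mulLeft_apply, mul_inv_cancel₀ hne,
      ← map_one (algebraMap ℚ M), Algebra.trace_algebraMap, nsmul_one, LinearMap.zero_apply,
      Nat.cast_eq_zero] at h
    exact Module.finrank_pos.ne' h
  · show f (fun i => H3.shift (X s i) (P i)) = _
    rw [h7]
    refine tsum_congr fun ν => ?_
    rw [h3, hwave, mul_comm]
  · simp only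
    set a : 𝓞 M := ∑ j, (k j : 𝓞 M) * RingOfIntegers.basis M j
    have e : (fun i => H3.shift (∑ j, (((s j + k j : ℝ)) : ℂ) *
        (m * Φ.emb i (RingOfIntegers.basis M j : 𝓞 M))) (P i)) =
        fun i => H3.shift (Φ.emb i ((m : M) * a)) (H3.shift (X s i) (P i)) := by
      funext i
      ext
      · simp only [H3.shift, X, a, map_mul, map_natCast, map_sum, Finset.mul_sum, add_assoc,
          ← Finset.sum_add_distrib]
        congr 1
        refine Finset.sum_congr rfl fun j _ => ?_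
        push_cast
        ring
      · rfl
    rw [e, hper]

end HasExpansion

end FLTAgent.LanglandsTunnell.Seed

end
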