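import Fermat.Agent.LanglandsTunnell.Seed.Unfold
import Fermat.Agent.LanglandsTunnell.SeedCoeff.Coefficient
import Fermat.Agent.LanglandsTunnell.Geom.Reduction

/-!
# The transformation laws of the form

`form_dilate`, `form_translate` and `form_move` describe the normalised series under dilations,
translations by `Y` and the congruence subgroup, the last from the theta transformation formula.
-/

set_option autoImplicit false

open NumberField Complex MeasureTheory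
open scoped Real nonZeroDivisors

noncomputable section

namespace FLTAgent.LanglandsTunnell.Seed

open FLTAgent.LanglandsTunnell FLTAgent.LanglandsTunnell.SeedCoeff
open FLTAgent.LanglandsTunnell.Geom (nrm nrm_mul nrm_pos nrm_spanSingleton)

variable {M L ι : Type} [Field M] [NumberField M] [Field L] [NumberField L] [Algebra M L]
  [Fintype ι]

theorem cop_of_sub_one_mem {R : Type} [CommRing R] {s : ℕ} {d : R} (hd0 : d ≠ 0)
    (hd : d - 1 ∈ Ideal.span {(s : R)}) : Cop s (Ideal.span {d}) := by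
  refine ⟨fun h => hd0 (Ideal.span_singleton_eq_bot.mp h), (Ideal.eq_top_iff_one _).mpr ?_⟩
  rw [show (1 : R) = d + -(d - 1) by ring]
  exact Submodule.add_mem_sup (Ideal.mem_span_singleton_self d) (neg_mem hd)

namespace SeedSys

variable (D : SeedSys M L ι)

theorem not_le_of_cop {P : Ideal (𝓞 M)} (hP : P.IsMaximal) (h : Cop D.s P) : ¬ D.n ≤ P :=
  fun hn => hP.ne_top (top_le_iff.mp (h.2.symm.le.trans
    (sup_le le_rfl ((Ideal.span_singleton_le_iff_mem _).mpr (D.mem_of_le P hP hn)))))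

theorem psi_up {B : Ideal (𝓞 M)} :
    Cop D.s B → D.ψ (B.map (algebraMap (𝓞 M) (𝓞 L))) = SeedChar.eta D.T B := by
  induction B using UniqueFactorizationMonoid.induction_on_prime with
  | h₁ => exact fun h => absurd rfl h.1
  | h₂ B hB =>
    intro _
    rw [Ideal.isUnit_iff.mp hB, Ideal.map_top, D.psi_top, SeedChar.eta_top]
  | h₃ B P hB hP ih =>
    intro h
    have hPm : P.IsMaximal := (Ideal.isPrime_of_prime hP).isMaximal hP.ne_zero
    have hPc := h.of_mul_left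
    rw [Ideal.map_mul, D.psi_mul _ _ (D.cop_mapL hPc) (D.cop_mapL h.of_mul_right),
      SeedChar.eta_prime_mul _ hPm, ih h.of_mul_right]
    refine congrArg (· * _) ?_
    classical
    by_cases hs : D.T.ringData.Splits P
    · obtain ⟨Q, hQ, hle⟩ := exists_over D.T P hPm
      have hne := (splits_iff D.T hPm hQ hle).mp hs
      have hQc : Cop D.s Q := (D.cop_mapL hPc).of_le hle
      rw [SeedChar.sign, if_pos hs,
        show P.map (algebraMap (𝓞 M) (𝓞 L)) = Q * Q.map (D.T.cO : 𝓞 L →+* 𝓞 L) from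
          (split_data D.T hPm hQ hle hne).1,
        D.psi_mul _ _ hQc (D.cop_map_cO hQc), mul_comm, D.psi_c Q hQc]
    · rw [SeedChar.sign, if_neg hs, D.psi_inert P hPm (D.not_le_of_cop hPm hPc) hs]

theorem eta_mul_self {B : Ideal (𝓞 M)} (h : Cop D.s B) :
    SeedChar.eta D.T B * SeedChar.eta D.T B = 1 := by
  rw [← D.psi_up h]
  have hc := D.psi_c _ (D.cop_mapL h)
  rwa [D.T.map_cO_extended] at hc

/-! ### Dilations and translations -/

theorem isTerm_dilate {Y : FractionalIdeal (𝓞 M)⁰ M} {B : Ideal (𝓞 L)} {β Dd : M} (hD : Dd ≠ 0)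
    (h : D.IsTerm Y B β) :
    D.IsTerm (Y * (FractionalIdeal.spanSingleton (𝓞 M)⁰ Dd)⁻¹) B (β * Dd) := by
  obtain ⟨hB, hβ, heq⟩ := h
  refine ⟨hB, mul_ne_zero hβ hD, ?_⟩
  rw [map_mul, princ_mul', map_mul D.T.EL, map_inv₀, D.T.EL_spanSingleton]
  calc _ = princ L (algebraMap M L β) * D.T.EL Y * D.T.EL (D.T.diffM : FractionalIdeal (𝓞 M)⁰ M) *
        (princ L (algebraMap M L Dd) * (princ L (algebraMap M L Dd))⁻¹) := by ring
    _ = _ := by rw [mul_inv_cancel₀ (princ_ne_zero' ((map_ne_zero _).mpr hD)), mul_one, heq]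

theorem isTerm_undilate {Y : FractionalIdeal (𝓞 M)⁰ M} {B : Ideal (𝓞 L)} {β Dd : M} (hD : Dd ≠ 0)
    (h : D.IsTerm (Y * (FractionalIdeal.spanSingleton (𝓞 M)⁰ Dd)⁻¹) B β) :
    D.IsTerm Y B (β * Dd⁻¹) := by
  have h' := D.isTerm_dilate (inv_ne_zero hD) h
  have e : Y * (FractionalIdeal.spanSingleton (𝓞 M)⁰ Dd)⁻¹ *
      (FractionalIdeal.spanSingleton (𝓞 M)⁰ Dd⁻¹)⁻¹ = Y := by
    rw [← FractionalIdeal.spanSingleton_inv, inv_inv, mul_assoc,
      inv_mul_cancel₀ (FractionalIdeal.spanSingleton_ne_zero_iff.mpr hD), mul_one]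
  rwa [e] at h'

/-- The indices at `Y` and at `Y / D`. -/
def termDilate (Y : FractionalIdeal (𝓞 M)⁰ M) {Dd : M} (hD : Dd ≠ 0) :
    D.Term Y ≃ D.Term (Y * (FractionalIdeal.spanSingleton (𝓞 M)⁰ Dd)⁻¹) where
  toFun t := ⟨(t.1.1, t.1.2 * Dd), D.isTerm_dilate hD t.2⟩
  invFun t := ⟨(t.1.1, t.1.2 * Dd⁻¹), D.isTerm_undilate hD t.2⟩
  left_inv _ := Subtype.ext (Prod.ext rfl (mul_inv_cancel_right₀ hD _))
  right_inv _ := Subtype.ext (Prod.ext rfl (inv_mul_cancel_right₀ hD _))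

theorem termW_affine (β Dd κ : M) {P Q : ι → H3}
    (hz : ∀ i, (Q i).z = D.T.Φ.emb i Dd * (P i).z + D.T.Φ.emb i κ)
    (ht : ∀ i, (Q i).t = ‖D.T.Φ.emb i Dd‖ * (P i).t) :
    D.termW β Q = (∏ i, (‖D.T.Φ.emb i Dd‖ : ℂ)) * expM D.T.Φ (β * κ) * D.termW (β * Dd) P := by
  rw [termW, termW, expM_eq_prod, ← Finset.prod_mul_distrib, ← Finset.prod_mul_distrib]
  refine Finset.prod_congr rfl fun i _ => ?_
  rw [wfun_affine _ (hz i) (ht i), map_mul, map_mul]

theorem series_dilate (Y : FractionalIdeal (𝓞 M)⁰ M) {Dd : M} (hD : Dd ≠ 0) {P Q : ι → H3}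
    (hz : ∀ i, (Q i).z = D.T.Φ.emb i Dd * (P i).z)
    (ht : ∀ i, (Q i).t = ‖D.T.Φ.emb i Dd‖ * (P i).t) :
    D.series Y Q = (∏ i, (‖D.T.Φ.emb i Dd‖ : ℂ)) *
      D.series (Y * (FractionalIdeal.spanSingleton (𝓞 M)⁰ Dd)⁻¹) P := by
  rw [series, series, ← (D.termDilate Y hD).tsum_eq, ← tsum_mul_left]
  refine tsum_congr fun t => ?_
  rw [D.termW_affine t.1.2 Dd 0 (fun i => by rw [hz, map_zero, add_zero]) ht, mul_zero, expM_zero,
    termDilate, Equiv.coe_fn_mk]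
  ring

/-- The form under a dilation. -/
theorem form_dilate {Y : FractionalIdeal (𝓞 M)⁰ M} {Dd : M} (hD : Dd ≠ 0)
    {P Q : ι → H3} (hz : ∀ i, (Q i).z = D.T.Φ.emb i Dd * (P i).z)
    (ht : ∀ i, (Q i).t = ‖D.T.Φ.emb i Dd‖ * (P i).t) :
    D.form Y Q = D.form (Y * (FractionalIdeal.spanSingleton (𝓞 M)⁰ Dd)⁻¹) P := by
  rw [form, form, D.series_dilate Y hD hz ht, ← mul_assoc, ← Complex.ofReal_prod,
    ← Complex.ofReal_mul]
  congr 2
  have hp : 0 < ∏ i, ‖D.T.Φ.emb i Dd‖ :=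
    Finset.prod_pos fun i _ => norm_pos_iff.mpr (D.T.emb_ne_zero hD i)
  rw [nrm_mul, show nrm (FractionalIdeal.spanSingleton (𝓞 M)⁰ Dd)⁻¹ =
      ((∏ i, ‖D.T.Φ.emb i Dd‖) ^ 2)⁻¹ by
    refine eq_inv_of_mul_eq_one_left ?_
    rw [← Finset.prod_pow, LanglandsTunnell.Geom.prod_norm_sq_emb, ← nrm_spanSingleton, ← nrm_mul,
      inv_mul_cancel₀ (FractionalIdeal.spanSingleton_ne_zero_iff.mpr hD),
      LanglandsTunnell.Geom.nrm_one],
    Real.sqrt_mul' _ (by positivity), Real.sqrt_inv, Real.sqrt_sq hp.le, mul_inv, inv_inv]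

theorem expM_mul_eq_one {Y : FractionalIdeal (𝓞 M)⁰ M} {B : Ideal (𝓞 L)} {β κ : M}
    (h : D.IsTerm Y B β) (hκ : κ ∈ Y) : expM D.T.Φ (β * κ) = 1 := by
  refine D.T.expM_eq_one_of_mem ?_
  have hd : D.T.EL (D.T.diffM : FractionalIdeal (𝓞 M)⁰ M) ≠ 0 := D.T.EL_ne_zero D.T.diffM_ne_zero
  rw [← princ_le_iff, map_mul, princ_mul', ← one_mul (D.T.EL _)⁻¹,
    ← div_eq_mul_inv, le_div_iff₀ (pos_iff_ne_zero.mpr hd)]
  calc princ L (algebraMap M L β) * princ L (algebraMap M L κ) *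
        D.T.EL (D.T.diffM : FractionalIdeal (𝓞 M)⁰ M)
      ≤ princ L (algebraMap M L β) * D.T.EL Y * D.T.EL (D.T.diffM : FractionalIdeal (𝓞 M)⁰ M) := by
        refine mul_le_mul_left (mul_le_mul_right ?_ _) _
        rw [← D.T.EL_spanSingleton]
        exact D.T.EL_mono (FractionalIdeal.spanSingleton_le_iff_mem.mpr hκ)
    _ = _ := h.2.2
    _ ≤ 1 := by rw [← FractionalIdeal.coeIdeal_mul]; exact FractionalIdeal.coeIdeal_le_one

/-- The form under a translation by `Y`. -/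
theorem form_translate {Y : FractionalIdeal (𝓞 M)⁰ M} {κ : M} (hκ : κ ∈ Y) {P Q : ι → H3}
    (hz : ∀ i, (Q i).z = (P i).z + D.T.Φ.emb i κ) (ht : ∀ i, (Q i).t = (P i).t) :
    D.form Y Q = D.form Y P := by
  rw [form, form, series, series]
  refine congrArg _ (tsum_congr fun t => ?_)
  rw [D.termW_affine t.1.2 1 κ (P := P) (fun i => by rw [hz, map_one, one_mul])
    (fun i => by rw [ht, map_one, norm_one, one_mul]), D.expM_mul_eq_one t.2 hκ]
  simp

/-! ### The transformation formula -/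

/-- The complete system at `Y / Z²` obtained from one at `Y`. -/
def shiftSystem {Y : FractionalIdeal (𝓞 M)⁰ M} {κ : Type} (S : D.System Y κ) {Z : Ideal (𝓞 M)}
    (hZ : Cop D.s Z) : D.System (Y * ((Z : FractionalIdeal (𝓞 M)⁰ M) ^ 2)⁻¹) κ where
  A j := Z.map (algebraMap (𝓞 M) (𝓞 L)) * S.A j
  e := S.e
  pair j := by
    obtain ⟨hA, he, heq⟩ := S.pair j
    refine ⟨(D.cop_mapL hZ).mul hA, he, ?_⟩
    rw [map_mul D.T.EL, map_inv₀, map_pow, D.T.EL_coeIdeal, Ideal.map_mul, D.T.map_cO_extended,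
      FractionalIdeal.coeIdeal_mul, FractionalIdeal.coeIdeal_mul]
    set ZL : FractionalIdeal (𝓞 L)⁰ L := ((Z.map (algebraMap (𝓞 M) (𝓞 L)) : Ideal (𝓞 L)) :
      FractionalIdeal (𝓞 L)⁰ L)
    calc _ = princ L (algebraMap M L (S.e j)) * (S.A j : FractionalIdeal (𝓞 L)⁰ L) *
          (((S.A j).map (D.T.cO : 𝓞 L →+* 𝓞 L) : Ideal (𝓞 L)) : FractionalIdeal (𝓞 L)⁰ L) *
          D.T.EL Y * D.T.EL (D.T.diffM : FractionalIdeal (𝓞 M)⁰ M) * (ZL ^ 2 * (ZL ^ 2)⁻¹) := by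
            ring
      _ = _ := by
          rw [heq, one_mul, mul_inv_cancel₀ (pow_ne_zero 2 (coe_ne_zero' (D.cop_mapL hZ).1))]
  complete A' e' h := by
    have := D.T.finiteDimensional
    obtain ⟨hA', he', heq⟩ := h
    have hZL := D.cop_mapL hZ
    obtain ⟨μ, C, hμ, hC, hμC⟩ := D.exists_mem_span_eq_mul hZL.1
    set m := algebraMap (𝓞 L) L μ with hm
    have hm0 : m ≠ 0 := (map_ne_zero_iff _ (IsFractionRing.injective (𝓞 L) L)).mpr hμ
    have hNm : Algebra.norm M m ≠ 0 := Algebra.norm_ne_zero_iff.mpr hm0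
    have hne : princ L (algebraMap M L (Algebra.norm M m)) ≠ 0 :=
      princ_ne_zero' ((map_ne_zero (algebraMap M L)).mpr hNm)
    have hpair : D.IsPair Y (A' * C) (e' / Algebra.norm M m) := by
      refine ⟨hA'.mul hC, div_ne_zero he' hNm, mul_right_cancel₀ hne ?_⟩
      rw [map_div₀, princ_div', one_mul]
      rw [map_mul D.T.EL, map_inv₀, map_pow, D.T.EL_coeIdeal] at heq
      set ZL : FractionalIdeal (𝓞 L)⁰ L := ((Z.map (algebraMap (𝓞 M) (𝓞 L)) : Ideal (𝓞 L)) :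
        FractionalIdeal (𝓞 L)⁰ L) with hZLdef
      have hZ2 : ZL ^ 2 ≠ 0 := pow_ne_zero 2 (coe_ne_zero' hZL.1)
      calc _ = (princ L (algebraMap M L e') / princ L (algebraMap M L (Algebra.norm M m)) *
            princ L (algebraMap M L (Algebra.norm M m))) *
            ((A' * C : Ideal (𝓞 L)) : FractionalIdeal (𝓞 L)⁰ L) *
            (((A' * C).map (D.T.cO : 𝓞 L →+* 𝓞 L) : Ideal (𝓞 L)) :
              FractionalIdeal (𝓞 L)⁰ L) * D.T.EL Y *
            D.T.EL (D.T.diffM : FractionalIdeal (𝓞 M)⁰ M) * (ZL ^ 2 * (ZL ^ 2)⁻¹) := by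
              rw [mul_inv_cancel₀ hZ2, mul_one]; ring
        _ = (princ L (algebraMap M L e') * (A' : FractionalIdeal (𝓞 L)⁰ L) *
            ((A'.map (D.T.cO : 𝓞 L →+* 𝓞 L) : Ideal (𝓞 L)) : FractionalIdeal (𝓞 L)⁰ L) *
            (D.T.EL Y * (ZL ^ 2)⁻¹) * D.T.EL (D.T.diffM : FractionalIdeal (𝓞 M)⁰ M)) *
            ((ZL * C) * (ZL * ((C.map (D.T.cO : 𝓞 L →+* 𝓞 L) : Ideal (𝓞 L)) :
              FractionalIdeal (𝓞 L)⁰ L))) := by
            rw [div_mul_cancel₀ _ hne]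
            simp only [Ideal.map_mul, FractionalIdeal.coeIdeal_mul]
            ring
        _ = _ := by
            rw [heq, one_mul, D.princ_norm, hμC, Ideal.map_mul, D.T.map_cO_extended,
              FractionalIdeal.coeIdeal_mul, FractionalIdeal.coeIdeal_mul]
    obtain ⟨j, l, hl, hlA, hle⟩ := S.complete _ _ hpair
    dsimp only at hlA hle
    refine ⟨j, l / m, div_ne_zero hl hm0, ?_, ?_⟩
    · show princ L (l / m) * _ = _
      refine mul_right_cancel₀ (coe_ne_zero' (K := L) hC.1) ?_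
      dsimp only
      rw [← FractionalIdeal.coeIdeal_mul A' C, ← hlA, FractionalIdeal.coeIdeal_mul, princ_div']
      calc _ = princ L l / princ L m * (((Z.map (algebraMap (𝓞 M) (𝓞 L)) : Ideal (𝓞 L)) :
            FractionalIdeal (𝓞 L)⁰ L) * C) * (S.A j : FractionalIdeal (𝓞 L)⁰ L) := by ring
        _ = _ := by
            rw [← FractionalIdeal.coeIdeal_mul, ← hμC, coeIdeal_span_eq_princ, ← hm,
              div_mul_cancel₀ _ (princ_ne_zero' hm0)]
    · show S.e j = e' * _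
      rw [hle, show Algebra.norm M (l / m) = Algebra.norm M l / Algebra.norm M m by
        rw [eq_div_iff hNm, ← map_mul, div_mul_cancel₀ _ hm0]]
      ring
  inj i j h := by
    obtain ⟨l, hl, h1, h2⟩ := h
    refine S.inj i j ⟨l, hl, ?_, h2⟩
    dsimp only at h1 ⊢
    rw [FractionalIdeal.coeIdeal_mul, FractionalIdeal.coeIdeal_mul, mul_left_comm] at h1
    exact mul_left_cancel₀ (coe_ne_zero' (D.cop_mapL hZ).1) h1

theorem series_move {Y : FractionalIdeal (𝓞 M)⁰ M} {Z : Ideal (𝓞 M)}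
    {a b c : M} {d : 𝓞 M} (hd0 : d ≠ 0) (hdet : a * algebraMap (𝓞 M) M d - b * c = 1)
    (hd : d - 1 ∈ D.n) (hdZ : d ∈ Z)
    (ha : FractionalIdeal.spanSingleton (𝓞 M)⁰ a * (Z : FractionalIdeal (𝓞 M)⁰ M) ≤ 1)
    (hb : FractionalIdeal.spanSingleton (𝓞 M)⁰ b * (Z : FractionalIdeal (𝓞 M)⁰ M) ≤ Y)
    (hc : FractionalIdeal.spanSingleton (𝓞 M)⁰ c * Y ≤
      (D.n : FractionalIdeal (𝓞 M)⁰ M) * (Z : FractionalIdeal (𝓞 M)⁰ M))
    (g : ι → GL (Fin 2) ℂ)
    (hg : ∀ i, (g i).val = !![D.T.Φ.emb i a, D.T.Φ.emb i b;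
      D.T.Φ.emb i c, D.T.Φ.emb i (algebraMap (𝓞 M) M d)]) (P : ι → H3) :
    D.series (Y * ((Z : FractionalIdeal (𝓞 M)⁰ M) ^ 2)⁻¹) (fun i => g i • P i) =
      D.series Y P / (Ideal.absNorm Z : ℂ) := by
  have := D.T.finiteDimensional
  obtain ⟨κ, _, ⟨S⟩⟩ := D.exists_system Y
  obtain ⟨B, hB⟩ := Ideal.dvd_span_singleton.mpr hdZ
  have hds : d - 1 ∈ Ideal.span {(D.s : 𝓞 M)} := D.n_le_span hd
  have hdc : Cop D.s (Ideal.span {d}) := cop_of_sub_one_mem hd0 hds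
  rw [hB] at hdc
  have hZ := hdc.of_mul_left
  have hBc := hdc.of_mul_right
  have hmap : (Ideal.span {(D.s : 𝓞 M)}).map (algebraMap (𝓞 M) (𝓞 L)) =
      Ideal.span {(D.s : 𝓞 L)} := by
    rw [Ideal.map_span, Set.image_singleton, map_natCast]
  have hdL : algebraMap (𝓞 M) (𝓞 L) d - 1 ∈ Ideal.span {(D.s : 𝓞 L)} := by
    rw [← hmap, ← map_one (algebraMap (𝓞 M) (𝓞 L)), ← map_sub]
    exact Ideal.mem_map_of_mem _ hds
  -- the character at `d`
  have hψd : D.ψ (Z.map (algebraMap (𝓞 M) (𝓞 L))) * D.ψ (B.map (algebraMap (𝓞 M) (𝓞 L))) = 1 := by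
    rw [← D.psi_mul _ _ (D.cop_mapL hZ) (D.cop_mapL hBc), ← Ideal.map_mul, ← hB, Ideal.map_span,
      Set.image_singleton, ← D.psi_top, ← Ideal.span_singleton_one]
    have hd0' : algebraMap (𝓞 M) (𝓞 L) d ≠ 0 := (map_ne_zero_iff _ D.T.ringData.inj).mpr hd0
    exact D.psi_congr _ 1 hd0' one_ne_zero (cop_of_sub_one_mem hd0' hdL) hdL
  have hsgn : (D.ψ (Z.map (algebraMap (𝓞 M) (𝓞 L))))⁻¹ * SeedChar.eta D.T B = 1 := by
    rw [inv_eq_of_mul_eq_one_right hψd, D.psi_up hBc, D.eta_mul_self hBc]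
  have key : ∀ s : ι → ℝ, D.theta (D.shiftSystem S hZ) s (fun i => g i • P i) =
      D.theta S s P / (Ideal.absNorm Z : ℂ) := by
    intro s
    rw [theta, theta, Finset.sum_div]
    refine Finset.sum_congr rfl fun j _ => ?_
    let R : MoveData D.T :=
      { e := S.e j, A' := S.A j, Y := Y, Z := Z, B := B, f := Ideal.span {(D.s : 𝓞 M)}, n := D.n
        a := a, b := b, c := c, d := d
        e_ne := (S.pair j).2.1
        A_ne := (S.pair j).1.1
        f_ne := by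
          rw [Ne, Ideal.span_singleton_eq_bot]
          exact Nat.cast_ne_zero.mpr D.s_ne
        d_ne := hd0
        pair_eq := (S.pair j).2.2
        det_eq := hdet, d_eq := hB, a_mem := ha, b_mem := hb, c_mem := hc
        coprime := hBc.2
        n_le := D.n_le_diff
        unram := fun P hP hle => D.unram P hP
          (D.not_le_of_cop hP (hBc.of_le hle)) }
    have hper : PeriodicOn (idealSet R.A') (idealSet (R.fL * R.A')) D.chiL :=
      D.chiL_periodic _ (by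
        refine Ideal.mul_le_left.trans ?_
        rw [MoveData.fL, hmap])
    have hmove := R.theta_move (SeedChar.eta D.T) (SeedChar.eta_top D.T)
      (fun Q J hQ _ _ => SeedChar.eta_unram D.T Q J hQ) hper
      (fun x hx => D.chiL_mul_of_sub_one_mem hx hdL) g hg s P
    change (D.ψ (Z.map (algebraMap (𝓞 M) (𝓞 L)) * S.A j))⁻¹ * ∑' x : idealSet R.A,
      D.chiL x * D.T.kernL R.e x s (fun i => g i • P i) = _
    rw [hmove, D.psi_mul _ _ (D.cop_mapL hZ) (S.pair j).1, mul_inv]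
    calc _ = ((D.ψ (Z.map (algebraMap (𝓞 M) (𝓞 L))))⁻¹ * SeedChar.eta D.T B) *
          ((D.ψ (S.A j))⁻¹ * (∑' x : idealSet (S.A j), D.chiL x * D.T.kernL (S.e j) x s P)) /
            (Ideal.absNorm Z : ℂ) := by ring
      _ = _ := by rw [hsgn, one_mul]
  rw [D.series_eq_integral (D.shiftSystem S hZ), D.series_eq_integral S, ← integral_div]
  refine integral_congr_ae (Filter.Eventually.of_forall fun s => ?_)
  simp only [key, mul_div_assoc]

theorem form_move_of_ne {Y : FractionalIdeal (𝓞 M)⁰ M} {Z : Ideal (𝓞 M)} (hZ0 : Z ≠ ⊥)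
    {a b c : M} {d : 𝓞 M} (hd0 : d ≠ 0) (hdet : a * algebraMap (𝓞 M) M d - b * c = 1)
    (hd : d - 1 ∈ D.n) (hdZ : d ∈ Z)
    (ha : FractionalIdeal.spanSingleton (𝓞 M)⁰ a * (Z : FractionalIdeal (𝓞 M)⁰ M) ≤ 1)
    (hb : FractionalIdeal.spanSingleton (𝓞 M)⁰ b * (Z : FractionalIdeal (𝓞 M)⁰ M) ≤ Y)
    (hc : FractionalIdeal.spanSingleton (𝓞 M)⁰ c * Y ≤
      (D.n : FractionalIdeal (𝓞 M)⁰ M) * (Z : FractionalIdeal (𝓞 M)⁰ M))
    (g : ι → GL (Fin 2) ℂ)
    (hg : ∀ i, (g i).val = !![D.T.Φ.emb i a, D.T.Φ.emb i b;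
      D.T.Φ.emb i c, D.T.Φ.emb i (algebraMap (𝓞 M) M d)]) (P : ι → H3) :
    D.form (Y * ((Z : FractionalIdeal (𝓞 M)⁰ M) ^ 2)⁻¹) (fun i => g i • P i) = D.form Y P := by
  have hN : 0 < (Ideal.absNorm Z : ℝ) :=
    Nat.cast_pos.mpr (Nat.pos_of_ne_zero fun h => hZ0 (Ideal.absNorm_eq_zero_iff.mp h))
  rw [form, form, D.series_move hd0 hdet hd hdZ ha hb hc g hg P, nrm_mul,
    show nrm ((Z : FractionalIdeal (𝓞 M)⁰ M) ^ 2)⁻¹ = ((Ideal.absNorm Z : ℝ) ^ 2)⁻¹ by
      refine eq_inv_of_mul_eq_one_left ?_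
      rw [show ((Ideal.absNorm Z : ℝ)) ^ 2 = nrm ((Z : FractionalIdeal (𝓞 M)⁰ M) ^ 2) by
        simp [nrm, sq, FractionalIdeal.coeIdeal_absNorm], ← nrm_mul,
        inv_mul_cancel₀ (pow_ne_zero 2 (coe_ne_zero' hZ0)), LanglandsTunnell.Geom.nrm_one],
    Real.sqrt_mul' _ (by positivity), Real.sqrt_inv, Real.sqrt_sq hN.le, mul_inv, inv_inv]
  push_cast
  have hNne : (Ideal.absNorm Z : ℂ) ≠ 0 := by exact_mod_cast hN.ne'
  field_simp

/-- The transformation formula of the form. -/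
theorem form_move {Y : FractionalIdeal (𝓞 M)⁰ M} (hY : Y ≠ 0) {Z : Ideal (𝓞 M)} (hZ0 : Z ≠ ⊥)
    {a b c : M} {d : 𝓞 M} (hdet : a * algebraMap (𝓞 M) M d - b * c = 1)
    (hd : d - 1 ∈ D.n) (hdZ : d ∈ Z)
    (ha : FractionalIdeal.spanSingleton (𝓞 M)⁰ a * (Z : FractionalIdeal (𝓞 M)⁰ M) ≤ 1)
    (hb : FractionalIdeal.spanSingleton (𝓞 M)⁰ b * (Z : FractionalIdeal (𝓞 M)⁰ M) ≤ Y)
    (hc : FractionalIdeal.spanSingleton (𝓞 M)⁰ c * Y ≤
      (D.n : FractionalIdeal (𝓞 M)⁰ M) * (Z : FractionalIdeal (𝓞 M)⁰ M))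
    (g : ι → GL (Fin 2) ℂ)
    (hg : ∀ i, (g i).val = !![D.T.Φ.emb i a, D.T.Φ.emb i b;
      D.T.Φ.emb i c, D.T.Φ.emb i (algebraMap (𝓞 M) M d)]) (P : ι → H3) :
    D.form (Y * ((Z : FractionalIdeal (𝓞 M)⁰ M) ^ 2)⁻¹) (fun i => g i • P i) = D.form Y P := by
  rcases ne_or_eq d 0 with hd0 | rfl
  · exact D.form_move_of_ne hZ0 hd0 hdet hd hdZ ha hb hc g hg P
  simp only [map_zero, mul_zero, zero_sub] at hdet
  have hntop : D.n = ⊤ := (Ideal.eq_top_iff_one _).mpr (by simpa using neg_mem hd)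
  have hc0 : c ≠ 0 := fun h => by simp [h] at hdet
  obtain ⟨t, ht, ht0⟩ : ∃ t : M, t ∈ Y ∧ t ≠ 0 := by
    by_contra! h
    exact hY (le_bot_iff.mp fun x hx => (FractionalIdeal.mem_zero_iff _).mpr (h x hx))
  have hct : FractionalIdeal.spanSingleton (𝓞 M)⁰ (c * t) ≤ (Z : FractionalIdeal (𝓞 M)⁰ M) := by
    rw [← FractionalIdeal.spanSingleton_mul_spanSingleton]
    refine (mul_le_mul_right (FractionalIdeal.spanSingleton_le_iff_mem.mpr ht) _).trans ?_
    rwa [hntop, FractionalIdeal.coeIdeal_top, one_mul] at hc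
  obtain ⟨d', hd'Z, hd'e⟩ := (FractionalIdeal.mem_coeIdeal _).mp
    (FractionalIdeal.spanSingleton_le_iff_mem.mp hct)
  have hd'0 : d' ≠ 0 := fun h => mul_ne_zero hc0 ht0 (by rw [← hd'e, h, map_zero])
  let U : ι → GL (Fin 2) ℂ := fun i =>
    LanglandsTunnell.Geom.affineGL 1 (D.T.Φ.emb i (-t))
  have e1 : ∀ i, g i • P i = (g i * (U i)⁻¹) • (U i • P i) := fun i => by
    rw [← mul_smul, inv_mul_cancel_right]
  rw [show (fun i => g i • P i) = fun i => (g i * (U i)⁻¹) • (U i • P i) from funext e1,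
    D.form_move_of_ne hZ0 (a := a) (b := a * t + b) (c := c) hd'0
      (by rw [hd'e]; linear_combination hdet)
      (by rw [hntop]; exact Submodule.mem_top) hd'Z ha ?_ hc _ ?_ (fun i => U i • P i)]
  · exact D.form_translate (Y := Y) (κ := -t) (P := P) (FractionalIdeal.mem_coe.mp
      ((Y : Submodule (𝓞 M) M).neg_mem (FractionalIdeal.mem_coe.mpr ht)))
      (fun i => by simp [U, LanglandsTunnell.Geom.affineGL_smul_z])
      (fun i => by simp [U, LanglandsTunnell.Geom.affineGL_smul_t])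
  · refine (mul_le_mul_left ?_ _).trans ((add_mul _ _ _).le.trans ?_) (b :=
      (FractionalIdeal.spanSingleton (𝓞 M)⁰ (a * t) + FractionalIdeal.spanSingleton (𝓞 M)⁰ b) *
        (Z : FractionalIdeal (𝓞 M)⁰ M))
    · rw [FractionalIdeal.spanSingleton_le_iff_mem, ← FractionalIdeal.mem_coe,
        FractionalIdeal.coe_add]
      exact Submodule.add_mem_sup (FractionalIdeal.mem_spanSingleton_self _ _)
        (FractionalIdeal.mem_spanSingleton_self _ _)
    · rw [← FractionalIdeal.sup_eq_add]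
      refine sup_le ?_ hb
      rw [← FractionalIdeal.spanSingleton_mul_spanSingleton, mul_right_comm]
      exact (mul_le_mul' ha (FractionalIdeal.spanSingleton_le_iff_mem.mpr ht)).trans_eq (one_mul _)
  · intro i
    rw [Units.val_mul, hg]
    ext r k
    fin_cases r <;> fin_cases k <;>
      simp [U, LanglandsTunnell.Geom.affineGL, Matrix.mul_apply, Fin.sum_univ_two, hd'e, map_add,
        map_mul, add_comm]

end SeedSys

end FLTAgent.LanglandsTunnell.Seed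

end
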