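import Mathlib.RingTheory.DedekindDomain.Factorization
import Mathlib.RingTheory.Ideal.Operations
import Mathlib.RingTheory.Ideal.Quotient.Operations
import Mathlib.RingTheory.Ideal.GoingUp
import Mathlib.Algebra.Group.AddChar
import Mathlib.FieldTheory.Finite.Basic
import Mathlib.Data.Complex.Basic

/-!
# Gauss sums of the norm form of a quadratic extension, at unramified moduli

`∑_{r ∈ B / I B} χ (N r) = η (I) |O / I|` for a primitive additive character `χ` of `O / I`.
This is `gauss_eq`, used in the transformation formula of the theta series.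
-/

set_option autoImplicit false

open scoped Classical

noncomputable section

namespace FLTAgent.LanglandsTunnell.Seed

variable {O B : Type*} [CommRing O] [CommRing B] [Algebra O B]

/-- A quadratic extension of Dedekind rings with finite residue rings. -/
structure QuadRingData (O B : Type*) [CommRing O] [CommRing B] [Algebra O B] : Type _ where
  c : B ≃ₐ[O] B
  nrm : B → O
  trc : B → O
  c_c : ∀ x, c (c x) = x
  algebraMap_nrm : ∀ x, algebraMap O B (nrm x) = x * c x
  algebraMap_trc : ∀ x, algebraMap O B (trc x) = x + c x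
  comap_map : ∀ I : Ideal O, (I.map (algebraMap O B)).comap (algebraMap O B) = I
  finite_quot : ∀ I : Ideal O, I ≠ ⊥ → Finite (O ⧸ I)
  finite_quotB : ∀ I : Ideal O, I ≠ ⊥ → Finite (B ⧸ I.map (algebraMap O B))
  card_quotB : ∀ I : Ideal O, I ≠ ⊥ →
    Nat.card (B ⧸ I.map (algebraMap O B)) = Nat.card (O ⧸ I) ^ 2
  card_quot_mul : ∀ I J : Ideal O, Nat.card (O ⧸ I * J) = Nat.card (O ⧸ I) * Nat.card (O ⧸ J)

/-- An additive character of `O`, trivial on `I` and on no larger ideal. -/
structure IsPrimitiveMod (χ : AddChar O ℂ) (I : Ideal O) : Prop where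
  trivial : ∀ x ∈ I, χ x = 1
  nontrivial : ∀ J : Ideal O, I < J → ∃ x ∈ J, χ x ≠ 1

namespace QuadRingData

variable (D : QuadRingData O B)

/-- Extension of ideals. -/
abbrev up (_D : QuadRingData O B) (I : Ideal O) : Ideal B := I.map (algebraMap O B)

lemma c_algebraMap (a : O) : D.c (algebraMap O B a) = algebraMap O B a := D.c.commutes a

lemma c_mem_up {I : Ideal O} {x : B} (hx : x ∈ D.up I) : D.c x ∈ D.up I := by
  have h : (D.up I).map (D.c : B →+* B) = D.up I := by
    rw [QuadRingData.up, Ideal.map_map]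
    congr 1
    exact RingHom.ext fun a => D.c.commutes a
  rw [← h]
  exact Ideal.mem_map_of_mem _ hx

lemma mem_of_algebraMap_mem {I : Ideal O} {a : O} (h : algebraMap O B a ∈ D.up I) : a ∈ I := by
  rw [← D.comap_map I]; exact h

include D in
lemma algebraMap_injective (h : (⊥ : Ideal O).map (algebraMap O B) = ⊥) :
    Function.Injective (algebraMap O B) := by
  refine (injective_iff_map_eq_zero _).mpr fun a ha => ?_
  have : a ∈ (⊥ : Ideal O) := by rw [← D.comap_map ⊥, Ideal.mem_comap, h, ha]; exact zero_mem _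
  simpa using this

include D in
lemma inj : Function.Injective (algebraMap O B) := D.algebraMap_injective Ideal.map_bot

lemma nrm_mul (x y : B) : D.nrm (x * y) = D.nrm x * D.nrm y :=
  D.inj (by rw [map_mul, D.algebraMap_nrm, D.algebraMap_nrm, D.algebraMap_nrm, map_mul]; ring)

lemma nrm_algebraMap (a : O) : D.nrm (algebraMap O B a) = a ^ 2 :=
  D.inj (by rw [D.algebraMap_nrm, D.c_algebraMap, map_pow, sq])

lemma nrm_add (x y : B) : D.nrm (x + y) = D.nrm x + D.trc (x * D.c y) + D.nrm y :=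
  D.inj (by
    rw [map_add, map_add, D.algebraMap_nrm, D.algebraMap_trc, D.algebraMap_nrm, D.algebraMap_nrm,
      map_add, map_mul, D.c_c]
    ring)

lemma trc_mem {I : Ideal O} {x : B} (hx : x ∈ D.up I) : D.trc x ∈ I :=
  D.mem_of_algebraMap_mem (by rw [D.algebraMap_trc]; exact add_mem hx (D.c_mem_up hx))

lemma trc_mul_algebraMap (a : O) (x : B) : D.trc (algebraMap O B a * x) = a * D.trc x :=
  D.inj (by
    rw [map_mul, D.algebraMap_trc, D.algebraMap_trc, map_mul, D.c_algebraMap]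
    ring)

lemma trc_add (x y : B) : D.trc (x + y) = D.trc x + D.trc y :=
  D.inj (by rw [map_add, D.algebraMap_trc, D.algebraMap_trc, D.algebraMap_trc, map_add]; ring)

lemma nrm_sub_mem {I : Ideal O} {x y : B} (h : x - y ∈ D.up I) : D.nrm x - D.nrm y ∈ I := by
  obtain ⟨t, ht, rfl⟩ : ∃ t ∈ D.up I, x = y + t := ⟨x - y, h, by ring⟩
  rw [D.nrm_add, show D.nrm y + D.trc (y * D.c t) + D.nrm t - D.nrm y
    = D.trc (y * D.c t) + D.nrm t by ring]
  refine add_mem (D.trc_mem (Ideal.mul_mem_left _ _ (D.c_mem_up ht))) ?_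
  exact D.mem_of_algebraMap_mem (by rw [D.algebraMap_nrm]; exact Ideal.mul_mem_right _ _ ht)

lemma apply_eq_of_sub_mem {χ : AddChar O ℂ} {I : Ideal O} (hχ : ∀ x ∈ I, χ x = 1) {a b : O}
    (h : a - b ∈ I) : χ a = χ b := by
  rw [← sub_add_cancel a b, χ.map_add_eq_mul, hχ _ h, one_mul]

/-- The Gauss sum of the norm form. -/
def gauss (χ : AddChar O ℂ) (I : Ideal O) : ℂ :=
  ∑ᶠ r : B ⧸ D.up I, χ (D.nrm (Quotient.out r))

lemma term_eq {χ : AddChar O ℂ} {I : Ideal O} (hχ : ∀ x ∈ I, χ x = 1) (x : B) :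
    χ (D.nrm (Quotient.out (Ideal.Quotient.mk (D.up I) x))) = χ (D.nrm x) := by
  refine apply_eq_of_sub_mem hχ (D.nrm_sub_mem ?_)
  refine Ideal.Quotient.eq.mp ?_
  exact Quotient.out_eq _

lemma gauss_top (χ : AddChar O ℂ) (hχ : ∀ x ∈ (⊤ : Ideal O), χ x = 1) : D.gauss χ ⊤ = 1 := by
  have : Subsingleton (B ⧸ D.up (⊤ : Ideal O)) := by
    rw [Ideal.Quotient.subsingleton_iff, QuadRingData.up, Ideal.map_top]
  rw [gauss, finsum_eq_single _ (0 : B ⧸ D.up (⊤ : Ideal O))
    fun x hx => absurd (Subsingleton.elim x 0) hx, hχ _ Submodule.mem_top]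

section Prime

variable {P : Ideal O} [hPm : P.IsMaximal]

/-- A prime above `P` and the shape of `P B`. -/
lemma exists_prime_above [Nontrivial B] :
    ∃ Q : Ideal B, Q.IsMaximal ∧ D.up P ≤ Q ∧ Q.comap (algebraMap O B) = P := by
  have hne : D.up P ≠ ⊤ := by
    intro h
    refine hPm.ne_top ?_
    rw [← D.comap_map P]
    exact (congrArg (Ideal.comap (algebraMap O B)) h).trans Ideal.comap_top
  obtain ⟨Q, hQ, hle⟩ := Ideal.exists_le_maximal _ hne
  refine ⟨Q, hQ, hle, ?_⟩
  refine (hPm.eq_of_le (Ideal.comap_ne_top _ hQ.ne_top) ?_).symm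
  exact Ideal.map_le_iff_le_comap.mp hle

lemma eq_or_eq_of_prime {Q Q' : Ideal B} (hQ : Q.IsMaximal) (hQP : D.up P ≤ Q) (hQ' : Q'.IsMaximal)
    (hQ'P : D.up P ≤ Q') : Q' = Q ∨ Q' = Q.map (D.c : B →+* B) := by
  have hcQ : (Q.map (D.c : B →+* B)).IsMaximal :=
    Ideal.map_isMaximal_of_equiv D.c.toRingEquiv
  by_contra h
  simp only [not_or] at h
  obtain ⟨x, hx', hx⟩ : ∃ x ∈ Q', x ∉ Q ∧ x ∉ Q.map (D.c : B →+* B) := by
    by_contra hall
    simp only [not_exists, not_and, not_not] at hall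
    have hsub : (Q' : Set B) ⊆ (Q : Set B) ∪ (Q.map (D.c : B →+* B) : Ideal B) := fun x hx => by
      by_cases hq : x ∈ Q
      · exact Or.inl hq
      · exact Or.inr (hall x hx hq)
    rcases (Ideal.subset_union (I := Q') (J := Q) (K := Q.map (D.c : B →+* B))).mp hsub with h1 | h1
    · exact h.1 (hQ'.eq_of_le hQ.ne_top h1)
    · exact h.2 (hQ'.eq_of_le hcQ.ne_top h1)
  have hn : D.nrm x ∈ P := by
    have h1 : algebraMap O B (D.nrm x) ∈ Q' := by
      rw [D.algebraMap_nrm]; exact Ideal.mul_mem_right _ _ hx'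
    have h2 : Q'.comap (algebraMap O B) = P := (hPm.eq_of_le
      (Ideal.comap_ne_top _ hQ'.ne_top) (Ideal.map_le_iff_le_comap.mp hQ'P)).symm
    rw [← h2]; exact h1
  have h3 : x * D.c x ∈ Q := by
    rw [← D.algebraMap_nrm]; exact hQP (Ideal.mem_map_of_mem _ hn)
  rcases hQ.isPrime.mem_or_mem h3 with h4 | h4
  · exact hx.1 h4
  · refine hx.2 ?_
    have := Ideal.mem_map_of_mem (D.c : B →+* B) h4
    simpa [D.c_c] using this

/-- `P B` is radical: `P` is unramified. -/
def Unram (P : Ideal O) : Prop := (D.up P).IsRadical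

/-- There are two primes above `P`. -/
def Splits (P : Ideal O) : Prop :=
  ∃ Q : Ideal B, Q.IsMaximal ∧ D.up P ≤ Q ∧ Q.map (D.c : B →+* B) ≠ Q

lemma up_eq_inf (h : D.Unram P) {Q : Ideal B} (hQ : Q.IsMaximal) (hQP : D.up P ≤ Q) :
    D.up P = Q ⊓ Q.map (D.c : B →+* B) := by
  refine le_antisymm (le_inf hQP fun x hx => ?_) fun x hx => ?_
  · have := Ideal.mem_map_of_mem (D.c : B →+* B) (hQP (D.c_mem_up hx))
    simpa [D.c_c] using this
  · rw [← h.radical, Ideal.radical_eq_sInf]
    simp only [Submodule.mem_sInf, Set.mem_ofPred_eq]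
    rintro J ⟨hJP, hJ⟩
    by_contra hxJ
    obtain ⟨J', hJ', hle⟩ := Ideal.exists_le_maximal J hJ.ne_top
    have hJ'P := hJP.trans hle
    have hcomap : Ideal.comap (algebraMap O B) J = P := (hPm.eq_of_le
      (Ideal.comap_ne_top _ hJ.ne_top) (Ideal.map_le_iff_le_comap.mp hJP)).symm
    -- `J` is maximal, as `N x ∈ P` for `x` in every prime above `P`
    have hnx : x * D.c x ∈ J := by
      have h1 : D.nrm x ∈ P := by
        refine (hPm.eq_of_le (Ideal.comap_ne_top _ hQ.ne_top)
          (Ideal.map_le_iff_le_comap.mp hQP)).symm ▸ ?_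
        rw [Ideal.mem_comap, D.algebraMap_nrm]
        exact Ideal.mul_mem_right _ _ hx.1
      rw [← D.algebraMap_nrm]
      exact hJP (Ideal.mem_map_of_mem _ h1)
    have hx2 : x + D.c x ∈ J := by
      have h1 : D.trc x ∈ P := by
        refine (hPm.eq_of_le (Ideal.comap_ne_top _ hQ.ne_top)
          (Ideal.map_le_iff_le_comap.mp hQP)).symm ▸ ?_
        rw [Ideal.mem_comap, D.algebraMap_trc]
        refine add_mem hx.1 ?_
        have : x ∈ Ideal.map (D.c : B →+* B) Q := hx.2
        rw [Ideal.mem_map_iff_of_surjective (D.c : B →+* B) D.c.surjective] at this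
        obtain ⟨y, hy, rfl⟩ := this
        simpa [D.c_c] using hy
      rw [← D.algebraMap_trc]
      exact hJP (Ideal.mem_map_of_mem _ h1)
    rcases hJ.mem_or_mem hnx with h4 | h4
    · exact hxJ h4
    · exact hxJ (by simpa using sub_mem hx2 h4)

/-- The norm map of the residue rings at `P`. -/
private def resNrm (P : Ideal O) (r : B ⧸ D.up P) : O ⧸ P :=
  Ideal.Quotient.mk P (D.nrm (Quotient.out r))

omit hPm in
/-- The residual norm of a residue class is the class of the norm. -/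
private lemma resNrm_mk (x : B) :
    D.resNrm P (Ideal.Quotient.mk _ x) = Ideal.Quotient.mk P (D.nrm x) :=
  Ideal.Quotient.eq.mpr (D.nrm_sub_mem (Ideal.Quotient.eq.mp (Quotient.out_eq _)))

omit hPm in
/-- The residual norm is multiplicative. -/
private lemma resNrm_mul (r s : B ⧸ D.up P) :
    D.resNrm P (r * s) = D.resNrm P r * D.resNrm P s := by
  obtain ⟨x, rfl⟩ := Ideal.Quotient.mk_surjective r
  obtain ⟨y, rfl⟩ := Ideal.Quotient.mk_surjective s
  rw [← map_mul, D.resNrm_mk, D.resNrm_mk, D.resNrm_mk, D.nrm_mul, map_mul]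

omit hPm in
/-- The residual norm preserves one. -/
private lemma resNrm_one : D.resNrm P 1 = 1 := by
  rw [← map_one (Ideal.Quotient.mk (D.up P)), D.resNrm_mk, ← map_one (algebraMap O B),
    D.nrm_algebraMap, one_pow, map_one]

/-- The residual norm vanishes exactly on the primes above `P`. -/
private lemma resNrm_mk_eq_zero_iff {Q : Ideal B} (hQ : Q.IsMaximal) (hQP : D.up P ≤ Q) (x : B) :
    D.resNrm P (Ideal.Quotient.mk _ x) = 0 ↔ x ∈ Q ∨ x ∈ Q.map (D.c : B →+* B) := by
  have hcomap : Q.comap (algebraMap O B) = P := (hPm.eq_of_le (Ideal.comap_ne_top _ hQ.ne_top)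
    (Ideal.map_le_iff_le_comap.mp hQP)).symm
  rw [D.resNrm_mk, Ideal.Quotient.eq_zero_iff_mem]
  constructor
  · intro hn
    have h3 : x * D.c x ∈ Q := by
      rw [← D.algebraMap_nrm]; exact hQP (Ideal.mem_map_of_mem _ hn)
    refine (hQ.isPrime.mem_or_mem h3).imp_right fun h4 => ?_
    simpa [D.c_c] using Ideal.mem_map_of_mem (D.c : B →+* B) h4
  · intro hx
    rw [← hcomap, Ideal.mem_comap, D.algebraMap_nrm]
    rcases hx with hx | hx
    · exact Ideal.mul_mem_right _ _ hx
    · rw [Ideal.mem_map_iff_of_surjective (D.c : B →+* B) D.c.surjective] at hx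
      obtain ⟨y, hy, rfl⟩ := hx
      exact Ideal.mul_mem_left _ _ (by simpa [D.c_c] using hy)

/-- A residue class of nonzero norm is a unit. -/
private lemma isUnit_of_resNrm_ne_zero (hur : D.Unram P) {Q : Ideal B} (hQ : Q.IsMaximal)
    (hQP : D.up P ≤ Q) {r : B ⧸ D.up P} (hr : D.resNrm P r ≠ 0) : IsUnit r := by
  have hcQ : (Q.map (D.c : B →+* B)).IsMaximal := Ideal.map_isMaximal_of_equiv D.c.toRingEquiv
  obtain ⟨x, rfl⟩ := Ideal.Quotient.mk_surjective r
  rw [Ne, D.resNrm_mk_eq_zero_iff hQ hQP, not_or] at hr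
  obtain ⟨y, hy⟩ := hQ.exists_inv hr.1
  obtain ⟨i, hi, hyi⟩ := hy
  obtain ⟨y', i', hi', hyi'⟩ := hcQ.exists_inv hr.2
  refine IsUnit.of_mul_eq_one (Ideal.Quotient.mk _ (y + y' - y * x * y')) ?_
  rw [← map_mul, ← map_one (Ideal.Quotient.mk (D.up P)), Ideal.Quotient.eq,
    D.up_eq_inf hur hQ hQP,
    show x * (y + y' - y * x * y') - 1 = -(i * i') by
      linear_combination (1 - y' * x) * hyi + i * hyi']
  exact neg_mem ⟨Ideal.mul_mem_right _ _ hi, Ideal.mul_mem_left _ _ hi'⟩

/-- At a split prime the conjugate of a prime above `P` is the other one. -/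
private lemma isCoprime_conj_of_splits (hs : D.Splits P) {Q : Ideal B} (hQ : Q.IsMaximal)
    (hQP : D.up P ≤ Q) : IsCoprime Q (Q.map (D.c : B →+* B)) := by
  have hcQ : (Q.map (D.c : B →+* B)).IsMaximal := Ideal.map_isMaximal_of_equiv D.c.toRingEquiv
  obtain ⟨Q', hQ', hQ'P, hne⟩ := hs
  refine Ideal.isCoprime_iff_sup_eq.mpr (hQ.coprime_of_ne hcQ fun heq => hne ?_)
  rcases D.eq_or_eq_of_prime hQ hQP hQ' hQ'P with rfl | h
  · exact heq.symm
  · rw [h, ← heq, ← heq]

/-- At a split prime every residue is a norm. -/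
private lemma exists_resNrm_eq_of_splits (hur : D.Unram P) (hs : D.Splits P) {Q : Ideal B}
    (hQ : Q.IsMaximal) (hQP : D.up P ≤ Q) (v : O ⧸ P) : ∃ r, D.resNrm P r = v := by
  have hcomap : Q.comap (algebraMap O B) = P := (hPm.eq_of_le (Ideal.comap_ne_top _ hQ.ne_top)
    (Ideal.map_le_iff_le_comap.mp hQP)).symm
  let e : B ⧸ D.up P ≃+* (B ⧸ Q) × (B ⧸ Q.map (D.c : B →+* B)) :=
    (Ideal.quotEquivOfEq (D.up_eq_inf hur hQ hQP)).trans
      (Ideal.quotientInfEquivQuotientProd Q _ (D.isCoprime_conj_of_splits hs hQ hQP))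
  have he1 : ∀ x, (e (Ideal.Quotient.mk _ x)).1 = Ideal.Quotient.mk _ x := fun _ => rfl
  have he2 : ∀ x, (e (Ideal.Quotient.mk _ x)).2 = Ideal.Quotient.mk _ x := fun _ => rfl
  obtain ⟨a, rfl⟩ := Ideal.Quotient.mk_surjective v
  obtain ⟨r, hr⟩ := e.surjective (Ideal.Quotient.mk Q (algebraMap O B a), 1)
  obtain ⟨x, rfl⟩ := Ideal.Quotient.mk_surjective r
  refine ⟨Ideal.Quotient.mk _ x, ?_⟩
  have hx1 := (congrArg Prod.fst hr)
  have hx2 := (congrArg Prod.snd hr)
  rw [he1] at hx1
  rw [he2, ← map_one (Ideal.Quotient.mk _)] at hx2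
  rw [D.resNrm_mk, Ideal.Quotient.eq, ← hcomap, Ideal.mem_comap, map_sub, D.algebraMap_nrm]
  have h5 : D.c x - 1 ∈ Q := by
    have := Ideal.Quotient.eq.mp hx2
    rw [Ideal.mem_map_iff_of_surjective (D.c : B →+* B) D.c.surjective] at this
    obtain ⟨y, hy, hye⟩ := this
    have : D.c x - 1 = y := by
      rw [show y = D.c (D.c y) from (D.c_c y).symm, show D.c y = x - 1 from hye, map_sub,
        map_one]
    rwa [this]
  rw [show x * D.c x - algebraMap O B a = x * (D.c x - 1) + (x - algebraMap O B a) by ring]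
  exact add_mem (Ideal.mul_mem_left _ _ h5) (Ideal.Quotient.eq.mp hx1)

/-- At a split prime `2q - 1` residue classes have norm zero. -/
private lemma card_resNrm_zero_of_splits [Fintype (B ⧸ D.up P)] [Fintype (O ⧸ P)]
    (hcardB : Fintype.card (B ⧸ D.up P) = Fintype.card (O ⧸ P) ^ 2) (hur : D.Unram P)
    (hs : D.Splits P) {Q : Ideal B} (hQ : Q.IsMaximal) (hQP : D.up P ≤ Q) :
    (Finset.univ.filter fun r => D.resNrm P r = 0).card = 2 * Fintype.card (O ⧸ P) - 1 := by
  let e : B ⧸ D.up P ≃+* (B ⧸ Q) × (B ⧸ Q.map (D.c : B →+* B)) :=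
    (Ideal.quotEquivOfEq (D.up_eq_inf hur hQ hQP)).trans
      (Ideal.quotientInfEquivQuotientProd Q _ (D.isCoprime_conj_of_splits hs hQ hQP))
  have := Finite.of_surjective _ (Prod.fst_surjective.comp e.surjective)
  have := Finite.of_surjective _ (Prod.snd_surjective.comp e.surjective)
  have := Fintype.ofFinite (B ⧸ Q)
  have := Fintype.ofFinite (B ⧸ Q.map (D.c : B →+* B))
  have hsame : Fintype.card (B ⧸ Q) = Fintype.card (B ⧸ Q.map (D.c : B →+* B)) :=
    Fintype.card_congr (Ideal.quotientEquiv Q _ D.c.toRingEquiv rfl).toEquiv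
  have hcard : Fintype.card (B ⧸ Q) = Fintype.card (O ⧸ P) := by
    have h := Fintype.card_congr e.toEquiv
    rw [Fintype.card_prod, ← hsame, hcardB, sq] at h
    exact (Nat.mul_self_inj.mp h).symm
  have h00 : (Finset.univ.filter fun r => D.resNrm P r = 0).card = (Finset.univ.filter
      fun y : (B ⧸ Q) × (B ⧸ Q.map (D.c : B →+* B)) => y.1 = 0 ∨ y.2 = 0).card := by
    refine Finset.card_equiv e.toEquiv fun r => ?_
    obtain ⟨x, rfl⟩ := Ideal.Quotient.mk_surjective r
    simp only [Finset.mem_filter, Finset.mem_univ, true_and]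
    rw [D.resNrm_mk_eq_zero_iff hQ hQP, ← Ideal.Quotient.eq_zero_iff_mem,
      ← Ideal.Quotient.eq_zero_iff_mem]
    exact Iff.rfl
  rw [h00, Finset.filter_or, Finset.card_union]
  have f1 : (Finset.univ.filter fun y : (B ⧸ Q) × (B ⧸ Q.map (D.c : B →+* B)) => y.1 = 0)
      = {0} ×ˢ Finset.univ := by ext ⟨u, v⟩; simp [eq_comm]
  have f2 : (Finset.univ.filter fun y : (B ⧸ Q) × (B ⧸ Q.map (D.c : B →+* B)) => y.2 = 0)
      = Finset.univ ×ˢ {0} := by ext ⟨u, v⟩; simp [eq_comm]
  have f3 : ({0} ×ˢ Finset.univ : Finset ((B ⧸ Q) × (B ⧸ Q.map (D.c : B →+* B))))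
      ∩ Finset.univ ×ˢ {0} = {0} := by
    ext ⟨u, v⟩
    simp only [Finset.mem_inter, Finset.mem_product, Finset.mem_singleton, Finset.mem_univ,
      true_and, and_true, Prod.mk_eq_zero]
  rw [f1, f2, f3]
  simp only [Finset.card_product, Finset.card_singleton, Finset.card_univ, ← hsame, hcard]
  omega

/-- In a field containing a finite field `k`, the fixed points of `x ↦ x ^ #k` lie in `k`. -/
private lemma exists_apply_eq_of_pow_card_eq {k L : Type*} [Field k] [Fintype k] [Field L]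
    (φ : k →+* L) {X : L} (h : X ^ Fintype.card k = X) : ∃ v, φ v = X := by
  have hq : 1 < Fintype.card k := Fintype.one_lt_card
  by_contra hno
  simp only [not_exists] at hno
  let pol : Polynomial L := Polynomial.X ^ Fintype.card k - Polynomial.X
  have hp0 : pol ≠ 0 := FiniteField.X_pow_card_sub_X_ne_zero _ hq
  have hsub : insert X (Finset.univ.image φ) ⊆ pol.roots.toFinset := by
    intro z hz
    rw [Multiset.mem_toFinset, Polynomial.mem_roots hp0]
    simp only [Finset.mem_insert, Finset.mem_image, Finset.mem_univ, true_and] at hz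
    rcases hz with rfl | ⟨v, rfl⟩
    · simp [pol, h]
    · simp only [pol, Polynomial.IsRoot, Polynomial.eval_sub, Polynomial.eval_pow,
        Polynomial.eval_X, ← map_pow]
      rw [FiniteField.pow_card, sub_self]
  have h6 := (Finset.card_le_card hsub).trans
    (pol.roots.toFinset_card_le.trans pol.card_roots')
  rw [FiniteField.X_pow_card_sub_X_natDegree_eq _ hq, Finset.card_insert_of_notMem
    (by simpa using hno), Finset.card_image_of_injective _ φ.injective,
    Finset.card_univ] at h6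
  omega

/-- At an inert prime the conjugation is the Frobenius of the residue field. -/
private lemma mk_conj_eq_pow_card [Fintype (O ⧸ P)] (hmax : (D.up P).IsMaximal) (x : B) :
    Ideal.Quotient.mk (D.up P) (D.c x) =
      Ideal.Quotient.mk (D.up P) x ^ Fintype.card (O ⧸ P) := by
  let := Ideal.Quotient.field P
  let := Ideal.Quotient.field (D.up P)
  let φ : O ⧸ P →+* B ⧸ D.up P := Ideal.quotientMap (D.up P) (algebraMap O B)
    (by rw [D.comap_map])
  set X := Ideal.Quotient.mk (D.up P) x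
  set Y := Ideal.Quotient.mk (D.up P) (D.c x)
  set q := Fintype.card (O ⧸ P) with hq'
  obtain ⟨ℓ, hℓ⟩ := CharP.exists (O ⧸ P)
  obtain ⟨f, hℓp, hf⟩ := FiniteField.card (O ⧸ P) ℓ
  have := Fact.mk hℓp
  have : CharP (B ⧸ D.up P) ℓ := charP_of_injective_ringHom φ.injective ℓ
  rw [← hq'] at hf
  have hs1 : X + Y = φ (Ideal.Quotient.mk P (D.trc x)) := by
    rw [← map_add, ← D.algebraMap_trc]; rfl
  have hs2 : X * Y = φ (Ideal.Quotient.mk P (D.nrm x)) := by
    rw [← map_mul, ← D.algebraMap_nrm]; rfl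
  have hz : (X ^ q - X) * (X ^ q - Y) = 0 := by
    have h2 : X ^ q * X ^ q - (X + Y) ^ q * X ^ q + X ^ q * Y ^ q = 0 := by
      have h1 : X * X - (X + Y) * X + X * Y = 0 := by ring
      have := congrArg (iterateFrobenius (B ⧸ D.up P) ℓ f) h1
      simp only [map_add, map_sub, map_mul, map_zero, iterateFrobenius_def] at this
      rw [← add_pow_char_pow, ← hf] at this
      exact this
    have e1 : (X + Y) ^ q = X + Y := by rw [hs1, ← map_pow, FiniteField.pow_card]
    have e2 : X ^ q * Y ^ q = X * Y := by rw [← mul_pow, hs2, ← map_pow, FiniteField.pow_card]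
    rw [e1, e2] at h2
    linear_combination h2
  rcases mul_eq_zero.mp hz with h | h
  · -- fixed by Frobenius, hence rational
    rw [sub_eq_zero] at h
    obtain ⟨v, hv⟩ := exists_apply_eq_of_pow_card_eq φ h
    obtain ⟨a, rfl⟩ := Ideal.Quotient.mk_surjective v
    rw [h]
    show Y = X
    have h7 : x - algebraMap O B a ∈ D.up P := Ideal.Quotient.eq.mp hv.symm
    have h8 := D.c_mem_up h7
    rw [map_sub, D.c_algebraMap] at h8
    exact Ideal.Quotient.eq.mpr (by simpa using sub_mem h8 h7)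
  · exact (sub_eq_zero.mp h).symm

/-- At an inert prime a norm fibre has at most `q + 1` elements. -/
private lemma card_resNrm_fiber_le [Fintype (B ⧸ D.up P)] [Fintype (O ⧸ P)]
    (hmax : (D.up P).IsMaximal) (v : O ⧸ P) :
    (Finset.univ.filter fun r => D.resNrm P r = v).card ≤ Fintype.card (O ⧸ P) + 1 := by
  let := Ideal.Quotient.field (D.up P)
  let φ : O ⧸ P →+* B ⧸ D.up P := Ideal.quotientMap (D.up P) (algebraMap O B)
    (by rw [D.comap_map])
  let pol : Polynomial (B ⧸ D.up P) :=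
    Polynomial.X ^ (Fintype.card (O ⧸ P) + 1) - Polynomial.C (φ v)
  have hp0 : pol ≠ 0 := Polynomial.X_pow_sub_C_ne_zero (Nat.succ_pos _) _
  refine le_trans (Finset.card_le_card (t := pol.roots.toFinset) fun r hr => ?_)
    (pol.roots.toFinset_card_le.trans (pol.card_roots'.trans
      (Polynomial.natDegree_X_pow_sub_C).le))
  simp only [Finset.mem_filter, Finset.mem_univ, true_and] at hr
  obtain ⟨x, rfl⟩ := Ideal.Quotient.mk_surjective r
  rw [Multiset.mem_toFinset, Polynomial.mem_roots hp0]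
  simp only [pol, Polynomial.IsRoot, Polynomial.eval_sub, Polynomial.eval_pow,
    Polynomial.eval_X, Polynomial.eval_C, ← hr, D.resNrm_mk]
  rw [pow_succ', ← D.mk_conj_eq_pow_card hmax, ← map_mul, ← D.algebraMap_nrm, sub_eq_zero]
  rfl

/-- At an inert prime only zero has norm zero. -/
private lemma resNrm_eq_zero_iff_of_not_splits (hur : D.Unram P) (hs : ¬ D.Splits P)
    {Q : Ideal B} (hQ : Q.IsMaximal) (hQP : D.up P ≤ Q) (r : B ⧸ D.up P) :
    D.resNrm P r = 0 ↔ r = 0 := by
  have heq : Q.map (D.c : B →+* B) = Q := by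
    by_contra h
    exact hs ⟨Q, hQ, hQP, h⟩
  obtain ⟨x, rfl⟩ := Ideal.Quotient.mk_surjective r
  rw [D.resNrm_mk_eq_zero_iff hQ hQP, heq, or_self, Ideal.Quotient.eq_zero_iff_mem,
    D.up_eq_inf hur hQ hQP, heq, inf_idem]

/-- At an inert prime every nonzero residue is a norm. -/
private lemma exists_resNrm_eq_of_not_splits [Fintype (B ⧸ D.up P)] [Fintype (O ⧸ P)]
    (hcardB : Fintype.card (B ⧸ D.up P) = Fintype.card (O ⧸ P) ^ 2) (hur : D.Unram P)
    (hs : ¬ D.Splits P) {Q : Ideal B} (hQ : Q.IsMaximal) (hQP : D.up P ≤ Q) {v : O ⧸ P}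
    (hv : v ≠ 0) : ∃ r, D.resNrm P r = v := by
  have heq : Q.map (D.c : B →+* B) = Q := by
    by_contra h
    exact hs ⟨Q, hQ, hQP, h⟩
  have hmax : (D.up P).IsMaximal := by rwa [D.up_eq_inf hur hQ hQP, heq, inf_idem]
  have hq : 1 < Fintype.card (O ⧸ P) :=
    Fintype.one_lt_card_iff_nontrivial.mpr (Ideal.Quotient.nontrivial_iff.mpr hPm.ne_top)
  by_contra hno
  simp only [not_exists] at hno
  set S := ((Finset.univ : Finset (O ⧸ P)).erase 0).erase v
  have hsub : (Finset.univ : Finset (B ⧸ D.up P)).erase 0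
      ⊆ S.biUnion fun w => Finset.univ.filter fun r => D.resNrm P r = w := by
    intro r hr
    simp only [Finset.mem_erase, Finset.mem_univ, and_true] at hr
    simp only [S, Finset.mem_biUnion, Finset.mem_erase, Finset.mem_univ, and_true,
      Finset.mem_filter, true_and, exists_eq_right']
    exact ⟨hno r, fun h0 => hr ((D.resNrm_eq_zero_iff_of_not_splits hur hs hQ hQP r).mp h0)⟩
  have h9 := (Finset.card_le_card hsub).trans (Finset.card_biUnion_le.trans
    (Finset.sum_le_card_nsmul S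
      (fun w => (Finset.univ.filter fun r => D.resNrm P r = w).card)
      (Fintype.card (O ⧸ P) + 1) fun w _ => D.card_resNrm_fiber_le hmax w))
  rw [Finset.card_erase_of_mem (Finset.mem_univ _), Finset.card_univ, hcardB,
    Finset.card_erase_of_mem (Finset.mem_erase.mpr ⟨hv, Finset.mem_univ _⟩),
    Finset.card_erase_of_mem (Finset.mem_univ _), Finset.card_univ, smul_eq_mul] at h9
  obtain ⟨k, hk⟩ : ∃ k, Fintype.card (O ⧸ P) = k + 2 := ⟨Fintype.card (O ⧸ P) - 2, by omega⟩
  rw [hk, show k + 2 - 1 - 1 = k by omega] at h9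
  have : (k + 2) ^ 2 ≤ k * (k + 2 + 1) + 1 := by omega
  nlinarith

omit hPm in
/-- The norm fibre over the norm of a unit has as many elements as the fibre over one. -/
private lemma card_resNrm_fiber_of_unit [Fintype (B ⧸ D.up P)] (u : (B ⧸ D.up P)ˣ) :
    (Finset.univ.filter fun s => D.resNrm P s = D.resNrm P u).card =
      (Finset.univ.filter fun s => D.resNrm P s = 1).card := by
  refine (Finset.card_bij (fun s _ => (u : B ⧸ D.up P) * s) (fun s hs => ?_)
    (fun s _ t _ h => u.mul_right_inj.mp h) fun s hs =>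
      ⟨(↑u⁻¹ : B ⧸ D.up P) * s, ?_, by simp⟩).symm
  · simp only [Finset.mem_filter, Finset.mem_univ, true_and] at hs ⊢
    rw [D.resNrm_mul, hs, mul_one]
  · simp only [Finset.mem_filter, Finset.mem_univ, true_and] at hs ⊢
    rw [D.resNrm_mul, hs, ← D.resNrm_mul, Units.inv_mul, D.resNrm_one]

/-- A primitive character modulo `P` is a nontrivial character of the residue field. -/
private lemma exists_resChar [Fintype (O ⧸ P)] {χ : AddChar O ℂ} (hχ : IsPrimitiveMod χ P) :
    ∃ χb : AddChar (O ⧸ P) ℂ, (∀ x, χb (Ideal.Quotient.mk P x) = χ x) ∧ ∑ v, χb v = 0 := by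
  let χb : AddChar (O ⧸ P) ℂ :=
    { toFun := fun v => χ (Quotient.out v)
      map_zero_eq_one' := by
        refine hχ.trivial _ (Ideal.Quotient.eq_zero_iff_mem.mp ?_)
        exact Quotient.out_eq _
      map_add_eq_mul' := fun v w => by
        rw [← χ.map_add_eq_mul]
        refine apply_eq_of_sub_mem hχ.trivial (Ideal.Quotient.eq.mp ?_)
        rw [map_add]
        simp only [Ideal.Quotient.mk_out] }
  have hχb : ∀ x, χb (Ideal.Quotient.mk P x) = χ x := fun x =>
    apply_eq_of_sub_mem hχ.trivial (Ideal.Quotient.eq.mp (Ideal.Quotient.mk_out _))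
  refine ⟨χb, hχb, AddChar.sum_eq_zero_iff_ne_zero.mpr fun h1 => ?_⟩
  obtain ⟨x, -, hx⟩ := hχ.nontrivial ⊤ (lt_top_iff_ne_top.mpr hPm.ne_top)
  exact hx (by rw [← hχb, h1]; rfl)

variable [IsDedekindDomain B] [IsDedekindDomain O]

omit [IsDedekindDomain O] in
lemma exists_trc_notMem (hP : P ≠ ⊥) (h : D.Unram P) {r : B} (hr : r ∉ D.up P) :
    ∃ s, D.trc (r * s) ∉ P := by
  obtain ⟨Q, hQ, hQP, hcomap⟩ := D.exists_prime_above (P := P)
  have hup := D.up_eq_inf h hQ hQP
  have hcQ : (Q.map (D.c : B →+* B)).IsMaximal := Ideal.map_isMaximal_of_equiv D.c.toRingEquiv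
  have hmem : ∀ a : O, algebraMap O B a ∈ Q → a ∈ P := fun a ha => by rw [← hcomap]; exact ha
  by_cases heq : Q.map (D.c : B →+* B) = Q
  · -- inert: the residue ring is a field
    have hQup : D.up P = Q := by rw [hup, heq, inf_idem]
    have hs : ∀ x : B, x ∈ Q → D.c x ∈ Q := fun x hx => heq ▸ Ideal.mem_map_of_mem _ hx
    rw [hQup] at hr
    obtain ⟨s, hs1⟩ : ∃ s, r * s - 1 ∈ Q := by
      obtain ⟨s, i, hi, hsi⟩ := hQ.exists_inv hr
      exact ⟨s, by rw [show r * s - 1 = -i by linear_combination hsi]; exact neg_mem hi⟩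
    by_contra hall
    simp only [not_exists, not_not] at hall
    -- all traces vanish, so `2 = 0` and `x ↦ x² = N x` is injective modulo `P`
    have htr : ∀ y : B, y + D.c y ∈ Q := fun y => by
      have h1 := hall (s * y)
      have h2 : algebraMap O B (D.trc (r * (s * y))) ∈ Q := hQP (Ideal.mem_map_of_mem _ h1)
      rw [D.algebraMap_trc] at h2
      have h3 : r * (s * y) - y ∈ Q := by
        rw [show r * (s * y) - y = (r * s - 1) * y by ring]; exact Ideal.mul_mem_right _ _ hs1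
      have h4 : D.c (r * (s * y)) - D.c y ∈ Q := by rw [← map_sub]; exact hs _ h3
      have := sub_mem h2 (add_mem h3 h4)
      rwa [show r * (s * y) + D.c (r * (s * y)) - (r * (s * y) - y + (D.c (r * (s * y)) - D.c y))
        = y + D.c y by ring] at this
    have h2 : (2 : B) ∈ Q := by simpa [one_add_one_eq_two] using htr 1
    have hinj : Function.Injective (fun y : B ⧸ D.up P =>
        Ideal.Quotient.mk P (D.nrm (Quotient.out y))) := by
      intro y z hyz
      have h1 := hQP (Ideal.mem_map_of_mem _ (Ideal.Quotient.eq.mp hyz))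
      rw [map_sub, D.algebraMap_nrm, D.algebraMap_nrm] at h1
      set a := Quotient.out y
      set b := Quotient.out z
      have h5 : (a - b) * (a - b) ∈ Q := by
        have e1 : a * a + a * D.c a ∈ Q := by rw [← mul_add]; exact Ideal.mul_mem_left _ _ (htr a)
        have e2 : b * b + b * D.c b ∈ Q := by rw [← mul_add]; exact Ideal.mul_mem_left _ _ (htr b)
        have := add_mem (sub_mem e1 (add_mem h1 e2))
          (Ideal.mul_mem_right (b * b - a * b) _ h2)
        rwa [show a * a + a * D.c a - (a * D.c a - b * D.c b + (b * b + b * D.c b))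
          + 2 * (b * b - a * b) = (a - b) * (a - b) by ring] at this
      have h6 : a - b ∈ D.up P := by rw [hQup]; exact (hQ.isPrime.mem_or_mem h5).elim id id
      have := Ideal.Quotient.eq.mpr h6
      simpa [a, b, Ideal.Quotient.mk_out] using this
    have := D.finite_quot P hP
    have := D.finite_quotB P hP
    have hcard := Nat.card_le_card_of_injective _ hinj
    rw [D.card_quotB P hP] at hcard
    have : 1 < Nat.card (O ⧸ P) := Finite.one_lt_card
    nlinarith
  · -- split
    have hne : ¬ Q.map (D.c : B →+* B) ≤ Q := fun hle => heq (hcQ.eq_of_le hQ.ne_top hle)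
    rw [hup, Ideal.mem_inf, not_and_or] at hr
    have htc : ∀ y, D.trc (D.c y) = D.trc y := fun y =>
      D.inj (by rw [D.algebraMap_trc, D.algebraMap_trc, D.c_c, add_comm])
    suffices key : ∀ r', r' ∉ Q → ∃ s, D.trc (r' * s) ∉ P by
      rcases hr with hr1 | hr1
      · exact key r hr1
      · obtain ⟨s, hs⟩ := key (D.c r) fun h1 => hr1 (by
          simpa [D.c_c] using Ideal.mem_map_of_mem (D.c : B →+* B) h1)
        exact ⟨D.c s, by rwa [← htc, map_mul, D.c_c]⟩
    intro r hrQ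
    obtain ⟨s, hs, hsQ⟩ := SetLike.not_le_iff_exists.mp hne
    refine ⟨s, fun htr => ?_⟩
    have h2 : algebraMap O B (D.trc (r * s)) ∈ Q := hQP (Ideal.mem_map_of_mem _ htr)
    rw [D.algebraMap_trc, map_mul] at h2
    have hcs : D.c s ∈ Q := by
      rw [Ideal.mem_map_iff_of_surjective (D.c : B →+* B) D.c.surjective] at hs
      obtain ⟨y, hy, rfl⟩ := hs
      simpa [D.c_c] using hy
    have h3 : r * s ∈ Q := by simpa using sub_mem h2 (Ideal.mul_mem_left _ (D.c r) hcs)
    exact (hQ.isPrime.mem_or_mem h3).elim hrQ hsQ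

end Prime

/-- The norm of an element of `K B` lies in `K ^ 2`. -/
private lemma nrm_mem_mul_self {K : Ideal O} {t : B} (ht : t ∈ D.up K) : D.nrm t ∈ K * K := by
  refine D.mem_of_algebraMap_mem ?_
  rw [D.algebraMap_nrm, QuadRingData.up, Ideal.map_mul]
  exact Ideal.mul_mem_mul ht (D.c_mem_up ht)

/-- The trace pairing of `P B` and `K B` lands in `P K`. -/
private lemma trc_mul_conj_mem_mul {P K : Ideal O} {x t : B} (hx : x ∈ D.up P) (ht : t ∈ D.up K) :
    D.trc (x * D.c t) ∈ P * K := by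
  refine D.trc_mem ?_
  rw [QuadRingData.up, Ideal.map_mul]
  exact Ideal.mul_mem_mul hx (D.c_mem_up ht)

/-- If `P = K + (π)` then `P² = P K + (π)²`. -/
private lemma mul_self_eq_mul_sup_span {P K : Ideal O} {π : O} (hπ : K ⊔ Ideal.span {π} = P) :
    P * P = P * K ⊔ Ideal.span {π} * Ideal.span {π} := by
  have hK : K ≤ P := hπ ▸ le_sup_left
  have hπP : Ideal.span {π} ≤ P := hπ ▸ le_sup_right
  refine le_antisymm ?_ (sup_le (Ideal.mul_mono le_rfl hK) (Ideal.mul_mono hπP hπP))
  conv_lhs => rw [← hπ]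
  rw [Ideal.sup_mul, Ideal.mul_sup, Ideal.mul_sup]
  refine sup_le (sup_le ?_ ?_) (sup_le ?_ le_sup_right)
  · exact le_sup_of_le_left (Ideal.mul_mono hK le_rfl)
  · refine le_sup_of_le_left ?_
    rw [mul_comm]
    exact Ideal.mul_mono hπP le_rfl
  · exact le_sup_of_le_left (Ideal.mul_mono hπP le_rfl)

/-- Every fibre of `B / P K B → B / K B` has `|O / P| ^ 2` elements. -/
private lemma card_fibre_factor {P K : Ideal O} (hPK : P * K ≠ ⊥) (hK : K ≠ ⊥)
    [Fintype (B ⧸ D.up (P * K))] (hle : D.up (P * K) ≤ D.up K) (y : B ⧸ D.up K) :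
    (Finset.univ.filter fun r => Ideal.Quotient.factor hle r = y).card
      = Nat.card (O ⧸ P) ^ 2 := by
  have := D.finite_quotB K hK
  have := Fintype.ofFinite (B ⧸ D.up K)
  set red := Ideal.Quotient.factor hle
  have hcs : ∀ y z, (Finset.univ.filter fun r => red r = y).card
      = (Finset.univ.filter fun r => red r = z).card := fun y z => by
    obtain ⟨a, ha⟩ := Ideal.Quotient.factor_surjective hle (z - y)
    refine Finset.card_bij (fun r _ => r + a) (fun r hr => ?_) (fun _ _ _ _ h => by simpa using h)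
      fun r hr => ⟨r - a, ?_, by simp⟩
    · simp only [Finset.mem_filter, Finset.mem_univ, true_and] at hr ⊢
      rw [map_add, hr, ha]; ring
    · simp only [Finset.mem_filter, Finset.mem_univ, true_and] at hr ⊢
      rw [map_sub, hr, ha]; ring
  have htot : Fintype.card (B ⧸ D.up (P * K))
      = Fintype.card (B ⧸ D.up K) * (Finset.univ.filter fun r => red r = y).card := by
    rw [← Finset.card_univ, Finset.card_eq_sum_card_fiberwise (f := red) (t := Finset.univ)
      fun _ _ => Finset.mem_univ _, Finset.sum_congr rfl fun z _ => hcs z y, Finset.sum_const,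
      Finset.card_univ, smul_eq_mul]
  rw [← Nat.card_eq_fintype_card, ← Nat.card_eq_fintype_card, D.card_quotB _ hPK,
    D.card_quotB K hK, D.card_quot_mul, mul_pow, mul_comm] at htot
  have hpos : 0 < Nat.card (O ⧸ K) ^ 2 := by
    have := D.finite_quot K hK
    exact pow_pos Nat.card_pos 2
  exact (Nat.eq_of_mul_eq_mul_left hpos htot).symm

/-- On a fibre over a residue in `P B` the norm character is constant. -/
private lemma sum_fibre_of_mem {P K : Ideal O} (hPK : P * K ≠ ⊥) (hK : K ≠ ⊥) (hKP : K ≤ P)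
    [Fintype (B ⧸ D.up (P * K))] {χ : AddChar O ℂ} (hχ : ∀ z ∈ P * K, χ z = 1)
    (hle : D.up (P * K) ≤ D.up K) {x : B} (hx : x ∈ D.up P) :
    ∑ r ∈ Finset.univ.filter (fun r => Ideal.Quotient.factor hle r = Ideal.Quotient.mk _ x),
        χ (D.nrm (Quotient.out r))
      = (Nat.card (O ⧸ P) : ℂ) ^ 2 * χ (D.nrm x) := by
  have hconst : ∀ r ∈ Finset.univ.filter
      (fun r => Ideal.Quotient.factor hle r = Ideal.Quotient.mk _ x),
      χ (D.nrm (Quotient.out r)) = χ (D.nrm x) := by
    intro r hr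
    obtain ⟨w, rfl⟩ := Ideal.Quotient.mk_surjective r
    simp only [Finset.mem_filter, Finset.mem_univ, true_and, Ideal.Quotient.factor_mk] at hr
    have ht : w - x ∈ D.up K := Ideal.Quotient.eq.mp hr
    rw [D.term_eq hχ]
    refine apply_eq_of_sub_mem hχ ?_
    rw [show w = x + (w - x) by ring, D.nrm_add,
      show D.nrm x + D.trc (x * D.c (w - x)) + D.nrm (w - x) - D.nrm x
        = D.trc (x * D.c (w - x)) + D.nrm (w - x) by ring]
    exact add_mem (D.trc_mul_conj_mem_mul hx ht)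
      (Ideal.mul_mono hKP le_rfl (D.nrm_mem_mul_self ht))
  rw [Finset.sum_congr rfl hconst, Finset.sum_const, D.card_fibre_factor hPK hK, nsmul_eq_mul]
  push_cast
  rfl

/-- Translating by `t ∈ K B` scales a fibre sum of the norm character by `χ (tr (x c t))`,
so the sum vanishes if this is not `1`. -/
private lemma sum_fibre_eq_zero {P K : Ideal O} (hKP : K ≤ P) [Fintype (B ⧸ D.up (P * K))]
    {χ : AddChar O ℂ} (hχ : ∀ z ∈ P * K, χ z = 1) (hle : D.up (P * K) ≤ D.up K) {x t : B}
    (ht : t ∈ D.up K) (ht1 : χ (D.trc (x * D.c t)) ≠ 1) :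
    ∑ r ∈ Finset.univ.filter (fun r => Ideal.Quotient.factor hle r = Ideal.Quotient.mk _ x),
        χ (D.nrm (Quotient.out r)) = 0 := by
  have hKK : K * K ≤ P * K := Ideal.mul_mono hKP le_rfl
  refine eq_zero_of_mul_eq_self_left ht1 ?_
  rw [Finset.mul_sum]
  set red := Ideal.Quotient.factor hle
  set tt : B ⧸ D.up (P * K) := Ideal.Quotient.mk _ t
  have htt : red tt = 0 := by
    simp only [red, tt, Ideal.Quotient.factor_mk]
    exact Ideal.Quotient.eq_zero_iff_mem.mpr ht
  refine (Finset.sum_bij' (fun r _ => r - tt) (fun r _ => r + tt) (fun r hr => ?_)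
    (fun r hr => ?_) (fun r _ => by simp) (fun r _ => by simp) fun r hr => ?_).symm
  · simpa [map_sub, htt] using hr
  · simpa [map_add, htt] using hr
  · obtain ⟨w, hw⟩ := Ideal.Quotient.mk_surjective (r - tt)
    have hr' : red (r - tt) = Ideal.Quotient.mk _ x := by simpa [map_sub, htt] using hr
    rw [← hw] at hr' ⊢
    simp only [red, Ideal.Quotient.factor_mk] at hr'
    have hwx : w - x ∈ D.up K := Ideal.Quotient.eq.mp hr'
    rw [show r = Ideal.Quotient.mk _ (w + t) by rw [map_add, hw]; ring, D.term_eq hχ,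
      D.term_eq hχ, ← χ.map_add_eq_mul]
    refine apply_eq_of_sub_mem hχ ?_
    rw [D.nrm_add, show D.nrm w + D.trc (w * D.c t) + D.nrm t - (D.trc (x * D.c t) + D.nrm w)
      = (D.trc (w * D.c t) - D.trc (x * D.c t)) + D.nrm t by ring,
      show w * D.c t = (w - x) * D.c t + x * D.c t by ring, D.trc_add, add_sub_cancel_right]
    exact add_mem (hKK (D.trc_mul_conj_mem_mul hwx ht)) (hKK (D.nrm_mem_mul_self ht))

/-- `P B = K B + (π)` when `P = K + (π)`. -/
private lemma up_eq_sup_span {P K : Ideal O} {π : O} (hπ : K ⊔ Ideal.span {π} = P) :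
    D.up P = D.up K ⊔ Ideal.span {algebraMap O B π} := by
  rw [← hπ, QuadRingData.up, Ideal.map_sup, Ideal.map_span, Set.image_singleton]

section Step

variable [IsDedekindDomain B] [IsDedekindDomain O]

omit [IsDedekindDomain B] [IsDedekindDomain O] in
lemma fintype_quotB {I : Ideal O} (hI : I ≠ ⊥) : Nonempty (Fintype (B ⧸ D.up I)) :=
  have := D.finite_quotB I hI
  ⟨Fintype.ofFinite _⟩

omit [IsDedekindDomain B] in
/-- Twisting a primitive character modulo `P² J` by `π²` gives a primitive character modulo `J`,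
when `P J + (π) = P`. -/
private lemma isPrimitiveMod_mulLeft_sq {P J : Ideal O} (hP : P ≠ ⊥) {π : O}
    (hπ : P * J ⊔ Ideal.span {π} = P) {χ : AddChar O ℂ} (hχ : IsPrimitiveMod χ (P * (P * J))) :
    IsPrimitiveMod (χ.compAddMonoidHom (AddMonoidHom.mulLeft (π ^ 2))) J := by
  have hπP : π ∈ P := hπ ▸ Ideal.mem_sup_right (Ideal.mem_span_singleton_self π)
  refine ⟨fun x hx => hχ.trivial _ ?_, fun J' hJ' => ?_⟩
  · rw [← mul_assoc, sq]
    exact Ideal.mul_mem_mul (Ideal.mul_mem_mul hπP hπP) hx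
  · by_contra hall
    simp only [not_exists, not_and, not_not] at hall
    have hlt : P * (P * J) < P * P * J' := by
      rw [← mul_assoc]
      refine lt_of_le_of_ne (Ideal.mul_mono le_rfl hJ'.le) fun e => hJ'.ne ?_
      exact mul_left_cancel₀ (mul_ne_zero hP hP) e
    obtain ⟨x, hx, hx1⟩ := hχ.nontrivial _ hlt
    refine hx1 ?_
    rw [mul_self_eq_mul_sup_span hπ, Ideal.sup_mul, Submodule.mem_sup] at hx
    obtain ⟨u, hu, v, hv, rfl⟩ := hx
    rw [χ.map_add_eq_mul, hχ.trivial u (Ideal.mul_le_left hu), one_mul]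
    rw [Ideal.span_singleton_mul_span_singleton, Ideal.mem_span_singleton_mul] at hv
    obtain ⟨w, hw, rfl⟩ := hv
    rw [← sq]
    exact hall w hw

/-- Off `P B`, the trace pairing with some element of `K B` is seen by the character. -/
private lemma exists_trc_ne_one {P K : Ideal O} [hPm : P.IsMaximal] (hP : P ≠ ⊥)
    (hur : D.Unram P) (hK : K ≠ ⊥) {χ : AddChar O ℂ} (hχ : IsPrimitiveMod χ (P * K)) {x : B}
    (hx : x ∉ D.up P) : ∃ t ∈ D.up K, χ (D.trc (x * D.c t)) ≠ 1 := by
  obtain ⟨s, hs⟩ := D.exists_trc_notMem hP hur hx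
  by_contra hall
  simp only [not_exists, not_and, not_not] at hall
  have hlt : P * K < K := by
    refine lt_of_le_of_ne Ideal.mul_le_right fun e => hPm.ne_top ?_
    exact mul_right_cancel₀ hK (e.trans (one_mul K).symm : P * K = 1 * K) |>.trans Ideal.one_eq_top
  obtain ⟨a, ha, ha1⟩ := hχ.nontrivial K hlt
  obtain ⟨u, i, hi, hui⟩ := hPm.exists_inv hs
  refine ha1 ?_
  have h2 : χ (a * u * D.trc (x * s)) = 1 := by
    have := hall (algebraMap O B (a * u) * D.c s)
      (Ideal.mul_mem_right _ _ (Ideal.mem_map_of_mem _ (Ideal.mul_mem_right u K ha)))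
    rw [map_mul (f := D.c), D.c_algebraMap, D.c_c,
      show x * (algebraMap O B (a * u) * s) = algebraMap O B (a * u) * (x * s) by ring,
      D.trc_mul_algebraMap] at this
    exact this
  rw [show a = a * u * D.trc (x * s) + a * i by linear_combination -a * hui,
    χ.map_add_eq_mul, h2, one_mul]
  refine hχ.trivial _ ?_
  rw [mul_comm a]
  exact Ideal.mul_mem_mul hi ha

/-- The sum of the norm character over a fibre of `B / P K B → B / K B`. -/
private lemma sum_fibre_factor {P K : Ideal O} [P.IsMaximal] (hP : P ≠ ⊥) (hur : D.Unram P)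
    (hK : K ≠ ⊥) (hKP : K ≤ P) [Fintype (B ⧸ D.up (P * K))] {χ : AddChar O ℂ}
    (hχ : IsPrimitiveMod χ (P * K)) (hle : D.up (P * K) ≤ D.up K) (x : B) :
    ∑ r ∈ Finset.univ.filter (fun r => Ideal.Quotient.factor hle r = Ideal.Quotient.mk _ x),
        χ (D.nrm (Quotient.out r))
      = if x ∈ D.up P then (Nat.card (O ⧸ P) : ℂ) ^ 2 * χ (D.nrm x) else 0 := by
  split_ifs with hx
  · exact D.sum_fibre_of_mem (mul_ne_zero hP hK) hK hKP hχ.trivial hle hx
  · obtain ⟨t, ht, ht1⟩ := D.exists_trc_ne_one hP hur hK hχ hx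
    exact D.sum_fibre_eq_zero hKP hχ.trivial hle ht ht1

omit [IsDedekindDomain O] in
/-- Multiplication by `π` is injective from `B / J B` to `B / P J B`, when `P J + (π) = P`. -/
private lemma mem_up_of_algebraMap_mul_mem {P J : Ideal O} (hP : P ≠ ⊥) {π : O}
    (hπ : P * J ⊔ Ideal.span {π} = P) {z : B} (hz : algebraMap O B π * z ∈ D.up (P * J)) :
    z ∈ D.up J := by
  have h1 : D.up P * Ideal.span {z} ≤ D.up (P * J) := by
    rw [D.up_eq_sup_span hπ, Ideal.sup_mul]
    refine sup_le Ideal.mul_le_left ?_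
    rw [Ideal.span_singleton_mul_span_singleton, Ideal.span_singleton_le_iff_mem]
    exact hz
  rw [QuadRingData.up, QuadRingData.up, Ideal.map_mul] at h1
  have hPB : D.up P ≠ ⊥ := fun e => hP (by
    rw [← D.comap_map P]
    exact (congrArg (Ideal.comap (algebraMap O B)) e).trans
      (Ideal.comap_bot_of_injective _ D.inj))
  have h2 := Ideal.dvd_iff_le.mp ((mul_dvd_mul_iff_left hPB).mp (Ideal.dvd_iff_le.mpr h1))
  exact (Ideal.span_singleton_le_iff_mem _).mp h2

/-- Removing the square of a prime. -/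
lemma gauss_step {P J : Ideal O} [hPm : P.IsMaximal] (hP : P ≠ ⊥) (hur : D.Unram P) (hJ : J ≠ ⊥)
    {χ : AddChar O ℂ} (hχ : IsPrimitiveMod χ (P * (P * J))) :
    ∃ π ∈ P, IsPrimitiveMod (χ.compAddMonoidHom (AddMonoidHom.mulLeft (π ^ 2))) J ∧
      D.gauss χ (P * (P * J)) =
        (Nat.card (O ⧸ P) : ℂ) ^ 2 *
          D.gauss (χ.compAddMonoidHom (AddMonoidHom.mulLeft (π ^ 2))) J := by
  have hK0 : P * J ≠ ⊥ := mul_ne_zero hP hJ
  obtain ⟨π, hπ⟩ :=
    IsDedekindDomain.exists_sup_span_eq (I := P * J) (J := P) Ideal.mul_le_left hK0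
  have hπP : π ∈ P := hπ ▸ Ideal.mem_sup_right (Ideal.mem_span_singleton_self π)
  have hprim := isPrimitiveMod_mulLeft_sq hP hπ hχ
  refine ⟨π, hπP, hprim, ?_⟩
  obtain ⟨fI⟩ := D.fintype_quotB (I := P * (P * J)) (mul_ne_zero hP hK0)
  obtain ⟨fK⟩ := D.fintype_quotB hK0
  obtain ⟨fJ⟩ := D.fintype_quotB hJ
  have hle : D.up (P * (P * J)) ≤ D.up (P * J) := Ideal.map_mono Ideal.mul_le_right
  have hfib := D.sum_fibre_factor hP hur hK0 Ideal.mul_le_left hχ hle
  -- only residues in `P B`, the image of multiplication by `π` from `B / J B`, contribute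
  let ι : B ⧸ D.up J → B ⧸ D.up (P * J) := fun s =>
    Ideal.Quotient.mk _ (algebraMap O B π * Quotient.out s)
  have hι : ∀ z, ι (Ideal.Quotient.mk _ z) = Ideal.Quotient.mk _ (algebraMap O B π * z) :=
    fun z => Ideal.Quotient.eq.mpr <| by
      rw [← mul_sub, QuadRingData.up, Ideal.map_mul]
      exact Ideal.mul_mem_mul (Ideal.mem_map_of_mem _ hπP)
        (Ideal.Quotient.eq.mp (Quotient.out_eq _))
  have hinjι : Function.Injective ι := by
    intro a b hab
    obtain ⟨z, rfl⟩ := Ideal.Quotient.mk_surjective a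
    obtain ⟨w, rfl⟩ := Ideal.Quotient.mk_surjective b
    rw [hι, hι, Ideal.Quotient.eq, ← mul_sub] at hab
    exact Ideal.Quotient.eq.mpr (D.mem_up_of_algebraMap_mul_mem hP hπ hab)
  rw [gauss, finsum_eq_sum_of_fintype, gauss, finsum_eq_sum_of_fintype, Finset.mul_sum,
    ← Finset.sum_fiberwise Finset.univ (Ideal.Quotient.factor hle)]
  rw [← Finset.sum_subset (Finset.subset_univ (Finset.univ.image ι)) fun y _ hy => ?_,
    Finset.sum_image fun a _ b _ h => hinjι h]
  · refine Finset.sum_congr rfl fun s _ => ?_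
    obtain ⟨z, rfl⟩ := Ideal.Quotient.mk_surjective s
    rw [hι, hfib, if_pos (Ideal.mul_mem_right _ _ (Ideal.mem_map_of_mem _ hπP)),
      D.term_eq hprim.trivial, D.nrm_mul, D.nrm_algebraMap]
    rfl
  · obtain ⟨x, rfl⟩ := Ideal.Quotient.mk_surjective y
    rw [hfib, if_neg]
    intro hxP
    rw [D.up_eq_sup_span hπ, Submodule.mem_sup] at hxP
    obtain ⟨k, hk, v, hv, rfl⟩ := hxP
    obtain ⟨z, rfl⟩ := Ideal.mem_span_singleton'.mp hv
    refine hy (Finset.mem_image.mpr ⟨Ideal.Quotient.mk _ z, Finset.mem_univ _, ?_⟩)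
    rw [hι, Ideal.Quotient.eq, show algebraMap O B π * z - (k + z * algebraMap O B π) = -k by ring]
    exact neg_mem hk

omit [IsDedekindDomain B] in
/-- Coprime factors. -/
lemma gauss_coprime {P J : Ideal O} (hP : P ≠ ⊥) (hJ : J ≠ ⊥) (hPJ : P ⊔ J = ⊤)
    {χ : AddChar O ℂ} (hχ : IsPrimitiveMod χ (P * J)) :
    ∃ a ∈ P, ∃ b ∈ J, IsPrimitiveMod (χ.compAddMonoidHom (AddMonoidHom.mulLeft b)) P ∧
      IsPrimitiveMod (χ.compAddMonoidHom (AddMonoidHom.mulLeft a)) J ∧
      D.gauss χ (P * J) = D.gauss (χ.compAddMonoidHom (AddMonoidHom.mulLeft b)) P *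
        D.gauss (χ.compAddMonoidHom (AddMonoidHom.mulLeft a)) J := by
  obtain ⟨a, ha, b, hb, hab⟩ := Submodule.mem_sup.mp (hPJ ▸ Submodule.mem_top : (1 : O) ∈ P ⊔ J)
  have side : ∀ {P J : Ideal O}, J ≠ ⊥ → ∀ {a b : O}, a ∈ P → b ∈ J → a + b = 1 →
      IsPrimitiveMod χ (P * J) →
        IsPrimitiveMod (χ.compAddMonoidHom (AddMonoidHom.mulLeft b)) P := by
    intro P J hJ a b ha hb hab hχ
    refine ⟨fun x hx => hχ.trivial _ ?_, fun J' hJ' => ?_⟩
    · rw [AddMonoidHom.coe_mulLeft, mul_comm b x]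
      exact Ideal.mul_mem_mul hx hb
    · by_contra hall
      simp only [not_exists, not_and, not_not] at hall
      have hlt : P * J < J' * J :=
        lt_of_le_of_ne (Ideal.mul_mono hJ'.le le_rfl) fun e => hJ'.ne (mul_right_cancel₀ hJ e)
      obtain ⟨y, hy, hy1⟩ := hχ.nontrivial _ hlt
      refine hy1 ?_
      rw [show y = a * y + b * y by rw [← add_mul, hab, one_mul], χ.map_add_eq_mul,
        hχ.trivial _ (Ideal.mul_mem_mul ha (Ideal.mul_le_right hy)), one_mul]
      exact hall y (Ideal.mul_le_left hy)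
  have hb' := side hJ ha hb hab hχ
  have ha' := side hP hb ha (by rw [add_comm, hab]) (by rw [mul_comm]; exact hχ)
  refine ⟨a, ha, b, hb, hb', ha', ?_⟩
  have hco : IsCoprime (D.up P) (D.up J) := by
    rw [Ideal.isCoprime_iff_sup_eq, QuadRingData.up, QuadRingData.up, ← Ideal.map_sup, hPJ,
      Ideal.map_top]
  obtain ⟨fI⟩ := D.fintype_quotB (mul_ne_zero hP hJ : P * J ≠ ⊥)
  obtain ⟨fP⟩ := D.fintype_quotB hP
  obtain ⟨fJ⟩ := D.fintype_quotB hJ
  let e : B ⧸ D.up (P * J) ≃+* (B ⧸ D.up P) × (B ⧸ D.up J) :=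
    (Ideal.quotEquivOfEq (Ideal.map_mul (algebraMap O B) P J)).trans
      (Ideal.quotientMulEquivQuotientProd (D.up P) (D.up J) hco)
  rw [gauss, gauss, gauss, finsum_eq_sum_of_fintype, finsum_eq_sum_of_fintype,
    finsum_eq_sum_of_fintype, Finset.sum_mul_sum, ← Fintype.sum_prod_type',
    ← e.toEquiv.sum_comp]
  refine Finset.sum_congr rfl fun r _ => ?_
  obtain ⟨x, rfl⟩ := Ideal.Quotient.mk_surjective r
  have h1 : (e.toEquiv (Ideal.Quotient.mk _ x)).1 = Ideal.Quotient.mk _ x := rfl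
  have h2 : (e.toEquiv (Ideal.Quotient.mk _ x)).2 = Ideal.Quotient.mk _ x := rfl
  rw [h1, h2, D.term_eq hχ.trivial, D.term_eq hb'.trivial, D.term_eq ha'.trivial]
  show χ (D.nrm x) = χ (b * D.nrm x) * χ (a * D.nrm x)
  rw [← χ.map_add_eq_mul, ← add_mul, add_comm b, hab, one_mul]

omit [IsDedekindDomain B] [IsDedekindDomain O] in
/-- A single unramified prime. -/
lemma gauss_prime {P : Ideal O} [hPm : P.IsMaximal] (hP : P ≠ ⊥) (hur : D.Unram P)
    {χ : AddChar O ℂ} (hχ : IsPrimitiveMod χ P) :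
    D.gauss χ P = (if D.Splits P then 1 else -1) * (Nat.card (O ⧸ P) : ℂ) := by
  have := D.finite_quot P hP
  obtain ⟨fB⟩ := D.fintype_quotB hP
  have := Fintype.ofFinite (O ⧸ P)
  let := Ideal.Quotient.field P
  set q := Nat.card (O ⧸ P) with hqdef
  have hq : 1 < q := Finite.one_lt_card
  have hq' : Fintype.card (O ⧸ P) = q := by rw [hqdef, Nat.card_eq_fintype_card]
  have hcardB : Fintype.card (B ⧸ D.up P) = Fintype.card (O ⧸ P) ^ 2 := by
    rw [hq', ← Nat.card_eq_fintype_card, D.card_quotB P hP]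
  have : Nontrivial (B ⧸ D.up P) := by
    rw [← Fintype.one_lt_card_iff_nontrivial, hcardB, hq']; nlinarith
  have : Nontrivial B := (Ideal.Quotient.mk (D.up P)).domain_nontrivial
  obtain ⟨χb, hχb, hsumχ⟩ := exists_resChar hχ
  set fib : O ⧸ P → ℕ := fun v => (Finset.univ.filter fun r => D.resNrm P r = v).card
  obtain ⟨Q, hQ, hQP, -⟩ := D.exists_prime_above (P := P)
  have hsurj : ∀ v ≠ 0, ∃ r, D.resNrm P r = v := fun v hv => by
    by_cases hs : D.Splits P
    · exact D.exists_resNrm_eq_of_splits hur hs hQ hQP v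
    · exact D.exists_resNrm_eq_of_not_splits hcardB hur hs hQ hQP hv
  have hfib0 : fib 0 = if D.Splits P then 2 * q - 1 else 1 := by
    split_ifs with hs
    · rw [← hq']; exact D.card_resNrm_zero_of_splits hcardB hur hs hQ hQP
    · exact Finset.card_eq_one.mpr ⟨0, by
        ext r; simp [D.resNrm_eq_zero_iff_of_not_splits hur hs hQ hQP]⟩
  have hfibv : ∀ v, v ≠ 0 → fib v = fib 1 := fun v hv => by
    obtain ⟨r, rfl⟩ := hsurj v hv
    obtain ⟨u, rfl⟩ := D.isUnit_of_resNrm_ne_zero hur hQ hQP hv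
    exact D.card_resNrm_fiber_of_unit u
  have hsplit : ∀ F : O ⧸ P → ℂ, ∑ r, F (D.resNrm P r) = ∑ v, (fib v : ℂ) * F v := fun F => by
    rw [← Finset.sum_fiberwise Finset.univ (D.resNrm P)]
    refine Finset.sum_congr rfl fun v _ => ?_
    rw [Finset.sum_congr rfl fun r hr => congrArg F (Finset.mem_filter.mp hr).2, Finset.sum_const,
      nsmul_eq_mul]
  have h1 : D.gauss χ P = ∑ v, (fib v : ℂ) * χb v := by
    rw [gauss, finsum_eq_sum_of_fintype, ← hsplit]
    exact Finset.sum_congr rfl fun r _ => (hχb _).symm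
  have h2 : ∀ F : O ⧸ P → ℂ, ∑ v, (fib v : ℂ) * F v
      = ((fib 0 : ℂ) - fib 1) * F 0 + fib 1 * ∑ v, F v := by
    intro F
    rw [← Finset.add_sum_erase _ _ (Finset.mem_univ (0 : O ⧸ P)),
      ← Finset.add_sum_erase _ F (Finset.mem_univ (0 : O ⧸ P)), mul_add, Finset.mul_sum,
      Finset.sum_congr rfl fun v hv => by rw [hfibv v (Finset.mem_erase.mp hv).1]]
    ring
  have h3 := (hsplit fun _ => 1).trans (h2 fun _ => 1)
  simp only [Finset.sum_const, Finset.card_univ, hcardB, hq', nsmul_eq_mul, mul_one] at h3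
  push_cast at h3
  rw [h1, h2, hsumχ, χb.map_zero_eq_one, mul_one, mul_zero, add_zero, hfib0]
  rw [hfib0] at h3
  have hq1 : (q : ℂ) - 1 ≠ 0 := sub_ne_zero.mpr (by exact_mod_cast hq.ne')
  split_ifs at h3 ⊢ with hs
  · rw [Nat.cast_sub (by omega)] at h3 ⊢
    push_cast at h3 ⊢
    refine mul_left_cancel₀ hq1 ?_
    linear_combination h3
  · push_cast at h3 ⊢
    refine mul_left_cancel₀ hq1 ?_
    linear_combination h3

/-- The Gauss sum of the norm form at a modulus prime to the ramification. -/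
theorem gauss_eq (η : Ideal O → ℂ) (hη1 : η ⊤ = 1)
    (hηP : ∀ P J : Ideal O, P.IsMaximal → P ≠ ⊥ → D.Unram P →
      η (P * J) = (if D.Splits P then 1 else -1) * η J) (I : Ideal O) (hI : I ≠ ⊥)
    (hur : ∀ P : Ideal O, P.IsMaximal → I ≤ P → D.Unram P) (χ : AddChar O ℂ)
    (hχ : IsPrimitiveMod χ I) : D.gauss χ I = η I * (Nat.card (O ⧸ I) : ℂ) := by
  have : IsNoetherianRing O := inferInstance
  induction I using IsNoetherian.induction generalizing χ with
  | _ I ih =>
  by_cases htop : I = ⊤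
  · subst htop
    have : Subsingleton (O ⧸ (⊤ : Ideal O)) := Ideal.Quotient.subsingleton_iff.mpr rfl
    rw [D.gauss_top χ hχ.trivial, hη1, Nat.card_unique]
    simp
  obtain ⟨P, hPm, hIP⟩ := Ideal.exists_le_maximal I htop
  have hP : P ≠ ⊥ := fun h => hI (le_bot_iff.mp (h ▸ hIP))
  have hPu : D.Unram P := hur P hPm hIP
  have hη2 : ∀ J, η (P * J) = (if D.Splits P then 1 else -1) * η J :=
    fun J => hηP P J hPm hP hPu
  obtain ⟨J, rfl⟩ := Ideal.dvd_iff_le.mpr hIP
  have hJ : J ≠ ⊥ := right_ne_zero_of_mul hI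
  have hlt : ∀ {A C : Ideal O}, C ≠ ⊥ → A ≠ ⊤ → A * C < C := fun {A C} hC hA =>
    lt_of_le_of_ne Ideal.mul_le_right fun e => hA
      ((mul_right_cancel₀ hC (e.trans (one_mul C).symm)).trans Ideal.one_eq_top)
  have hPJ : P * J < J := hlt hJ hPm.ne_top
  by_cases hJP : J ≤ P
  · obtain ⟨J', rfl⟩ := Ideal.dvd_iff_le.mpr hJP
    have hJ' : J' ≠ ⊥ := right_ne_zero_of_mul hJ
    obtain ⟨π, -, hprim, heq⟩ := D.gauss_step hP hPu hJ' hχ
    rw [heq, ih J' (hPJ.trans (hlt hJ' hPm.ne_top)) hJ'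
      (fun R hR hle => hur R hR (Ideal.mul_le_right.trans
        (Ideal.mul_le_right.trans hle))) _ hprim, hη2, hη2, D.card_quot_mul, D.card_quot_mul]
    push_cast
    split_ifs <;> ring
  · have hco : P ⊔ J = ⊤ := hPm.out.2 _ (left_lt_sup.mpr hJP)
    obtain ⟨a, -, b, -, hb, ha, heq⟩ := D.gauss_coprime hP hJ hco hχ
    rw [heq, D.gauss_prime hP hPu hb, ih J hPJ hJ
      (fun R hR hle => hur R hR (Ideal.mul_le_right.trans hle)) _ ha, hη2, D.card_quot_mul]
    push_cast
    ring

end Step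

end QuadRingData

end FLTAgent.LanglandsTunnell.Seed

end
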