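import Mathlib.Analysis.SpecialFunctions.Gaussian.FourierTransform
import Mathlib.MeasureTheory.Measure.Lebesgue.Complex
import Fermat.Agent.LanglandsTunnell.Geom.H3Measure

/-!
# The Gaussian of the norm form of `ℂ × ℂ` at a point of `H3`

`kern` is the theta kernel at one place. It is integrable (`integrable_kern`) and its Fourier
transform is the kernel at the inverted point (`integral_kern_mul_pairChar`).
-/

set_option autoImplicit false

open MeasureTheory Complex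
open scoped Real ComplexConjugate

noncomputable section

namespace FLTAgent.LanglandsTunnell.Seed

open FLTAgent.LanglandsTunnell

/-- The real part of the exponent. -/
def kernDecay (e : ℂ) (x : ℂ × ℂ) (s : ℝ) (P : H3) : ℝ :=
  -(2 * π * ‖e‖ * P.t * (‖x.1‖ ^ 2 * Real.exp (2 * s) + ‖x.2‖ ^ 2 * Real.exp (-(2 * s))))

/-- The imaginary part of the exponent. -/
def kernPhase (e : ℂ) (x : ℂ × ℂ) (P : H3) : ℝ := 4 * π * (e * x.1 * x.2 * P.z).re

/-- The theta kernel at one place. -/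
def kern (e : ℂ) (x : ℂ × ℂ) (s : ℝ) (P : H3) : ℂ :=
  (P.t : ℂ) * cexp ((kernDecay e x s P : ℂ) + (kernPhase e x P : ℂ) * I)

/-- The character attached to the trace form. -/
def pairChar (e : ℂ) (x y : ℂ × ℂ) : ℂ :=
  cexp (((4 * π * (e * (x.1 * y.2 + x.2 * y.1)).re : ℝ) : ℂ) * I)

theorem norm_kern (e : ℂ) (x : ℂ × ℂ) (s : ℝ) (P : H3) :
    ‖kern e x s P‖ = P.t * Real.exp (kernDecay e x s P) := by
  rw [kern, norm_mul, Complex.norm_real, Real.norm_eq_abs, abs_of_pos P.t_pos, Complex.norm_exp]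
  simp

theorem norm_pairChar (e : ℂ) (x y : ℂ × ℂ) : ‖pairChar e x y‖ = 1 := by
  rw [pairChar, Complex.norm_exp_ofReal_mul_I]

theorem continuous_kern (e : ℂ) :
    Continuous fun p : (ℂ × ℂ) × ℝ × H3 => kern e p.1 p.2.1 p.2.2 := by
  have hz : Continuous fun p : (ℂ × ℂ) × ℝ × H3 => p.2.2.z := H3.continuous_z.comp (by fun_prop)
  have ht : Continuous fun p : (ℂ × ℂ) × ℝ × H3 => p.2.2.t := H3.continuous_t.comp (by fun_prop)
  unfold kern kernDecay kernPhase
  fun_prop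

/-! ### Gaussian integrals over `ℂ` -/

theorem integral_gauss_complex {a : ℝ} (ha : 0 < a) (p q : ℂ) :
    ∫ w : ℂ, cexp (-(a : ℂ) * ((‖w‖ ^ 2 : ℝ) : ℂ) + p * (w.re : ℂ) + q * (w.im : ℂ)) =
      ((π / a : ℝ) : ℂ) * cexp ((p ^ 2 + q ^ 2) / (4 * a)) := by
  have hb : (-(a : ℂ)).re < 0 := by simpa using ha
  rw [← Complex.volume_preserving_equiv_real_prod.symm.integral_comp
    Complex.measurableEquivRealProd.symm.measurableEmbedding]
  rw [Measure.volume_eq_prod]
  have e1 : ∀ u : ℝ × ℝ, cexp (-(a : ℂ) * ((‖Complex.measurableEquivRealProd.symm u‖ ^ 2 : ℝ) : ℂ)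
      + p * ((Complex.measurableEquivRealProd.symm u).re : ℂ)
      + q * ((Complex.measurableEquivRealProd.symm u).im : ℂ))
      = cexp (-(a : ℂ) * (u.1 : ℂ) ^ 2 + p * u.1 + 0) *
        cexp (-(a : ℂ) * (u.2 : ℂ) ^ 2 + q * u.2 + 0) := by
    intro u
    rw [← Complex.exp_add, Complex.sq_norm, Complex.normSq_apply]
    simp only [Complex.measurableEquivRealProd_symm_apply]
    congr 1
    push_cast
    ring
  simp only [e1]
  rw [integral_prod_mul (fun x : ℝ => cexp (-(a : ℂ) * (x : ℂ) ^ 2 + p * x + 0))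
    (fun y : ℝ => cexp (-(a : ℂ) * (y : ℂ) ^ 2 + q * y + 0)),
    integral_cexp_quadratic hb, integral_cexp_quadratic hb]
  rw [mul_mul_mul_comm, ← Complex.cpow_add _ _ (div_ne_zero (by exact_mod_cast Real.pi_ne_zero)
    (by simpa using ha.ne')), ← Complex.exp_add]
  norm_num
  left
  congr 1
  field_simp

theorem integrable_gauss_complex {a : ℝ} (ha : 0 < a) (p q : ℂ) :
    Integrable fun w : ℂ =>
      cexp (-(a : ℂ) * ((‖w‖ ^ 2 : ℝ) : ℂ) + p * (w.re : ℂ) + q * (w.im : ℂ)) := by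
  have hb : (-(a : ℂ)).re < 0 := by simpa using ha
  rw [← Complex.volume_preserving_equiv_real_prod.symm.integrable_comp_emb
    Complex.measurableEquivRealProd.symm.measurableEmbedding]
  have h := (integrable_cexp_quadratic' hb p 0).mul_prod (integrable_cexp_quadratic' hb q 0)
  rw [← Measure.volume_eq_prod] at h
  refine h.congr (Filter.Eventually.of_forall fun u => ?_)
  simp only [Function.comp_apply, Complex.measurableEquivRealProd_symm_apply, Complex.sq_norm,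
    Complex.normSq_apply]
  rw [← Complex.exp_add]
  congr 1
  push_cast
  ring

/-! ### The Fourier transform -/

/-- The image of a point by the inversion. -/
def inv3 (P : H3) : H3 where
  z := -(conj P.z) / ((‖P.z‖ ^ 2 + P.t ^ 2 : ℝ) : ℂ)
  t := P.t / (‖P.z‖ ^ 2 + P.t ^ 2)
  t_pos := div_pos P.t_pos (add_pos_of_nonneg_of_pos (sq_nonneg _) (pow_pos P.t_pos 2))

theorem weyl_smul (P : H3) : H3.weyl • P = inv3 P := by
  rw [← H3.moebius_eq_smul]
  ext
  · simp [H3.moebius, inv3, H3.weyl_val]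
  · simp [H3.moebius, inv3, H3.weyl_val]

theorem inner_integral {e : ℂ} (he : e ≠ 0) (s : ℝ) (P : H3) (y : ℂ × ℂ) (w : ℂ) :
    ∫ x₂ : ℂ, kern e (w, x₂) s P * pairChar e (w, x₂) (-y.1, -y.2) =
      ((1 / (2 * ‖e‖ * Real.exp (-(2 * s))) : ℝ) : ℂ) *
        cexp (((-(2 * π * ‖e‖ * Real.exp (2 * s) *
          (P.t * ‖w‖ ^ 2 + ‖w * P.z - y.1‖ ^ 2 / P.t)) : ℝ) : ℂ)
          + ((-(4 * π * (e * (w * y.2)).re) : ℝ) : ℂ) * I) := by
  have he' : 0 < ‖e‖ := norm_pos_iff.mpr he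
  have ht := P.t_pos
  have hE : Real.exp (2 * s) * Real.exp (-(2 * s)) = 1 := by rw [← Real.exp_add]; simp
  set E := Real.exp (2 * s)
  set E' := Real.exp (-(2 * s))
  have hE' : 0 < E' := Real.exp_pos _
  have ha : 0 < 2 * π * ‖e‖ * P.t * E' := by positivity
  set β : ℂ := e * (w * P.z - y.1) with hβ
  have e1 : ∀ x₂ : ℂ, kern e (w, x₂) s P * pairChar e (w, x₂) (-y.1, -y.2) =
      ((P.t : ℂ) * cexp (((-(2 * π * ‖e‖ * P.t * (‖w‖ ^ 2 * E)) : ℝ) : ℂ)
          + ((-(4 * π * (e * (w * y.2)).re) : ℝ) : ℂ) * I)) *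
        cexp (-((2 * π * ‖e‖ * P.t * E' : ℝ) : ℂ) * ((‖x₂‖ ^ 2 : ℝ) : ℂ)
          + ((4 * π * β.re : ℝ) : ℂ) * I * (x₂.re : ℂ)
          + ((-(4 * π * β.im) : ℝ) : ℂ) * I * (x₂.im : ℂ)) := by
    intro x₂
    have hph : 4 * π * (e * w * x₂ * P.z).re + 4 * π * (e * (w * -y.2 + x₂ * -y.1)).re
        = -(4 * π * (e * (w * y.2)).re) + (4 * π * β.re * x₂.re + -(4 * π * β.im) * x₂.im) := by
      simp only [hβ, Complex.mul_re, Complex.mul_im, Complex.add_re, Complex.add_im, Complex.neg_re,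
        Complex.neg_im, Complex.sub_re, Complex.sub_im]
      ring
    have hph' := congrArg (fun r : ℝ => (r : ℂ) * I) hph
    rw [kern, pairChar, kernDecay, kernPhase, mul_assoc (P.t : ℂ), mul_assoc (P.t : ℂ),
      ← Complex.exp_add,
      ← Complex.exp_add, show Real.exp (2 * s) = E from rfl,
      show Real.exp (-(2 * s)) = E' from rfl]
    congr 2
    push_cast at hph' ⊢
    linear_combination hph'
  simp only [e1]
  rw [integral_const_mul, integral_gauss_complex ha]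
  have hn : ‖w * P.z - y.1‖ ^ 2 * ‖e‖ ^ 2 = β.re ^ 2 + β.im ^ 2 := by
    rw [hβ, ← mul_pow, ← norm_mul, mul_comm (w * P.z - y.1), Complex.sq_norm, Complex.normSq_apply]
    ring
  have hexp : ((((4 * π * β.re : ℝ) : ℂ) * I) ^ 2 + (((-(4 * π * β.im) : ℝ) : ℂ) * I) ^ 2)
        / (4 * ((2 * π * ‖e‖ * P.t * E' : ℝ) : ℂ))
      = ((-(2 * π * ‖e‖ * E * (‖w * P.z - y.1‖ ^ 2 / P.t)) : ℝ) : ℂ) := by
    rw [mul_pow, mul_pow, Complex.I_sq]
    rw [div_eq_iff (by
      exact mul_ne_zero (by norm_num) (Complex.ofReal_ne_zero.mpr ha.ne'))]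
    norm_cast
    have h1 : ‖e‖ * E * (‖w * P.z - y.1‖ ^ 2 / P.t) * (‖e‖ * P.t * E') = β.re ^ 2 + β.im ^ 2 := by
      rw [← hn]
      calc ‖e‖ * E * (‖w * P.z - y.1‖ ^ 2 / P.t) * (‖e‖ * P.t * E')
          = ‖w * P.z - y.1‖ ^ 2 * ‖e‖ ^ 2 * (E * E') * (P.t / P.t) := by ring
        _ = _ := by rw [hE, div_self ht.ne', mul_one, mul_one]
    push_cast
    linear_combination (16 * π ^ 2) * h1
  rw [hexp, mul_comm ((π / _ : ℝ) : ℂ), mul_assoc (P.t : ℂ), ← mul_assoc (cexp _),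
    ← Complex.exp_add]
  rw [mul_comm (cexp _), ← mul_assoc]
  congr 1
  · rw [← Complex.ofReal_mul]
    congr 1
    field_simp
  · congr 1
    push_cast
    ring

theorem outer_integral {e : ℂ} (he : e ≠ 0) (s : ℝ) (P : H3) (y : ℂ × ℂ) :
    ∫ w : ℂ, cexp (((-(2 * π * ‖e‖ * Real.exp (2 * s) *
          (P.t * ‖w‖ ^ 2 + ‖w * P.z - y.1‖ ^ 2 / P.t)) : ℝ) : ℂ)
        + ((-(4 * π * (e * (w * y.2)).re) : ℝ) : ℂ) * I) =
      ((1 / (2 * ‖e‖ * Real.exp (2 * s)) * (P.t / (‖P.z‖ ^ 2 + P.t ^ 2)) : ℝ) : ℂ) *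
        cexp ((kernDecay e y s (inv3 P) : ℂ) + (kernPhase e y (inv3 P) : ℂ) * I) := by
  have he' : 0 < ‖e‖ := norm_pos_iff.mpr he
  have ht := P.t_pos
  have hE : Real.exp (2 * s) * Real.exp (-(2 * s)) = 1 := by rw [← Real.exp_add]; simp
  set E := Real.exp (2 * s) with hEdef
  have hEp : 0 < E := Real.exp_pos _
  set N := ‖P.z‖ ^ 2 + P.t ^ 2 with hN
  have hNp : 0 < N := add_pos_of_nonneg_of_pos (sq_nonneg _) (pow_pos ht 2)
  have ha : 0 < 2 * π * ‖e‖ * E * N / P.t := by positivity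
  set K := 2 * π * ‖e‖ * E / P.t with hK
  set γ : ℂ := P.z * conj y.1 with hγ
  set δ : ℂ := e * y.2 with hδ
  have e1 : ∀ w : ℂ, cexp (((-(2 * π * ‖e‖ * E *
          (P.t * ‖w‖ ^ 2 + ‖w * P.z - y.1‖ ^ 2 / P.t)) : ℝ) : ℂ)
        + ((-(4 * π * (e * (w * y.2)).re) : ℝ) : ℂ) * I)
      = cexp (((-(K * ‖y.1‖ ^ 2) : ℝ) : ℂ)) *
        cexp (-((2 * π * ‖e‖ * E * N / P.t : ℝ) : ℂ) * ((‖w‖ ^ 2 : ℝ) : ℂ)
          + (((2 * K * γ.re : ℝ) : ℂ) + ((-(4 * π * δ.re) : ℝ) : ℂ) * I) * (w.re : ℂ)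
          + (((-(2 * K * γ.im) : ℝ) : ℂ) + ((4 * π * δ.im : ℝ) : ℂ) * I) * (w.im : ℂ)) := by
    intro w
    rw [← Complex.exp_add]
    congr 1
    apply Complex.ext
    · simp only [Complex.add_re, Complex.mul_re, Complex.ofReal_re, Complex.ofReal_im, Complex.I_re,
        Complex.I_im, Complex.neg_re, Complex.neg_im, Complex.add_im, Complex.mul_im, hN, hK, hγ,
        Complex.sq_norm, Complex.normSq_apply, Complex.conj_re, Complex.conj_im, Complex.sub_re,
        Complex.sub_im]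
      field_simp
      ring
    · simp only [Complex.add_re, Complex.mul_re, Complex.ofReal_re, Complex.ofReal_im, Complex.I_re,
        Complex.I_im, Complex.neg_re, Complex.neg_im, Complex.add_im, Complex.mul_im, hδ]
      ring
  simp only [e1]
  rw [integral_const_mul, integral_gauss_complex ha, mul_left_comm, ← Complex.exp_add]
  congr 1
  · congr 1
    field_simp
  · congr 1
    set A : ℝ := 2 * π * ‖e‖ * E * N / P.t with hA
    have hsq : ((((2 * K * γ.re : ℝ) : ℂ) + ((-(4 * π * δ.re) : ℝ) : ℂ) * I) ^ 2 +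
        (((-(2 * K * γ.im) : ℝ) : ℂ) + ((4 * π * δ.im : ℝ) : ℂ) * I) ^ 2) / (4 * (A : ℂ))
        = (((4 * K ^ 2 * (γ.re ^ 2 + γ.im ^ 2) - 16 * π ^ 2 * (δ.re ^ 2 + δ.im ^ 2)) /
          (4 * A) : ℝ) : ℂ)
          + ((-(16 * π * K * (γ.re * δ.re + γ.im * δ.im)) / (4 * A) : ℝ) : ℂ) * I := by
      push_cast
      linear_combination ((16 * (π : ℂ) ^ 2 * ((δ.re : ℂ) ^ 2 + (δ.im : ℂ) ^ 2)) / (4 * (A : ℂ))) *
        Complex.I_sq
    rw [hsq]
    have hγn : γ.re ^ 2 + γ.im ^ 2 = ‖P.z‖ ^ 2 * ‖y.1‖ ^ 2 := by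
      rw [hγ, Complex.sq_norm, Complex.sq_norm]
      simp only [Complex.normSq_apply, Complex.mul_re, Complex.mul_im, Complex.conj_re,
        Complex.conj_im]
      ring
    have hδn : δ.re ^ 2 + δ.im ^ 2 = ‖e‖ ^ 2 * ‖y.2‖ ^ 2 := by
      rw [hδ, Complex.sq_norm, Complex.sq_norm]
      simp only [Complex.normSq_apply, Complex.mul_re, Complex.mul_im]
      ring
    rw [← add_assoc, ← Complex.ofReal_add]
    congr 1
    · congr 1
      rw [hγn, hδn, kernDecay, inv3]
      simp only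
      rw [show Real.exp (-(2 * s)) = 1 / E from (eq_div_iff hEp.ne').mpr (by rw [mul_comm, hE])]
      rw [hA, hK, hN] at *
      field_simp
      ring
    · congr 2
      rw [kernPhase, inv3]
      simp only [hγ, hδ, hA, hK, Complex.mul_re, Complex.mul_im, Complex.conj_re, Complex.conj_im,
        Complex.div_ofReal_re, Complex.div_ofReal_im, Complex.neg_re, Complex.neg_im]
      rw [← hN]
      field_simp
      ring

/-- The kernel decays in both variables. -/
theorem integrable_kern {e : ℂ} (he : e ≠ 0) (s : ℝ) (P : H3) :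
    Integrable fun x : ℂ × ℂ => kern e x s P := by
  have he' : 0 < ‖e‖ := norm_pos_iff.mpr he
  have ha : ∀ r : ℝ, 0 < 2 * π * ‖e‖ * P.t * Real.exp r := fun r => by
    have := P.t_pos; positivity
  have h := ((integrable_gauss_complex (ha (2 * s)) 0 0).norm.mul_prod
    (integrable_gauss_complex (ha (-(2 * s))) 0 0).norm).const_mul P.t
  rw [← Measure.volume_eq_prod] at h
  refine h.mono' ((continuous_kern e).comp
    (continuous_id.prodMk (continuous_const (y := (s, P))))).aestronglyMeasurable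
    (Filter.Eventually.of_forall fun x => ?_)
  rw [norm_kern, kernDecay]
  simp only [Complex.norm_exp, zero_mul, add_zero, ← Complex.ofReal_neg, ← Complex.ofReal_mul,
    Complex.ofReal_re, ← Real.exp_add]
  refine le_of_eq ?_
  congr 2
  ring

/-- The Fourier transform of the kernel. -/
theorem integral_kern_mul_pairChar {e : ℂ} (he : e ≠ 0) (s : ℝ) (P : H3) (y : ℂ × ℂ) :
    ∫ x : ℂ × ℂ, kern e x s P * pairChar e x (-y.1, -y.2) =
      ((1 / (4 * ‖e‖ ^ 2) : ℝ) : ℂ) * kern e y s (inv3 P) := by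
  have hint : Integrable fun x : ℂ × ℂ => kern e x s P * pairChar e x (-y.1, -y.2) :=
    (integrable_kern he s P).mul_bdd (c := 1)
      (by unfold pairChar; fun_prop :
        Continuous fun x : ℂ × ℂ => pairChar e x (-y.1, -y.2)).aestronglyMeasurable
      (Filter.Eventually.of_forall fun x => (norm_pairChar _ _ _).le)
  rw [Measure.volume_eq_prod] at hint ⊢
  rw [integral_prod _ hint]
  simp only [inner_integral he]
  rw [integral_const_mul, outer_integral he, kern, ← mul_assoc, ← mul_assoc]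
  congr 1
  rw [← Complex.ofReal_mul, ← Complex.ofReal_mul]
  congr 1
  rw [inv3]
  simp only
  have := Real.exp_pos (2 * s)
  rw [Real.exp_neg]
  field_simp
  norm_num
  ring

end FLTAgent.LanglandsTunnell.Seed

end
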