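import Mathlib.GroupTheory.QuotientGroup.Basic
import Mathlib.Algebra.BigOperators.Finprod
import Mathlib.Analysis.Complex.Basic
import Mathlib.Topology.Algebra.InfiniteSum.Constructions
import Mathlib.Analysis.Normed.Group.InfiniteSum

/-!
# Sums of periodic functions over finite quotients of lattices

`qsum J I F` sums an `I`-periodic function over `J / I`, with change of variables (`qsum_map`),
Chinese remainders (`qsum_prod`) and splitting of lattice sums into cosets (`tsum_eq_qsum`).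
-/

set_option autoImplicit false

open scoped Classical

noncomputable section

namespace FLTAgent.LanglandsTunnell.Seed

variable {G H : Type*} [AddCommGroup G] [AddCommGroup H]

/-- `F` is `I`-periodic on `J`. -/
def PeriodicOn (J I : AddSubgroup G) (F : G → ℂ) : Prop := ∀ x ∈ J, ∀ y ∈ I, F (x + y) = F x

/-- The sum of `F` over representatives of `J / I`. -/
def qsum (J I : AddSubgroup G) (F : G → ℂ) : ℂ :=
  ∑ᶠ q : J ⧸ I.addSubgroupOf J, F (q.out : J)

theorem periodicOn_apply_out {J I : AddSubgroup G} {F : G → ℂ} (hF : PeriodicOn J I F) (x : J) :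
    F ((QuotientAddGroup.mk x : J ⧸ I.addSubgroupOf J).out : J) = F x := by
  obtain ⟨⟨y, hy⟩, h⟩ := QuotientAddGroup.mk_out_eq_add (I.addSubgroupOf J) x
  rw [h, AddSubgroup.coe_add]
  exact hF x x.2 y (AddSubgroup.mem_addSubgroupOf.mp hy)

theorem qsum_congr {J I : AddSubgroup G} {F F' : G → ℂ} (h : ∀ x ∈ J, F x = F' x) :
    qsum J I F = qsum J I F' :=
  finsum_congr fun _ => h _ (SetLike.coe_mem _)

theorem qsum_const_mul {J I : AddSubgroup G} (a : ℂ) (F : G → ℂ) :
    qsum J I (fun x => a * F x) = a * qsum J I F :=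
  (mul_finsum _ _).symm

theorem qsum_translate {J I : AddSubgroup G} {F : G → ℂ} (hF : PeriodicOn J I F) {x₀ : G}
    (hx₀ : x₀ ∈ J) : qsum J I (fun x => F (x + x₀)) = qsum J I F := by
  refine finsum_eq_of_bijective (fun q => q + QuotientAddGroup.mk (⟨x₀, hx₀⟩ : J))
    (Equiv.addRight _).bijective fun q => ?_
  dsimp only
  refine ((periodicOn_apply_out hF (q.out + ⟨x₀, hx₀⟩)).symm).trans ?_
  congr 3
  rw [QuotientAddGroup.mk_add, QuotientAddGroup.out_eq']

/-- Change of variables along a homomorphism which identifies the quotients. -/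
theorem qsum_map {J I : AddSubgroup G} {J' I' : AddSubgroup H} {F : G → ℂ} (hF : PeriodicOn J I F)
    (φ : H →+ G) (hJ : ∀ x ∈ J', φ x ∈ J) (hI : ∀ x ∈ J', (φ x ∈ I ↔ x ∈ I'))
    (hsurj : ∀ y ∈ J, ∃ x ∈ J', φ x - y ∈ I) :
    qsum J I F = qsum J' I' (fun x => F (φ x)) := by
  let ψ : J' →+ J ⧸ I.addSubgroupOf J :=
    (QuotientAddGroup.mk' _).comp ((φ.comp J'.subtype).codRestrict J fun x => hJ x x.2)
  have hker : ∀ x : J', ψ x = 0 ↔ (x : H) ∈ I' := fun x => by
    simp only [ψ, AddMonoidHom.comp_apply, QuotientAddGroup.mk'_apply,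
      QuotientAddGroup.eq_zero_iff, AddSubgroup.mem_addSubgroupOf]
    exact hI x x.2
  let e := QuotientAddGroup.lift (I'.addSubgroupOf J') ψ fun x hx =>
    (hker x).mpr (AddSubgroup.mem_addSubgroupOf.mp hx)
  refine (finsum_eq_of_bijective e ⟨?_, ?_⟩ fun q => ?_).symm
  · refine (injective_iff_map_eq_zero e).mpr fun q hq => ?_
    obtain ⟨x, rfl⟩ := QuotientAddGroup.mk_surjective q
    rw [QuotientAddGroup.eq_zero_iff, AddSubgroup.mem_addSubgroupOf]
    exact (hker x).mp hq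
  · intro q
    obtain ⟨⟨y, hy⟩, rfl⟩ := QuotientAddGroup.mk_surjective q
    obtain ⟨x, hx, hxy⟩ := hsurj y hy
    refine ⟨QuotientAddGroup.mk (⟨x, hx⟩ : J'), ?_⟩
    refine QuotientAddGroup.eq_iff_sub_mem.mpr ?_
    exact AddSubgroup.mem_addSubgroupOf.mpr hxy
  · conv_rhs => rw [← QuotientAddGroup.out_eq' q]
    exact (periodicOn_apply_out hF ⟨φ (q.out : J'), hJ _ (SetLike.coe_mem _)⟩).symm

/-- Chinese remainders. -/
theorem qsum_prod {J J₁ J₂ I : AddSubgroup G} {F : G → ℂ} (hF : PeriodicOn J I F)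
    (h₁ : J₁ ≤ J) (h₂ : J₂ ≤ J) (hI₂ : I ≤ J₂) (hinf : J₁ ⊓ J₂ ≤ I)
    (hsup : J ≤ J₁ ⊔ J₂) [Finite (J ⧸ I.addSubgroupOf J)] :
    qsum J I F = qsum J₁ I (fun a => qsum J₂ I (fun b => F (a + b))) := by
  let m₁ : J₁ →+ J ⧸ I.addSubgroupOf J := (QuotientAddGroup.mk' _).comp (AddSubgroup.inclusion h₁)
  let m₂ : J₂ →+ J ⧸ I.addSubgroupOf J := (QuotientAddGroup.mk' _).comp (AddSubgroup.inclusion h₂)
  let e₁ := QuotientAddGroup.lift (I.addSubgroupOf J₁) m₁ fun x hx => by
    simpa [m₁, AddSubgroup.mem_addSubgroupOf] using AddSubgroup.mem_addSubgroupOf.mp hx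
  let e₂ := QuotientAddGroup.lift (I.addSubgroupOf J₂) m₂ fun x hx => by
    simpa [m₂, AddSubgroup.mem_addSubgroupOf] using AddSubgroup.mem_addSubgroupOf.mp hx
  let e : (J₁ ⧸ I.addSubgroupOf J₁) × (J₂ ⧸ I.addSubgroupOf J₂) →+ J ⧸ I.addSubgroupOf J :=
    e₁.coprod e₂
  have hinj : Function.Injective e := by
    refine (injective_iff_map_eq_zero e).mpr ?_
    rintro ⟨q₁, q₂⟩ hq
    obtain ⟨⟨a, ha⟩, rfl⟩ := QuotientAddGroup.mk_surjective q₁
    obtain ⟨⟨b, hb⟩, rfl⟩ := QuotientAddGroup.mk_surjective q₂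
    have hab : a + b ∈ I := by
      have h' : AddSubgroup.inclusion h₁ ⟨a, ha⟩ + AddSubgroup.inclusion h₂ ⟨b, hb⟩ ∈
          I.addSubgroupOf J := (QuotientAddGroup.eq_zero_iff _).mp hq
      exact AddSubgroup.mem_addSubgroupOf.mp h'
    have haI : a ∈ I := hinf ⟨ha, by simpa using sub_mem (hI₂ hab) hb⟩
    have hbI : b ∈ I := by simpa using sub_mem hab haI
    exact Prod.ext ((QuotientAddGroup.eq_zero_iff _).mpr (AddSubgroup.mem_addSubgroupOf.mpr haI))
      ((QuotientAddGroup.eq_zero_iff _).mpr (AddSubgroup.mem_addSubgroupOf.mpr hbI))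
  have hsurj : Function.Surjective e := by
    intro q
    obtain ⟨⟨y, hy⟩, rfl⟩ := QuotientAddGroup.mk_surjective q
    obtain ⟨a, ha, b, hb, rfl⟩ := AddSubgroup.mem_sup.mp (hsup hy)
    exact ⟨(QuotientAddGroup.mk ⟨a, ha⟩, QuotientAddGroup.mk ⟨b, hb⟩), rfl⟩
  have := Finite.of_injective e hinj
  have : Finite (J₁ ⧸ I.addSubgroupOf J₁) := Finite.of_surjective _ (Prod.fst_surjective
    (α := J₁ ⧸ I.addSubgroupOf J₁) (β := J₂ ⧸ I.addSubgroupOf J₂))
  have : Finite (J₂ ⧸ I.addSubgroupOf J₂) := Finite.of_surjective _ (Prod.snd_surjective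
    (α := J₁ ⧸ I.addSubgroupOf J₁) (β := J₂ ⧸ I.addSubgroupOf J₂))
  rw [qsum, ← finsum_comp e ⟨hinj, hsurj⟩, finsum_curry _ (Set.toFinite _)]
  refine finsum_congr fun q₁ => finsum_congr fun q₂ => ?_
  dsimp only
  have he : e (q₁, q₂) = QuotientAddGroup.mk
      (AddSubgroup.inclusion h₁ q₁.out + AddSubgroup.inclusion h₂ q₂.out) := by
    conv_lhs => rw [← QuotientAddGroup.out_eq' q₁, ← QuotientAddGroup.out_eq' q₂]
    rfl
  rw [he, periodicOn_apply_out hF]
  rfl

/-- Splitting a lattice sum into cosets. -/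
theorem tsum_eq_qsum {J I : AddSubgroup G} (hIJ : I ≤ J) [Finite (J ⧸ I.addSubgroupOf J)]
    {F h : G → ℂ} (hF : PeriodicOn J I F) (hs : Summable fun x : J => ‖h x‖) :
    ∑' x : J, F x * h x = qsum J I (fun r => F r * ∑' u : I, h (r + u)) := by
  have := Fintype.ofFinite (J ⧸ I.addSubgroupOf J)
  let e : (J ⧸ I.addSubgroupOf J) × I → J := fun p => p.1.out + ⟨p.2, hIJ p.2.2⟩
  have hbij : Function.Bijective e := by
    refine ⟨fun p q hpq => ?_, fun x => ?_⟩
    · have h1 : ∀ p, (QuotientAddGroup.mk (e p) : J ⧸ I.addSubgroupOf J) = p.1 := fun p => by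
        simp only [e]
        rw [QuotientAddGroup.mk_add_of_mem _
          (show (⟨(p.2 : G), hIJ p.2.2⟩ : J) ∈ I.addSubgroupOf J from
          AddSubgroup.mem_addSubgroupOf.mpr p.2.2),
          QuotientAddGroup.out_eq']
      have hp : p.1 = q.1 := by rw [← h1 p, ← h1 q, hpq]
      refine Prod.ext hp (Subtype.ext ?_)
      have h2 := congrArg Subtype.val hpq
      simp only [e, AddSubgroup.coe_add, hp] at h2
      exact add_left_cancel h2
    · refine ⟨(QuotientAddGroup.mk x,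
        ⟨(x : G) - (QuotientAddGroup.mk x : J ⧸ I.addSubgroupOf J).out, ?_⟩), ?_⟩
      · obtain ⟨⟨y, hy⟩, h⟩ := QuotientAddGroup.mk_out_eq_add (I.addSubgroupOf J) x
        rw [h]
        simpa [AddSubgroup.mem_addSubgroupOf] using hy
      · exact Subtype.ext (by simp [e])
  obtain ⟨K, hK⟩ : ∃ K, ∀ x : J, ‖F x‖ ≤ K := by
    refine ⟨∑ q : J ⧸ I.addSubgroupOf J, ‖F (q.out : J)‖, fun x => ?_⟩
    rw [← periodicOn_apply_out hF x]
    exact Finset.single_le_sum (f := fun q : J ⧸ I.addSubgroupOf J => ‖F (q.out : J)‖)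
      (fun _ _ => norm_nonneg _) (Finset.mem_univ _)
  have hsF : Summable fun x : J => F x * h x :=
    Summable.of_norm_bounded (hs.mul_left K) fun x => by
      rw [norm_mul]; exact mul_le_mul_of_nonneg_right (hK x) (norm_nonneg _)
  rw [← (Equiv.ofBijective e hbij).tsum_eq, qsum, finsum_eq_sum_of_fintype]
  have hsum : Summable fun p => F (Equiv.ofBijective e hbij p) * h (Equiv.ofBijective e hbij p) :=
    hsF.comp_injective (Equiv.ofBijective e hbij).injective
  rw [hsum.tsum_prod, tsum_fintype]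
  refine Finset.sum_congr rfl fun q _ => ?_
  rw [← tsum_mul_left]
  refine tsum_congr fun u => ?_
  simp only [Equiv.ofBijective_apply, e, AddSubgroup.coe_add]
  rw [hF _ (SetLike.coe_mem _) u u.2]

end FLTAgent.LanglandsTunnell.Seed

end
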