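import Fermat.Agent.LanglandsTunnell.Seed.IdealPoisson
import Fermat.Agent.LanglandsTunnell.Seed.QSum
import Fermat.Agent.LanglandsTunnell.Seed.GaussSum
import Mathlib.RingTheory.FractionalIdeal.Extended
import Mathlib.RingTheory.DedekindDomain.Different
import Mathlib.RingTheory.Ideal.Norm.RelNorm
import Mathlib.RingTheory.IntegralClosure.IntegralRestrict

/-!
# Ideal arithmetic in the quadratic extension

Extension of fractional ideals `EL`, the conjugation `cO` on integers, the ring data `ringData`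
for `GaussSum`, the differents and the bound on dual lattices of ideals (`dualSet_bound`).
-/

set_option autoImplicit false
set_option linter.unusedSectionVars false

open NumberField Complex
open scoped nonZeroDivisors

noncomputable section

namespace FLTAgent.LanglandsTunnell.Seed

open FLTAgent.LanglandsTunnell

variable {M L ι : Type} [Field M] [NumberField M] [Field L] [NumberField L] [Algebra M L]
  [Fintype ι]

variable (L) in
/-- An element as a fractional ideal. -/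
abbrev princ (x : L) : FractionalIdeal (𝓞 L)⁰ L := FractionalIdeal.spanSingleton (𝓞 L)⁰ x

theorem mem_coeIdeal_iff_idealSet {A : Ideal (𝓞 L)} {x : L} :
    x ∈ (A : FractionalIdeal (𝓞 L)⁰ L) ↔ x ∈ idealSet A := by
  simp [mem_idealSet, FractionalIdeal.mem_coeIdeal]

theorem princ_le_iff {x : L} {I : FractionalIdeal (𝓞 L)⁰ L} : princ L x ≤ I ↔ x ∈ I :=
  FractionalIdeal.spanSingleton_le_iff_mem

theorem finite_idealSet_quot {A I : Ideal (𝓞 L)} (hI : I ≠ ⊥) :
    Finite (idealSet A ⧸ (idealSet I).addSubgroupOf (idealSet A)) := by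
  have : Finite (𝓞 L ⧸ I) := Ideal.finiteQuotientOfFreeOfNeBot I hI
  let g : idealSet A → A := fun x =>
    ⟨(mem_idealSet.mp x.2).choose, (mem_idealSet.mp x.2).choose_spec.1⟩
  have hg : ∀ x, algebraMap (𝓞 L) L (g x) = x := fun x => (mem_idealSet.mp x.2).choose_spec.2
  refine Finite.of_injective (fun q => Ideal.Quotient.mk I (g q.out : 𝓞 L)) fun p q h => ?_
  rw [← QuotientAddGroup.out_eq' p, ← QuotientAddGroup.out_eq' q, QuotientAddGroup.eq_iff_sub_mem,
    AddSubgroup.mem_addSubgroupOf, AddSubgroup.coe_sub, ← hg p.out, ← hg q.out, ← map_sub,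
    coe_mem_idealSet]
  exact Ideal.Quotient.eq.mp h

namespace Setting

variable (T : Setting M L ι)

include T

theorem algebraMap_coe (a : 𝓞 M) :
    algebraMap (𝓞 L) L (algebraMap (𝓞 M) (𝓞 L) a) = algebraMap M L (algebraMap (𝓞 M) M a) := by
  rw [← IsScalarTower.algebraMap_apply, ← IsScalarTower.algebraMap_apply]

/-- The conjugation on integers. -/
def cO : 𝓞 L ≃ₐ[𝓞 M] 𝓞 L :=
  galRestrict (𝓞 M) M L (𝓞 L) T.c

theorem coe_cO (x : 𝓞 L) : algebraMap (𝓞 L) L (T.cO x) = T.c (algebraMap (𝓞 L) L x) :=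
  algebraMap_galRestrict_apply (𝓞 M) (K := M) (L := L) T.c x

theorem cO_cO (x : 𝓞 L) : T.cO (T.cO x) = x :=
  IsFractionRing.injective (𝓞 L) L (by rw [T.coe_cO, T.coe_cO, T.c_c])

theorem algebraMap_intNorm' (x : 𝓞 L) :
    algebraMap (𝓞 M) (𝓞 L) (Algebra.intNorm (𝓞 M) (𝓞 L) x) = x * T.cO x := by
  have := T.finiteDimensional
  refine IsFractionRing.injective (𝓞 L) L ?_
  rw [T.algebraMap_coe, Algebra.algebraMap_intNorm (K := M) (L := L), T.algebraMap_norm, map_mul,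
    T.coe_cO]

theorem algebraMap_intTrace' (x : 𝓞 L) :
    algebraMap (𝓞 M) (𝓞 L) (Algebra.intTrace (𝓞 M) (𝓞 L) x) = x + T.cO x := by
  have := T.finiteDimensional
  refine IsFractionRing.injective (𝓞 L) L ?_
  rw [T.algebraMap_coe, Algebra.algebraMap_intTrace (K := M) (L := L), T.algebraMap_trace, map_add,
    T.coe_cO]

theorem coe_intNorm (x : 𝓞 L) :
    algebraMap (𝓞 M) M (Algebra.intNorm (𝓞 M) (𝓞 L) x) = Algebra.norm M (algebraMap (𝓞 L) L x) := by
  have := T.finiteDimensional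
  exact Algebra.algebraMap_intNorm (K := M) (L := L) x

/-- Extension of fractional ideals. -/
def EL (_T : Setting M L ι) : FractionalIdeal (𝓞 M)⁰ M →+* FractionalIdeal (𝓞 L)⁰ L :=
  FractionalIdeal.extendedHom L (𝓞 L)

theorem EL_coeIdeal (I : Ideal (𝓞 M)) :
    T.EL (I : FractionalIdeal (𝓞 M)⁰ M) =
      ((I.map (algebraMap (𝓞 M) (𝓞 L)) : Ideal (𝓞 L)) : FractionalIdeal (𝓞 L)⁰ L) :=
  FractionalIdeal.extendedHom_coeIdeal_eq_map _ _ I

theorem EL_spanSingleton (x : M) :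
    T.EL (FractionalIdeal.spanSingleton (𝓞 M)⁰ x) = princ L (algebraMap M L x) := by
  rw [EL, FractionalIdeal.extendedHom_spanSingleton]
  congr 1
  have h := IsLocalization.algebraMap_eq_map_map_submonoid (𝓞 M)⁰ (𝓞 L) M L
  rw [h]
  rfl

theorem EL_injective : Function.Injective (T.EL) :=
  FractionalIdeal.extendedHom_injective (𝓞 M) M L (𝓞 L)

theorem EL_ne_zero {I : FractionalIdeal (𝓞 M)⁰ M} (hI : I ≠ 0) : T.EL I ≠ 0 :=
  (map_ne_zero_iff _ T.EL_injective).mpr hI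

theorem EL_le_one_iff {I : FractionalIdeal (𝓞 M)⁰ M} : T.EL I ≤ 1 ↔ I ≤ 1 :=
  FractionalIdeal.extendedHom_le_one_iff L (𝓞 L)

theorem algebraMap_mem_EL_iff {I : FractionalIdeal (𝓞 M)⁰ M} (hI : I ≠ 0) {m : M} :
    algebraMap M L m ∈ T.EL I ↔ m ∈ I := by
  have hI' : T.EL I ≠ 0 := T.EL_ne_zero hI
  rw [← princ_le_iff, ← T.EL_spanSingleton, ← FractionalIdeal.spanSingleton_le_iff_mem,
    ← div_le_one₀ (pos_iff_ne_zero.mpr hI'), ← div_le_one₀ (pos_iff_ne_zero.mpr hI),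
    div_eq_mul_inv, div_eq_mul_inv, ← map_inv₀, ← map_mul, T.EL_le_one_iff]

theorem map_injective : Function.Injective (Ideal.map (algebraMap (𝓞 M) (𝓞 L))) := by
  intro I J h
  refine FractionalIdeal.coeIdeal_injective (K := M) (T.EL_injective ?_)
  simp only [T.EL_coeIdeal, h]

theorem comap_map (I : Ideal (𝓞 M)) :
    (I.map (algebraMap (𝓞 M) (𝓞 L))).comap (algebraMap (𝓞 M) (𝓞 L)) = I :=
  T.map_injective ((Ideal.gc_map_comap _).l_u_l_eq_l I)

theorem map_cO_extended (I : Ideal (𝓞 M)) :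
    (I.map (algebraMap (𝓞 M) (𝓞 L))).map (T.cO : 𝓞 L →+* 𝓞 L)
      = I.map (algebraMap (𝓞 M) (𝓞 L)) := by
  rw [Ideal.map_map]
  congr 1
  exact RingHom.ext fun a => T.cO.commutes a

theorem map_cO_cO (I : Ideal (𝓞 L)) :
    (I.map (T.cO : 𝓞 L →+* 𝓞 L)).map (T.cO : 𝓞 L →+* 𝓞 L) = I := by
  rw [Ideal.map_map]
  have h : ((T.cO : 𝓞 L →+* 𝓞 L).comp (T.cO : 𝓞 L →+* 𝓞 L)) = RingHom.id _ :=
    RingHom.ext fun a => T.cO_cO a
  rw [h, Ideal.map_id]

theorem c_mem_map {I : Ideal (𝓞 L)} {x : L} (hx : x ∈ idealSet I) :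
    T.c x ∈ idealSet (I.map (T.cO : 𝓞 L →+* 𝓞 L)) := by
  obtain ⟨a, ha, rfl⟩ := mem_idealSet.mp hx
  exact ⟨T.cO a, Ideal.mem_map_of_mem _ ha, T.coe_cO a⟩

/-- The ring data of the quadratic extension of integers. -/
def ringData : QuadRingData (𝓞 M) (𝓞 L) where
  c := T.cO
  nrm := Algebra.intNorm (𝓞 M) (𝓞 L)
  trc := Algebra.intTrace (𝓞 M) (𝓞 L)
  c_c := T.cO_cO
  algebraMap_nrm := T.algebraMap_intNorm'
  algebraMap_trc := T.algebraMap_intTrace'
  comap_map := T.comap_map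
  finite_quot I hI := Ideal.finiteQuotientOfFreeOfNeBot I hI
  finite_quotB I hI := Ideal.finiteQuotientOfFreeOfNeBot _ fun h =>
    hI (T.map_injective (h.trans Ideal.map_bot.symm))
  card_quotB I _ := by
    have := T.finiteDimensional
    rw [← Submodule.cardQuot_apply, ← Submodule.cardQuot_apply, ← Ideal.absNorm_apply,
      ← Ideal.absNorm_apply, Ideal.absNorm_algebraMap,
      ← IsFractionRing.finrank_eq (𝓞 M) M (𝓞 L) L, T.finrank_eq]
  card_quot_mul I J := by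
    simp only [← Submodule.cardQuot_apply, ← Ideal.absNorm_apply, map_mul]

/-! ### The different and the additive character -/

/-- The different of `M`. -/
def diffM (_T : Setting M L ι) : Ideal (𝓞 M) := differentIdeal ℤ (𝓞 M)

/-- The relative different. -/
def diffR (_T : Setting M L ι) : Ideal (𝓞 L) := differentIdeal (𝓞 M) (𝓞 L)

theorem diffM_ne_zero : (T.diffM : FractionalIdeal (𝓞 M)⁰ M) ≠ 0 :=
  FractionalIdeal.coeIdeal_ne_zero.mpr differentIdeal_ne_bot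

theorem diffR_ne_zero : (T.diffR : FractionalIdeal (𝓞 L)⁰ L) ≠ 0 := by
  have := T.finiteDimensional
  exact FractionalIdeal.coeIdeal_ne_zero.mpr differentIdeal_ne_bot

theorem differentIdeal_L :
    differentIdeal ℤ (𝓞 L) = T.diffR * T.diffM.map (algebraMap (𝓞 M) (𝓞 L)) := by
  have := T.finiteDimensional
  exact differentIdeal_eq_differentIdeal_mul_differentIdeal ℤ (𝓞 M) (𝓞 L)

theorem mem_inv_diffM_iff {m : M} :
    m ∈ (T.diffM : FractionalIdeal (𝓞 M)⁰ M)⁻¹ ↔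
      ∀ u : 𝓞 M, ∃ k : ℤ, Algebra.trace ℚ M (algebraMap (𝓞 M) M u * m) = k := by
  rw [diffM, coeIdeal_differentIdeal ℤ ℚ M, inv_inv,
    FractionalIdeal.mem_dual (one_ne_zero : (1 : FractionalIdeal (𝓞 M)⁰ M) ≠ 0)]
  constructor
  · intro h u
    obtain ⟨k, hk⟩ := h _ (FractionalIdeal.coe_mem_one _ u)
    rw [Algebra.traceForm_apply, mul_comm] at hk
    exact ⟨k, by rw [← hk]; rfl⟩
  · intro h x hx
    obtain ⟨u, rfl⟩ := (FractionalIdeal.mem_one_iff _).mp hx
    obtain ⟨k, hk⟩ := h u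
    exact ⟨k, by rw [Algebra.traceForm_apply, mul_comm, hk]; rfl⟩

theorem expM_eq_one_of_mem {m : M}
    (h : algebraMap M L m ∈ (T.EL (T.diffM : FractionalIdeal (𝓞 M)⁰ M))⁻¹) :
    expM T.Φ m = 1 := by
  rw [← map_inv₀, T.algebraMap_mem_EL_iff (inv_ne_zero T.diffM_ne_zero),
    T.mem_inv_diffM_iff] at h
  obtain ⟨k, hk⟩ := h 1
  exact (expM_eq_one_iff T.Φ m).mpr ⟨k, by simpa using hk⟩

theorem mem_of_forall_expM_eq_one {m : M}
    (h : ∀ u : 𝓞 M, expM T.Φ (algebraMap (𝓞 M) M u * m) = 1) :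
    algebraMap M L m ∈ (T.EL (T.diffM : FractionalIdeal (𝓞 M)⁰ M))⁻¹ := by
  rw [← map_inv₀, T.algebraMap_mem_EL_iff (inv_ne_zero T.diffM_ne_zero), T.mem_inv_diffM_iff]
  exact fun u => (expM_eq_one_iff T.Φ _).mp (h u)

theorem expM_pair_eq_one {e : M} {x η : L} {Λ : AddSubgroup L} (hx : x ∈ Λ)
    (hη : η ∈ T.dualSet e Λ) : expM T.Φ (e * Algebra.trace M L (x * T.c η)) = 1 := by
  rw [expM_eq_one_iff]
  obtain ⟨k, hk⟩ := hη x hx
  exact ⟨k, by rw [← T.trace_M_L, hk]⟩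

/-- The dual of an ideal lattice. -/
theorem dualSet_bound {e : M} {Λ : Ideal (𝓞 L)} (hΛ : Λ ≠ ⊥) {η : L}
    (hη : η ∈ T.dualSet e (idealSet Λ)) :
    algebraMap M L e * T.c η ∈
      ((Λ : FractionalIdeal (𝓞 L)⁰ L) * (T.diffR : FractionalIdeal (𝓞 L)⁰ L)
        * T.EL (T.diffM : FractionalIdeal (𝓞 M)⁰ M))⁻¹ := by
  have hd : algebraMap M L e * T.c η ∈
      FractionalIdeal.dual ℤ ℚ (Λ : FractionalIdeal (𝓞 L)⁰ L) := by
    rw [FractionalIdeal.mem_dual (FractionalIdeal.coeIdeal_ne_zero.mpr hΛ)]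
    intro a ha
    obtain ⟨k, hk⟩ := hη a (mem_coeIdeal_iff_idealSet.mp ha)
    refine ⟨k, ?_⟩
    rw [Algebra.traceForm_apply, show algebraMap M L e * T.c η * a
      = algebraMap M L e * (a * T.c η) by ring]
    exact hk.symm
  rw [FractionalIdeal.dual_eq_mul_inv, ← inv_inv (FractionalIdeal.dual ℤ ℚ 1),
    ← coeIdeal_differentIdeal ℤ ℚ L, T.differentIdeal_L, FractionalIdeal.coeIdeal_mul,
    ← T.EL_coeIdeal, ← mul_inv] at hd
  rwa [mul_comm (_ * _) (Λ : FractionalIdeal (𝓞 L)⁰ L), ← mul_assoc] at hd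

end Setting

end FLTAgent.LanglandsTunnell.Seed

end
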