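import Fermat.Agent.LanglandsTunnell.Seed.LatticePoisson
import Mathlib.NumberTheory.NumberField.FractionalIdeal

/-!
# Poisson summation on an integral ideal of the quadratic extension

`idealSet` is an ideal as a lattice in `L` and `dualSet` its dual for the trace pairing;
`ideal_poisson` is `lattice_poisson` transported to them.
-/

set_option autoImplicit false
set_option linter.unusedSectionVars false

open NumberField Complex Module
open scoped nonZeroDivisors

noncomputable section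

namespace FLTAgent.LanglandsTunnell.Seed

open FLTAgent.LanglandsTunnell

variable {M L ι : Type} [Field M] [NumberField M] [Field L] [NumberField L] [Algebra M L]
  [Fintype ι]

/-- An integral ideal inside its field. -/
def idealSet (A : Ideal (𝓞 L)) : AddSubgroup L :=
  A.toAddSubgroup.map (algebraMap (𝓞 L) L).toAddMonoidHom

theorem mem_idealSet {A : Ideal (𝓞 L)} {x : L} :
    x ∈ idealSet A ↔ ∃ a ∈ A, algebraMap (𝓞 L) L a = x := Iff.rfl

theorem coe_mem_idealSet {A : Ideal (𝓞 L)} {a : 𝓞 L} :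
    algebraMap (𝓞 L) L a ∈ idealSet A ↔ a ∈ A :=
  ⟨fun ⟨_, hb, h⟩ => IsFractionRing.injective (𝓞 L) L h ▸ hb, fun h => ⟨a, h, rfl⟩⟩

theorem idealSet_mono {A B : Ideal (𝓞 L)} (h : A ≤ B) : idealSet A ≤ idealSet B :=
  AddSubgroup.map_mono h

theorem exists_basis_idealSet {A : Ideal (𝓞 L)} (hA : A ≠ ⊥) :
    ∃ (κ : Type) (_ : Fintype κ) (b : Basis κ ℚ L),
      ∀ x, x ∈ idealSet A ↔ ∃ m : κ → ℤ, comb b m = x := by
  let u : (FractionalIdeal (𝓞 L)⁰ L)ˣ :=
    Units.mk0 (A : FractionalIdeal (𝓞 L)⁰ L) (FractionalIdeal.coeIdeal_ne_zero.mpr hA)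
  refine ⟨_, inferInstance, NumberField.basisOfFractionalIdeal L u, fun x => ?_⟩
  have h1 : x ∈ idealSet A ↔ x ∈ ((u : FractionalIdeal (𝓞 L)⁰ L) : Set L) := by
    simp [mem_idealSet, u, FractionalIdeal.mem_coeIdeal]
  rw [h1, ← NumberField.mem_span_basisOfFractionalIdeal, Submodule.mem_span_range_iff_exists_fun]
  refine exists_congr fun m => ?_
  simp only [comb, Rat.smul_def, Rat.cast_intCast, zsmul_eq_mul]

namespace Setting

variable (T : Setting M L ι)

include T

theorem pairQ_add_right (e : M) (x y y' : L) :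
    T.pairQ e x (y + y') = T.pairQ e x y + T.pairQ e x y' := by
  simp [pairQ, mul_add, map_add]

/-- The dual lattice. -/
def dualSet (e : M) (Λ : AddSubgroup L) : AddSubgroup L where
  carrier := {y | ∀ x ∈ Λ, ∃ k : ℤ, T.pairQ e x y = k}
  zero_mem' x _ := ⟨0, by simp [pairQ]⟩
  add_mem' {y y'} hy hy' x hx := by
    obtain ⟨k, hk⟩ := hy x hx
    obtain ⟨k', hk'⟩ := hy' x hx
    exact ⟨k + k', by rw [T.pairQ_add_right, hk, hk']; push_cast; rfl⟩
  neg_mem' {y} hy x hx := by
    obtain ⟨k, hk⟩ := hy x hx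
    refine ⟨-k, ?_⟩
    have h := T.pairQ_add_right e x y (-y)
    rw [add_neg_cancel, hk, show T.pairQ e x 0 = 0 by simp [pairQ]] at h
    push_cast
    linarith

theorem pairQ_comm (e : M) (x y : L) : T.pairQ e x y = T.pairQ e y x := by
  rw [T.trace_M_L, T.trace_M_L]
  congr 2
  exact (algebraMap M L).injective (by simp only [T.algebraMap_trace, map_mul, T.c_c]; ring)

theorem mem_dualSet_iff_comb {κ : Type} [Fintype κ] [DecidableEq κ] {e : M}
    {Λ : AddSubgroup L} {b b' : Basis κ ℚ L} (hb : ∀ x, x ∈ Λ ↔ ∃ m : κ → ℤ, comb b m = x)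
    (hdual : ∀ j k, T.pairQ e (b j) (b' k) = if j = k then 1 else 0) (y : L) :
    y ∈ T.dualSet e Λ ↔ ∃ m : κ → ℤ, comb b' m = y := by
  have hbj : ∀ j, b j ∈ Λ := fun j =>
    (hb _).mpr ⟨Pi.single j 1,
      by simp [comb, Pi.single_apply, Finset.sum_ite_eq', apply_ite (Int.cast (R := ℚ)), ite_smul]⟩
  have hdual' : ∀ j k, T.pairQ e (b' j) (b k) = if j = k then 1 else 0 := fun j k => by
    rw [T.pairQ_comm, hdual k j]
    simp only [eq_comm]
  constructor
  · intro hy
    choose m hm using fun j => hy _ (hbj j)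
    refine ⟨m, ?_⟩
    have hq : ∀ j, T.pairQ e (b j) y = b'.repr y j := by
      intro j
      rw [← congrArg (T.pairQ e (b j)) (b'.sum_repr y)]
      have h : T.pairQ e (b j) (∑ k, b'.repr y k • b' k)
          = ∑ k, T.pairQ e (b j) (b'.repr y k • b' k) := by
        simp only [pairQ, map_sum, Finset.mul_sum]
      rw [h]
      simp [T.pairQ_smul_right, hdual]
    conv_rhs => rw [← b'.sum_repr y]
    simp only [comb, ← hq, hm]
  · rintro ⟨m, rfl⟩ x hx
    obtain ⟨n, rfl⟩ := (hb x).mp hx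
    refine ⟨∑ j, n j * m j, ?_⟩
    rw [T.pairQ_comm, comb, comb]
    have h : T.pairQ e (∑ j, (m j : ℚ) • b' j) (∑ k, (n k : ℚ) • b k)
        = ∑ k, T.pairQ e (∑ j, (m j : ℚ) • b' j) ((n k : ℚ) • b k) := by
      simp only [pairQ, map_sum, Finset.mul_sum]
    rw [h]
    simp only [T.pairQ_smul_right]
    push_cast
    refine Finset.sum_congr rfl fun k _ => ?_
    rw [T.pairQ_comm, show (∑ j, (m j : ℚ) • b' j) = comb b' m from rfl, T.pairQ_comb hdual m k]

theorem comb_injective {κ : Type} [Fintype κ] (b : Basis κ ℚ L) : Function.Injective (comb b) := by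
  intro m n h
  funext j
  have h' := congrArg (fun x => b.repr x j) h
  simp only [comb, b.repr_sum_self] at h'
  exact_mod_cast h'

/-- An enumeration of a lattice by a basis. -/
def combEquiv {κ : Type} [Fintype κ] {Λ : AddSubgroup L} {b : Basis κ ℚ L}
    (hb : ∀ x, x ∈ Λ ↔ ∃ m : κ → ℤ, comb b m = x) : (κ → ℤ) ≃ Λ :=
  Equiv.ofBijective (fun m => ⟨comb b m, (hb _).mpr ⟨m, rfl⟩⟩)
    ⟨fun _ _ h => T.comb_injective b (congrArg Subtype.val h),
      fun x => by obtain ⟨m, hm⟩ := (hb x).mp x.2; exact ⟨m, Subtype.ext hm⟩⟩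

theorem combEquiv_apply {κ : Type} [Fintype κ] {Λ : AddSubgroup L} {b : Basis κ ℚ L}
    (hb : ∀ x, x ∈ Λ ↔ ∃ m : κ → ℤ, comb b m = x) (m : κ → ℤ) :
    (T.combEquiv hb m : L) = comb b m := rfl

theorem summable_kernL_idealSet {e : M} (he : e ≠ 0) {A : Ideal (𝓞 L)} (hA : A ≠ ⊥) (r : L)
    (s : ι → ℝ) (P : ι → H3) :
    Summable fun u : idealSet A => ‖T.kernL e (r + u) s P‖ := by
  classical
  obtain ⟨κ, _, b, hb⟩ := exists_basis_idealSet hA
  obtain ⟨b', hdual⟩ := T.exists_dual he b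
  rw [← (T.combEquiv hb).summable_iff]
  simpa [Function.comp_def, T.combEquiv_apply] using T.summable_kernL_comb he hdual s P r

theorem summable_kernL_dualSet {e : M} (he : e ≠ 0) {A : Ideal (𝓞 L)} (hA : A ≠ ⊥)
    (s : ι → ℝ) (P : ι → H3) :
    Summable fun η : T.dualSet e (idealSet A) => ‖T.kernL e η s P‖ := by
  classical
  obtain ⟨κ, _, b, hb⟩ := exists_basis_idealSet hA
  obtain ⟨b', hdual⟩ := T.exists_dual he b
  have hdual' : ∀ j k, T.pairQ e (b' j) (b k) = if j = k then 1 else 0 := fun j k => by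
    rw [T.pairQ_comm, hdual k j]
    simp only [eq_comm]
  rw [← (T.combEquiv (T.mem_dualSet_iff_comb hb hdual)).summable_iff]
  simpa [Function.comp_def, T.combEquiv_apply] using T.summable_kernL_comb he hdual' s P 0

/-- Poisson summation on an integral ideal. -/
theorem ideal_poisson {e : M} (he : e ≠ 0) {A : Ideal (𝓞 L)} (hA : A ≠ ⊥) :
    ∃ C : ℂ, ∀ (r : L) (s : ι → ℝ) (P : ι → H3),
      ∑' u : idealSet A, T.kernL e (r + u) s P =
        C * ∑' η : T.dualSet e (idealSet A),
          expM T.Φ (e * Algebra.trace M L (r * T.c η)) * T.kernL e η s (fun i => inv3 (P i)) := by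
  classical
  obtain ⟨κ, _, b, hb⟩ := exists_basis_idealSet hA
  obtain ⟨b', hdual⟩ := T.exists_dual he b
  obtain ⟨C, hC⟩ := T.lattice_poisson he hdual
  refine ⟨C, fun r s P => ?_⟩
  rw [← (T.combEquiv hb).tsum_eq, ← (T.combEquiv (T.mem_dualSet_iff_comb hb hdual)).tsum_eq]
  simpa only [T.combEquiv_apply] using hC r s P

end Setting

end FLTAgent.LanglandsTunnell.Seed

end
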