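import Fermat.Agent.LanglandsTunnell.Seed.Move
import Fermat.Agent.LanglandsTunnell.Geom.Heights

/-!
# The transformation formula of the theta series

For the data `MoveData` of one step, cosets are split, Gauss sums evaluated (`qsum_gauss`) and
Poisson summation applied twice; the result is `theta_move`.
-/

set_option autoImplicit false

open NumberField Complex
open scoped nonZeroDivisors Real ComplexConjugate Classical

noncomputable section

namespace FLTAgent.LanglandsTunnell.Seed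

open FLTAgent.LanglandsTunnell

variable {M L ι : Type} [Field M] [NumberField M] [Field L] [NumberField L] [Algebra M L]
  [Fintype ι]

/-- Horizontal translate. -/
def transPt (P : H3) (x : ℂ) : H3 := ⟨P.z + x, P.t, P.t_pos⟩

theorem inv3_inv3 (P : H3) : inv3 (inv3 P) = P := by
  have ht := P.t_pos
  have hN : 0 < ‖P.z‖ ^ 2 + P.t ^ 2 := by positivity
  have hnn : ‖-(conj P.z) / ((‖P.z‖ ^ 2 + P.t ^ 2 : ℝ) : ℂ)‖ ^ 2
      + (P.t / (‖P.z‖ ^ 2 + P.t ^ 2)) ^ 2 = 1 / (‖P.z‖ ^ 2 + P.t ^ 2) := by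
    rw [norm_div, norm_neg, Complex.norm_conj, Complex.norm_real, Real.norm_eq_abs, abs_of_pos hN]
    field_simp
  ext
  · simp only [inv3, hnn]
    have : ((‖P.z‖ ^ 2 + P.t ^ 2 : ℝ) : ℂ) ≠ 0 := Complex.ofReal_ne_zero.mpr hN.ne'
    simp only [map_div₀, map_neg, Complex.conj_conj, Complex.conj_ofReal]
    push_cast at this ⊢
    field_simp
  · simp only [inv3, hnn]
    field_simp

/-- The decomposition of an element of `SL(2, ℂ)` with nonzero `d`. -/
theorem moebius_decomp (g : GL (Fin 2) ℂ) {a b c d : ℂ} (hg : g.val = !![a, b; c, d])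
    (hdet : a * d - b * c = 1) (hd : d ≠ 0) (P : H3) :
    (g • P).z = 1 / d ^ 2 * (inv3 (transPt (inv3 P) (-(c / d)))).z + b / d ∧
      (g • P).t = ‖1 / d ^ 2‖ * (inv3 (transPt (inv3 P) (-(c / d)))).t := by
  set V : GL (Fin 2) ℂ := Matrix.GeneralLinearGroup.mkOfDetNeZero !![-(1 / d), -b; 0, -d]
    (by rw [Matrix.det_fin_two_of]; field_simp; norm_num)
  set U : GL (Fin 2) ℂ := Matrix.GeneralLinearGroup.mkOfDetNeZero !![1, -(c / d); 0, 1]
    (by rw [Matrix.det_fin_two_of]; norm_num)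
  have hdec : g = V * H3.weyl * U * H3.weyl := by
    refine Matrix.GeneralLinearGroup.ext fun i j => ?_
    fin_cases i <;> fin_cases j <;>
      simp [hg, V, U, H3.weyl_val, Matrix.GeneralLinearGroup.val_mkOfDetNeZero, Matrix.mul_apply,
        Fin.sum_univ_two] <;> field_simp
    linear_combination hdet
  have hU : U • inv3 P = transPt (inv3 P) (-(c / d)) := by
    ext
    · simp [H3.smul_z, H3.denom, U, Matrix.GeneralLinearGroup.val_mkOfDetNeZero, transPt]
    · simp [H3.smul_t, H3.denom, U, Matrix.GeneralLinearGroup.val_mkOfDetNeZero,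
        Matrix.det_fin_two, transPt]
  rw [hdec, mul_smul, mul_smul, mul_smul, weyl_smul P, hU, weyl_smul]
  set X := inv3 (transPt (inv3 P) (-(c / d)))
  have hd' : ‖d‖ ≠ 0 := norm_ne_zero_iff.mpr hd
  constructor
  · have hns : ((normSq d : ℝ) : ℂ) = d * conj d := (Complex.mul_conj d).symm
    simp [H3.smul_z, H3.denom, V, Matrix.GeneralLinearGroup.val_mkOfDetNeZero, hns]
    have : conj d ≠ 0 := (map_ne_zero _).mpr hd
    field_simp
    ring
  · simp [H3.smul_t, H3.denom, V, Matrix.GeneralLinearGroup.val_mkOfDetNeZero, Matrix.det_fin_two,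
      Complex.normSq_eq_norm_sq]
    field_simp

namespace Setting

variable (T : Setting M L ι)

include T

theorem kernL_affine (e : M) (x : L) (s : ι → ℝ) {P Q : ι → H3} {D κ : M}
    (hz : ∀ i, (Q i).z = T.Φ.emb i D * (P i).z + T.Φ.emb i κ)
    (ht : ∀ i, (Q i).t = ‖T.Φ.emb i D‖ * (P i).t) :
    T.kernL e x s Q = (∏ i, (‖T.Φ.emb i D‖ : ℂ)) * expM T.Φ (κ * e * Algebra.norm M x) *
      T.kernL (e * D) x s P := by
  rw [expM_eq_prod, kernL, kernV, kernL, kernV, ← Finset.prod_mul_distrib,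
    ← Finset.prod_mul_distrib]
  refine Finset.prod_congr rfl fun i _ => ?_
  rw [kern_affine _ _ _ (hz i) (ht i), map_mul, map_mul, map_mul, T.emb_norm, vec_apply]
  congr 4
  ring_nf

theorem kernL_smul_arg (e : M) (m : M) (hm : m ≠ 0) (x : L) (s : ι → ℝ) (P : ι → H3) :
    T.kernL e (algebraMap M L m * x) s P = T.kernL (e * m * m) x s P := by
  simp only [kernL, kernV]
  refine Finset.prod_congr rfl fun i => ?_
  intro _
  have hm' := (map_ne_zero (T.Φ.emb i)).mpr hm
  simp only [vec_apply, map_mul, AlgEquiv.commutes, ← T.emb_apply]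
  rw [kern_mul_arg _ hm' hm' (T.τ i x, T.τ i (T.c x)), div_self (norm_ne_zero_iff.mpr hm'),
    Real.log_one, zero_div, add_zero]

theorem norm_add_eq (x y : L) :
    Algebra.norm M (x + y) =
      Algebra.norm M x + Algebra.trace M L (x * T.c y) + Algebra.norm M y :=
  (algebraMap M L).injective (by
    simp only [map_add, T.algebraMap_norm, T.algebraMap_trace, map_mul T.c, T.c_c]; ring)

theorem trace_c_comm (x y : L) :
    Algebra.trace M L (x * T.c y) = Algebra.trace M L (y * T.c x) :=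
  (algebraMap M L).injective (by simp only [T.algebraMap_trace, map_mul, T.c_c]; ring)

end Setting

namespace MoveData

variable {T : Setting M L ι} (S : MoveData T)

/-- `b / d`. -/
def kap : M := S.b / algebraMap (𝓞 M) M S.d

theorem kap_def : S.kap = S.b / algebraMap (𝓞 M) M S.d := rfl

theorem expM_quad_periodic {x y : L} (hx : x ∈ idealSet S.A)
    (hy : y ∈ idealSet (S.BL * S.A)) :
    expM T.Φ (S.kap * S.e * Algebra.norm M (x + y)) =
      expM T.Φ (S.kap * S.e * Algebra.norm M x) := by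
  rw [T.norm_add_eq, mul_add, mul_add, expM_add, expM_add, T.trace_c_comm x y, kap_def,
    S.expM_cross hy hx, S.expM_norm hy, mul_one, mul_one]

theorem I_le_BA : idealSet (S.BL * (S.fL * S.A)) ≤ idealSet (S.BL * S.A) :=
  idealSet_mono S.BfA_le_BA

theorem I_le_fA : idealSet (S.BL * (S.fL * S.A)) ≤ idealSet (S.fL * S.A) :=
  idealSet_mono Ideal.mul_le_right

theorem A_le_A' : idealSet S.A ≤ idealSet S.A' := idealSet_mono Ideal.mul_le_right

theorem fA_le_fA' : idealSet (S.fL * S.A) ≤ idealSet (S.fL * S.A') :=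
  idealSet_mono (Ideal.mul_mono le_rfl Ideal.mul_le_right)

theorem BA_le_A : idealSet (S.BL * S.A) ≤ idealSet S.A := idealSet_mono Ideal.mul_le_right

theorem fA_le_A : idealSet (S.fL * S.A) ≤ idealSet S.A := idealSet_mono Ideal.mul_le_right

theorem mem_I_iff {x : L} : x ∈ idealSet (S.BL * (S.fL * S.A)) ↔
    ∃ u ∈ idealSet (S.fL * S.A'), S.dL * u = x := by
  rw [S.BfA_eq, S.mem_idealSet_span_mul]

theorem div_dL {u η : L} :
    Algebra.trace M L (S.dL * u * T.c η) =
      algebraMap (𝓞 M) M S.d * Algebra.trace M L (u * T.c η) := by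
  rw [S.dL_eq, mul_assoc, ← Algebra.smul_def, LinearMap.map_smul, smul_eq_mul]

theorem expM_lin_periodic {η : L} (hη : η ∈ T.dualSet S.e (idealSet (S.fL * S.A'))) (x : L) {y : L}
    (hy : y ∈ idealSet (S.BL * (S.fL * S.A))) :
    expM T.Φ (S.e / algebraMap (𝓞 M) M S.d * Algebra.trace M L ((x + y) * T.c η)) =
      expM T.Φ (S.e / algebraMap (𝓞 M) M S.d * Algebra.trace M L (x * T.c η)) := by
  obtain ⟨u, hu, rfl⟩ := S.mem_I_iff.mp hy
  rw [add_mul, map_add, mul_add, expM_add, S.div_dL, ← mul_assoc,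
    div_mul_cancel₀ _ S.dM_ne, T.expM_pair_eq_one hu hη, mul_one]

/-- The phase of the Gauss sum. -/
def phase (η y : L) : ℂ :=
  expM T.Φ (S.kap * S.e * Algebra.norm M y) *
    expM T.Φ (S.e / algebraMap (𝓞 M) M S.d * Algebra.trace M L (y * T.c η))

theorem periodicOn_phase {η : L} (hη : η ∈ T.dualSet S.e (idealSet (S.fL * S.A'))) :
    PeriodicOn (idealSet S.A) (idealSet (S.BL * (S.fL * S.A))) (S.phase η) := fun x hx y hy => by
  rw [phase, phase, S.expM_quad_periodic hx (S.I_le_BA hy), S.expM_lin_periodic hη x hy]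

/-- The pure quadratic Gauss sum. -/
theorem qsum_gauss (ηf : Ideal (𝓞 M) → ℂ) (hη1 : ηf ⊤ = 1)
    (hηP : ∀ P J : Ideal (𝓞 M), P.IsMaximal → P ≠ ⊥ → T.ringData.Unram P →
      ηf (P * J) = (if T.ringData.Splits P then 1 else -1) * ηf J) :
    qsum (idealSet (S.fL * S.A)) (idealSet (S.BL * (S.fL * S.A)))
        (fun y => expM T.Φ (S.kap * S.e * Algebra.norm M y)) =
      ηf S.B * (Ideal.absNorm S.B : ℂ) := by
  obtain ⟨x₁, hx₁, hker, hsurj, J', hJ', hco⟩ := S.exists_generator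
  set φ : 𝓞 L →+ L := (algebraMap (𝓞 L) L).toAddMonoidHom.comp (AddMonoidHom.mulRight x₁)
  have hφ : ∀ z, φ z = algebraMap (𝓞 L) L (z * x₁) := fun _ => rfl
  have hper : PeriodicOn (idealSet (S.fL * S.A)) (idealSet (S.BL * (S.fL * S.A)))
      (fun y => expM T.Φ (S.kap * S.e * Algebra.norm M y)) := fun x hx y hy =>
    S.expM_quad_periodic (S.fA_le_A hx) (S.I_le_BA hy)
  rw [qsum_map (J' := (⊤ : AddSubgroup (𝓞 L))) (I' := S.BL.toAddSubgroup) hper φ
    (fun z _ => by rw [hφ, coe_mem_idealSet]; exact Ideal.mul_mem_left _ _ hx₁)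
    (fun z _ => by
      rw [hφ, coe_mem_idealSet]
      exact ⟨hker z, fun hz => Ideal.mul_mem_mul hz hx₁⟩)
    (fun y hy => by
      obtain ⟨w, hw, rfl⟩ := mem_idealSet.mp hy
      obtain ⟨z, hz⟩ := hsurj w hw
      exact ⟨z, AddSubgroup.mem_top z, by rw [hφ, ← map_sub, coe_mem_idealSet]; exact hz⟩)]
  set lam : M := S.kap * S.e * Algebra.norm M (algebraMap (𝓞 L) L x₁) with hlam
  let χ : AddChar (𝓞 M) ℂ :=
    { toFun := fun u => expM T.Φ (algebraMap (𝓞 M) M u * lam)
      map_zero_eq_one' := by rw [map_zero, zero_mul, expM_zero]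
      map_add_eq_mul' := fun u v => by rw [map_add, add_mul, expM_add] }
  have hχ : ∀ u, χ u = expM T.Φ (algebraMap (𝓞 M) M u * lam) := fun _ => rfl
  have hprim : IsPrimitiveMod χ S.B := by
    refine ⟨fun u hu => ?_, fun J hJ => ?_⟩
    · rw [hχ]
      refine T.expM_eq_one_of_mem ?_
      rw [hlam, kap_def]
      simp only [map_mul, T.algebraMap_norm]
      rw [show algebraMap M L (algebraMap (𝓞 M) M u) *
          (algebraMap M L (S.b / algebraMap (𝓞 M) M S.d) * algebraMap M L S.e *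
            (algebraMap (𝓞 L) L x₁ * T.c (algebraMap (𝓞 L) L x₁)))
        = algebraMap M L (S.b / algebraMap (𝓞 M) M S.d * S.e) *
            (algebraMap (𝓞 L) L (algebraMap (𝓞 M) (𝓞 L) u * (x₁ * T.cO x₁))) by
          simp only [map_mul, T.coe_cO, T.algebraMap_coe]; ring]
      refine S.expM_quad (coe_mem_idealSet.mpr ?_)
      have hxA : x₁ ∈ S.A := Ideal.mul_le_right (I := S.fL) hx₁
      have h1 : algebraMap (𝓞 M) (𝓞 L) u * (x₁ * T.cO x₁) ∈
          S.BL * (S.A * S.A.map (T.cO : 𝓞 L →+* 𝓞 L)) :=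
        Ideal.mul_mem_mul (Ideal.mem_map_of_mem _ hu)
          (Ideal.mul_mem_mul hxA (Ideal.mem_map_of_mem _ hxA))
      rw [show S.qIdeal = S.BL * (S.A * S.A.map (T.cO : 𝓞 L →+* 𝓞 L)) by
        rw [qIdeal, A, Ideal.map_mul, S.map_ZL]; ring]
      exact h1
    · by_contra hall
      simp only [not_exists, not_and, not_not] at hall
      refine hJ.not_ge ?_
      obtain ⟨bI, hbI, hbB⟩ := S.exists_bIdeal
      have hbound : T.EL (J : FractionalIdeal (𝓞 M)⁰ M) * princ L (algebraMap M L lam) ≤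
          (T.EL (T.diffM : FractionalIdeal (𝓞 M)⁰ M))⁻¹ := by
        rw [← T.EL_spanSingleton, ← map_mul, ← map_inv₀]
        refine T.EL_mono (FractionalIdeal.mul_le.mpr fun i hi j hj => ?_)
        obtain ⟨v, hv, rfl⟩ := (FractionalIdeal.mem_coeIdeal _).mp hi
        obtain ⟨w, rfl⟩ := (FractionalIdeal.mem_spanSingleton _).mp hj
        rw [← T.algebraMap_mem_EL_iff (inv_ne_zero T.diffM_ne_zero), map_inv₀]
        refine T.mem_of_forall_expM_eq_one fun z => ?_
        have := hall (z * (v * w)) (Ideal.mul_mem_left _ _ (Ideal.mul_mem_right _ _ hv))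
        rw [hχ] at this
        rwa [Algebra.smul_def, show algebraMap (𝓞 M) M z * (algebraMap (𝓞 M) M v *
          (algebraMap (𝓞 M) M w * lam)) = algebraMap (𝓞 M) M (z * (v * w)) * lam by
          rw [map_mul, map_mul]; ring]
      set J'c := J'.map (T.cO : 𝓞 L →+* 𝓞 L)
      have hJ'c : J'c ⊔ S.BL = ⊤ := by
        rw [← S.map_BL, ← Ideal.map_sup, hco, Ideal.map_top]
      set Q : Ideal (𝓞 L) := bI * (S.fL * S.fL) * (J' * J'c)
      have hQ : Q ⊔ S.BL = ⊤ := by
        have hf : S.fL ⊔ S.BL = ⊤ := by rw [sup_comm]; exact S.BL_sup_fL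
        refine Ideal.mul_sup_eq_of_coprime_left ?_ |>.trans ?_
        · refine Ideal.mul_sup_eq_of_coprime_left hbB |>.trans ?_
          exact Ideal.mul_sup_eq_of_coprime_left hf |>.trans hf
        · exact Ideal.mul_sup_eq_of_coprime_left hco |>.trans hJ'c
      suffices hJB : J.map (algebraMap (𝓞 M) (𝓞 L)) * Q ≤ S.BL by
        have h2 : J.map (algebraMap (𝓞 M) (𝓞 L)) * (Q ⊔ S.BL) ≤ S.BL := by
          rw [Ideal.mul_sup]; exact sup_le hJB Ideal.mul_le_right
        rw [hQ, Ideal.mul_top] at h2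
        rw [← T.comap_map J, ← T.comap_map S.B]
        exact Ideal.comap_mono h2
      rw [← FractionalIdeal.coeIdeal_le_coeIdeal (K := L)]
      have hd0 : T.EL (T.diffM : FractionalIdeal (𝓞 M)⁰ M) ≠ 0 := T.EL_ne_zero T.diffM_ne_zero
      have hBL0 : (S.BL : FractionalIdeal (𝓞 L)⁰ L) ≠ 0 :=
        FractionalIdeal.coeIdeal_ne_zero.mpr (left_ne_zero_of_mul S.BfA_ne)
      have hZL0 : (S.ZL : FractionalIdeal (𝓞 L)⁰ L) ≠ 0 :=
        FractionalIdeal.coeIdeal_ne_zero.mpr
          (left_ne_zero_of_mul (right_ne_zero_of_mul (right_ne_zero_of_mul S.BfA_ne)))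
      have hx1 : princ L (algebraMap (𝓞 L) L x₁) =
          (S.fL : FractionalIdeal (𝓞 L)⁰ L) * (S.ZL * S.A') * J' := by
        rw [princ, ← FractionalIdeal.coeIdeal_span_singleton, hJ', A]
        simp only [FractionalIdeal.coeIdeal_mul]
      have hx1c : princ L (T.c (algebraMap (𝓞 L) L x₁)) =
          (S.fL : FractionalIdeal (𝓞 L)⁰ L) * (S.ZL *
            ((S.A'.map (T.cO : 𝓞 L →+* 𝓞 L) : Ideal (𝓞 L)) : FractionalIdeal (𝓞 L)⁰ L)) * J'c := by
        have he : Ideal.span {T.cO x₁} = (Ideal.span {x₁}).map (T.cO : 𝓞 L →+* 𝓞 L) := by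
          rw [Ideal.map_span, Set.image_singleton]; rfl
        rw [← T.coe_cO, princ, ← FractionalIdeal.coeIdeal_span_singleton, he, hJ', A, Ideal.map_mul,
          Ideal.map_mul, Ideal.map_mul, S.map_fL, S.map_ZL]
        simp only [FractionalIdeal.coeIdeal_mul, J'c]
      have hkd : princ L (algebraMap M L (S.b / algebraMap (𝓞 M) M S.d)) *
          ((S.ZL : FractionalIdeal (𝓞 L)⁰ L) * S.BL) = princ L (algebraMap M L S.b) := by
        rw [← S.princ_dL, ← princ_mul, S.dL_eq, ← map_mul, div_mul_cancel₀ _ S.dM_ne]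
      have hlamL : princ L (algebraMap M L lam) * T.EL (T.diffM : FractionalIdeal (𝓞 M)⁰ M) *
          (S.BL : FractionalIdeal (𝓞 L)⁰ L) = (Q : FractionalIdeal (𝓞 L)⁰ L) := by
        rw [hlam, kap_def]
        simp only [map_mul, T.algebraMap_norm, princ_mul, hx1, hx1c]
        have hpe := S.pair_eq
        simp only [Q, FractionalIdeal.coeIdeal_mul]
        generalize princ L (algebraMap M L (S.b / algebraMap (𝓞 M) M S.d)) = k at hkd
        generalize princ L (algebraMap M L S.b) = pb at hkd hbI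
        generalize princ L (algebraMap M L S.e) = pe at hpe
        generalize (S.ZL : FractionalIdeal (𝓞 L)⁰ L) = z at hkd hbI
        generalize (S.BL : FractionalIdeal (𝓞 L)⁰ L) = bb at hkd
        generalize T.EL (T.diffM : FractionalIdeal (𝓞 M)⁰ M) = dd at hpe
        generalize T.EL S.Y = y at hpe hbI
        generalize (S.A' : FractionalIdeal (𝓞 L)⁰ L) = a1 at hpe
        generalize ((S.A'.map (T.cO : 𝓞 L →+* 𝓞 L) : Ideal (𝓞 L)) :
          FractionalIdeal (𝓞 L)⁰ L) = a2 at hpe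
        generalize (bI : FractionalIdeal (𝓞 L)⁰ L) = bi at hbI
        generalize (S.fL : FractionalIdeal (𝓞 L)⁰ L) = f
        generalize (J' : FractionalIdeal (𝓞 L)⁰ L) = j
        generalize (J'c : FractionalIdeal (𝓞 L)⁰ L) = jc
        calc k * pe * (f * (z * a1) * j * (f * (z * a2) * jc)) * dd * bb
            = (k * (z * bb)) * z * pe * a1 * a2 * dd * (f * f * (j * jc)) := by ring
          _ = bi * (pe * a1 * a2 * y * dd) * (f * f * (j * jc)) := by rw [hkd, hbI]; ring
          _ = bi * (f * f) * (j * jc) := by rw [hpe]; ring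
      have h3 := mul_le_mul_left (mul_le_mul_left hbound
        (T.EL (T.diffM : FractionalIdeal (𝓞 M)⁰ M))) (S.BL : FractionalIdeal (𝓞 L)⁰ L)
      rw [inv_mul_cancel₀ hd0, one_mul, mul_assoc, mul_assoc, ← mul_assoc (princ L _), hlamL,
        T.EL_coeIdeal, ← FractionalIdeal.coeIdeal_mul] at h3
      exact h3
  rw [Ideal.absNorm_apply, Submodule.cardQuot_apply]
  have hg := T.ringData.gauss_eq ηf hη1 hηP S.B S.B_ne S.unram χ hprim
  rw [← hg, QuadRingData.gauss]
  let q : (⊤ : AddSubgroup (𝓞 L)) ⧸ S.BL.toAddSubgroup.addSubgroupOf ⊤ → 𝓞 L ⧸ S.BL :=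
    fun r => Ideal.Quotient.mk S.BL (r.out : (⊤ : AddSubgroup (𝓞 L)))
  refine finsum_eq_of_bijective q ⟨fun r r' h => ?_, fun w => ?_⟩ fun r => ?_
  · rw [← QuotientAddGroup.out_eq' r, ← QuotientAddGroup.out_eq' r',
      QuotientAddGroup.eq_iff_sub_mem,
      AddSubgroup.mem_addSubgroupOf]
    exact Ideal.Quotient.eq.mp h
  · obtain ⟨w, rfl⟩ := Ideal.Quotient.mk_surjective w
    refine ⟨QuotientAddGroup.mk ⟨w, AddSubgroup.mem_top w⟩, Ideal.Quotient.eq.mpr ?_⟩
    have h := QuotientAddGroup.eq_iff_sub_mem.mp (QuotientAddGroup.out_eq'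
      (QuotientAddGroup.mk (⟨w, AddSubgroup.mem_top w⟩ : (⊤ : AddSubgroup (𝓞 L))) :
        (⊤ : AddSubgroup (𝓞 L)) ⧸ S.BL.toAddSubgroup.addSubgroupOf ⊤))
    exact AddSubgroup.mem_addSubgroupOf.mp h
  · refine Eq.trans ?_ (T.ringData.term_eq hprim.trivial _).symm
    dsimp only
    rw [hχ, hφ, map_mul, map_mul, hlam]
    congr 1
    rw [show T.ringData.nrm ((r.out : (⊤ : AddSubgroup (𝓞 L))) : 𝓞 L)
      = Algebra.intNorm (𝓞 M) (𝓞 L) ((r.out : (⊤ : AddSubgroup (𝓞 L))) : 𝓞 L) from rfl,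
      T.coe_intNorm]
    ring

/-- Completing the square. -/
theorem phase_shift {η : L} (hη : η ∈ T.dualSet S.e (idealSet (S.fL * S.A'))) {y : L}
    (hy : y ∈ idealSet (S.fL * S.A)) :
    S.phase η (y + algebraMap M L S.c * η) =
      expM T.Φ (S.c / algebraMap (𝓞 M) M S.d * S.e * Algebra.norm M η) *
        expM T.Φ (S.kap * S.e * Algebra.norm M y) := by
  have := T.finiteDimensional
  have hd := S.dM_ne
  have h1 : expM T.Φ (S.e * Algebra.trace M L ((algebraMap M L S.a * y) * T.c η)) = 1 :=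
    T.expM_pair_eq_one (S.a_mul_mem hy) hη
  have h2 := S.expM_acN hη
  rw [phase, ← expM_add]
  rw [show S.kap * S.e * Algebra.norm M (y + algebraMap M L S.c * η) +
      S.e / algebraMap (𝓞 M) M S.d * Algebra.trace M L ((y + algebraMap M L S.c * η) * T.c η) =
      S.c / algebraMap (𝓞 M) M S.d * S.e * Algebra.norm M η +
        S.kap * S.e * Algebra.norm M y +
        (S.e * Algebra.trace M L ((algebraMap M L S.a * y) * T.c η) +
          S.a * S.c * (S.e * Algebra.norm M η)) by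
    have t1 : ∀ (m : M) (z : L),
        Algebra.trace M L (algebraMap M L m * z) = m * Algebra.trace M L z :=
      fun m z => by rw [← Algebra.smul_def, LinearMap.map_smul, smul_eq_mul]
    have t2 : Algebra.trace M L (η * T.c η) = 2 * Algebra.norm M η :=
      (algebraMap M L).injective (by
        simp only [T.algebraMap_trace, map_mul, T.algebraMap_norm, T.c_c, map_ofNat]; ring)
    rw [T.norm_add_eq, map_mul (Algebra.norm M), Algebra.norm_algebraMap, T.finrank_eq, add_mul,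
      map_add, map_mul T.c, T.c.commutes,
      show y * (algebraMap M L S.c * T.c η) = algebraMap M L S.c * (y * T.c η) by ring, t1,
      mul_assoc (algebraMap M L S.c), mul_assoc (algebraMap M L S.a), t1, t1, t2, kap_def]
    have hdet := S.det_eq
    field_simp
    linear_combination (-(S.e * (S.c * Algebra.norm M η) + S.e * Algebra.trace M L (y * T.c η))) *
      hdet,
    expM_add, expM_add, expM_add, h1, h2, mul_one, mul_one]

/-- `-c / d`. -/
def shiftC : M := -(S.c / algebraMap (𝓞 M) M S.d)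

theorem shiftC_def : S.shiftC = -(S.c / algebraMap (𝓞 M) M S.d) := rfl

/-- The intermediate point. -/
def midPt (P : ι → H3) : ι → H3 := fun i => transPt (inv3 (P i)) (T.Φ.emb i S.shiftC)

/-- The factor `∏ ‖d‖⁻²`. -/
def K0 : ℂ := ∏ i, (‖T.Φ.emb i (1 / algebraMap (𝓞 M) M S.d ^ 2)‖ : ℂ)

theorem K0_mul_absNorm : S.K0 * (Ideal.absNorm S.B : ℂ) = 1 / (Ideal.absNorm S.Z : ℂ) := by
  have h1 : ∀ i, ((‖T.Φ.emb i (1 / algebraMap (𝓞 M) M S.d ^ 2)‖ : ℝ) : ℂ) =
      (((‖T.Φ.emb i (algebraMap (𝓞 M) M S.d)‖ ^ 2)⁻¹ : ℝ) : ℂ) := fun i => by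
    rw [map_div₀, map_one, map_pow, norm_div, norm_one, norm_pow, one_div]
  have h2 : ∏ i, ‖T.Φ.emb i (algebraMap (𝓞 M) M S.d)‖ ^ 2
      = (Ideal.absNorm S.Z : ℝ) * (Ideal.absNorm S.B : ℝ) := by
    rw [LanglandsTunnell.Geom.prod_norm_sq_emb, ← Algebra.coe_norm_int, ← Nat.cast_mul, ← map_mul,
      ← S.d_eq, Ideal.absNorm_span_singleton, Nat.cast_natAbs]
    push_cast
    rfl
  have hB0 : (Ideal.absNorm S.B : ℂ) ≠ 0 :=
    Nat.cast_ne_zero.mpr fun h => S.B_ne (Ideal.absNorm_eq_zero_iff.mp h)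
  rw [K0, Finset.prod_congr rfl fun i _ => h1 i, ← Complex.ofReal_prod, Finset.prod_inv_distrib,
    h2]
  push_cast
  field_simp

theorem kernL_at_image (g : ι → GL (Fin 2) ℂ)
    (hg : ∀ i, (g i).val = !![T.Φ.emb i S.a, T.Φ.emb i S.b;
      T.Φ.emb i S.c, T.Φ.emb i (algebraMap (𝓞 M) M S.d)])
    (x : L) (s : ι → ℝ) (P : ι → H3) :
    T.kernL S.e x s (fun i => g i • P i) =
      expM T.Φ (S.kap * S.e * Algebra.norm M x) *
        (S.K0 * T.kernL S.e (x / S.dL) s (fun i => inv3 (S.midPt P i))) := by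
  have hd := S.dM_ne
  have hdc : ∀ i, T.Φ.emb i S.a * T.Φ.emb i (algebraMap (𝓞 M) M S.d) -
      T.Φ.emb i S.b * T.Φ.emb i S.c = 1 := fun i => by
    rw [← map_mul, ← map_mul, ← map_sub, S.det_eq, map_one]
  have hdec := fun i => moebius_decomp (g i) (hg i) (hdc i) ((map_ne_zero _).mpr hd) (P i)
  have hmid : ∀ i, S.midPt P i = transPt (inv3 (P i))
      (-(T.Φ.emb i S.c / T.Φ.emb i (algebraMap (𝓞 M) M S.d))) := fun i => by
    rw [midPt, shiftC, map_neg, map_div₀]
  rw [T.kernL_affine S.e x s (P := fun i => inv3 (S.midPt P i)) (Q := fun i => g i • P i)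
    (D := 1 / algebraMap (𝓞 M) M S.d ^ 2) (κ := S.kap)
    (fun i => by rw [(hdec i).1, hmid, map_div₀, map_one, map_pow, kap_def, map_div₀])
    (fun i => by rw [(hdec i).2, hmid, map_div₀, map_one, map_pow])]
  conv_lhs => rw [show x = algebraMap M L (algebraMap (𝓞 M) M S.d) * (x / S.dL) by
    rw [← S.dL_eq, mul_div_cancel₀ _ S.dL_ne]]
  rw [T.kernL_smul_arg _ _ hd, ← S.dL_eq, mul_div_cancel₀ _ S.dL_ne,
    show S.e * (1 / algebraMap (𝓞 M) M S.d ^ 2) * algebraMap (𝓞 M) M S.d *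
      algebraMap (𝓞 M) M S.d = S.e by field_simp, K0]
  ring

/-- The multiplication by `d` on the lattice. -/
def dEquiv : idealSet (S.fL * S.A') ≃ idealSet (S.BL * (S.fL * S.A)) :=
  Equiv.ofBijective (fun u => ⟨S.dL * u, S.mem_I_iff.mpr ⟨u, u.2, rfl⟩⟩)
    ⟨fun u v h => Subtype.ext (mul_left_cancel₀ S.dL_ne (congrArg Subtype.val h)),
      fun x => by obtain ⟨u, hu, hux⟩ := S.mem_I_iff.mp x.2; exact ⟨⟨u, hu⟩, Subtype.ext hux⟩⟩

theorem dEquiv_apply (u : idealSet (S.fL * S.A')) : (S.dEquiv u : L) = S.dL * u := rfl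

/-- The phase multiplying the dual kernel. -/
def dualTerm (s : ι → ℝ) (P : ι → H3) (η : L) : ℂ :=
  expM T.Φ (S.shiftC * S.e * Algebra.norm M η) * T.kernL S.e η s (fun i => inv3 (P i))

theorem inner_sum {C : ℂ} (hC : ∀ (r : L) (s : ι → ℝ) (P : ι → H3),
      ∑' u : idealSet (S.fL * S.A'), T.kernL S.e (r + u) s P =
        C * ∑' η : T.dualSet S.e (idealSet (S.fL * S.A')),
          expM T.Φ (S.e * Algebra.trace M L (r * T.c η)) * T.kernL S.e η s (fun i => inv3 (P i)))
    (r : L) (s : ι → ℝ) (P : ι → H3) :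
    (∑' u : idealSet (S.BL * (S.fL * S.A)),
      S.K0 * T.kernL S.e ((r + u) / S.dL) s (fun i => inv3 (S.midPt P i))) =
      S.K0 * C * ∑' η : T.dualSet S.e (idealSet (S.fL * S.A')),
        expM T.Φ (S.e / algebraMap (𝓞 M) M S.d * Algebra.trace M L (r * T.c η)) *
          S.dualTerm s P η := by
  have hd := S.dM_ne
  rw [← S.dEquiv.tsum_eq, tsum_mul_left, mul_assoc]
  congr 1
  have e1 : ∀ u : idealSet (S.fL * S.A'),
      (r + (S.dEquiv u : L)) / S.dL = r / S.dL + u := fun u => by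
    rw [S.dEquiv_apply, add_div, mul_div_cancel_left₀ _ S.dL_ne]
  simp only [e1, hC]
  congr 1
  refine tsum_congr fun η => ?_
  congr 1
  · congr 1
    have t1 := S.div_dL (u := r / S.dL) (η := (η : L))
    rw [mul_div_cancel₀ _ S.dL_ne] at t1
    rw [t1]
    field_simp
  · simp only [inv3_inv3, dualTerm]
    rw [T.kernL_affine S.e (η : L) s (P := fun i => inv3 (P i)) (Q := S.midPt P) (D := 1)
      (κ := S.shiftC)
      (fun i => by simp [midPt, transPt]) (fun i => by simp [midPt, transPt])]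
    simp

theorem char_sum (ηf : Ideal (𝓞 M) → ℂ) (hη1 : ηf ⊤ = 1)
    (hηP : ∀ P J : Ideal (𝓞 M), P.IsMaximal → P ≠ ⊥ → T.ringData.Unram P →
      ηf (P * J) = (if T.ringData.Splits P then 1 else -1) * ηf J)
    {F : L → ℂ} (hF : PeriodicOn (idealSet S.A') (idealSet (S.fL * S.A')) F)
    (hFd : ∀ x ∈ idealSet S.A', F (S.dL * x) = F x)
    (η : T.dualSet S.e (idealSet (S.fL * S.A'))) :
    qsum (idealSet S.A) (idealSet (S.BL * (S.fL * S.A))) (fun r =>
        F r * expM T.Φ (S.kap * S.e * Algebra.norm M r) *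
          expM T.Φ (S.e / algebraMap (𝓞 M) M S.d * Algebra.trace M L (r * T.c η))) *
        expM T.Φ (S.shiftC * S.e * Algebra.norm M (η : L)) =
      ηf S.B * (Ideal.absNorm S.B : ℂ) *
        qsum (idealSet S.A') (idealSet (S.fL * S.A')) (fun r =>
          F r * expM T.Φ (S.e * Algebra.trace M L (r * T.c η))) := by
  have hB := S.qsum_gauss ηf hη1 hηP
  have hd := S.dM_ne
  have hfinA := finite_idealSet_quot (A := S.A) S.BfA_ne
  have hG : PeriodicOn (idealSet S.A) (idealSet (S.BL * (S.fL * S.A)))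
      (fun x => F x * expM T.Φ (S.kap * S.e * Algebra.norm M x)) := fun x hx y hy => by
    dsimp only
    rw [hF x (S.A_le_A' hx) y (S.fA_le_fA' (S.I_le_fA hy)),
      S.expM_quad_periodic hx (S.I_le_BA hy)]
  have hper : PeriodicOn (idealSet S.A) (idealSet (S.BL * (S.fL * S.A))) (fun r =>
      F r * expM T.Φ (S.kap * S.e * Algebra.norm M r) *
        expM T.Φ (S.e / algebraMap (𝓞 M) M S.d * Algebra.trace M L (r * T.c η))) := by
    intro x hx y hy
    dsimp only
    have h1 : F (x + y) * expM T.Φ (S.kap * S.e * Algebra.norm M (x + y)) = _ := hG x hx y hy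
    rw [h1, S.expM_lin_periodic η.2 x hy]
  have hBA0 : S.BL ⊔ S.fL = ⊤ := S.BL_sup_fL
  rw [qsum_prod hper (J₁ := idealSet (S.BL * S.A)) (J₂ := idealSet (S.fL * S.A)) S.BA_le_A
    S.fA_le_A S.I_le_fA ?_ ?_]
  rotate_left
  · intro x hx
    obtain ⟨hx1, hx2⟩ := AddSubgroup.mem_inf.mp hx
    obtain ⟨w, hw, rfl⟩ := mem_idealSet.mp hx1
    rw [coe_mem_idealSet] at hx2 ⊢
    obtain ⟨u, hu, v, hv, huv⟩ := Submodule.mem_sup.mp ((Ideal.eq_top_iff_one _).mp hBA0)
    rw [← mul_one w, ← huv, mul_add]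
    refine add_mem ?_ ?_
    · rw [mul_comm w u]; exact Ideal.mul_mem_mul hu hx2
    · have h' : v * w ∈ S.fL * (S.BL * S.A) := Ideal.mul_mem_mul hv hw
      rw [mul_comm w, show S.BL * (S.fL * S.A) = S.fL * (S.BL * S.A) by ring]
      exact h'
  · intro x hx
    obtain ⟨w, hw, rfl⟩ := mem_idealSet.mp hx
    obtain ⟨u, hu, v, hv, huv⟩ := Submodule.mem_sup.mp ((Ideal.eq_top_iff_one _).mp hBA0)
    rw [← one_mul w, ← huv, add_mul, map_add]
    exact AddSubgroup.add_mem_sup (coe_mem_idealSet.mpr (Ideal.mul_mem_mul hu hw))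
      (coe_mem_idealSet.mpr (Ideal.mul_mem_mul hv hw))
  rw [qsum_congr (F' := fun a => (F a *
    expM T.Φ (S.e / algebraMap (𝓞 M) M S.d * Algebra.trace M L (a * T.c η))) *
      qsum (idealSet (S.fL * S.A)) (idealSet (S.BL * (S.fL * S.A))) (S.phase η)) fun a ha => by
    rw [← qsum_const_mul]
    refine qsum_congr fun b hb => ?_
    rw [hF a (S.A_le_A' (S.BA_le_A ha)) b (S.fA_le_fA' hb), T.norm_add_eq, mul_add, mul_add,
      expM_add, expM_add, kap_def, S.expM_norm ha, S.expM_cross ha (S.fA_le_A hb), add_mul,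
      map_add, mul_add, expM_add, phase, kap_def]
    ring]
  have hphase : qsum (idealSet (S.fL * S.A)) (idealSet (S.BL * (S.fL * S.A))) (S.phase η) =
      expM T.Φ (S.c / algebraMap (𝓞 M) M S.d * S.e * Algebra.norm M (η : L)) *
        (ηf S.B * (Ideal.absNorm S.B : ℂ)) := by
    rw [← qsum_translate (fun x hx => S.periodicOn_phase η.2 x (S.fA_le_A hx))
      (S.shift_mem_fA η.2), qsum_congr fun y hy => S.phase_shift η.2 hy, qsum_const_mul, hB]
  simp only [hphase]
  rw [show (fun a => (F a * expM T.Φ (S.e / algebraMap (𝓞 M) M S.d *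
      Algebra.trace M L (a * T.c η))) * (expM T.Φ (S.c / algebraMap (𝓞 M) M S.d * S.e *
        Algebra.norm M (η : L)) * (ηf S.B * (Ideal.absNorm S.B : ℂ)))) =
    fun a => (expM T.Φ (S.c / algebraMap (𝓞 M) M S.d * S.e * Algebra.norm M (η : L)) *
        (ηf S.B * (Ideal.absNorm S.B : ℂ))) * (F a * expM T.Φ (S.e / algebraMap (𝓞 M) M S.d *
      Algebra.trace M L (a * T.c η))) from funext fun a => mul_comm _ _, qsum_const_mul]
  have hmap : qsum (idealSet (S.BL * S.A)) (idealSet (S.BL * (S.fL * S.A))) (fun a =>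
      F a * expM T.Φ (S.e / algebraMap (𝓞 M) M S.d * Algebra.trace M L (a * T.c η))) =
      qsum (idealSet S.A') (idealSet (S.fL * S.A'))
        (fun r => F r * expM T.Φ (S.e * Algebra.trace M L (r * T.c η))) := by
    rw [qsum_map (J' := idealSet S.A') (I' := idealSet (S.fL * S.A'))
      (fun x hx y hy => by
        rw [hF x (S.A_le_A' (S.BA_le_A hx)) y (S.fA_le_fA' (S.I_le_fA hy)),
          S.expM_lin_periodic η.2 x hy])
      (AddMonoidHom.mulLeft S.dL)
      (fun x hx => by rw [S.BA_eq, S.mem_idealSet_span_mul]; exact ⟨x, hx, rfl⟩)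
      (fun x _ => by
        rw [S.mem_I_iff]
        exact ⟨fun ⟨u, hu, h⟩ => mul_left_cancel₀ S.dL_ne h ▸ hu, fun h => ⟨x, h, rfl⟩⟩)
      (fun y hy => by
        rw [S.BA_eq, S.mem_idealSet_span_mul] at hy
        obtain ⟨u, hu, rfl⟩ := hy
        exact ⟨u, hu, by simp [AddMonoidHom.coe_mulLeft]⟩)]
    refine qsum_congr fun r hr => ?_
    simp only [AddMonoidHom.coe_mulLeft]
    rw [hFd r hr, S.div_dL, ← mul_assoc, div_mul_cancel₀ _ hd]
  rw [hmap, shiftC_def, neg_mul, neg_mul]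
  have hinv : expM T.Φ (S.c / algebraMap (𝓞 M) M S.d * S.e * Algebra.norm M (η : L)) *
      expM T.Φ (-(S.c / algebraMap (𝓞 M) M S.d * S.e * Algebra.norm M (η : L))) = 1 := by
    rw [← expM_add, add_neg_cancel, expM_zero]
  linear_combination (ηf S.B * (Ideal.absNorm S.B : ℂ) * qsum (idealSet S.A')
    (idealSet (S.fL * S.A'))
    (fun r => F r * expM T.Φ (S.e * Algebra.trace M L (r * T.c η)))) * hinv

omit [NumberField L] in
theorem qsum_tsum_swap (J I : AddSubgroup L) [Finite (J ⧸ I.addSubgroupOf J)] {α : Type}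
    (G : L → ℂ) (E : α → L → ℂ) (φ : α → ℂ) (hE : ∀ η r, ‖E η r‖ ≤ 1)
    (hφ : Summable (fun η => ‖φ η‖)) :
    qsum J I (fun r => G r * ∑' η, E η r * φ η) =
      ∑' η, qsum J I (fun r => G r * E η r) * φ η := by
  have := Fintype.ofFinite (J ⧸ I.addSubgroupOf J)
  set o : J ⧸ I.addSubgroupOf J → L := fun q => ((q.out : J) : L) with ho
  have hs : ∀ q, Summable fun η => G (o q) * (E η (o q) * φ η) := fun q =>
    Summable.mul_left (G (o q)) (Summable.of_norm_bounded (f := fun η => E η (o q) * φ η) hφ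
      fun η => by
        rw [norm_mul]
        exact mul_le_of_le_one_left (norm_nonneg _) (hE η _))
  calc qsum J I (fun r => G r * ∑' η, E η r * φ η)
      = ∑ q, G (o q) * ∑' η, E η (o q) * φ η := finsum_eq_sum_of_fintype _
    _ = ∑ q, ∑' η, G (o q) * (E η (o q) * φ η) :=
        Finset.sum_congr rfl fun q _ => tsum_mul_left.symm
    _ = ∑' η, ∑ q, G (o q) * (E η (o q) * φ η) :=
        (Summable.tsum_finsetSum fun q _ => hs q).symm
    _ = ∑' η, qsum J I (fun r => G r * E η r) * φ η := by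
        refine tsum_congr fun η => ?_
        rw [qsum, finsum_eq_sum_of_fintype, Finset.sum_mul]
        exact Finset.sum_congr rfl fun q _ => (mul_assoc _ _ _).symm

/-- The transformation formula. -/
theorem theta_move (ηf : Ideal (𝓞 M) → ℂ) (hη1 : ηf ⊤ = 1)
    (hηP : ∀ P J : Ideal (𝓞 M), P.IsMaximal → P ≠ ⊥ → T.ringData.Unram P →
      ηf (P * J) = (if T.ringData.Splits P then 1 else -1) * ηf J)
    {F : L → ℂ} (hF : PeriodicOn (idealSet S.A') (idealSet (S.fL * S.A')) F)
    (hFd : ∀ x ∈ idealSet S.A', F (S.dL * x) = F x) (g : ι → GL (Fin 2) ℂ)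
    (hg : ∀ i, (g i).val = !![T.Φ.emb i S.a, T.Φ.emb i S.b;
      T.Φ.emb i S.c, T.Φ.emb i (algebraMap (𝓞 M) M S.d)])
    (s : ι → ℝ) (P : ι → H3) :
    ∑' x : idealSet S.A, F x * T.kernL S.e x s (fun i => g i • P i) =
      ηf S.B / (Ideal.absNorm S.Z : ℂ) * ∑' x : idealSet S.A', F x * T.kernL S.e x s P := by
  obtain ⟨C, hC⟩ := T.ideal_poisson S.e_ne S.fA'_ne
  have hfinA' := finite_idealSet_quot (A := S.A') S.fA'_ne
  have hfinA := finite_idealSet_quot (A := S.A) S.BfA_ne
  have hsum' : Summable fun x : idealSet S.A' => ‖T.kernL S.e x s P‖ := by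
    simpa using T.summable_kernL_idealSet S.e_ne S.A_ne 0 s P
  have hRHS := tsum_eq_qsum (J := idealSet S.A') (I := idealSet (S.fL * S.A'))
    (F := F) (h := fun x => T.kernL S.e x s P) (idealSet_mono Ideal.mul_le_right) hF hsum'
  have hG : PeriodicOn (idealSet S.A) (idealSet (S.BL * (S.fL * S.A)))
      (fun x => F x * expM T.Φ (S.kap * S.e * Algebra.norm M x)) := fun x hx y hy => by
    dsimp only
    rw [hF x (S.A_le_A' hx) y (S.fA_le_fA' (S.I_le_fA hy)),
      S.expM_quad_periodic hx (S.I_le_BA hy)]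
  have hAne : S.A ≠ ⊥ := right_ne_zero_of_mul (right_ne_zero_of_mul S.BfA_ne)
  have hsum : Summable fun x : idealSet S.A =>
      ‖S.K0 * T.kernL S.e ((x : L) / S.dL) s (fun i => inv3 (S.midPt P i))‖ := by
    refine (T.summable_kernL_idealSet S.e_ne hAne 0 s (fun i => g i • P i)).congr fun x => ?_
    rw [zero_add, S.kernL_at_image g hg, norm_mul, norm_expM, one_mul]
  have hLHS := tsum_eq_qsum
    (h := fun x => S.K0 * T.kernL S.e (x / S.dL) s (fun i => inv3 (S.midPt P i)))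
    (idealSet_mono (Ideal.mul_le_right.trans Ideal.mul_le_right)) hG hsum
  have hdual := T.summable_kernL_dualSet S.e_ne S.fA'_ne s (fun i => inv3 (P i))
  have hφsum : Summable fun η : T.dualSet S.e (idealSet (S.fL * S.A')) => ‖S.dualTerm s P η‖ :=
    hdual.congr fun η => by rw [dualTerm, norm_mul, norm_expM, one_mul]
  rw [tsum_congr fun x : idealSet S.A => show F x * T.kernL S.e x s (fun i => g i • P i) =
      F x * expM T.Φ (S.kap * S.e * Algebra.norm M (x : L)) *
        (S.K0 * T.kernL S.e ((x : L) / S.dL) s (fun i => inv3 (S.midPt P i))) by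
    rw [S.kernL_at_image g hg, ← mul_assoc (F _)], hLHS, hRHS,
    qsum_congr fun r _ => show _ = S.K0 * C * (F r * expM T.Φ (S.kap * S.e * Algebra.norm M r) *
      ∑' η : T.dualSet S.e (idealSet (S.fL * S.A')),
        expM T.Φ (S.e / algebraMap (𝓞 M) M S.d * Algebra.trace M L (r * T.c η)) *
          S.dualTerm s P η) by rw [S.inner_sum hC]; ring,
    qsum_congr (J := idealSet S.A') fun r _ => show _ = C * (F r *
      ∑' η : T.dualSet S.e (idealSet (S.fL * S.A')),
        expM T.Φ (S.e * Algebra.trace M L (r * T.c η)) *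
          T.kernL S.e η s (fun i => inv3 (P i))) by rw [hC]; ring,
    qsum_const_mul, qsum_const_mul]
  rw [qsum_tsum_swap _ _ (fun r => F r * expM T.Φ (S.kap * S.e * Algebra.norm M r))
      (fun (η : T.dualSet S.e (idealSet (S.fL * S.A'))) r =>
        expM T.Φ (S.e / algebraMap (𝓞 M) M S.d * Algebra.trace M L (r * T.c η)))
      (fun η => S.dualTerm s P η) (fun η r => (norm_expM _ _).le) hφsum,
    qsum_tsum_swap _ _ F (fun (η : T.dualSet S.e (idealSet (S.fL * S.A'))) r =>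
        expM T.Φ (S.e * Algebra.trace M L (r * T.c η)))
      (fun η => T.kernL S.e η s (fun i => inv3 (P i))) (fun η r => (norm_expM _ _).le) hdual,
    ← tsum_mul_left, ← tsum_mul_left, ← tsum_mul_left]
  refine tsum_congr fun η => ?_
  rw [dualTerm, ← mul_assoc (qsum _ _ _), S.char_sum ηf hη1 hηP hF hFd η,
    show ηf S.B / (Ideal.absNorm S.Z : ℂ) = ηf S.B * (S.K0 * (Ideal.absNorm S.B : ℂ)) by
      rw [S.K0_mul_absNorm, mul_one_div]]
  ring

end MoveData

end FLTAgent.LanglandsTunnell.Seed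

end
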