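import Fermat.Agent.LanglandsTunnell.Seed.Gaussian

/-!
# The spherical Whittaker function of parameter zero on `H3`

`wfun b` is the orbit integral of the kernel: continuous, decaying (`norm_wfun_le`), nonzero on the
axis (`wfun_ne_zero`), with an affine transformation law (`wfun_affine`).
-/

set_option autoImplicit false

open MeasureTheory Complex Filter
open scoped Real Topology

noncomputable section

namespace FLTAgent.LanglandsTunnell.Seed

open FLTAgent.LanglandsTunnell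

theorem kern_mul_arg (e : ℂ) {a a' : ℂ} (ha : a ≠ 0) (ha' : a' ≠ 0) (x : ℂ × ℂ) (s : ℝ) (P : H3) :
    kern e (a * x.1, a' * x.2) s P = kern (e * a * a') x (s + Real.log (‖a‖ / ‖a'‖) / 2) P := by
  have hA : 0 < ‖a‖ := norm_pos_iff.mpr ha
  have hA' : 0 < ‖a'‖ := norm_pos_iff.mpr ha'
  have e1 : Real.exp (2 * (s + Real.log (‖a‖ / ‖a'‖) / 2)) = Real.exp (2 * s) * (‖a‖ / ‖a'‖) := by
    rw [mul_add, Real.exp_add, mul_div_cancel₀ _ (two_ne_zero), Real.exp_log (div_pos hA hA')]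
  have e2 : Real.exp (-(2 * (s + Real.log (‖a‖ / ‖a'‖) / 2)))
      = Real.exp (-(2 * s)) * (‖a'‖ / ‖a‖) := by
    rw [Real.exp_neg, e1, mul_inv, inv_div, ← Real.exp_neg]
  rw [kern, kern, kernDecay, kernDecay, kernPhase, kernPhase]
  congr 3
  · congr 1
    simp only [e1, e2, norm_mul]
    field_simp
  · congr 1
    rw [show e * (a * x.1) * (a' * x.2) * P.z = e * a * a' * x.1 * x.2 * P.z by ring]

theorem kern_affine (e : ℂ) {D κ : ℂ} (x : ℂ × ℂ) (s : ℝ) {P Q : H3}
    (hz : Q.z = D * P.z + κ) (ht : Q.t = ‖D‖ * P.t) :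
    kern e x s Q = (‖D‖ : ℂ) * cexp (((4 * π * (e * x.1 * x.2 * κ).re : ℝ) : ℂ) * I) *
      kern (e * D) x s P := by
  rw [kern, kern, ht, kernDecay, kernDecay, kernPhase, kernPhase, hz, ht, norm_mul]
  push_cast
  rw [show e * x.1 * x.2 * (D * P.z + κ) = e * D * x.1 * x.2 * P.z + e * x.1 * x.2 * κ by ring,
    Complex.add_re]
  push_cast
  rw [show (‖D‖ : ℂ) * cexp (4 * π * ((e * x.1 * x.2 * κ).re : ℂ) * I) *
      ((P.t : ℂ) * cexp (-(2 * π * (‖e‖ * ‖D‖) * P.t * ((‖x.1‖ : ℂ) ^ 2 * cexp (2 * s) +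
        (‖x.2‖ : ℂ) ^ 2 * cexp (-(2 * s)))) + 4 * π * ((e * D * x.1 * x.2 * P.z).re : ℂ) * I))
    = (‖D‖ : ℂ) * P.t * (cexp (4 * π * ((e * x.1 * x.2 * κ).re : ℂ) * I) *
      cexp (-(2 * π * (‖e‖ * ‖D‖) * P.t * ((‖x.1‖ : ℂ) ^ 2 * cexp (2 * s) +
        (‖x.2‖ : ℂ) ^ 2 * cexp (-(2 * s)))) + 4 * π * ((e * D * x.1 * x.2 * P.z).re : ℂ) * I))
    by ring, ← Complex.exp_add]
  congr 2
  ring

/-- The Whittaker function. -/
def wfun (b : ℂ) (P : H3) : ℂ := ∫ s : ℝ, kern b (1, 1) s P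

theorem kernDecay_one (b : ℂ) (s : ℝ) (P : H3) :
    kernDecay b (1, 1) s P = -(4 * π * ‖b‖ * P.t * Real.cosh (2 * s)) := by
  rw [kernDecay, Real.cosh_eq]
  simp only [norm_one, one_pow, one_mul]
  ring

theorem one_add_two_mul_sq_le_cosh (s : ℝ) : 1 + 2 * s ^ 2 ≤ Real.cosh (2 * s) := by
  rw [Real.cosh_two_mul, Real.cosh_sq]
  have h : s ^ 2 ≤ Real.sinh s ^ 2 := by
    rcases le_total 0 s with h | h
    · exact pow_le_pow_left₀ h (Real.self_le_sinh_iff.mpr h) 2
    · have h1 := pow_le_pow_left₀ (neg_nonneg.mpr h)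
        (Real.self_le_sinh_iff.mpr (neg_nonneg.mpr h)) 2
      rwa [Real.sinh_neg, neg_sq, neg_sq] at h1
  linarith

theorem norm_kern_one_le {b : ℂ} {c C : ℝ} (s : ℝ) {P : H3} (hc : c ≤ P.t) (hC : P.t ≤ C) :
    ‖kern b (1, 1) s P‖ ≤
      C * (Real.exp (-(4 * π * ‖b‖ * c)) * Real.exp (-(8 * π * ‖b‖ * c) * s ^ 2)) := by
  rcases le_or_gt c 0 with hc0 | hc0
  · rw [norm_kern, kernDecay_one, ← Real.exp_add]
    refine mul_le_mul hC (Real.exp_le_exp.mpr ?_) (Real.exp_pos _).le (P.t_pos.le.trans hC)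
    have h1 : 0 ≤ 4 * π * ‖b‖ * P.t * Real.cosh (2 * s) := by
      have := P.t_pos; have := Real.cosh_pos (2 * s); positivity
    have h2 : 4 * π * ‖b‖ * c ≤ 0 := mul_nonpos_of_nonneg_of_nonpos (by positivity) hc0
    nlinarith [sq_nonneg s]
  rw [norm_kern, kernDecay_one, ← Real.exp_add]
  refine mul_le_mul hC (Real.exp_le_exp.mpr ?_) (Real.exp_pos _).le (P.t_pos.le.trans hC)
  have h1 := one_add_two_mul_sq_le_cosh s
  have h2 : 4 * π * ‖b‖ * c * (1 + 2 * s ^ 2) ≤ 4 * π * ‖b‖ * P.t * Real.cosh (2 * s) :=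
    mul_le_mul (mul_le_mul_of_nonneg_left hc (by positivity)) h1 (by positivity)
      (by have := P.t_pos; positivity)
  linarith

theorem continuous_kern_one (b : ℂ) (P : H3) : Continuous fun s => kern b (1, 1) s P :=
  (continuous_kern b).comp ((continuous_const (y := ((1 : ℂ), (1 : ℂ)))).prodMk
    (continuous_id.prodMk (continuous_const (y := P))))

theorem integrable_bound {b : ℂ} (hb : b ≠ 0) {c : ℝ} (hc : 0 < c) (C : ℝ) :
    Integrable fun s : ℝ =>
      C * (Real.exp (-(4 * π * ‖b‖ * c)) * Real.exp (-(8 * π * ‖b‖ * c) * s ^ 2)) :=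
  ((integrable_exp_neg_mul_sq (by have := norm_pos_iff.mpr hb; positivity)).const_mul _).const_mul _

theorem integrable_kern_one {b : ℂ} (hb : b ≠ 0) (P : H3) :
    Integrable fun s => kern b (1, 1) s P :=
  (integrable_bound hb P.t_pos P.t).mono' (continuous_kern_one b P).aestronglyMeasurable
    (Eventually.of_forall fun s => norm_kern_one_le s le_rfl le_rfl)

/-- Decay of the Whittaker function. -/
theorem norm_wfun_le {b : ℂ} (hb : b ≠ 0) (P : H3) :
    ‖wfun b P‖ ≤ Real.sqrt (P.t / (8 * ‖b‖)) * Real.exp (-(4 * π * ‖b‖ * P.t)) := by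
  have hb' : 0 < ‖b‖ := norm_pos_iff.mpr hb
  have ht := P.t_pos
  refine (norm_integral_le_of_norm_le (integrable_bound hb ht P.t)
    (Eventually.of_forall fun s => norm_kern_one_le s le_rfl le_rfl)).trans (le_of_eq ?_)
  rw [integral_const_mul, integral_const_mul, integral_gaussian, mul_left_comm,
    mul_comm _ (Real.exp _)]
  congr 1
  symm
  refine (Real.sqrt_eq_iff_mul_self_eq (by positivity) (by positivity)).mpr ?_
  rw [mul_mul_mul_comm, Real.mul_self_sqrt (by positivity)]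
  field_simp

theorem continuous_wfun {b : ℂ} (hb : b ≠ 0) : Continuous (wfun b) := by
  refine continuous_iff_continuousAt.mpr fun P => ?_
  have h1 : ∀ᶠ Q : H3 in 𝓝 P, P.t / 2 ≤ Q.t ∧ Q.t ≤ 2 * P.t := by
    have hT := H3.continuous_t.continuousAt (x := P)
    have ht := P.t_pos
    exact (hT.eventually (Icc_mem_nhds (by linarith) (by linarith))).mono fun Q hQ => hQ
  exact continuousAt_of_dominated (Eventually.of_forall fun Q =>
    (continuous_kern_one b Q).aestronglyMeasurable)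
    (h1.mono fun Q hQ => Eventually.of_forall fun s => norm_kern_one_le s hQ.1 hQ.2)
    (integrable_bound hb (half_pos P.t_pos) (2 * P.t))
    (Eventually.of_forall fun s => ((continuous_kern b).comp
      ((continuous_const (y := ((1 : ℂ), (1 : ℂ)))).prodMk
        ((continuous_const (y := s)).prodMk continuous_id))).continuousAt)

theorem kern_eq_kern_one (e : ℂ) {x : ℂ × ℂ} (h1 : x.1 ≠ 0) (h2 : x.2 ≠ 0) (s : ℝ) (P : H3) :
    kern e x s P = kern (e * x.1 * x.2) (1, 1) (s + Real.log (‖x.1‖ / ‖x.2‖) / 2) P := by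
  rw [← kern_mul_arg e h1 h2, mul_one, mul_one]

theorem integral_kern_orbit (e : ℂ) {x : ℂ × ℂ} (h1 : x.1 ≠ 0) (h2 : x.2 ≠ 0) (P : H3) :
    ∫ s : ℝ, kern e x s P = wfun (e * x.1 * x.2) P := by
  simp only [kern_eq_kern_one e h1 h2]
  exact integral_add_right_eq_self (fun s => kern (e * x.1 * x.2) (1, 1) s P) _

theorem wfun_affine (b : ℂ) {D κ : ℂ} {P Q : H3}
    (hz : Q.z = D * P.z + κ) (ht : Q.t = ‖D‖ * P.t) :
    wfun b Q = (‖D‖ : ℂ) * cexp (((4 * π * (b * κ).re : ℝ) : ℂ) * I) * wfun (b * D) P := by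
  simp only [wfun, ← integral_const_mul]
  refine integral_congr_ae (Eventually.of_forall fun s => ?_)
  simp only [kern_affine b (1, 1) s hz ht, mul_one]

/-- The Whittaker function is nonzero on the axis. -/
theorem wfun_ne_zero {b : ℂ} (hb : b ≠ 0) {P : H3} (hz : P.z = 0) : wfun b P ≠ 0 := by
  have e1 : ∀ s, kern b (1, 1) s P = ((P.t * Real.exp (kernDecay b (1, 1) s P) : ℝ) : ℂ) := by
    intro s
    simp [kern, kernPhase, hz]
  simp only [wfun, e1, integral_complex_ofReal]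
  rw [Ne, Complex.ofReal_eq_zero]
  have hint : Integrable fun s => P.t * Real.exp (kernDecay b (1, 1) s P) := by
    refine (integrable_kern_one hb P).norm.congr (Eventually.of_forall fun s => ?_)
    simp only [norm_kern]
  exact (integral_pos_iff_support_of_nonneg_ae (Eventually.of_forall fun s => by
    have := P.t_pos; positivity) hint |>.mpr (by
      rw [show Function.support (fun s => P.t * Real.exp (kernDecay b (1, 1) s P)) = Set.univ from
        Set.eq_univ_of_forall fun s => mul_ne_zero P.t_pos.ne' (Real.exp_ne_zero _)]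
      simp)).ne'

end FLTAgent.LanglandsTunnell.Seed

end
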