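import Fermat.Agent.LanglandsTunnell.Lift.Gaussian
import Fermat.Agent.LanglandsTunnell.Seed.Setting
import Fermat.Agent.LanglandsTunnell.Seed.Poisson
import Fermat.Agent.LanglandsTunnell.Seed.Whittaker
import Mathlib.MeasureTheory.Integral.Pi
import Mathlib.MeasureTheory.Measure.Haar.Unique
import Mathlib.LinearAlgebra.BilinearForm.Properties

/-!
# Poisson summation for the theta kernel on a lattice

`kernV` and `kernL` are the kernel on the completion of `L` and on `L`; `lattice_poisson` relates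
the sum over the lattice of a basis to the sum over the dual basis for the pairing `pairQ`.
-/

set_option autoImplicit false
set_option linter.unusedSectionVars false

open MeasureTheory NumberField Complex Module Filter
open scoped Real

noncomputable section

namespace FLTAgent.LanglandsTunnell.Seed

open FLTAgent.LanglandsTunnell

/-! ### Summability -/

theorem summable_exp_neg_sum_sq_fin {c : ℝ} (hc : 0 < c) :
    ∀ d : ℕ, Summable fun m : Fin d → ℤ => Real.exp (-c * ∑ j, (m j : ℝ) ^ 2)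
  | 0 => Summable.of_finite
  | d + 1 => by
    rw [← (Fin.consEquiv fun _ : Fin (d + 1) => ℤ).summable_iff]
    refine ((LanglandsTunnell.Lift.summable_exp_neg_int_sq hc).mul_of_nonneg
      (summable_exp_neg_sum_sq_fin hc d)
      (fun _ => (Real.exp_pos _).le) (fun _ => (Real.exp_pos _).le)).congr fun p => ?_
    simp [Fin.consEquiv, Fin.sum_univ_succ, mul_add, Real.exp_add]

theorem summable_exp_neg_sum_sq {κ : Type*} [Fintype κ] {c : ℝ} (hc : 0 < c) :
    Summable fun m : κ → ℤ => Real.exp (-c * ∑ j, (m j : ℝ) ^ 2) := by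
  rw [← (Equiv.arrowCongr (Fintype.equivFin κ).symm (Equiv.refl ℤ)).summable_iff]
  refine (summable_exp_neg_sum_sq_fin hc (Fintype.card κ)).congr fun m => ?_
  simp only [Function.comp_apply]
  congr 2
  exact ((Fintype.equivFin κ).sum_comp fun j => (m j : ℝ) ^ 2).symm

variable {M L ι : Type} [Field M] [NumberField M] [Field L] [NumberField L] [Algebra M L]
  [Fintype ι]

/-- The integral combination of a basis. -/
def comb {κ : Type} [Fintype κ] (b : Basis κ ℚ L) (m : κ → ℤ) : L := ∑ j, (m j : ℚ) • b j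

namespace Setting

variable (T : Setting M L ι)

include T

/-- The pairing `2 Re (e (u₁ v₂ + u₂ v₁))` on the archimedean completion. -/
def pairR (e : M) (u v : ι → ℂ × ℂ) : ℝ :=
  ∑ i, 2 * (T.Φ.emb i e * ((u i).1 * (v i).2 + (u i).2 * (v i).1)).re

/-- The rational pairing. -/
def pairQ (e : M) (x y : L) : ℚ :=
  Algebra.trace ℚ L (algebraMap M L e * (x * T.c y))

theorem trace_M_L (e : M) (x y : L) :
    T.pairQ e x y = Algebra.trace ℚ M (e * Algebra.trace M L (x * T.c y)) := by
  have := T.finiteDimensional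
  rw [pairQ, ← Algebra.trace_trace (S := M), ← Algebra.smul_def, LinearMap.map_smul, smul_eq_mul]

theorem pairR_vec (e : M) (x y : L) :
    T.pairR e (T.vec x) (T.vec y) = ((T.pairQ e x y : ℚ) : ℝ) := by
  rw [T.trace_M_L, trace_eq_sum_re T.Φ, pairR]
  refine Finset.sum_congr rfl fun i _ => ?_
  rw [map_mul, T.emb_trace, map_mul (T.τ i), T.vec_apply, T.vec_apply, map_mul T.c, T.c_c,
    map_mul (T.τ i)]

theorem expM_pair (e : M) (x y : L) :
    expM T.Φ (e * Algebra.trace M L (x * T.c y)) =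
      cexp (2 * π * I * ((T.pairQ e x y : ℚ) : ℂ)) := by
  rw [expM_eq, T.trace_M_L]

/-- The kernel at an element of `M` and a point of the completion of `L`. -/
def kernV (e : M) (u : ι → ℂ × ℂ) (s : ι → ℝ) (P : ι → H3) : ℂ :=
  ∏ i, kern (T.Φ.emb i e) (u i) (s i) (P i)

/-- The kernel at an element of `L`. -/
def kernL (e : M) (x : L) (s : ι → ℝ) (P : ι → H3) : ℂ := T.kernV e (T.vec x) s P

theorem emb_ne_zero {e : M} (he : e ≠ 0) (i : ι) : T.Φ.emb i e ≠ 0 :=
  (map_ne_zero (T.Φ.emb i)).mpr he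

theorem continuous_kernV (e : M) (s : ι → ℝ) (P : ι → H3) :
    Continuous fun u : ι → ℂ × ℂ => T.kernV e u s P :=
  continuous_finsetProd _ fun i _ => (continuous_kern (T.Φ.emb i e)).comp
    (f := fun u : ι → ℂ × ℂ => (u i, s i, P i))
    ((continuous_apply i).prodMk continuous_const)

theorem norm_kernV_le {e : M} (he : e ≠ 0) (s : ι → ℝ) (P : ι → H3) :
    ∃ a A : ℝ, 0 < a ∧ 0 ≤ A ∧
      ∀ u, ‖T.kernV e u s P‖ ≤ A * Real.exp (-a * ∑ i, (‖(u i).1‖ ^ 2 + ‖(u i).2‖ ^ 2)) := by
  set f := fun i => 2 * π * ‖T.Φ.emb i e‖ * (P i).t *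
    min (Real.exp (2 * s i)) (Real.exp (-(2 * s i)))
  have hf : ∀ i, 0 < f i := fun i => by
    have := norm_pos_iff.mpr (T.emb_ne_zero he i)
    have := (P i).t_pos
    have : (0 : ℝ) < min (Real.exp (2 * s i)) (Real.exp (-(2 * s i))) :=
      lt_min (Real.exp_pos _) (Real.exp_pos _)
    positivity
  obtain ⟨a, ha, hle⟩ : ∃ a : ℝ, 0 < a ∧ ∀ i, a ≤ f i := by
    rcases isEmpty_or_nonempty ι with h | h
    · exact ⟨1, one_pos, fun i => isEmptyElim i⟩
    · obtain ⟨i₀, hi₀⟩ := Finite.exists_min f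
      exact ⟨f i₀, hf i₀, hi₀⟩
  refine ⟨a, ∏ i, (P i).t, ha, Finset.prod_nonneg fun i _ => (P i).t_pos.le, fun u => ?_⟩
  rw [kernV, norm_prod, Finset.mul_sum, Real.exp_sum, ← Finset.prod_mul_distrib]
  refine Finset.prod_le_prod (fun i _ => norm_nonneg _) fun i _ => ?_
  rw [norm_kern]
  refine mul_le_mul_of_nonneg_left (Real.exp_le_exp.mpr ?_) (P i).t_pos.le
  rw [kernDecay]
  have hk : 0 ≤ 2 * π * ‖T.Φ.emb i e‖ * (P i).t := by have := (P i).t_pos; positivity
  have h1 := mul_le_mul_of_nonneg_right (min_le_left (Real.exp (2 * s i)) (Real.exp (-(2 * s i))))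
    (sq_nonneg ‖(u i).1‖)
  have h2 := mul_le_mul_of_nonneg_right (min_le_right (Real.exp (2 * s i)) (Real.exp (-(2 * s i))))
    (sq_nonneg ‖(u i).2‖)
  have h3 := mul_le_mul_of_nonneg_left (add_le_add h1 h2) hk
  have h4 := mul_le_mul_of_nonneg_right (hle i)
    (add_nonneg (sq_nonneg ‖(u i).1‖) (sq_nonneg ‖(u i).2‖))
  nlinarith

theorem integral_kernV {e : M} (he : e ≠ 0) (s : ι → ℝ) (P : ι → H3) (v : ι → ℂ × ℂ) :
    ∫ u : ι → ℂ × ℂ, cexp (-(2 * π * (T.pairR e u v : ℂ)) * I) * T.kernV e u s P =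
      (∏ i, ((1 / (4 * ‖T.Φ.emb i e‖ ^ 2) : ℝ) : ℂ)) * T.kernV e v s (fun i => inv3 (P i)) := by
  have e1 : ∀ u, cexp (-(2 * π * (T.pairR e u v : ℂ)) * I) * T.kernV e u s P
      = ∏ i, (fun x : ℂ × ℂ => kern (T.Φ.emb i e) x (s i) (P i) *
        pairChar (T.Φ.emb i e) x (-(v i).1, -(v i).2)) (u i) := by
    intro u
    rw [kernV, Finset.prod_mul_distrib, mul_comm]
    congr 1
    simp only [pairChar, ← Complex.exp_sum]
    congr 1
    rw [pairR]
    push_cast
    rw [Finset.mul_sum, ← Finset.sum_neg_distrib, Finset.sum_mul]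
    refine Finset.sum_congr rfl fun i _ => ?_
    rw [show T.Φ.emb i e * ((u i).1 * -(v i).2 + (u i).2 * -(v i).1)
      = -(T.Φ.emb i e * ((u i).1 * (v i).2 + (u i).2 * (v i).1)) by ring, Complex.neg_re]
    push_cast
    ring
  simp only [e1]
  have hσ : ∀ _i : ι, SigmaFinite (volume : Measure (ℂ × ℂ)) := fun _ => by
    rw [Measure.volume_eq_prod]; infer_instance
  refine (integral_fintype_prod_volume_eq_prod fun i (x : ℂ × ℂ) =>
    kern (T.Φ.emb i e) x (s i) (P i) * pairChar (T.Φ.emb i e) x (-(v i).1, -(v i).2)).trans ?_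
  rw [kernV, ← Finset.prod_mul_distrib]
  exact Finset.prod_congr rfl fun i _ =>
    integral_kern_mul_pairChar (T.emb_ne_zero he i) (s i) (P i) (v i)

/-! ### Bases and their duals -/

variable {κ : Type} [Fintype κ]

/-- The real combination of a basis in the completion. -/
def combR (b : Basis κ ℚ L) : (κ → ℝ) →ₗ[ℝ] (ι → ℂ × ℂ) :=
  Fintype.linearCombination ℝ fun j => T.vec (b j)

theorem combR_apply (b : Basis κ ℚ L) (X : κ → ℝ) :
    T.combR b X = ∑ j, X j • T.vec (b j) := rfl

theorem vec_ratCast_smul (q : ℚ) (x : L) : T.vec (q • x) = (q : ℝ) • T.vec x := by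
  funext i
  simp only [vec_apply, Pi.smul_apply, Rat.smul_def, map_mul, map_ratCast, Prod.smul_mk,
    Complex.real_smul, Complex.ofReal_ratCast]

theorem vec_sum_smul (b : Basis κ ℚ L) (q : κ → ℚ) :
    T.vec (∑ j, q j • b j) = T.combR b (fun j => (q j : ℝ)) := by
  rw [map_sum, combR_apply]
  simp only [T.vec_ratCast_smul]

theorem pairR_combR (e : M) (b : Basis κ ℚ L) (X : κ → ℝ) (y : L) :
    T.pairR e (T.combR b X) (T.vec y) = ∑ j, X j * ((T.pairQ e (b j) y : ℚ) : ℝ) := by
  simp only [← T.pairR_vec, pairR, Finset.mul_sum, combR_apply]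
  rw [Finset.sum_comm]
  refine Finset.sum_congr rfl fun i _ => ?_
  simp only [Finset.sum_apply, Pi.smul_apply, Prod.fst_sum, Prod.snd_sum, Prod.smul_fst,
    Prod.smul_snd, Finset.sum_mul, Finset.mul_sum, ← Finset.sum_add_distrib, Complex.re_sum]
  refine Finset.sum_congr rfl fun j _ => ?_
  simp only [Complex.real_smul, Complex.mul_re, Complex.mul_im, Complex.add_re, Complex.add_im,
    Complex.ofReal_re, Complex.ofReal_im]
  ring

theorem exists_dual [DecidableEq κ] {e : M} (he : e ≠ 0) (b : Basis κ ℚ L) :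
    ∃ b' : Basis κ ℚ L, ∀ j k, T.pairQ e (b j) (b' k) = if j = k then 1 else 0 := by
  have := T.finiteDimensional
  let B := Algebra.traceForm ℚ L
  have hB : B.Nondegenerate := traceForm_nondegenerate ℚ L
  let d := B.dualBasis hB b
  have he' : algebraMap M L e ≠ 0 := (map_ne_zero (algebraMap M L)).mpr he
  let f : L ≃ₗ[ℚ] L :=
    (LinearEquiv.smulOfNeZero L L (algebraMap M L e)⁻¹ (inv_ne_zero he')).restrictScalars ℚ |>.trans
      (T.c.toLinearEquiv.restrictScalars ℚ)
  refine ⟨d.map f, fun j k => ?_⟩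
  have hfk : T.c (f (d k)) = (algebraMap M L e)⁻¹ * d k := by
    simp [f, T.c_c]
  have hb := LinearMap.BilinForm.apply_dualBasis_left (B := B) hB b k j
  rw [pairQ, Basis.map_apply, hfk, show algebraMap M L e * (b j * ((algebraMap M L e)⁻¹ * d k))
    = d k * b j by field_simp]
  exact hb

theorem pairQ_smul_right (e : M) (x y : L) (q : ℚ) :
    T.pairQ e x (q • y) = q * T.pairQ e x y := by
  rw [pairQ, pairQ, ← smul_eq_mul q, ← map_smul]
  congr 1
  simp only [Rat.smul_def, map_mul, map_ratCast]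
  ring

theorem pairQ_comb [DecidableEq κ] {e : M} {b b' : Basis κ ℚ L}
    (hdual : ∀ j k, T.pairQ e (b j) (b' k) = if j = k then 1 else 0) (m : κ → ℤ) (j : κ) :
    T.pairQ e (b j) (comb b' m) = m j := by
  have h : T.pairQ e (b j) (comb b' m) = ∑ k, T.pairQ e (b j) ((m k : ℚ) • b' k) := by
    simp only [pairQ, comb, map_sum, Finset.mul_sum]
  simp [h, T.pairQ_smul_right, hdual]

theorem combR_injective {e : M} {b b' : Basis κ ℚ L} [DecidableEq κ]
    (hdual : ∀ j k, T.pairQ e (b j) (b' k) = if j = k then 1 else 0) :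
    Function.Injective (T.combR b) := by
  refine (injective_iff_map_eq_zero _).mpr fun X hX => funext fun k => ?_
  have h := T.pairR_combR e b X (b' k)
  rw [hX] at h
  simpa [pairR, hdual, apply_ite (Rat.cast (K := ℝ))] using h.symm

theorem norm_kernV_combR_le {e : M} (he : e ≠ 0) {b b' : Basis κ ℚ L} [DecidableEq κ]
    (hdual : ∀ j k, T.pairQ e (b j) (b' k) = if j = k then 1 else 0) (s : ι → ℝ) (P : ι → H3) :
    ∃ c A : ℝ, 0 < c ∧ 0 ≤ A ∧
      ∀ X, ‖T.kernV e (T.combR b X) s P‖ ≤ A * Real.exp (-c * ∑ j, X j ^ 2) := by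
  obtain ⟨a, A, ha, hA, hle⟩ := T.norm_kernV_le he s P
  obtain ⟨K, hK, hKle⟩ := (T.combR b).exists_antilipschitzWith
    (LinearMap.ker_eq_bot.mpr (T.combR_injective hdual))
  set n := (Fintype.card κ : ℝ) + 1
  have hn : 0 < n := by positivity
  have hK' : (0 : ℝ) < K := by exact_mod_cast hK
  refine ⟨a / (n * (K : ℝ) ^ 2), A, by positivity, hA, fun X => (hle _).trans ?_⟩
  refine mul_le_mul_of_nonneg_left (Real.exp_le_exp.mpr ?_) hA
  set u := T.combR b X
  have hu : ‖u‖ ^ 2 ≤ ∑ i, (‖(u i).1‖ ^ 2 + ‖(u i).2‖ ^ 2) := by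
    have hs : (0 : ℝ) ≤ ∑ i, (‖(u i).1‖ ^ 2 + ‖(u i).2‖ ^ 2) :=
      Finset.sum_nonneg fun i _ => add_nonneg (sq_nonneg _) (sq_nonneg _)
    rw [← Real.sq_sqrt hs]
    refine pow_le_pow_left₀ (norm_nonneg _) ((pi_norm_le_iff_of_nonneg (Real.sqrt_nonneg _)).mpr
      fun i => ?_) 2
    rw [Real.le_sqrt (norm_nonneg _) hs]
    refine le_trans ?_ (Finset.single_le_sum (f := fun i => ‖(u i).1‖ ^ 2 + ‖(u i).2‖ ^ 2)
      (fun j _ => add_nonneg (sq_nonneg _) (sq_nonneg _)) (Finset.mem_univ i))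
    rw [Prod.norm_def]
    rcases max_choice ‖(u i).1‖ ‖(u i).2‖ with h | h <;> rw [h] <;>
      nlinarith [norm_nonneg (u i).1, norm_nonneg (u i).2]
  have hX : ‖X‖ ≤ (K : ℝ) * ‖u‖ := by
    have := hKle.le_mul_dist X 0
    simpa [u, dist_zero_right] using this
  have hsum : ∑ j, X j ^ 2 ≤ n * ‖X‖ ^ 2 := by
    refine (Finset.sum_le_card_nsmul _ _ (‖X‖ ^ 2) fun j _ => ?_).trans ?_
    · rw [← sq_abs]
      exact pow_le_pow_left₀ (abs_nonneg _) (norm_le_pi_norm X j) 2
    · rw [nsmul_eq_mul, Finset.card_univ]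
      exact mul_le_mul_of_nonneg_right (by simp [n]) (sq_nonneg _)
  rw [neg_mul, neg_mul, neg_le_neg_iff, div_mul_eq_mul_div, div_le_iff₀ (by positivity)]
  calc a * ∑ j, X j ^ 2 ≤ a * (n * ((K : ℝ) * ‖u‖) ^ 2) :=
        mul_le_mul_of_nonneg_left (hsum.trans (mul_le_mul_of_nonneg_left
          (pow_le_pow_left₀ (norm_nonneg _) hX 2) hn.le)) ha.le
    _ ≤ a * (n * ((K : ℝ) ^ 2 * ∑ i, (‖(u i).1‖ ^ 2 + ‖(u i).2‖ ^ 2))) := by
        rw [mul_pow]
        gcongr
    _ = _ := by ring

theorem summable_kernL_comb {e : M} (he : e ≠ 0) {b b' : Basis κ ℚ L} [DecidableEq κ]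
    (hdual : ∀ j k, T.pairQ e (b j) (b' k) = if j = k then 1 else 0) (s : ι → ℝ) (P : ι → H3)
    (r : L) : Summable fun m : κ → ℤ => ‖T.kernL e (r + comb b m) s P‖ := by
  obtain ⟨c, A, hc, hA, hle⟩ := T.norm_kernV_combR_le he hdual s P
  set R : κ → ℝ := fun j => (b.repr r j : ℝ)
  refine Summable.of_nonneg_of_le (fun m => norm_nonneg _) (fun m => ?_)
    ((summable_exp_neg_sum_sq (κ := κ) (half_pos hc)).mul_left (A * Real.exp (c * ∑ j, R j ^ 2)))
  have e1 : T.vec (r + comb b m) = T.combR b fun j => R j + (m j : ℝ) := by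
    have h1 : r + comb b m = ∑ j, (b.repr r j + (m j : ℚ)) • b j := by
      simp only [add_smul, Finset.sum_add_distrib, b.sum_repr, comb]
    rw [h1, T.vec_sum_smul]
    congr 1
    funext j
    simp [R]
  rw [kernL, e1]
  refine (hle _).trans ?_
  rw [mul_assoc, ← Real.exp_add]
  refine mul_le_mul_of_nonneg_left (Real.exp_le_exp.mpr ?_) hA
  rw [neg_mul, neg_mul, Finset.mul_sum, Finset.mul_sum, Finset.mul_sum, ← Finset.sum_neg_distrib,
    ← Finset.sum_neg_distrib, ← Finset.sum_add_distrib]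
  refine Finset.sum_le_sum fun j _ => ?_
  nlinarith [mul_nonneg hc.le (sq_nonneg (2 * R j + m j))]

/-- Poisson summation. -/
theorem lattice_poisson [DecidableEq κ] {e : M} (he : e ≠ 0) {b b' : Basis κ ℚ L}
    (hdual : ∀ j k, T.pairQ e (b j) (b' k) = if j = k then 1 else 0) :
    ∃ C : ℂ, ∀ (r : L) (s : ι → ℝ) (P : ι → H3),
      ∑' m : κ → ℤ, T.kernL e (r + comb b m) s P =
        C * ∑' m : κ → ℤ, expM T.Φ (e * Algebra.trace M L (r * T.c (comb b' m))) *
          T.kernL e (comb b' m) s (fun i => inv3 (P i)) := by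
  have hinj := T.combR_injective hdual
  have hdual' : ∀ j k, T.pairQ e (b' j) (b k) = if j = k then 1 else 0 := by
    intro j k
    rw [show (if j = k then (1 : ℚ) else 0) = if k = j then 1 else 0 by simp only [eq_comm],
      ← hdual k j, T.trace_M_L, T.trace_M_L]
    congr 2
    refine (algebraMap M L).injective ?_
    simp only [T.algebraMap_trace, map_mul, T.c_c]
    ring
  have hfr : finrank ℝ (κ → ℝ) = finrank ℝ (ι → ℂ × ℂ) := by
    refine le_antisymm (LinearMap.finrank_le_finrank_of_injective hinj) ?_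
    simp only [Module.finrank_fintype_fun_eq_card, Module.finrank_pi_fintype, Module.finrank_prod,
      Complex.finrank_real_complex, Finset.sum_const, Finset.card_univ, smul_eq_mul]
    rw [← Module.finrank_eq_card_basis b, ← Module.finrank_mul_finrank ℚ M L, T.finrank_eq,
      ← AlgHom.card (F := ℚ) (E := M) (K := ℂ), ← Fintype.card_congr (RingHom.equivRatAlgHom M ℂ),
      ← Fintype.card_of_bijective (emb_equiv_bijective T.Φ), Fintype.card_prod, Fintype.card_bool]
    omega
  let φ : (κ → ℝ) ≃L[ℝ] (ι → ℂ × ℂ) :=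
    (LinearEquiv.ofInjectiveOfFinrankEq (T.combR b) hinj hfr).toContinuousLinearEquiv
  have hφ : ∀ X, φ X = T.combR b X := fun _ => rfl
  have hfin : (volume : Measure (ι → ℂ × ℂ)).IsAddHaarMeasure := by
    have h : ∀ _ : ι, (volume : Measure (ℂ × ℂ)).IsAddHaarMeasure := fun _ => by
      rw [Measure.volume_eq_prod]; infer_instance
    have h' : ∀ _ : ι, SigmaFinite (volume : Measure (ℂ × ℂ)) := fun _ => by
      rw [Measure.volume_eq_prod]; infer_instance
    rw [volume_pi]; infer_instance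
  have hmap : ((volume : Measure (κ → ℝ)).map φ).IsAddHaarMeasure := φ.isAddHaarMeasure_map _
  set μc := Measure.addHaarScalarFactor ((volume : Measure (κ → ℝ)).map φ) volume
  have hμ : (volume : Measure (κ → ℝ)).map φ = μc • volume :=
    Measure.isAddLeftInvariant_eq_smul _ _
  refine ⟨((μc : ℝ) : ℂ) * ∏ i, ((1 / (4 * ‖T.Φ.emb i e‖ ^ 2) : ℝ) : ℂ), fun r s P => ?_⟩
  obtain ⟨c, A, hc, hA, hle⟩ := T.norm_kernV_combR_le he hdual s P
  set g := fun X : κ → ℝ => T.kernV e (T.combR b X) s P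
  have hg : Continuous g := (T.continuous_kernV e s P).comp φ.continuous
  have hb : HasLatticeBound g := by
    intro R
    refine ⟨fun n => A * Real.exp (c * (Fintype.card κ * R ^ 2)) *
      Real.exp (-(c / 2) * ∑ j, (n j : ℝ) ^ 2),
      (summable_exp_neg_sum_sq (half_pos hc)).mul_left _, fun x hx n => (hle _).trans ?_⟩
    dsimp only
    rw [mul_assoc, ← Real.exp_add]
    refine mul_le_mul_of_nonneg_left (Real.exp_le_exp.mpr ?_) hA
    rw [neg_mul, neg_mul, Finset.mul_sum, Finset.mul_sum, ← Finset.sum_neg_distrib,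
      ← Finset.sum_neg_distrib,
      show c * ((Fintype.card κ : ℝ) * R ^ 2) = ∑ _j : κ, c * R ^ 2 by
        rw [Finset.sum_const, Finset.card_univ, nsmul_eq_mul]; ring,
      ← Finset.sum_add_distrib]
    refine Finset.sum_le_sum fun j _ => ?_
    simp only [Pi.add_apply, intVec]
    have hxj : x j ^ 2 ≤ R ^ 2 := by
      rw [← sq_abs (x j)]
      exact pow_le_pow_left₀ (abs_nonneg _) ((norm_le_pi_norm x j).trans hx) 2
    nlinarith [mul_nonneg hc.le (sq_nonneg (2 * x j + n j)), mul_le_mul_of_nonneg_left hxj hc.le]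
  have hfour : ∀ m, fourierVec g m =
      (((μc : ℝ) : ℂ) * ∏ i, ((1 / (4 * ‖T.Φ.emb i e‖ ^ 2) : ℝ) : ℂ)) *
        T.kernL e (comb b' m) s (fun i => inv3 (P i)) := by
    intro m
    have hy := T.pairQ_comb hdual m
    have e1 : ∀ X : κ → ℝ, charVec (-m) X * g X
        = (fun u => cexp (-(2 * π * (T.pairR e u (T.vec (comb b' m)) : ℂ)) * I) *
            T.kernV e u s P) (φ X) := by
      intro X
      simp only [hφ, g, T.pairR_combR, hy, charVec]
      congr 1
      push_cast
      congr 1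
      simp only [Finset.mul_sum, ← Finset.sum_neg_distrib, Finset.sum_mul]
      refine Finset.sum_congr rfl fun j _ => ?_
      simp only [Pi.neg_apply]
      push_cast
      ring
    rw [fourierVec]
    simp only [e1]
    have hchange := φ.toHomeomorph.measurableEmbedding.integral_map (μ := volume)
      (fun u => cexp (-(2 * π * (T.pairR e u (T.vec (comb b' m)) : ℂ)) * I) * T.kernV e u s P)
    rw [show (⇑φ.toHomeomorph : (κ → ℝ) → ι → ℂ × ℂ) = ⇑φ from rfl, hμ] at hchange
    rw [← hchange, integral_smul_nnreal_measure, NNReal.smul_def, Complex.real_smul,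
      T.integral_kernV he, mul_assoc, kernL]
  have hsum : Summable fun m => fourierVec g m := by
    simp only [hfour]
    refine Summable.mul_left _ (Summable.of_norm ?_)
    simpa using T.summable_kernL_comb he hdual' s (fun i => inv3 (P i)) 0
  set R : κ → ℝ := fun j => (b.repr r j : ℝ)
  have hP := periodize_eq_tsum hg hb hsum R
  have hL : ∀ m, g (R + intVec m) = T.kernL e (r + comb b m) s P := by
    intro m
    have h1 : r + comb b m = ∑ j, (b.repr r j + (m j : ℚ)) • b j := by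
      simp only [add_smul, Finset.sum_add_distrib, b.sum_repr, comb]
    simp only [g, kernL, h1, T.vec_sum_smul]
    congr 2
    funext j
    simp [R, intVec]
  rw [periodize] at hP
  simp only [hL, hfour] at hP
  rw [hP, ← tsum_mul_left]
  refine tsum_congr fun m => ?_
  rw [T.expM_pair, mul_left_comm]
  congr 1
  congr 1
  rw [charVec]
  congr 2
  have h2 := T.pairR_combR e b R (comb b' m)
  rw [← T.vec_sum_smul b (fun j => b.repr r j), b.sum_repr, T.pairR_vec] at h2
  rw [show ((T.pairQ e r (comb b' m) : ℚ) : ℂ) = (((T.pairQ e r (comb b' m) : ℚ) : ℝ) : ℂ) by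
    norm_cast, h2]
  push_cast
  refine Finset.sum_congr rfl fun j _ => ?_
  rw [T.pairQ_comb hdual m j]
  push_cast
  ring

end Setting

end FLTAgent.LanglandsTunnell.Seed

end
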