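import Fermat.Agent.LanglandsTunnell.Seed.IdealAlg

/-!
# The arithmetic data of one transformation step

`MoveData` is a matrix with its ideals and a pair at `Y`. The file proves the congruences making
the phases periodic (`expM_quad`, `expM_cross`, `shift_mem`) and finds the generator for the
Gauss sum (`exists_generator`). Used by `Invariance`.
-/

set_option autoImplicit false

open NumberField Complex
open scoped nonZeroDivisors

noncomputable section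

namespace FLTAgent.LanglandsTunnell.Seed

open FLTAgent.LanglandsTunnell

variable {M L ι : Type} [Field M] [NumberField M] [Field L] [NumberField L] [Algebra M L]
  [Fintype ι]

omit [Fintype ι] in
theorem Setting.EL_mono (T : Setting M L ι) {I J : FractionalIdeal (𝓞 M)⁰ M} (h : I ≤ J) :
    T.EL I ≤ T.EL J := by
  rw [← sup_eq_right, FractionalIdeal.sup_eq_add] at h ⊢
  rw [← map_add, h]

/-- A transformation with its ideals: `γ = (a b; c d)`, the pair `(A', e)` at `Y`. -/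
structure MoveData (T : Setting M L ι) : Type where
  e : M
  A' : Ideal (𝓞 L)
  Y : FractionalIdeal (𝓞 M)⁰ M
  Z : Ideal (𝓞 M)
  B : Ideal (𝓞 M)
  f : Ideal (𝓞 M)
  n : Ideal (𝓞 M)
  a : M
  b : M
  c : M
  d : 𝓞 M
  e_ne : e ≠ 0
  A_ne : A' ≠ ⊥
  f_ne : f ≠ ⊥
  d_ne : d ≠ 0
  pair_eq : princ L (algebraMap M L e) * (A' : FractionalIdeal (𝓞 L)⁰ L) *
    ((A'.map (T.cO : 𝓞 L →+* 𝓞 L) : Ideal (𝓞 L)) : FractionalIdeal (𝓞 L)⁰ L) * T.EL Y *
      T.EL (T.diffM : FractionalIdeal (𝓞 M)⁰ M) = 1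
  det_eq : a * algebraMap (𝓞 M) M d - b * c = 1
  d_eq : Ideal.span {d} = Z * B
  a_mem : FractionalIdeal.spanSingleton (𝓞 M)⁰ a * (Z : FractionalIdeal (𝓞 M)⁰ M) ≤ 1
  b_mem : FractionalIdeal.spanSingleton (𝓞 M)⁰ b * (Z : FractionalIdeal (𝓞 M)⁰ M) ≤ Y
  c_mem : FractionalIdeal.spanSingleton (𝓞 M)⁰ c * Y ≤
    (n : FractionalIdeal (𝓞 M)⁰ M) * (Z : FractionalIdeal (𝓞 M)⁰ M)
  coprime : B ⊔ f = ⊤
  n_le : n.map (algebraMap (𝓞 M) (𝓞 L)) ≤
    f.map (algebraMap (𝓞 M) (𝓞 L)) ^ 2 * (T.diffR * T.diffR.map (T.cO : 𝓞 L →+* 𝓞 L))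
  unram : ∀ P : Ideal (𝓞 M), P.IsMaximal → B ≤ P → T.ringData.Unram P

namespace MoveData

variable {T : Setting M L ι} (S : MoveData T)

/-- `Z O_L`. -/
def ZL : Ideal (𝓞 L) := S.Z.map (algebraMap (𝓞 M) (𝓞 L))

/-- `B O_L`. -/
def BL : Ideal (𝓞 L) := S.B.map (algebraMap (𝓞 M) (𝓞 L))

/-- The modulus in `O_L`. -/
def fL : Ideal (𝓞 L) := S.f.map (algebraMap (𝓞 M) (𝓞 L))

/-- The source ideal. -/
def A : Ideal (𝓞 L) := S.ZL * S.A'

/-- `d` in `L`. -/
def dL : L := algebraMap (𝓞 L) L (algebraMap (𝓞 M) (𝓞 L) S.d)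

theorem Z_ne : S.Z ≠ ⊥ := fun h => S.d_ne (by
  have := S.d_eq; rw [h, Submodule.bot_mul, Ideal.span_singleton_eq_bot] at this; exact this)

theorem B_ne : S.B ≠ ⊥ := fun h => S.d_ne (by
  have := S.d_eq; rw [h, Ideal.mul_bot, Ideal.span_singleton_eq_bot] at this; exact this)

theorem dM_ne : algebraMap (𝓞 M) M S.d ≠ 0 :=
  (map_ne_zero_iff _ (IsFractionRing.injective (𝓞 M) M)).mpr S.d_ne

theorem dL_eq : S.dL = algebraMap M L (algebraMap (𝓞 M) M S.d) := T.algebraMap_coe S.d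

theorem dL_ne : S.dL ≠ 0 := by rw [S.dL_eq]; exact (map_ne_zero _).mpr S.dM_ne

theorem span_d : Ideal.span {algebraMap (𝓞 M) (𝓞 L) S.d} = S.ZL * S.BL := by
  rw [ZL, BL, ← Ideal.map_mul, ← S.d_eq, Ideal.map_span, Set.image_singleton]

theorem mem_idealSet_span_mul (J : Ideal (𝓞 L)) (x : L) :
    x ∈ idealSet (Ideal.span {algebraMap (𝓞 M) (𝓞 L) S.d} * J) ↔
      ∃ u ∈ idealSet J, S.dL * u = x := by
  constructor
  · intro hx
    obtain ⟨v, hv, rfl⟩ := mem_idealSet.mp hx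
    obtain ⟨w, hw, rfl⟩ := Ideal.mem_span_singleton_mul.mp hv
    exact ⟨_, coe_mem_idealSet.mpr hw, (map_mul (algebraMap (𝓞 L) L) _ _).symm⟩
  · rintro ⟨u, hu, rfl⟩
    obtain ⟨w, hw, rfl⟩ := mem_idealSet.mp hu
    exact mem_idealSet.mpr ⟨_, Ideal.mem_span_singleton_mul.mpr ⟨w, hw, rfl⟩, map_mul _ _ _⟩

theorem BA_eq : S.BL * S.A = Ideal.span {algebraMap (𝓞 M) (𝓞 L) S.d} * S.A' := by
  rw [S.span_d, A]; ring

theorem BfA_eq : S.BL * (S.fL * S.A) =
    Ideal.span {algebraMap (𝓞 M) (𝓞 L) S.d} * (S.fL * S.A') := by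
  rw [S.span_d, A]; ring

theorem fL_ne : S.fL ≠ ⊥ := fun h => S.f_ne (T.map_injective (h.trans Ideal.map_bot.symm))

theorem BfA_ne : S.BL * (S.fL * S.A) ≠ ⊥ :=
  mul_ne_zero (fun h => S.B_ne (T.map_injective (h.trans Ideal.map_bot.symm)))
    (mul_ne_zero S.fL_ne
      (mul_ne_zero (fun h => S.Z_ne (T.map_injective (h.trans Ideal.map_bot.symm)))
      S.A_ne))

theorem fA'_ne : S.fL * S.A' ≠ ⊥ := mul_ne_zero S.fL_ne S.A_ne

theorem BL_sup_fL : S.BL ⊔ S.fL = ⊤ := by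
  rw [BL, fL, ← Ideal.map_sup, S.coprime, Ideal.map_top]

theorem pair_inv : princ L (algebraMap M L S.e) * (S.A' : FractionalIdeal (𝓞 L)⁰ L) *
    ((S.A'.map (T.cO : 𝓞 L →+* 𝓞 L) : Ideal (𝓞 L)) : FractionalIdeal (𝓞 L)⁰ L) * T.EL S.Y =
      (T.EL (T.diffM : FractionalIdeal (𝓞 M)⁰ M))⁻¹ :=
  eq_inv_of_mul_eq_one_left S.pair_eq

theorem EL_Z : T.EL (S.Z : FractionalIdeal (𝓞 M)⁰ M) = (S.ZL : FractionalIdeal (𝓞 L)⁰ L) :=
  T.EL_coeIdeal _

theorem princ_mul {x y : L} : princ L (x * y) = princ L x * princ L y :=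
  (FractionalIdeal.spanSingleton_mul_spanSingleton _ _).symm

theorem princ_dL : princ L S.dL = (S.ZL : FractionalIdeal (𝓞 L)⁰ L) * S.BL := by
  rw [← FractionalIdeal.coeIdeal_mul, ← S.span_d, FractionalIdeal.coeIdeal_span_singleton]
  rfl

/-- The ideal on which the quadratic character of `b / d` is trivial. -/
def qIdeal : Ideal (𝓞 L) := S.BL * (S.ZL ^ 2 * (S.A' * S.A'.map (T.cO : 𝓞 L →+* 𝓞 L)))

theorem expM_quad {t : L} (ht : t ∈ idealSet S.qIdeal) :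
    algebraMap M L (S.b / algebraMap (𝓞 M) M S.d * S.e) * t ∈
      (T.EL (T.diffM : FractionalIdeal (𝓞 M)⁰ M))⁻¹ := by
  rw [← princ_le_iff, princ_mul]
  refine (mul_le_mul_right (princ_le_iff.mpr (mem_coeIdeal_iff_idealSet.mpr ht)) _).trans ?_
  have hbd : princ L (algebraMap M L (S.b / algebraMap (𝓞 M) M S.d)) *
      ((S.ZL : FractionalIdeal (𝓞 L)⁰ L) * S.BL) = princ L (algebraMap M L S.b) := by
    rw [← S.princ_dL, ← princ_mul, S.dL_eq, ← map_mul, div_mul_cancel₀ _ S.dM_ne]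
  calc princ L (algebraMap M L (S.b / algebraMap (𝓞 M) M S.d * S.e)) *
        (S.qIdeal : FractionalIdeal (𝓞 L)⁰ L)
      = princ L (algebraMap M L S.b) * (S.ZL : FractionalIdeal (𝓞 L)⁰ L) *
          (princ L (algebraMap M L S.e) * (S.A' : FractionalIdeal (𝓞 L)⁰ L) *
            ((S.A'.map (T.cO : 𝓞 L →+* 𝓞 L) : Ideal (𝓞 L)) : FractionalIdeal (𝓞 L)⁰ L)) := by
        rw [← hbd, map_mul, princ_mul, qIdeal]
        simp only [FractionalIdeal.coeIdeal_mul, FractionalIdeal.coeIdeal_pow]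
        ring
    _ ≤ T.EL S.Y * (princ L (algebraMap M L S.e) * (S.A' : FractionalIdeal (𝓞 L)⁰ L) *
            ((S.A'.map (T.cO : 𝓞 L →+* 𝓞 L) : Ideal (𝓞 L)) : FractionalIdeal (𝓞 L)⁰ L)) := by
        refine mul_le_mul_left ?_ _
        rw [← T.EL_spanSingleton, ← S.EL_Z, ← map_mul]
        exact T.EL_mono S.b_mem
    _ = (T.EL (T.diffM : FractionalIdeal (𝓞 M)⁰ M))⁻¹ := by rw [← S.pair_inv]; ring

theorem map_ZL : S.ZL.map (T.cO : 𝓞 L →+* 𝓞 L) = S.ZL := T.map_cO_extended _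

theorem map_BL : S.BL.map (T.cO : 𝓞 L →+* 𝓞 L) = S.BL := T.map_cO_extended _

theorem map_fL : S.fL.map (T.cO : 𝓞 L →+* 𝓞 L) = S.fL := T.map_cO_extended _

theorem mul_c_mem {J K : Ideal (𝓞 L)} {x y : L} (hx : x ∈ idealSet J) (hy : y ∈ idealSet K) :
    x * T.c y ∈ idealSet (J * K.map (T.cO : 𝓞 L →+* 𝓞 L)) := by
  obtain ⟨u, hu, rfl⟩ := mem_idealSet.mp hx
  obtain ⟨w, hw, hwy⟩ := mem_idealSet.mp (T.c_mem_map hy)
  exact mem_idealSet.mpr ⟨u * w, Ideal.mul_mem_mul hu hw, by rw [map_mul, hwy]⟩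

/-- The product of the conjugate-linear pairing lands in the ideal of quadratic triviality. -/
theorem cross_mem_qIdeal {x y : L} (hx : x ∈ idealSet (S.BL * S.A)) (hy : y ∈ idealSet S.A) :
    x * T.c y + T.c x * y ∈ idealSet S.qIdeal := by
  have h1 : (S.BL * S.A) * S.A.map (T.cO : 𝓞 L →+* 𝓞 L) = S.qIdeal := by
    rw [A, Ideal.map_mul, S.map_ZL, qIdeal]; ring
  have h2 : S.A * (S.BL * S.A).map (T.cO : 𝓞 L →+* 𝓞 L) = S.qIdeal := by
    rw [A, Ideal.map_mul, Ideal.map_mul, S.map_ZL, S.map_BL, qIdeal]; ring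
  refine add_mem (h1 ▸ mul_c_mem hx hy) ?_
  rw [mul_comm]
  exact h2 ▸ mul_c_mem hy hx

theorem expM_cross {x y : L} (hx : x ∈ idealSet (S.BL * S.A)) (hy : y ∈ idealSet S.A) :
    expM T.Φ (S.b / algebraMap (𝓞 M) M S.d * S.e * Algebra.trace M L (x * T.c y)) = 1 := by
  refine T.expM_eq_one_of_mem ?_
  rw [map_mul, T.algebraMap_trace, map_mul T.c, T.c_c]
  exact S.expM_quad (S.cross_mem_qIdeal hx hy)

theorem expM_norm {x : L} (hx : x ∈ idealSet (S.BL * S.A)) :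
    expM T.Φ (S.b / algebraMap (𝓞 M) M S.d * S.e * Algebra.norm M x) = 1 := by
  refine T.expM_eq_one_of_mem ?_
  rw [map_mul, T.algebraMap_norm]
  refine S.expM_quad ?_
  have h : (S.BL * S.A) * (S.BL * S.A).map (T.cO : 𝓞 L →+* 𝓞 L) ≤ S.qIdeal := by
    rw [A, Ideal.map_mul, Ideal.map_mul, S.map_ZL, S.map_BL]
    refine le_of_eq_of_le ?_ (Ideal.mul_le_right : S.BL * S.qIdeal ≤ S.qIdeal)
    rw [qIdeal]; ring
  exact idealSet_mono h (mul_c_mem hx hx)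

theorem BfA_le_BA : S.BL * (S.fL * S.A) ≤ S.BL * S.A := Ideal.mul_mono le_rfl Ideal.mul_le_right

/-- `x₀ = c η` for a dual vector `η`, with the strengthened divisibility. -/
theorem shift_mem {η : L} (hη : η ∈ T.dualSet S.e (idealSet (S.fL * S.A'))) :
    algebraMap M L S.c * η ∈ idealSet (S.fL * S.A * T.diffR) := by
  have hW : algebraMap M L S.c * T.c η ∈
      idealSet ((S.fL * S.A * T.diffR).map (T.cO : 𝓞 L →+* 𝓞 L)) := by
    rw [← mem_coeIdeal_iff_idealSet, ← princ_le_iff, princ_mul]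
    have hdb := princ_le_iff.mpr (T.dualSet_bound S.fA'_ne hη)
    rw [princ_mul] at hdb
    have he : princ L (algebraMap M L S.e) ≠ 0 := by
      simpa [FractionalIdeal.spanSingleton_eq_zero_iff] using S.e_ne
    have hd := T.diffR_ne_zero
    have hfA : ((S.fL * S.A' : Ideal (𝓞 L)) : FractionalIdeal (𝓞 L)⁰ L) ≠ 0 :=
      FractionalIdeal.coeIdeal_ne_zero.mpr S.fA'_ne
    have hdM := T.EL_ne_zero T.diffM_ne_zero
    set X := ((S.fL * S.A' : Ideal (𝓞 L)) : FractionalIdeal (𝓞 L)⁰ L) *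
      (T.diffR : FractionalIdeal (𝓞 L)⁰ L) * T.EL (T.diffM : FractionalIdeal (𝓞 M)⁰ M) with hX
    refine le_of_mul_le_mul_right ?_ (pos_iff_ne_zero.mpr (mul_ne_zero he (mul_ne_zero
      (mul_ne_zero hfA hd) hdM)))
    calc princ L (algebraMap M L S.c) * princ L (T.c η) * (princ L (algebraMap M L S.e) * X)
        = princ L (algebraMap M L S.c) * (princ L (algebraMap M L S.e) * princ L (T.c η) * X) := by
          ring
      _ ≤ princ L (algebraMap M L S.c) * 1 := by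
          refine mul_le_mul_right ?_ _
          refine (mul_le_mul_left hdb _).trans (le_of_eq ?_)
          exact inv_mul_cancel₀ (mul_ne_zero (mul_ne_zero hfA hd) hdM)
      _ = princ L (algebraMap M L S.c) * T.EL S.Y * (princ L (algebraMap M L S.e) *
            (S.A' : FractionalIdeal (𝓞 L)⁰ L) *
            ((S.A'.map (T.cO : 𝓞 L →+* 𝓞 L) : Ideal (𝓞 L)) : FractionalIdeal (𝓞 L)⁰ L) *
            T.EL (T.diffM : FractionalIdeal (𝓞 M)⁰ M)) := by
          conv_lhs => rw [← S.pair_eq]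
          ring
      _ ≤ ((S.fL ^ 2 * (T.diffR * T.diffR.map (T.cO : 𝓞 L →+* 𝓞 L)) : Ideal (𝓞 L)) :
              FractionalIdeal (𝓞 L)⁰ L) * S.ZL * (princ L (algebraMap M L S.e) *
            (S.A' : FractionalIdeal (𝓞 L)⁰ L) *
            ((S.A'.map (T.cO : 𝓞 L →+* 𝓞 L) : Ideal (𝓞 L)) : FractionalIdeal (𝓞 L)⁰ L) *
            T.EL (T.diffM : FractionalIdeal (𝓞 M)⁰ M)) := by
          refine mul_le_mul_left ?_ _
          rw [← T.EL_spanSingleton, ← map_mul]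
          refine (T.EL_mono S.c_mem).trans ?_
          rw [map_mul, S.EL_Z, T.EL_coeIdeal]
          exact mul_le_mul_left ((FractionalIdeal.coeIdeal_le_coeIdeal _).mpr S.n_le) _
      _ = (((S.fL * S.A * T.diffR).map (T.cO : 𝓞 L →+* 𝓞 L) : Ideal (𝓞 L)) :
              FractionalIdeal (𝓞 L)⁰ L) * (princ L (algebraMap M L S.e) * X) := by
          rw [hX, A, Ideal.map_mul, Ideal.map_mul, Ideal.map_mul, S.map_fL, S.map_ZL]
          simp only [FractionalIdeal.coeIdeal_mul, FractionalIdeal.coeIdeal_pow]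
          ring
  have h := T.c_mem_map hW
  rw [T.map_cO_cO, map_mul, T.c.commutes, T.c_c] at h
  exact h

theorem shift_mem_fA {η : L} (hη : η ∈ T.dualSet S.e (idealSet (S.fL * S.A'))) :
    algebraMap M L S.c * η ∈ idealSet (S.fL * S.A) :=
  idealSet_mono Ideal.mul_le_left (S.shift_mem hη)

theorem a_mul_mem {y : L} (hy : y ∈ idealSet (S.fL * S.A)) :
    algebraMap M L S.a * y ∈ idealSet (S.fL * S.A') := by
  rw [← mem_coeIdeal_iff_idealSet, ← princ_le_iff, princ_mul]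
  refine (mul_le_mul_right (princ_le_iff.mpr (mem_coeIdeal_iff_idealSet.mpr hy)) _).trans ?_
  calc princ L (algebraMap M L S.a) * ((S.fL * S.A : Ideal (𝓞 L)) : FractionalIdeal (𝓞 L)⁰ L)
      = T.EL (FractionalIdeal.spanSingleton (𝓞 M)⁰ S.a * (S.Z : FractionalIdeal (𝓞 M)⁰ M)) *
          ((S.fL * S.A' : Ideal (𝓞 L)) : FractionalIdeal (𝓞 L)⁰ L) := by
        rw [map_mul, T.EL_spanSingleton, S.EL_Z, A]
        simp only [FractionalIdeal.coeIdeal_mul]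
        ring
    _ ≤ 1 * ((S.fL * S.A' : Ideal (𝓞 L)) : FractionalIdeal (𝓞 L)⁰ L) :=
        mul_le_mul_left (T.EL_le_one_iff.mpr S.a_mem) _
    _ = _ := one_mul _

theorem expM_acN {η : L} (hη : η ∈ T.dualSet S.e (idealSet (S.fL * S.A'))) :
    expM T.Φ (S.a * S.c * (S.e * Algebra.norm M η)) = 1 := by
  refine T.expM_eq_one_of_mem ?_
  have hsplit : algebraMap M L (S.a * S.c * (S.e * Algebra.norm M η))
      = algebraMap M L S.a * (algebraMap M L S.c * η) * (algebraMap M L S.e * T.c η) := by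
    rw [map_mul, map_mul, map_mul, T.algebraMap_norm]; ring
  rw [hsplit, ← princ_le_iff, princ_mul, princ_mul (x := algebraMap M L S.a)]
  have g1 : princ L (algebraMap M L S.c * η) ≤
      (S.ZL : FractionalIdeal (𝓞 L)⁰ L) * (((S.fL * S.A' : Ideal (𝓞 L)) :
        FractionalIdeal (𝓞 L)⁰ L) * (T.diffR : FractionalIdeal (𝓞 L)⁰ L)) := by
    have e : S.fL * S.A * T.diffR = S.ZL * (S.fL * S.A' * T.diffR) := by rw [A]; ring
    rw [← FractionalIdeal.coeIdeal_mul, ← FractionalIdeal.coeIdeal_mul, ← e]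
    exact princ_le_iff.mpr (mem_coeIdeal_iff_idealSet.mpr (S.shift_mem hη))
  have g2 := princ_le_iff.mpr (T.dualSet_bound S.fA'_ne hη)
  have g3 : princ L (algebraMap M L S.a) * (S.ZL : FractionalIdeal (𝓞 L)⁰ L) ≤ 1 := by
    rw [← T.EL_spanSingleton, ← S.EL_Z, ← map_mul]
    exact T.EL_le_one_iff.mpr S.a_mem
  have h1 : (((S.fL * S.A' : Ideal (𝓞 L)) : FractionalIdeal (𝓞 L)⁰ L) *
      (T.diffR : FractionalIdeal (𝓞 L)⁰ L)) ≠ 0 :=
    mul_ne_zero (FractionalIdeal.coeIdeal_ne_zero.mpr S.fA'_ne) T.diffR_ne_zero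
  rw [mul_inv] at g2
  generalize princ L (algebraMap M L S.a) = pa at g3 ⊢
  generalize princ L (algebraMap M L S.c * η) = pc at g1 ⊢
  generalize princ L (algebraMap M L S.e * T.c η) = pe at g2 ⊢
  generalize ((S.fL * S.A' : Ideal (𝓞 L)) : FractionalIdeal (𝓞 L)⁰ L) *
    (T.diffR : FractionalIdeal (𝓞 L)⁰ L) = X at g1 g2 h1
  generalize (S.ZL : FractionalIdeal (𝓞 L)⁰ L) = z at g1 g3
  generalize (T.EL (T.diffM : FractionalIdeal (𝓞 M)⁰ M))⁻¹ = w at g2 ⊢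
  calc pa * pc * pe ≤ pa * (z * X) * (X⁻¹ * w) := mul_le_mul' (mul_le_mul_right g1 pa) g2
    _ = pa * z * w := by rw [← mul_assoc pa z X, mul_assoc (pa * z), mul_inv_cancel_left₀ h1]
    _ ≤ 1 * w := mul_le_mul_left g3 w
    _ = w := one_mul w

/-- The local generator and the primitive character of the Gauss sum. -/
theorem exists_generator : ∃ x₁ : 𝓞 L, x₁ ∈ S.fL * S.A ∧
    (∀ z : 𝓞 L, z * x₁ ∈ S.BL * (S.fL * S.A) → z ∈ S.BL) ∧
    (∀ y ∈ S.fL * S.A, ∃ z : 𝓞 L, z * x₁ - y ∈ S.BL * (S.fL * S.A)) ∧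
    ∃ J' : Ideal (𝓞 L), Ideal.span {x₁} = S.fL * S.A * J' ∧ J' ⊔ S.BL = ⊤ := by
  set J := S.fL * S.A
  have hJ : J ≠ ⊥ := right_ne_zero_of_mul S.BfA_ne
  obtain ⟨x₁, hx⟩ := IsDedekindDomain.exists_sup_span_eq
    (I := S.BL * J) (J := J) Ideal.mul_le_right S.BfA_ne
  have hx1 : x₁ ∈ J := hx ▸ Ideal.mem_sup_right (Ideal.mem_span_singleton_self x₁)
  obtain ⟨J', hJ'⟩ : J ∣ Ideal.span {x₁} :=
    Ideal.dvd_iff_le.mpr (by rwa [Ideal.span_singleton_le_iff_mem])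
  have hco : J' ⊔ S.BL = ⊤ := by
    refine mul_left_cancel₀ hJ (Eq.trans ?_ (Ideal.mul_top J).symm)
    rw [Ideal.mul_sup, ← hJ', mul_comm J S.BL, sup_comm, hx]
  refine ⟨x₁, hx1, fun z hz => ?_, fun y hy => ?_, J', hJ', hco⟩
  · have h1 : Ideal.span {z} * J' * J ≤ S.BL * J := by
      rw [mul_assoc, mul_comm J' J, ← hJ', Ideal.span_singleton_mul_span_singleton,
        Ideal.span_singleton_le_iff_mem]
      exact hz
    have h2 : Ideal.span {z} * J' ≤ S.BL := by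
      rw [← Ideal.dvd_iff_le] at h1 ⊢
      exact (mul_dvd_mul_iff_right hJ).mp h1
    have h3 : Ideal.span {z} * (J' ⊔ S.BL) ≤ S.BL := by
      rw [Ideal.mul_sup]; exact sup_le h2 Ideal.mul_le_right
    rw [hco, Ideal.mul_top, Ideal.span_singleton_le_iff_mem] at h3
    exact h3
  · rw [← hx, Submodule.mem_sup] at hy
    obtain ⟨u, hu, v, hv, rfl⟩ := hy
    obtain ⟨z, rfl⟩ := Ideal.mem_span_singleton'.mp hv
    exact ⟨z, by rw [show z * x₁ - (u + z * x₁) = -u by ring]; exact neg_mem hu⟩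

/-- The integral ideal of `b`, prime to `B`. -/
theorem exists_bIdeal : ∃ bI : Ideal (𝓞 L),
    princ L (algebraMap M L S.b) * (S.ZL : FractionalIdeal (𝓞 L)⁰ L) =
      (bI : FractionalIdeal (𝓞 L)⁰ L) * T.EL S.Y ∧ bI ⊔ S.BL = ⊤ := by
  have hY : T.EL S.Y ≠ 0 := fun h => by
    have := S.pair_eq; simp [h] at this
  have hY0 : S.Y ≠ 0 := fun h => hY (by rw [h, map_zero])
  have hZ0 : (S.Z : FractionalIdeal (𝓞 M)⁰ M) ≠ 0 := FractionalIdeal.coeIdeal_ne_zero.mpr S.Z_ne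
  set bF := FractionalIdeal.spanSingleton (𝓞 M)⁰ S.b * (S.Z : FractionalIdeal (𝓞 M)⁰ M) / S.Y
  set cF := FractionalIdeal.spanSingleton (𝓞 M)⁰ S.c * S.Y / (S.Z : FractionalIdeal (𝓞 M)⁰ M)
  have hbF : bF ≤ 1 := (div_le_one₀ (pos_iff_ne_zero.mpr hY0)).mpr S.b_mem
  have hcF : cF ≤ 1 := (div_le_one₀ (pos_iff_ne_zero.mpr hZ0)).mpr
    (S.c_mem.trans ((mul_le_mul_left FractionalIdeal.coeIdeal_le_one _).trans_eq (one_mul _)))
  obtain ⟨bI, hbI⟩ := FractionalIdeal.le_one_iff_exists_coeIdeal.mp hbF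
  obtain ⟨cI, hcI⟩ := FractionalIdeal.le_one_iff_exists_coeIdeal.mp hcF
  refine ⟨bI.map (algebraMap (𝓞 M) (𝓞 L)), ?_, ?_⟩
  · rw [← T.EL_spanSingleton, ← S.EL_Z, ← map_mul, ← T.EL_coeIdeal, hbI, ← map_mul,
      div_mul_cancel₀ _ hY0]
  rw [BL, ← Ideal.map_sup, show bI ⊔ S.B = ⊤ from ?_, Ideal.map_top]
  obtain ⟨aI, haI⟩ := FractionalIdeal.le_one_iff_exists_coeIdeal.mp S.a_mem
  have h1 : S.a * algebraMap (𝓞 M) M S.d ∈ (S.B : FractionalIdeal (𝓞 M)⁰ M) := by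
    rw [← FractionalIdeal.spanSingleton_le_iff_mem,
      ← FractionalIdeal.spanSingleton_mul_spanSingleton, ← FractionalIdeal.coeIdeal_span_singleton,
      S.d_eq, FractionalIdeal.coeIdeal_mul, ← mul_assoc]
    exact (mul_le_mul_left S.a_mem _).trans_eq (one_mul _)
  have h2 : S.b * S.c ∈ ((bI * cI : Ideal (𝓞 M)) : FractionalIdeal (𝓞 M)⁰ M) := by
    rw [← FractionalIdeal.spanSingleton_le_iff_mem,
      ← FractionalIdeal.spanSingleton_mul_spanSingleton, FractionalIdeal.coeIdeal_mul, hbI, hcI]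
    refine le_of_eq ?_
    simp only [bF, cF]
    field_simp
  obtain ⟨u, hu, hu'⟩ := (FractionalIdeal.mem_coeIdeal _).mp h1
  obtain ⟨v, hv, hv'⟩ := (FractionalIdeal.mem_coeIdeal _).mp h2
  rw [Ideal.eq_top_iff_one]
  have : (1 : 𝓞 M) = u - v := IsFractionRing.injective (𝓞 M) M (by
    rw [map_one, map_sub, hu', hv', S.det_eq])
  rw [this]
  exact sub_mem (Ideal.mem_sup_right hu) (Ideal.mem_sup_left (Ideal.mul_le_left hv))

end MoveData

end FLTAgent.LanglandsTunnell.Seed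

end
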