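import Fermat.Agent.LanglandsTunnell.Seed.Cusp
import Fermat.Agent.LanglandsTunnell.SeedCoeff.Glue
import Fermat.Agent.LanglandsTunnell.Geom.Reduction

/-!
# The seed function is automorphic and cuspidal

From the expansions at all cusps, the seed function is continuous and bounded, hence
`isAutomorphic_seedFun` and `isCuspidal_seedFun`.
-/

set_option autoImplicit false

open NumberField Matrix
open scoped nonZeroDivisors

noncomputable section

namespace FLTAgent.LanglandsTunnell.Seed

open FLTAgent.LanglandsTunnell FLTAgent.LanglandsTunnell.SeedCoeff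
open FLTAgent.LanglandsTunnell.Geom

variable {M L ι : Type} [Field M] [NumberField M] [Field L] [NumberField L] [Algebra M L]
  [Fintype ι] (S : SeedSys M L ι)

/-- On every coset the seed function has an expansion. -/
theorem hasExpansion_seedFun (v : FinPt M S.n) :
    HasExpansion S.T.Φ fun P => seedFun S (v, P) := by
  obtain ⟨γ, y, rfl⟩ := exists_seed_rep S v
  refine (S.hasExpansion_form_smul (ideleFrac_ne_zero y) γ⁻¹).congr fun P => ?_
  simp only [seedFun_eval, map_inv]

theorem continuous_seedFun (v : FinPt M S.n) :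
    Continuous fun P : ι → H3 => seedFun S (v, P) :=
  (hasExpansion_seedFun S v).continuous

theorem exists_bound_seedFun : ∃ C : ℝ, ∀ x, ‖seedFun S x‖ ≤ C := by
  obtain ⟨R, C, c, hR, hc, h⟩ := exists_reduction (n := S.n) S.T.Φ S.n_ne
  choose B hB using fun v => (hasExpansion_seedFun S v).exists_bound hc
  have : Fintype R := hR.fintype
  refine ⟨∑ v : R, |B v|, fun x => ?_⟩
  obtain ⟨γ, h1, h2⟩ := h x
  rw [← seedFun_invariant S γ x]
  calc ‖seedFun S (act S.T.Φ γ x)‖ ≤ B (act S.T.Φ γ x).1 := hB _ _ fun i => (h2 i).2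
    _ ≤ |B (⟨_, h1⟩ : R)| := le_abs_self _
    _ ≤ _ := Finset.single_le_sum (f := fun v : R => |B v|) (fun _ _ => abs_nonneg _)
        (Finset.mem_univ _)

theorem isAutomorphic_seedFun : IsAutomorphic S.T.Φ (seedFun S) where
  invariant := seedFun_invariant S
  continuous := continuous_seedFun S
  bounded := exists_bound_seedFun S

theorem isCuspidal_seedFun : IsCuspidal S.T.Φ (seedFun S) := by
  intro v P m hm hv
  refine (hasExpansion_seedFun S v).mean_zero P hm fun a Q => ?_
  have h := seedFun_invariant S (LanglandsTunnell.upperUnip ((m : M) * (a : M))) (v, Q)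
  refine Eq.trans (congrArg (seedFun S) ?_) h
  refine Prod.ext ?_ (funext fun i => ?_)
  · show v = GeneralLinearGroup.map (toAF M) (LanglandsTunnell.upperUnip ((m : M) * (a : M))) • v
    conv_lhs => rw [← hv a]
    congr 1
    refine Units.ext (Matrix.ext fun r s => ?_)
    fin_cases r <;> fin_cases s <;> simp [LanglandsTunnell.upperUnip]
  · show H3.shift (S.T.Φ.emb i ((m : M) * (a : M))) (Q i) =
      GeneralLinearGroup.map (S.T.Φ.emb i) (LanglandsTunnell.upperUnip ((m : M) * (a : M))) • Q i
    have hval : (GeneralLinearGroup.map (S.T.Φ.emb i)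
        (LanglandsTunnell.upperUnip ((m : M) * (a : M)))).val =
        !![1, S.T.Φ.emb i ((m : M) * (a : M)); 0, 1] := by
      refine Matrix.ext fun r s => ?_
      fin_cases r <;> fin_cases s <;> simp [LanglandsTunnell.upperUnip]
    obtain ⟨hz, ht⟩ := smul_upper (GeneralLinearGroup.map (S.T.Φ.emb i)
        (LanglandsTunnell.upperUnip ((m : M) * (a : M))))
          (by simp [LanglandsTunnell.upperUnip]) (Q i)
    ext
    · rw [hz, hval]; simp [H3.shift]
    · rw [ht, hval]; simp [H3.shift]

end FLTAgent.LanglandsTunnell.Seed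

end
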