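import Fermat.Agent.LanglandsTunnell.Seed.SeedFun
import Fermat.Agent.LanglandsTunnell.Seed.Spherical

/-!
# The seed function is a spherical eigenfunction

Integrating the series term by term against point pair invariants (`spherical_series`) gives
`sphericalZero_seedFun`.
-/

set_option autoImplicit false

open NumberField Matrix MeasureTheory
open scoped nonZeroDivisors

noncomputable section

namespace FLTAgent.LanglandsTunnell.Seed

open FLTAgent.LanglandsTunnell FLTAgent.LanglandsTunnell.SeedCoeff
open FLTAgent.LanglandsTunnell.Geom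
open FLTAgent.LanglandsTunnell.Killing

variable {M L ι : Type} [Field M] [NumberField M] [Field L] [NumberField L] [Algebra M L]
  [Fintype ι] [DecidableEq ι] (D : SeedSys M L ι)

omit [DecidableEq ι] in
theorem SeedSys.countable_term (Y : FractionalIdeal (𝓞 M)⁰ M) : Countable (D.Term Y) := by
  have := countable_int L
  have := countable_int M
  have hI : Countable (Ideal (𝓞 L)) := by
    refine Function.Surjective.countable (f := fun s : Finset (𝓞 L) => Ideal.span (s : Set (𝓞 L)))
      fun I => ?_
    obtain ⟨s, hs⟩ := IsNoetherian.noetherian I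
    exact ⟨s, hs⟩
  have hM : Countable M := by
    refine Function.Surjective.countable (f := fun p : 𝓞 M × 𝓞 M =>
      algebraMap (𝓞 M) M p.1 / algebraMap (𝓞 M) M p.2) fun x => ?_
    obtain ⟨a, b, -, rfl⟩ := IsFractionRing.div_surjective (A := 𝓞 M) x
    exact ⟨(a, b), rfl⟩
  infer_instance

theorem SeedSys.termW_update (β : M) (P : ι → H3) (i : ι) (Q : H3) :
    D.termW β (Function.update P i Q) =
      (∏ j ∈ Finset.univ.erase i, wfun (D.T.Φ.emb j β) (P j)) * wfun (D.T.Φ.emb i β) Q := by
  rw [SeedSys.termW, ← Finset.prod_erase_mul _ _ (Finset.mem_univ i), Function.update_self]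
  congr 1
  exact Finset.prod_congr rfl fun j hj => by
    rw [Function.update_of_ne (Finset.ne_of_mem_erase hj)]

variable {k : ℝ → ℝ}

/-- The series is an eigenfunction of every point pair invariant at each place. -/
theorem SeedSys.spherical_series (Y : FractionalIdeal (𝓞 M)⁰ M) (i : ι) (hk : Continuous k)
    (hs : HasCompactSupport k) (P : ι → H3) :
    ∫ Q, (k (H3.coshDist (P i) Q) : ℂ) * D.series Y (Function.update P i Q) ∂H3.volH3 =
      (sphValue k : ℂ) * D.series Y P := by
  obtain ⟨c, C, Z, hc, hbd⟩ := exists_kernel_compact hs (P i)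
  obtain ⟨c₀, hc₀, hP⟩ := exists_height_bound P
  obtain ⟨U, hU, hUb⟩ := D.exists_termW_bound Y (lt_min hc hc₀)
  have := D.countable_term Y
  have hk1 := (integrable_kernel_mul hk hs (P i) (continuous_const (y := (1 : ℂ)))).norm
  have hcont : ∀ t : D.Term Y,
      Continuous fun Q => D.ψ t.1.1 * D.termW t.1.2 (Function.update P i Q) := fun t => by
    simp only [D.termW_update]
    exact continuous_const.mul (continuous_const.mul
      (continuous_wfun (D.T.emb_ne_zero t.2.2.1 i)))
  have hle : ∀ (t : D.Term Y) Q,
      ‖(k (H3.coshDist (P i) Q) : ℂ) * (D.ψ t.1.1 * D.termW t.1.2 (Function.update P i Q))‖ ≤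
        ‖(k (H3.coshDist (P i) Q) : ℂ) * 1‖ * U t := fun t Q => by
    rw [norm_mul, norm_mul, mul_one, D.norm_psi _ t.2.1, one_mul]
    rcases eq_or_ne (k (H3.coshDist (P i) Q)) 0 with h | h
    · simp [h]
    · refine mul_le_mul_of_nonneg_left (hUb t _ fun j => ?_) (norm_nonneg _)
      rcases eq_or_ne j i with rfl | hj
      · rw [Function.update_self]
        exact (min_le_left _ _).trans (hbd Q h).1
      · rw [Function.update_of_ne hj]
        exact (min_le_right _ _).trans (hP j).le
  simp only [SeedSys.series, ← tsum_mul_left]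
  rw [← integral_tsum_of_summable_integral_norm
    (fun t => integrable_kernel_mul hk hs (P i) (hcont t))
    (Summable.of_nonneg_of_le (fun t => integral_nonneg fun Q => norm_nonneg _)
      (fun t => (integral_mono_of_nonneg (Filter.Eventually.of_forall fun Q => norm_nonneg _)
        (hk1.mul_const _) (Filter.Eventually.of_forall (hle t))).trans
          (integral_mul_const _ _).le)
      (hU.mul_left _))]
  refine tsum_congr fun t => ?_
  simp only [D.termW_update]
  have e : ∀ (x : ℝ) (a b w : ℂ), (x : ℂ) * (a * (b * w)) = a * b * ((x : ℂ) * w) :=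
      fun _ _ _ _ => by
    ring
  simp only [e, integral_const_mul]
  rw [spherical_wfun (D.T.emb_ne_zero t.2.2.1 i) hk hs, SeedSys.termW,
    ← Finset.prod_erase_mul _ (fun j => wfun (D.T.Φ.emb j t.1.2) (P j)) (Finset.mem_univ i)]
  ring

theorem SeedSys.spherical_form_smul (Y : FractionalIdeal (𝓞 M)⁰ M) (g : ι → GL (Fin 2) ℂ) (i : ι)
    (hk : Continuous k) (hs : HasCompactSupport k) (P : ι → H3) :
    ∫ Q, (k (H3.coshDist (P i) Q) : ℂ) *
        D.form Y (fun j => g j • Function.update P i Q j) ∂H3.volH3 =
      (sphValue k : ℂ) * D.form Y (fun j => g j • P j) := by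
  have e : ∀ Q, (fun j => g j • Function.update P i Q j) =
      Function.update (fun j => g j • P j) i (g i • Q) := fun Q => by
    funext j
    rcases eq_or_ne j i with rfl | hj
    · simp
    · simp [Function.update_of_ne hj]
  have h := (H3.measurePreserving_smul (g i)).integral_comp
    (Homeomorph.smul (g i)).measurableEmbedding
    fun Q => (k (H3.coshDist (g i • P i) Q) : ℂ) *
      D.form Y (Function.update (fun j => g j • P j) i Q)
  simp only [H3.coshDist_smul] at h
  simp only [e]
  rw [h]
  simp only [SeedSys.form, mul_left_comm ((k _ : ℝ) : ℂ), integral_const_mul]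
  rw [D.spherical_series Y i hk hs (fun j => g j • P j)]
  ring

theorem sphericalZero_seedFun : SphericalZero (seedFun D) := by
  intro i k hk hs v P
  obtain ⟨γ, y, rfl⟩ := exists_seed_rep D v
  simp only [seedFun_eval]
  exact D.spherical_form_smul (ideleFrac y)
    (fun j => (GeneralLinearGroup.map (D.T.Φ.emb j) γ)⁻¹) i hk hs P

end FLTAgent.LanglandsTunnell.Seed

end
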