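import Fermat.Agent.LanglandsTunnell.Seed.Sys

/-!
# The twist of a complete system by a prime divided by its conjugate

`exists_twist` permutes a system by `Q / cQ`; comparing coefficients (`psiC_twist`) shows that
the terms at zero cancel (`sum_inv_psi_mul_chiL_zero`).
-/

set_option autoImplicit false

open NumberField Complex
open scoped nonZeroDivisors

noncomputable section

namespace FLTAgent.LanglandsTunnell.Seed

open FLTAgent.LanglandsTunnell

variable {M L ι : Type} [Field M] [NumberField M] [Field L] [NumberField L] [Algebra M L]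
  [Fintype ι]

theorem coeIdeal_span_eq_princ (x : 𝓞 L) :
    ((Ideal.span {x} : Ideal (𝓞 L)) : FractionalIdeal (𝓞 L)⁰ L) =
      princ L (algebraMap (𝓞 L) L x) :=
  FractionalIdeal.coeIdeal_span_singleton _

theorem coe_ne_zero' {R : Type} [CommRing R] [IsDomain R] {K : Type} [Field K] [Algebra R K]
    [IsFractionRing R K] {I : Ideal R} (h : I ≠ ⊥) : (I : FractionalIdeal R⁰ K) ≠ 0 :=
  FractionalIdeal.coeIdeal_ne_zero.mpr h

namespace SeedSys

variable (D : SeedSys M L ι) {Y : FractionalIdeal (𝓞 M)⁰ M} {κ : Type}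

/-- The twist of the indices by `Q / cQ`. -/
theorem exists_twist [Finite κ] (S : D.System Y κ) {Q : Ideal (𝓞 L)} (hQ : Cop D.s Q) :
    ∃ (σ : κ ≃ κ) (l : κ → L), ∀ j, l j ≠ 0 ∧
      princ L (l j) * ((Q.map (D.T.cO : 𝓞 L →+* 𝓞 L) * S.A (σ j) : Ideal (𝓞 L)) :
        FractionalIdeal (𝓞 L)⁰ L) = ((S.A j * Q : Ideal (𝓞 L)) : FractionalIdeal (𝓞 L)⁰ L) ∧
      S.e (σ j) = S.e j * Algebra.norm M (l j) := by
  have := D.T.finiteDimensional
  have hcQ := D.cop_map_cO hQ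
  obtain ⟨μ, C, hμ, hC, hμC⟩ := D.exists_mem_span_eq_mul hcQ.1
  set m := algebraMap (𝓞 L) L μ with hm
  have hm0 : m ≠ 0 := (map_ne_zero_iff _ (IsFractionRing.injective (𝓞 L) L)).mpr hμ
  have hNm : Algebra.norm M m ≠ 0 := Algebra.norm_ne_zero_iff.mpr hm0
  have hcm : (Ideal.span {μ}).map (D.T.cO : 𝓞 L →+* 𝓞 L) = Q * C.map (D.T.cO : 𝓞 L →+* 𝓞 L) := by
    rw [hμC, Ideal.map_mul, D.T.map_cO_cO]
  have hpair : ∀ j, D.IsPair Y (S.A j * Q * C) (S.e j / Algebra.norm M m) := by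
    intro j
    obtain ⟨hA, he, heq⟩ := S.pair j
    refine ⟨(hA.mul hQ).mul hC, div_ne_zero he hNm, ?_⟩
    refine mul_right_cancel₀ (princ_ne_zero' ((map_ne_zero (algebraMap M L)).mpr hNm)) ?_
    rw [map_div₀, princ_div', one_mul]
    have hne : princ L (algebraMap M L (Algebra.norm M m)) ≠ 0 :=
      princ_ne_zero' ((map_ne_zero (algebraMap M L)).mpr hNm)
    calc _ = (princ L (algebraMap M L (S.e j)) / princ L (algebraMap M L (Algebra.norm M m)) *
          princ L (algebraMap M L (Algebra.norm M m))) *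
          ((S.A j * Q * C : Ideal (𝓞 L)) : FractionalIdeal (𝓞 L)⁰ L) *
          (((S.A j * Q * C).map (D.T.cO : 𝓞 L →+* 𝓞 L) : Ideal (𝓞 L)) :
            FractionalIdeal (𝓞 L)⁰ L) * D.T.EL Y *
          D.T.EL (D.T.diffM : FractionalIdeal (𝓞 M)⁰ M) := by ring
      _ = (princ L (algebraMap M L (S.e j)) * (S.A j : FractionalIdeal (𝓞 L)⁰ L) *
          (((S.A j).map (D.T.cO : 𝓞 L →+* 𝓞 L) : Ideal (𝓞 L)) : FractionalIdeal (𝓞 L)⁰ L) *
          D.T.EL Y * D.T.EL (D.T.diffM : FractionalIdeal (𝓞 M)⁰ M)) *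
          ((((Q.map (D.T.cO : 𝓞 L →+* 𝓞 L) * C) * (Q * C.map (D.T.cO : 𝓞 L →+* 𝓞 L)) :
            Ideal (𝓞 L))) : FractionalIdeal (𝓞 L)⁰ L) := by
          rw [div_mul_cancel₀ _ hne]
          simp only [Ideal.map_mul, FractionalIdeal.coeIdeal_mul]
          ring
      _ = _ := by rw [heq, one_mul, ← hμC, ← hcm, FractionalIdeal.coeIdeal_mul, D.princ_norm]
  choose σ hσ using fun j => S.complete _ _ (hpair j)
  choose ν hν hνA hνe using hσ
  have key : ∀ j, princ L (ν j / m) *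
      ((Q.map (D.T.cO : 𝓞 L →+* 𝓞 L) * S.A (σ j) : Ideal (𝓞 L)) : FractionalIdeal (𝓞 L)⁰ L) =
        ((S.A j * Q : Ideal (𝓞 L)) : FractionalIdeal (𝓞 L)⁰ L) := by
    intro j
    refine mul_right_cancel₀ (coe_ne_zero' (K := L) hC.1) ?_
    have h1 := coeIdeal_span_eq_princ μ
    rw [hμC, FractionalIdeal.coeIdeal_mul, ← hm] at h1
    have h2 := hνA j
    simp only at h2
    rw [← FractionalIdeal.coeIdeal_mul (S.A j * Q), ← h2, FractionalIdeal.coeIdeal_mul, princ_div']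
    calc _ = princ L (ν j) / princ L m * ((((Q.map (D.T.cO : 𝓞 L →+* 𝓞 L)) : Ideal (𝓞 L)) :
          FractionalIdeal (𝓞 L)⁰ L) * (C : FractionalIdeal (𝓞 L)⁰ L)) *
          (S.A (σ j) : FractionalIdeal (𝓞 L)⁰ L) := by ring
      _ = _ := by rw [h1, div_mul_cancel₀ _ (princ_ne_zero' hm0)]
  have hlN : ∀ j, S.e (σ j) = S.e j * Algebra.norm M (ν j / m) := by
    intro j
    have hdiv : Algebra.norm M (ν j / m) = Algebra.norm M (ν j) / Algebra.norm M m := by
      rw [eq_div_iff hNm, ← map_mul, div_mul_cancel₀ _ hm0]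
    have he := hνe j
    dsimp only at he
    rw [he, hdiv]
    ring
  have hinj : Function.Injective σ := by
    intro i j hij
    refine S.inj i j ⟨(ν i / m) / (ν j / m),
      div_ne_zero (div_ne_zero (hν i) hm0) (div_ne_zero (hν j) hm0), ?_, ?_⟩
    · have hi := key i
      have hj := key j
      rw [hij] at hi
      refine mul_right_cancel₀ (coe_ne_zero' (K := L) hQ.1) ?_
      simp only [FractionalIdeal.coeIdeal_mul] at hi hj
      dsimp only
      rw [princ_div', mul_assoc, ← hi, ← hj, ← mul_assoc,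
        div_mul_cancel₀ _ (princ_ne_zero' (div_ne_zero (hν j) hm0))]
    · have hi := hlN i
      have hj := hlN j
      rw [hij] at hi
      have hNj : Algebra.norm M (ν j / m) ≠ 0 :=
        Algebra.norm_ne_zero_iff.mpr (div_ne_zero (hν j) hm0)
      refine mul_right_cancel₀ hNj ?_
      rw [mul_assoc, ← map_mul, div_mul_cancel₀ _ (div_ne_zero (hν j) hm0), ← hi, ← hj]
  exact ⟨Equiv.ofBijective σ (Finite.injective_iff_bijective.mp hinj), fun j => ν j / m,
    fun j => ⟨div_ne_zero (hν j) hm0, key j, hlN j⟩⟩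

/-- The coefficient function under a twist. -/
theorem psiC_twist {A A' Q : Ideal (𝓞 L)} (hA : Cop D.s A) (hA' : Cop D.s A') (hQ : Cop D.s Q)
    {l : L} (hl : l ≠ 0)
    (h : princ L l * ((Q.map (D.T.cO : 𝓞 L →+* 𝓞 L) * A' : Ideal (𝓞 L)) :
        FractionalIdeal (𝓞 L)⁰ L) = ((A * Q : Ideal (𝓞 L)) : FractionalIdeal (𝓞 L)⁰ L))
    {y : L} (hy : y ∈ idealSet (Q.map (D.T.cO : 𝓞 L →+* 𝓞 L) * A')) :
    (D.ψ A)⁻¹ * D.chiL (l * y) = D.ψ Q * D.ψ Q * ((D.ψ A')⁻¹ * D.chiL y) := by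
  obtain ⟨b, hb, rfl⟩ := mem_idealSet.mp hy
  have hmem : ∀ {b : 𝓞 L}, b ∈ Q.map (D.T.cO : 𝓞 L →+* 𝓞 L) * A' →
      ∃ a ∈ A * Q, algebraMap (𝓞 L) L a = l * algebraMap (𝓞 L) L b := fun {b} hb => by
    have h2 : l * algebraMap (𝓞 L) L b ∈
        ((A * Q : Ideal (𝓞 L)) : FractionalIdeal (𝓞 L)⁰ L) := by
      rw [← h]
      exact FractionalIdeal.mul_mem_mul (FractionalIdeal.mem_spanSingleton_self _ _)
        (FractionalIdeal.mem_coeIdeal_of_mem _ hb)
    exact (FractionalIdeal.mem_coeIdeal _).mp h2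
  have hψA := D.psi_ne_zero hA
  have hψA' := D.psi_ne_zero hA'
  have hcQ := D.cop_map_cO hQ
  -- nonzero elements
  have main : ∀ (a b : 𝓞 L), b ≠ 0 → b ∈ Q.map (D.T.cO : 𝓞 L →+* 𝓞 L) * A' → a ∈ A * Q →
      algebraMap (𝓞 L) L a = l * algebraMap (𝓞 L) L b →
      (D.ψ A)⁻¹ * D.psiC a = D.ψ Q * D.ψ Q * ((D.ψ A')⁻¹ * D.psiC b) := by
    intro a b hb0 hb ha hab
    have ha0 : a ≠ 0 := fun e => by
      rw [e, map_zero, eq_comm, mul_eq_zero, map_eq_zero_iff _ (IsFractionRing.injective (𝓞 L) L)]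
        at hab
      tauto
    obtain ⟨B, hB⟩ := Ideal.dvd_span_singleton.mpr hb
    have hB0 : B ≠ ⊥ := fun e => hb0 (by simpa [e] using hB)
    have haB : Ideal.span {a} = A * Q * B := by
      refine FractionalIdeal.coeIdeal_injective (K := L) ?_
      simp only
      rw [coeIdeal_span_eq_princ, hab, princ_mul', ← coeIdeal_span_eq_princ, hB,
        FractionalIdeal.coeIdeal_mul, ← mul_assoc, h, ← FractionalIdeal.coeIdeal_mul]
    by_cases hBc : Cop D.s B
    · rw [D.psiC_of_eq_mul ha0 (hA.mul hQ) hBc haB, D.psiC_of_eq_mul hb0 (hcQ.mul hA') hBc hB,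
        D.psi_mul _ _ hA hQ, D.psi_mul _ _ hcQ hA']
      have hc := D.psi_c Q hQ
      field_simp
      linear_combination -(D.ψ Q * D.ψ B) * hc
    · have z1 : D.psiC a = 0 := by
        by_contra hne
        exact hBc (Cop.of_mul_right (haB ▸ (D.psiC_ne_zero_iff ha0).mp hne))
      have z2 : D.psiC b = 0 := by
        by_contra hne
        exact hBc (Cop.of_mul_right (hB ▸ (D.psiC_ne_zero_iff hb0).mp hne))
      rw [z1, z2]; simp
  obtain ⟨a, ha, hab⟩ := hmem hb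
  rw [← hab, D.chiL_coe, D.chiL_coe]
  by_cases hb0 : b = 0
  swap
  · exact main a b hb0 hb ha hab
  subst hb0
  have ha0 : a = 0 := by
    rw [map_zero, mul_zero] at hab
    exact (map_eq_zero_iff _ (IsFractionRing.injective (𝓞 L) L)).mp hab
  subst ha0
  classical
  by_cases hs : Ideal.span {(D.s : 𝓞 L)} = ⊤
  · obtain ⟨b, hb', hb0⟩ := Submodule.exists_mem_ne_zero_of_ne_bot
      (mul_ne_zero hcQ.1 hA'.1 : Q.map (D.T.cO : 𝓞 L →+* 𝓞 L) * A' ≠ ⊥)
    obtain ⟨a, ha', hab'⟩ := hmem hb'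
    conv_lhs => rw [D.psiC_periodic (x := 0) (y := a) (hs ▸ Submodule.mem_top)]
    conv_rhs => rw [D.psiC_periodic (x := 0) (y := b) (hs ▸ Submodule.mem_top)]
    exact main a b hb0 hb' ha' hab'
  · have hz : D.psiC 0 = 0 := by
      rw [psiC, if_neg (by rwa [Ideal.span_singleton_eq_bot.mpr rfl, bot_sup_eq])]
    rw [hz]; simp

/-- The terms at zero cancel. -/
theorem sum_inv_psi_mul_chiL_zero [Fintype κ] (S : D.System Y κ) :
    ∑ j, (D.ψ (S.A j))⁻¹ * D.chiL 0 = 0 := by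
  obtain ⟨Q, -, hQc, hne⟩ := D.exists_aux 1 one_ne_zero
  rw [one_mul] at hQc
  obtain ⟨σ, l, hl⟩ := D.exists_twist S hQc
  have hterm : ∀ j, (D.ψ (S.A j))⁻¹ * D.chiL 0 =
      D.ψ Q * D.ψ Q * ((D.ψ (S.A (σ j)))⁻¹ * D.chiL 0) := fun j => by
    obtain ⟨h0, h1, -⟩ := hl j
    simpa using D.psiC_twist (S.pair j).1 (S.pair (σ j)).1 hQc h0 h1 (zero_mem _)
  have h : ∑ j, (D.ψ (S.A j))⁻¹ * D.chiL 0 =
      D.ψ Q * D.ψ Q * ∑ j, (D.ψ (S.A j))⁻¹ * D.chiL 0 := by
    conv_rhs => rw [← σ.sum_comp, Finset.mul_sum]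
    exact Finset.sum_congr rfl fun j _ => hterm j
  by_contra hz
  exact hne (mul_right_cancel₀ hz (h.symm.trans (one_mul _).symm))

end SeedSys

end FLTAgent.LanglandsTunnell.Seed

end
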