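import Fermat.Agent.LanglandsTunnell.Seed.Twist
import Fermat.Agent.LanglandsTunnell.Geom.Ideals

/-!
# The Fourier series and its unfolding into theta series

`series` and `form` are defined from Whittaker functions indexed by `Term`. `series_eq_integral`
writes the series as the weighted integral of the theta series of any complete system, and
`exists_termW_bound` dominates its terms.
-/

set_option autoImplicit false

open NumberField Complex MeasureTheory
open scoped Real nonZeroDivisors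

noncomputable section

namespace FLTAgent.LanglandsTunnell.Seed

open FLTAgent.LanglandsTunnell

variable {M L ι : Type} [Field M] [NumberField M] [Field L] [NumberField L] [Algebra M L]
  [Fintype ι]

theorem tsum_idealSet_eq (A : Ideal (𝓞 L)) {P : 𝓞 L → Prop} {f : L → ℂ}
    (hf : Summable fun x : idealSet A => f x) (hP : ∀ x, P x → x ≠ 0)
    (h0 : ∀ x ∈ A, x ≠ 0 → ¬ P x → f (algebraMap (𝓞 L) L x) = 0) :
    ∑' x : idealSet A, f x =
      f 0 + ∑' x : {x : 𝓞 L // x ∈ A ∧ P x}, f (algebraMap (𝓞 L) L x.1) := by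
  classical
  rw [hf.tsum_eq_add_tsum_ite (0 : idealSet A)]
  refine congrArg (f 0 + ·) ?_
  let g : {x : 𝓞 L // x ∈ A ∧ P x} → idealSet A :=
    fun x => ⟨algebraMap (𝓞 L) L x.1, coe_mem_idealSet.mpr x.2.1⟩
  have hg : Function.Injective g := fun a b h =>
    Subtype.ext (IsFractionRing.injective (𝓞 L) L (congrArg (fun y : idealSet A => (y : L)) h))
  rw [← hg.tsum_eq (f := fun x : idealSet A => if x = 0 then 0 else f x)]
  · refine tsum_congr fun x => if_neg fun h => hP _ x.2.2 ?_
    exact (map_eq_zero_iff _ (IsFractionRing.injective (𝓞 L) L)).mp (congrArg Subtype.val h)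
  · intro y hy
    rw [Function.mem_support] at hy
    split_ifs at hy with h
    · exact absurd rfl hy
    obtain ⟨a, ha, hay⟩ := mem_idealSet.mp y.2
    refine ⟨⟨a, ha, ?_⟩, Subtype.ext hay⟩
    by_contra hPa
    refine hy ?_
    rw [← hay]
    exact h0 a ha (fun e => h (Subtype.ext (by rw [← hay, e, map_zero]; rfl))) hPa

theorem countable_int (L : Type) [Field L] [NumberField L] : Countable (𝓞 L) :=
  Countable.of_equiv _ (Module.Free.chooseBasis ℤ (𝓞 L)).equivFun.toEquiv.symm

attribute [local instance] countable_int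

omit [Fintype ι] in
theorem Setting.countable_normOne (T : Setting M L ι) : Countable T.normOne :=
  Function.Injective.countable (f := fun u : T.normOne => ((u : (𝓞 L)ˣ) : 𝓞 L))
    fun _ _ h => Subtype.ext (Units.ext h)

attribute [local instance] Setting.countable_normOne

namespace SeedSys

variable (D : SeedSys M L ι)

/-- `β Y 𝔡 = B cB`. -/
def IsTerm (Y : FractionalIdeal (𝓞 M)⁰ M) (B : Ideal (𝓞 L)) (β : M) : Prop :=
  Cop D.s B ∧ β ≠ 0 ∧ princ L (algebraMap M L β) * D.T.EL Y *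
    D.T.EL (D.T.diffM : FractionalIdeal (𝓞 M)⁰ M) = (B : FractionalIdeal (𝓞 L)⁰ L) *
      ((B.map (D.T.cO : 𝓞 L →+* 𝓞 L) : Ideal (𝓞 L)) : FractionalIdeal (𝓞 L)⁰ L)

/-- The index set of the expansion. -/
abbrev Term (Y : FractionalIdeal (𝓞 M)⁰ M) : Type :=
  {p : Ideal (𝓞 L) × M // D.IsTerm Y p.1 p.2}

/-- The Whittaker function of an index. -/
def termW (β : M) (P : ι → H3) : ℂ := ∏ i, wfun (D.T.Φ.emb i β) (P i)

/-- The Fourier series. -/
def series (Y : FractionalIdeal (𝓞 M)⁰ M) (P : ι → H3) : ℂ :=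
  ∑' t : D.Term Y, D.ψ t.1.1 * D.termW t.1.2 P

/-- The normalised series. -/
def form (Y : FractionalIdeal (𝓞 M)⁰ M) (P : ι → H3) : ℂ :=
  ((Real.sqrt (LanglandsTunnell.Geom.nrm Y))⁻¹ : ℝ) * D.series Y P

/-- The chosen weight. -/
def wt : D.T.Weight := D.T.exists_weight.some

theorem hasCompactSupport_wt : HasCompactSupport fun s => (D.wt.w s : ℂ) := by
  refine HasCompactSupport.intro (isCompact_closedBall (0 : ι → ℝ) D.wt.R) fun s hs => ?_
  rw [Complex.ofReal_eq_zero]
  by_contra h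
  exact hs (mem_closedBall_zero_iff.mpr (D.wt.supp s h))

theorem integrable_wt : Integrable fun s : ι → ℝ => |D.wt.w s| := by
  have h := ((Complex.continuous_ofReal.comp D.wt.cont).integrable_of_hasCompactSupport
    (μ := (volume : Measure (ι → ℝ))) D.hasCompactSupport_wt).norm
  simpa using h

theorem integrable_wt_mul {g : (ι → ℝ) → ℂ} (hg : Continuous g) :
    Integrable fun s => (D.wt.w s : ℂ) * g s :=
  ((Complex.continuous_ofReal.comp D.wt.cont).mul hg).integrable_of_hasCompactSupport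
    D.hasCompactSupport_wt.mul_right

theorem norm_wt_mul_le (s : ι → ℝ) {z : ℂ} {B : ℝ} (h : ‖s‖ ≤ D.wt.R → ‖z‖ ≤ B) :
    ‖(D.wt.w s : ℂ) * z‖ ≤ |D.wt.w s| * B := by
  rw [norm_mul, Complex.norm_real, Real.norm_eq_abs]
  rcases eq_or_ne (D.wt.w s) 0 with h0 | h0
  · simp [h0]
  · exact mul_le_mul_of_nonneg_left (h (D.wt.supp s h0)) (abs_nonneg _)

theorem continuous_kernL_left (e : M) (x : L) (P : ι → H3) :
    Continuous fun s => D.T.kernL e x s P :=
  (D.T.continuous_kernL e x).comp (f := fun s : ι → ℝ => (s, P))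
    (continuous_id.prodMk continuous_const)

variable {Y : FractionalIdeal (𝓞 M)⁰ M} {κ : Type}

/-- The points of a system. -/
abbrev Point (S : D.System Y κ) : Type :=
  Σ j, {x : 𝓞 L // x ∈ S.A j ∧ Cop D.s (Ideal.span {x})}

theorem point_ne_zero {S : D.System Y κ} (p : D.Point S) : algebraMap (𝓞 L) L p.2.1 ≠ 0 :=
  (map_ne_zero_iff _ (IsFractionRing.injective (𝓞 L) L)).mpr fun e =>
    p.2.2.2.1 (Ideal.span_singleton_eq_bot.mpr e)

variable (S : D.System Y κ)

theorem term_of_point (p : D.Point S) : ∃ B, Ideal.span {p.2.1} = S.A p.1 * B ∧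
    D.IsTerm Y B (S.e p.1 * Algebra.norm M (algebraMap (𝓞 L) L p.2.1)) := by
  have := D.T.finiteDimensional
  obtain ⟨j, x, hxA, hxc⟩ := p
  obtain ⟨B, hB⟩ := Ideal.dvd_span_singleton.mpr hxA
  obtain ⟨-, he, heq⟩ := S.pair j
  refine ⟨B, hB, Cop.of_mul_right (hB ▸ hxc), mul_ne_zero he (Algebra.norm_ne_zero_iff.mpr
    (D.point_ne_zero (S := S) ⟨j, x, hxA, hxc⟩)), ?_⟩
  rw [map_mul, princ_mul', D.princ_norm]
  simp only [hB, Ideal.map_mul, FractionalIdeal.coeIdeal_mul]
  calc _ = (princ L (algebraMap M L (S.e j)) * (S.A j : FractionalIdeal (𝓞 L)⁰ L) *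
        (((S.A j).map (D.T.cO : 𝓞 L →+* 𝓞 L) : Ideal (𝓞 L)) : FractionalIdeal (𝓞 L)⁰ L) *
        D.T.EL Y * D.T.EL (D.T.diffM : FractionalIdeal (𝓞 M)⁰ M)) *
        ((B : FractionalIdeal (𝓞 L)⁰ L) *
          ((B.map (D.T.cO : 𝓞 L →+* 𝓞 L) : Ideal (𝓞 L)) : FractionalIdeal (𝓞 L)⁰ L)) := by ring
    _ = _ := by rw [heq, one_mul]

theorem point_of_term (t : D.Term Y) : ∃ p : D.Point S, Ideal.span {p.2.1} = S.A p.1 * t.1.1 ∧
    S.e p.1 * Algebra.norm M (algebraMap (𝓞 L) L p.2.1) = t.1.2 := by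
  have := D.T.finiteDimensional
  obtain ⟨⟨B, β⟩, hBc, hβ, hterm⟩ := t
  dsimp only at hBc hβ hterm ⊢
  obtain ⟨μ, C, hμ, hC, hμC⟩ := D.exists_mem_span_eq_mul hBc.1
  set m := algebraMap (𝓞 L) L μ with hm
  have hm0 : m ≠ 0 := (map_ne_zero_iff _ (IsFractionRing.injective (𝓞 L) L)).mpr hμ
  have hNm : Algebra.norm M m ≠ 0 := Algebra.norm_ne_zero_iff.mpr hm0
  have hne : princ L (algebraMap M L (Algebra.norm M m)) ≠ 0 :=
    princ_ne_zero' ((map_ne_zero (algebraMap M L)).mpr hNm)
  have hpair : D.IsPair Y C (β / Algebra.norm M m) := by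
    refine ⟨hC, div_ne_zero hβ hNm, mul_right_cancel₀ hne ?_⟩
    rw [map_div₀, princ_div', one_mul]
    calc _ = (princ L (algebraMap M L β) / princ L (algebraMap M L (Algebra.norm M m)) *
          princ L (algebraMap M L (Algebra.norm M m))) * (C : FractionalIdeal (𝓞 L)⁰ L) *
          ((C.map (D.T.cO : 𝓞 L →+* 𝓞 L) : Ideal (𝓞 L)) : FractionalIdeal (𝓞 L)⁰ L) *
          D.T.EL Y * D.T.EL (D.T.diffM : FractionalIdeal (𝓞 M)⁰ M) := by ring
      _ = princ L (algebraMap M L β) * D.T.EL Y * D.T.EL (D.T.diffM : FractionalIdeal (𝓞 M)⁰ M) *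
          (C : FractionalIdeal (𝓞 L)⁰ L) *
          ((C.map (D.T.cO : 𝓞 L →+* 𝓞 L) : Ideal (𝓞 L)) : FractionalIdeal (𝓞 L)⁰ L) := by
          rw [div_mul_cancel₀ _ hne]; ring
      _ = _ := by
          rw [hterm, D.princ_norm, hμC, Ideal.map_mul]
          simp only [FractionalIdeal.coeIdeal_mul]
          ring
  obtain ⟨j, l, hl, hlA, hle⟩ := S.complete _ _ hpair
  dsimp only at hlA hle
  -- the point is `μ / l`
  have hid : princ L (m / l) = ((S.A j * B : Ideal (𝓞 L)) : FractionalIdeal (𝓞 L)⁰ L) := by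
    rw [princ_div', hm, ← coeIdeal_span_eq_princ, hμC, FractionalIdeal.coeIdeal_mul, ← hlA,
      FractionalIdeal.coeIdeal_mul, div_eq_iff (princ_ne_zero' hl)]
    ring
  obtain ⟨x, hx, hxe⟩ := (FractionalIdeal.mem_coeIdeal _).mp
    (hid ▸ FractionalIdeal.mem_spanSingleton_self _ (m / l) :
      m / l ∈ ((S.A j * B : Ideal (𝓞 L)) : FractionalIdeal (𝓞 L)⁰ L))
  have hspan : Ideal.span {x} = S.A j * B := by
    refine FractionalIdeal.coeIdeal_injective (K := L) ?_
    simp only
    rw [coeIdeal_span_eq_princ, hxe, hid]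
  refine ⟨⟨j, x, Ideal.mul_le_left hx, hspan ▸ (S.pair j).1.mul hBc⟩, hspan, ?_⟩
  show S.e j * Algebra.norm M (algebraMap (𝓞 L) L x) = β
  rw [hxe, hle, mul_assoc, ← map_mul, mul_div_cancel₀ _ hl]
  exact div_mul_cancel₀ _ hNm

/-- Multiplication of a point by a unit of relative norm one. -/
def pointMul (p : D.Point S) (u : D.T.normOne) : D.Point S :=
  ⟨p.1, p.2.1 * ((u : (𝓞 L)ˣ) : 𝓞 L), Ideal.mul_mem_right _ _ p.2.2.1, by
    rw [Ideal.span_singleton_mul_right_unit (Units.isUnit _)]; exact p.2.2.2⟩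

theorem coe_pointMul (p : D.Point S) (u : D.T.normOne) :
    algebraMap (𝓞 L) L (D.pointMul S p u).2.1 = D.T.uL u * algebraMap (𝓞 L) L p.2.1 := by
  rw [Setting.uL, pointMul, map_mul, mul_comm]

/-- The chosen point over an index. -/
def basePoint (t : D.Term Y) : D.Point S := (D.point_of_term S t).choose

theorem span_basePoint (t : D.Term Y) :
    Ideal.span {(D.basePoint S t).2.1} = S.A (D.basePoint S t).1 * t.1.1 :=
  (D.point_of_term S t).choose_spec.1

theorem norm_basePoint (t : D.Term Y) :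
    S.e (D.basePoint S t).1 * Algebra.norm M (algebraMap (𝓞 L) L (D.basePoint S t).2.1) = t.1.2 :=
  (D.point_of_term S t).choose_spec.2

theorem span_pointMul (t : D.Term Y) (u : D.T.normOne) :
    Ideal.span {(D.pointMul S (D.basePoint S t) u).2.1} =
      S.A (D.basePoint S t).1 * t.1.1 := by
  rw [pointMul, Ideal.span_singleton_mul_right_unit (Units.isUnit _), D.span_basePoint]

theorem norm_pointMul (t : D.Term Y) (u : D.T.normOne) :
    S.e (D.basePoint S t).1 *
      Algebra.norm M (algebraMap (𝓞 L) L (D.pointMul S (D.basePoint S t) u).2.1) = t.1.2 := by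
  rw [D.coe_pointMul, map_mul, D.T.norm_uL, one_mul, D.norm_basePoint]

theorem pointMap_bijective : Function.Bijective
    fun q : D.Term Y × D.T.normOne => D.pointMul S (D.basePoint S q.1) q.2 := by
  have := D.T.finiteDimensional
  constructor
  · rintro ⟨t, u⟩ ⟨t', u'⟩ h
    dsimp only at h
    have hb : t = t' := by
      have h1 := D.span_pointMul S t u
      have h2 := D.span_pointMul S t' u'
      have h3 := D.norm_pointMul S t u
      have h4 := D.norm_pointMul S t' u'
      have hj : (D.basePoint S t).1 = (D.basePoint S t').1 :=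
        (congrArg Sigma.fst h : (D.pointMul S (D.basePoint S t) u).1 =
          (D.pointMul S (D.basePoint S t') u').1)
      have hx : (D.pointMul S (D.basePoint S t) u).2.1 =
          (D.pointMul S (D.basePoint S t') u').2.1 := congrArg (fun p : D.Point S => p.2.1) h
      rw [hx, hj] at h1 h3
      exact Subtype.ext (Prod.ext (mul_left_cancel₀ (S.pair _).1.1 (h1.symm.trans h2))
        (h3.symm.trans h4))
    subst hb
    refine Prod.ext rfl (D.T.uL_injective ?_)
    have hx : algebraMap (𝓞 L) L (D.pointMul S (D.basePoint S t) u).2.1 =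
        algebraMap (𝓞 L) L (D.pointMul S (D.basePoint S t) u').2.1 :=
      congrArg (fun p : D.Point S => algebraMap (𝓞 L) L p.2.1) h
    rw [D.coe_pointMul, D.coe_pointMul] at hx
    exact mul_right_cancel₀ (D.point_ne_zero _) hx
  · intro p
    obtain ⟨B, hB, hterm⟩ := D.term_of_point S p
    set t : D.Term Y := ⟨(B, _), hterm⟩
    have h1 := D.span_basePoint S t
    have h2 := D.norm_basePoint S t
    dsimp only [t] at h1 h2
    change Ideal.span {(D.basePoint S t).2.1} = S.A (D.basePoint S t).1 * B at h1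
    obtain ⟨q, hq⟩ : ∃ q, q = D.basePoint S t := ⟨_, rfl⟩
    rw [← hq] at h1 h2
    have hx0 := D.point_ne_zero q
    have hp0 := D.point_ne_zero p
    have hj : q.1 = p.1 := by
      refine S.inj _ _ ⟨algebraMap (𝓞 L) L q.2.1 / algebraMap (𝓞 L) L p.2.1,
        div_ne_zero hx0 hp0, ?_, ?_⟩
      · dsimp only
        rw [princ_div', ← coeIdeal_span_eq_princ, ← coeIdeal_span_eq_princ, h1, hB,
          FractionalIdeal.coeIdeal_mul, FractionalIdeal.coeIdeal_mul, mul_div_mul_right _ _
            (coe_ne_zero' (K := L) hterm.1.1), div_mul_cancel₀ _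
            (coe_ne_zero' (K := L) (S.pair p.1).1.1)]
      · dsimp only
        refine mul_right_cancel₀ (Algebra.norm_ne_zero_iff.mpr hp0) ?_
        rw [mul_assoc, ← map_mul, div_mul_cancel₀ _ hp0, h2]
    obtain ⟨j, x, hx⟩ := p
    obtain ⟨j', x', hx'⟩ := q
    dsimp only at hj hB h1 h2 hx0 hp0
    subst hj
    obtain ⟨v, hv⟩ := Ideal.span_singleton_eq_span_singleton.mp (h1.trans hB.symm)
    have hvm : v ∈ D.T.normOne := by
      rw [D.T.mem_normOne, ← D.T.algebraMap_norm]
      rw [show algebraMap (𝓞 L) L (v : 𝓞 L) =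
          algebraMap (𝓞 L) L x / algebraMap (𝓞 L) L x' by
        rw [← hv, map_mul, mul_div_cancel_left₀ _ hx0]]
      refine (congrArg (algebraMap M L) ?_).trans (map_one _)
      have h3 : Algebra.norm M (algebraMap (𝓞 L) L x) = Algebra.norm M (algebraMap (𝓞 L) L x') :=
        (mul_left_cancel₀ (S.pair j').2.1 h2).symm
      refine mul_right_cancel₀ (Algebra.norm_ne_zero_iff.mpr hx0) ?_
      rw [← map_mul, div_mul_cancel₀ _ hx0, one_mul, h3]
    refine ⟨(t, ⟨v, hvm⟩), ?_⟩
    show D.pointMul S (D.basePoint S t) _ = _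
    rw [← hq]
    subst hv
    rfl

/-- Indices and units are the points. -/
def pointEquiv : D.Term Y × D.T.normOne ≃ D.Point S :=
  Equiv.ofBijective _ (D.pointMap_bijective S)

theorem coe_pointEquiv (t : D.Term Y) (u : D.T.normOne) :
    algebraMap (𝓞 L) L (D.pointEquiv S (t, u)).2.1 =
      D.T.uL u * algebraMap (𝓞 L) L (D.basePoint S t).2.1 := D.coe_pointMul S _ _

/-- The summand of the theta series at a point. -/
def ptTerm (p : D.Point S) (s : ι → ℝ) (P : ι → H3) : ℂ :=
  (D.ψ (S.A p.1))⁻¹ * D.chiL (algebraMap (𝓞 L) L p.2.1) *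
    D.T.kernL (S.e p.1) (algebraMap (𝓞 L) L p.2.1) s P

theorem ptTerm_pointEquiv (t : D.Term Y) (u : D.T.normOne) (s : ι → ℝ) (P : ι → H3) :
    D.ptTerm S (D.pointEquiv S (t, u)) s P = D.ψ t.1.1 *
      D.T.kernL (S.e (D.basePoint S t).1)
        (D.T.uL u * algebraMap (𝓞 L) L (D.basePoint S t).2.1) s P := by
  have hA := (S.pair (D.basePoint S t).1).1
  have h : (D.ψ (S.A (D.basePoint S t).1))⁻¹ *
      D.psiC (D.pointEquiv S (t, u)).2.1 = D.ψ t.1.1 := by
    show (D.ψ (S.A (D.basePoint S t).1))⁻¹ *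
      D.psiC (D.pointMul S (D.basePoint S t) u).2.1 = D.ψ t.1.1
    rw [D.psiC_of_eq_mul (fun e =>
      D.point_ne_zero (D.pointMul S (D.basePoint S t) u) (by rw [e, map_zero]))
      hA t.2.1 (D.span_pointMul S t u), inv_mul_cancel_left₀ (D.psi_ne_zero hA)]
  rw [ptTerm, D.chiL_coe]
  change (D.ψ (S.A (D.basePoint S t).1))⁻¹ * D.psiC (D.pointEquiv S (t, u)).2.1 *
    D.T.kernL (S.e (D.basePoint S t).1) (algebraMap (𝓞 L) L (D.pointEquiv S (t, u)).2.1) s P = _
  rw [h, D.coe_pointEquiv]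

variable [Fintype κ]

theorem exists_point_bound (R : ℝ) {c : ℝ} (hc : 0 < c) :
    ∃ b : D.Point S → ℝ, Summable b ∧ (∀ p, 0 ≤ b p) ∧ ∀ p : D.Point S, ∀ s : ι → ℝ, ‖s‖ ≤ R →
      ∀ P : ι → H3, (∀ i, c ≤ (P i).t) →
        ‖D.T.kernL (S.e p.1) (algebraMap (𝓞 L) L p.2.1) s P‖ ≤ b p := by
  choose u hu hu0 hb using fun j => D.T.exists_bound (S.pair j).2.1 R hc
  refine ⟨fun p => u p.1 p.2.1, (summable_sigma_of_nonneg fun p => hu0 _ _).mpr
    ⟨fun j => (hu j).comp_injective Subtype.val_injective, Summable.of_finite⟩,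
    fun p => hu0 _ _, fun p s hs P hP => hb p.1 p.2.1 ?_ s hs P hP⟩
  exact fun e => D.point_ne_zero p (by rw [e, map_zero])

omit [Fintype κ] in
theorem norm_ptTerm_le (p : D.Point S) (s : ι → ℝ) (P : ι → H3) :
    ‖D.ptTerm S p s P‖ ≤ ‖D.T.kernL (S.e p.1) (algebraMap (𝓞 L) L p.2.1) s P‖ := by
  rw [ptTerm, norm_mul, norm_mul, norm_inv, D.norm_psi _ (S.pair p.1).1, inv_one, one_mul]
  exact mul_le_of_le_one_left (norm_nonneg _) (D.norm_chiL_le _)

omit [Fintype κ] in
theorem continuous_ptTerm (p : D.Point S) (P : ι → H3) :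
    Continuous fun s => D.ptTerm S p s P :=
  continuous_const.mul (D.continuous_kernL_left _ _ P)

theorem summable_integral_ptTerm (P : ι → H3) :
    Summable fun p : D.Point S => ∫ s, ‖(D.wt.w s : ℂ) * D.ptTerm S p s P‖ := by
  obtain ⟨c, hc, hP⟩ : ∃ c : ℝ, 0 < c ∧ ∀ i, c ≤ (P i).t := by
    rcases isEmpty_or_nonempty ι with h | h
    · exact ⟨1, one_pos, fun i => isEmptyElim i⟩
    · obtain ⟨i, hi⟩ := Finite.exists_min fun i => (P i).t
      exact ⟨_, (P i).t_pos, hi⟩
  obtain ⟨b, hb, -, hbd⟩ := D.exists_point_bound S D.wt.R hc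
  refine Summable.of_nonneg_of_le (fun p => integral_nonneg fun s => norm_nonneg _) (fun p => ?_)
    (hb.mul_left (∫ s, |D.wt.w s|))
  rw [← integral_mul_const]
  exact integral_mono (D.integrable_wt_mul (D.continuous_ptTerm S p P)).norm
    (D.integrable_wt.mul_const _) fun s => D.norm_wt_mul_le s fun hs =>
      (D.norm_ptTerm_le S p s P).trans (hbd p s hs P hP)

theorem termW_eq_tsum (t : D.Term Y) (P : ι → H3) :
    D.termW t.1.2 P = ∑' u : D.T.normOne, ∫ s, (D.wt.w s : ℂ) *
      D.T.kernL (S.e (D.basePoint S t).1)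
        (D.T.uL u * algebraMap (𝓞 L) L (D.basePoint S t).2.1) s P := by
  set e := S.e (D.basePoint S t).1
  set x := algebraMap (𝓞 L) L (D.basePoint S t).2.1
  have he : e ≠ 0 := (S.pair _).2.1
  have hx : x ≠ 0 := D.point_ne_zero _
  set K := fun s => D.T.kernL e x s P
  set G := fun (u : D.T.normOne) (s : ι → ℝ) => (D.wt.w s : ℂ) * D.T.kernL e (D.T.uL u * x) s P
  set H := fun (u : D.T.normOne) (s : ι → ℝ) => (D.wt.w (s + D.T.ell (D.T.uL u)) : ℂ) * K s
  have hGsum : Summable fun u => ∫ s, ‖G u s‖ := by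
    have h := (D.summable_integral_ptTerm S P).comp_injective
      (i := fun u => D.pointEquiv S (t, u))
      fun a b h => (Prod.ext_iff.mp ((D.pointEquiv S).injective h)).2
    refine h.congr fun u => ?_
    simp only [Function.comp_apply, D.ptTerm_pointEquiv, G, norm_mul, D.norm_psi _ t.2.1, one_mul,
      e, x]
  have hGH : ∀ u s, G u s = H u⁻¹ (s + D.T.ell (D.T.uL u)) := fun u s => by
    have h := D.T.ell_uL_mul u u⁻¹
    rw [mul_inv_cancel, D.T.uL_one, D.T.ell_one] at h
    simp only [G, H, K, D.T.kernL_mul_left e (D.T.uL_ne_zero u), D.T.norm_uL, mul_one, add_assoc,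
      ← h, add_zero]
  have hHi : ∀ u, Integrable (H u) := fun u => by
    have hcs : HasCompactSupport fun s => (D.wt.w (s + D.T.ell (D.T.uL u)) : ℂ) :=
      D.hasCompactSupport_wt.comp_homeomorph (Homeomorph.addRight (D.T.ell (D.T.uL u)))
    exact ((Complex.continuous_ofReal.comp (D.wt.cont.comp (continuous_add_const _))).mul
      (D.continuous_kernL_left e x P)).integrable_of_hasCompactSupport hcs.mul_right
  have hHsum : Summable fun u => ∫ s, ‖H u s‖ := by
    rw [← (Equiv.inv D.T.normOne).summable_iff]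
    refine hGsum.congr fun u => ?_
    simp only [Function.comp_apply, Equiv.inv_apply, hGH]
    exact integral_add_right_eq_self (fun s => ‖H u⁻¹ s‖) _
  calc D.termW t.1.2 P = ∫ s, K s := by
        rw [D.T.integral_kernL e hx, D.norm_basePoint S t, termW]
    _ = ∫ s, ∑' u, H u s := by
        refine integral_congr_ae (Filter.Eventually.of_forall fun s => ?_)
        simp only [H, tsum_mul_right, ← Complex.ofReal_tsum, D.wt.tsum_eq, Complex.ofReal_one,
          one_mul]
    _ = ∑' u, ∫ s, H u s := (integral_tsum_of_summable_integral_norm hHi hHsum).symm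
    _ = ∑' u, ∫ s, G u s := by
        rw [← (Equiv.inv D.T.normOne).tsum_eq]
        refine tsum_congr fun u => ?_
        simp only [Equiv.inv_apply, hGH]
        exact (integral_add_right_eq_self (H u⁻¹) _).symm

theorem series_eq_tsum_point (P : ι → H3) :
    D.series Y P = ∑' p : D.Point S, ∫ s, (D.wt.w s : ℂ) * D.ptTerm S p s P := by
  have hs : Summable fun p : D.Point S => ∫ s, (D.wt.w s : ℂ) * D.ptTerm S p s P :=
    Summable.of_norm_bounded (D.summable_integral_ptTerm S P) fun p =>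
      norm_integral_le_integral_norm _
  have hs' : Summable fun q : D.Term Y × D.T.normOne =>
      ∫ s, (D.wt.w s : ℂ) * D.ptTerm S (D.pointEquiv S q) s P :=
    hs.comp_injective (D.pointEquiv S).injective
  rw [← (D.pointEquiv S).tsum_eq, hs'.tsum_prod, series]
  refine tsum_congr fun t => ?_
  rw [D.termW_eq_tsum S t P, ← tsum_mul_left]
  refine tsum_congr fun u => ?_
  rw [← integral_const_mul]
  refine integral_congr_ae (Filter.Eventually.of_forall fun s => ?_)
  simp only [D.ptTerm_pointEquiv]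
  ring

/-- The full theta series of a system. -/
def theta (s : ι → ℝ) (P : ι → H3) : ℂ :=
  ∑ j, (D.ψ (S.A j))⁻¹ *
    ∑' x : idealSet (S.A j), D.chiL x * D.T.kernL (S.e j) x s P

theorem kernL_zero (e : M) (s : ι → ℝ) (P : ι → H3) :
    D.T.kernL e 0 s P = ∏ i, ((P i).t : ℂ) := by
  simp [Setting.kernL, Setting.kernV, Setting.vec_apply, kern, kernDecay, kernPhase]

theorem theta_eq (s : ι → ℝ) (P : ι → H3) : D.theta S s P = ∑' p : D.Point S, D.ptTerm S p s P := by
  classical
  obtain ⟨c, hc, hP⟩ : ∃ c : ℝ, 0 < c ∧ ∀ i, c ≤ (P i).t := by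
    rcases isEmpty_or_nonempty ι with h | h
    · exact ⟨1, one_pos, fun i => isEmptyElim i⟩
    · obtain ⟨i, hi⟩ := Finite.exists_min fun i => (P i).t
      exact ⟨_, (P i).t_pos, hi⟩
  obtain ⟨b, hb, -, hbd⟩ := D.exists_point_bound S ‖s‖ hc
  have hsum : Summable fun p : D.Point S => D.ptTerm S p s P :=
    Summable.of_norm_bounded hb fun p => (D.norm_ptTerm_le S p s P).trans (hbd p s le_rfl P hP)
  have hz : ∑ j, (D.ψ (S.A j))⁻¹ * (D.chiL 0 * D.T.kernL (S.e j) 0 s P) = 0 := by
    simp only [D.kernL_zero, ← mul_assoc, ← Finset.sum_mul, D.sum_inv_psi_mul_chiL_zero S,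
      zero_mul]
  rw [hsum.tsum_sigma, tsum_fintype, theta, ← sub_eq_zero, ← Finset.sum_sub_distrib, ← hz]
  refine Finset.sum_congr rfl fun j _ => ?_
  rw [tsum_idealSet_eq (S.A j) (P := fun x => Cop D.s (Ideal.span {x}))
    (f := fun x => D.chiL x * D.T.kernL (S.e j) x s P)]
  · simp only [ptTerm, mul_assoc, tsum_mul_left]
    ring
  · refine Summable.of_norm_bounded
      (g := fun x : idealSet (S.A j) => ‖D.T.kernL (S.e j) x s P‖) ?_ fun x => ?_
    · simpa using D.T.summable_kernL_idealSet (S.pair j).2.1 (S.pair j).1.1 0 s P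
    · rw [norm_mul]; exact mul_le_of_le_one_left (norm_nonneg _) (D.norm_chiL_le _)
  · exact fun x hx e => hx.1 (Ideal.span_singleton_eq_bot.mpr e)
  · intro x _ hx0 hx
    rw [D.chiL_coe, show D.psiC x = 0 by
      by_contra h; exact hx ((D.psiC_ne_zero_iff hx0).mp h), zero_mul]

/-- The series as the integral of the theta series of any complete system. -/
theorem series_eq_integral (P : ι → H3) :
    D.series Y P = ∫ s, (D.wt.w s : ℂ) * D.theta S s P := by
  rw [D.series_eq_tsum_point S, integral_tsum_of_summable_integral_norm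
    (fun p => D.integrable_wt_mul (D.continuous_ptTerm S p P)) (D.summable_integral_ptTerm S P)]
  refine integral_congr_ae (Filter.Eventually.of_forall fun s => ?_)
  simp only [D.theta_eq S, tsum_mul_left]

/-- Uniform domination of the terms of the series. -/
theorem exists_termW_bound (Y : FractionalIdeal (𝓞 M)⁰ M) {c : ℝ} (hc : 0 < c) :
    ∃ U : D.Term Y → ℝ, Summable U ∧ ∀ t (P : ι → H3), (∀ i, c ≤ (P i).t) →
      ‖D.termW t.1.2 P‖ ≤ U t := by
  obtain ⟨κ, _, ⟨S⟩⟩ := D.exists_system Y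
  obtain ⟨b, hb, hb0, hbd⟩ := D.exists_point_bound S D.wt.R hc
  have hs : Summable fun q : D.Term Y × D.T.normOne => b (D.pointEquiv S q) :=
    hb.comp_injective (D.pointEquiv S).injective
  refine ⟨fun t => (∫ s, |D.wt.w s|) * ∑' u, b (D.pointEquiv S (t, u)),
    hs.prod.mul_left _, fun t P hP => ?_⟩
  have hle : ∀ u, ‖∫ s, (D.wt.w s : ℂ) * D.T.kernL (S.e (D.basePoint S t).1)
      (D.T.uL u * algebraMap (𝓞 L) L (D.basePoint S t).2.1) s P‖ ≤
      (∫ s, |D.wt.w s|) * b (D.pointEquiv S (t, u)) := fun u => by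
    rw [← integral_mul_const]
    refine norm_integral_le_of_norm_le (D.integrable_wt.mul_const _)
      (Filter.Eventually.of_forall fun s => D.norm_wt_mul_le s fun hs => ?_)
    rw [← D.coe_pointEquiv S t u]
    exact hbd (D.pointEquiv S (t, u)) s hs P hP
  rw [D.termW_eq_tsum S t P]
  refine tsum_of_norm_bounded (Summable.hasSum ?_) hle |>.trans (le_of_eq tsum_mul_left)
  exact (hs.prod_factor t).mul_left _

end SeedSys

end FLTAgent.LanglandsTunnell.Seed

end
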