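import Fermat.Agent.LanglandsTunnell.Seed.Invariance
import Mathlib.NumberTheory.NumberField.Units.DirichletTheorem

/-!
# Units of relative norm one and a partition of unity

The logarithms `ell` of the units `normOne` span a lattice (`span_ell_normOne`, `exists_covering`);
`exists_weight` gives a compactly supported partition of unity for its translates.
-/

set_option autoImplicit false

open NumberField Complex
open scoped nonZeroDivisors

noncomputable section

namespace FLTAgent.LanglandsTunnell.Seed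

open FLTAgent.LanglandsTunnell

variable {M L ι : Type} [Field M] [NumberField M] [Field L] [NumberField L] [Algebra M L]
  [Fintype ι]

namespace Setting

variable (T : Setting M L ι)

include T

/-- Half the logarithm of the ratio of the two absolute values at each place. -/
def ell (x : L) : ι → ℝ := fun i => (Real.log ‖T.τ i x‖ - Real.log ‖T.τ i (T.c x)‖) / 2

theorem norm_tau_ne_zero {x : L} (hx : x ≠ 0) (i : ι) :
    ‖T.τ i x‖ ≠ 0 ∧ ‖T.τ i (T.c x)‖ ≠ 0 :=
  ⟨norm_ne_zero_iff.mpr (T.vec_ne_zero hx i).1, norm_ne_zero_iff.mpr (T.vec_ne_zero hx i).2⟩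

omit [NumberField M] [NumberField L] [Fintype ι] in
theorem ell_one : T.ell 1 = 0 := by funext i; simp [ell]

theorem ell_mul {x y : L} (hx : x ≠ 0) (hy : y ≠ 0) : T.ell (x * y) = T.ell x + T.ell y := by
  funext i
  obtain ⟨hx1, hx2⟩ := T.norm_tau_ne_zero hx i
  obtain ⟨hy1, hy2⟩ := T.norm_tau_ne_zero hy i
  simp only [ell, Pi.add_apply, map_mul, norm_mul, Real.log_mul hx1 hy1, Real.log_mul hx2 hy2]
  ring

theorem ell_c {x : L} : T.ell (T.c x) = -T.ell x := by
  funext i
  simp only [ell, Pi.neg_apply, T.c_c]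
  ring

/-- Scaling of the argument of the kernel. -/
theorem kernL_mul_left (e : M) {l : L} (hl : l ≠ 0) (x : L) (s : ι → ℝ) (P : ι → H3) :
    T.kernL e (l * x) s P = T.kernL (e * Algebra.norm M l) x (s + T.ell l) P := by
  simp only [kernL, kernV]
  refine Finset.prod_congr rfl fun i _ => ?_
  obtain ⟨h1, h2⟩ := T.vec_ne_zero hl i
  simp only [vec_apply] at h1 h2
  simp only [vec_apply, map_mul, Pi.add_apply, ell]
  rw [kern_mul_arg _ h1 h2 (T.τ i x, T.τ i (T.c x)), T.emb_norm,
    Real.log_div (norm_ne_zero_iff.mpr h1) (norm_ne_zero_iff.mpr h2), mul_assoc]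

/-- Every embedding of `L` is bounded by the chosen ones. -/
theorem exists_norm_le (φ : L →+* ℂ) :
    ∃ i, ∀ x, ‖φ x‖ ≤ max ‖T.τ i x‖ ‖T.τ i (T.c x)‖ := by
  obtain ⟨i, hi⟩ := T.Φ.bijective.2 (InfinitePlace.mk (φ.comp (algebraMap M L)))
  refine ⟨i, fun x => ?_⟩
  obtain ⟨ψ, hψ, hψ'⟩ : ∃ ψ : L →+* ℂ, ψ.comp (algebraMap M L) = T.Φ.emb i ∧
      ∀ y, ‖ψ y‖ = ‖φ y‖ := by
    rcases InfinitePlace.mk_eq_iff.mp hi with h | h
    · exact ⟨φ, h.symm, fun _ => rfl⟩
    · refine ⟨ComplexEmbedding.conjugate φ, ?_, fun y => Complex.norm_conj _⟩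
      ext y
      have h' := congrArg (fun g : M →+* ℂ => (starRingEnd ℂ) (g y)) h
      simp only [ComplexEmbedding.conjugate_coe_eq, Complex.conj_conj] at h'
      simp only [RingHom.coe_comp, Function.comp_apply, ComplexEmbedding.conjugate_coe_eq]
      exact (h'.trans rfl).symm
  rw [← hψ' x]
  have hm : ∀ m : M, ψ (algebraMap M L m) = T.Φ.emb i m := fun m => DFunLike.congr_fun hψ m
  have h1 : ψ x + ψ (T.c x) = T.τ i x + T.τ i (T.c x) := by
    rw [← map_add, ← T.algebraMap_trace, hm, T.emb_trace]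
  have h2 : ψ x * ψ (T.c x) = T.τ i x * T.τ i (T.c x) := by
    rw [← map_mul, ← T.algebraMap_norm, hm, T.emb_norm]
  have h3 : (ψ x - T.τ i x) * (ψ x - T.τ i (T.c x)) = 0 := by
    linear_combination ψ x * h1 - h2
  rcases mul_eq_zero.mp h3 with h | h
  · rw [sub_eq_zero.mp h]; exact le_max_left _ _
  · rw [sub_eq_zero.mp h]; exact le_max_right _ _

/-! ### Units of relative norm one -/

/-- The units `u` with `u · c u = 1`. -/
def normOne : Subgroup (𝓞 L)ˣ :=
  (MonoidHom.id _ * Units.map (T.cO : 𝓞 L →* 𝓞 L)).ker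

theorem mem_normOne {u : (𝓞 L)ˣ} :
    u ∈ T.normOne ↔ (algebraMap (𝓞 L) L u) * T.c (algebraMap (𝓞 L) L u) = 1 := by
  rw [normOne, MonoidHom.mem_ker, Units.ext_iff, ← T.coe_cO, ← map_mul,
    ← map_one (algebraMap (𝓞 L) L), (IsFractionRing.injective (𝓞 L) L).eq_iff]
  rfl

/-- The element of `L`. -/
def uL (u : T.normOne) : L := algebraMap (𝓞 L) L ((u : (𝓞 L)ˣ) : 𝓞 L)

theorem uL_mul_c (u : T.normOne) : T.uL u * T.c (T.uL u) = 1 := T.mem_normOne.mp u.2

theorem uL_ne_zero (u : T.normOne) : T.uL u ≠ 0 := left_ne_zero_of_mul_eq_one (T.uL_mul_c u)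

omit [Fintype ι] in
theorem uL_one : T.uL 1 = 1 := by simp [uL]

omit [Fintype ι] in
theorem uL_mul (u v : T.normOne) : T.uL (u * v) = T.uL u * T.uL v := by simp [uL]

omit [Fintype ι] in
theorem uL_injective : Function.Injective T.uL := fun _ _ h =>
  Subtype.ext (Units.ext (IsFractionRing.injective (𝓞 L) L h))

theorem norm_uL (u : T.normOne) : Algebra.norm M (T.uL u) = 1 :=
  (algebraMap M L).injective (by rw [T.algebraMap_norm, T.uL_mul_c, map_one])

theorem ell_uL_mul (u v : T.normOne) : T.ell (T.uL (u * v)) = T.ell (T.uL u) + T.ell (T.uL v) := by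
  rw [T.uL_mul, T.ell_mul (T.uL_ne_zero u) (T.uL_ne_zero v)]

theorem ell_uL_eq (u : T.normOne) (i : ι) : T.ell (T.uL u) i = Real.log ‖T.τ i (T.uL u)‖ := by
  have h := congrArg (fun z => Real.log ‖T.τ i z‖) (T.uL_mul_c u)
  simp only [map_mul, norm_mul, map_one, norm_one, Real.log_one] at h
  rw [Real.log_mul (T.norm_tau_ne_zero (T.uL_ne_zero u) i).1
    (T.norm_tau_ne_zero (T.uL_ne_zero u) i).2] at h
  simp only [ell]
  linarith

theorem finite_normOne_ell_le (R : ℝ) : {u : T.normOne | ‖T.ell (T.uL u)‖ ≤ R}.Finite := by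
  refine ((Embeddings.finite_of_norm_le L ℂ (Real.exp R)).preimage
    T.uL_injective.injOn).subset fun u hu => ⟨RingOfIntegers.isIntegral_coe _, fun φ => ?_⟩
  obtain ⟨i, hi⟩ := T.exists_norm_le φ
  have hb : |Real.log ‖T.τ i (T.uL u)‖| ≤ R := by
    rw [← T.ell_uL_eq]
    exact (norm_le_pi_norm (T.ell (T.uL u)) i).trans hu
  obtain ⟨hb1, hb2⟩ := abs_le.mp hb
  obtain ⟨h1, h2⟩ := T.norm_tau_ne_zero (T.uL_ne_zero u) i
  have h1' : 0 < ‖T.τ i (T.uL u)‖ := lt_of_le_of_ne (norm_nonneg _) h1.symm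
  refine (hi _).trans (max_le ?_ ?_)
  · rw [← Real.exp_log h1']; exact Real.exp_le_exp.mpr hb2
  · have e := congrArg (fun z => ‖T.τ i z‖) (T.uL_mul_c u)
    simp only [map_mul, norm_mul, map_one, norm_one] at e
    rw [eq_inv_of_mul_eq_one_right e, ← Real.exp_log (inv_pos.mpr h1'), Real.log_inv]
    exact Real.exp_le_exp.mpr (by linarith)

/-- The places of `L`. -/
def placeL (p : ι × Bool) : InfinitePlace L :=
  InfinitePlace.mk (if p.2 then (T.τ p.1).comp (T.c : L →+* L) else T.τ p.1)

omit [NumberField M] [NumberField L] [Fintype ι] in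
theorem tau_comp_comp (i : ι) :
    ((T.τ i).comp (T.c : L →+* L)).comp (algebraMap M L) = T.Φ.emb i := by
  rw [← T.τ_ext i]
  ext m
  simp

theorem placeL_injective : Function.Injective T.placeL := by
  have hr : ∀ i, ¬ ComplexEmbedding.IsReal (T.Φ.emb i) := fun i hr =>
    (InfinitePlace.not_isComplex_iff_isReal.mpr (InfinitePlace.isReal_mk_iff.mpr hr))
      (T.Φ.isComplex i)
  have hres : ∀ p : ι × Bool,
      (if p.2 then (T.τ p.1).comp (T.c : L →+* L) else T.τ p.1).comp (algebraMap M L) =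
        T.Φ.emb p.1 := fun p => by
    split_ifs
    exacts [T.tau_comp_comp _, T.τ_ext _]
  intro p q h
  have hij : p.1 = q.1 := T.Φ.bijective.1 (by
    show InfinitePlace.mk (T.Φ.emb p.1) = InfinitePlace.mk (T.Φ.emb q.1)
    rw [← hres p, ← hres q, ← InfinitePlace.comap_mk, ← InfinitePlace.comap_mk]
    exact congrArg (fun w => InfinitePlace.comap w (algebraMap M L)) h)
  have hne : ∀ i, InfinitePlace.mk ((T.τ i).comp (T.c : L →+* L)) ≠ InfinitePlace.mk (T.τ i) := by
    intro i he
    rcases InfinitePlace.mk_eq_iff.mp he with he | he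
    · exact T.c_ne (AlgEquiv.ext fun x => (T.τ i).injective (DFunLike.congr_fun he x))
    · refine hr i (ComplexEmbedding.isReal_iff.mpr ?_)
      have e := congrArg (fun g : L →+* ℂ => g.comp (algebraMap M L)) he
      simp only [T.τ_ext] at e
      ext m
      simpa [T.emb_apply] using DFunLike.congr_fun e m
  obtain ⟨i, a⟩ := p
  obtain ⟨j, b⟩ := q
  subst hij
  cases a <;> cases b
  · rfl
  · exact absurd (by simpa [placeL] using h.symm) (hne i)
  · exact absurd (by simpa [placeL] using h) (hne i)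
  · rfl

theorem eq_zero_of_forall_units (lam : ι → ℝ)
    (h : ∀ v : (𝓞 L)ˣ, ∑ i, lam i * T.ell (algebraMap (𝓞 L) L v) i = 0) : lam = 0 := by
  classical
  set μ : InfinitePlace L → ℝ :=
    Function.extend T.placeL (fun p => if p.2 then -lam p.1 else lam p.1) 0 with hμ
  have hμp : ∀ p, μ (T.placeL p) = if p.2 then -lam p.1 else lam p.1 :=
    fun p => T.placeL_injective.extend_apply _ _ p
  have hvan : ∀ v : (𝓞 L)ˣ,
      ∑ w : InfinitePlace L, μ w * Real.log (w (algebraMap (𝓞 L) L v)) = 0 := by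
    intro v
    rw [← Finset.sum_subset (Finset.subset_univ (Finset.univ.map ⟨T.placeL, T.placeL_injective⟩))
      fun w _ hw => by
        have hne : ¬ ∃ p, T.placeL p = w := fun ⟨p, hp⟩ =>
          hw (Finset.mem_map.mpr ⟨p, Finset.mem_univ _, hp⟩)
        rw [hμ, Function.extend_apply' _ _ _ hne]
        simp]
    rw [Finset.sum_map, Fintype.sum_prod_type]
    refine Eq.trans ?_ ((mul_eq_zero.mpr (Or.inr (h v))) : (2 : ℝ) * _ = 0)
    rw [Finset.mul_sum]
    refine Finset.sum_congr rfl fun i _ => ?_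
    simp only [Function.Embedding.coeFn_mk, Fintype.sum_bool, hμp]
    simp [placeL, ell]
    ring
  have hlog : ∀ l : Units.dirichletUnitTheorem.logSpace L,
      ∑ w : {w : InfinitePlace L // w ≠ Units.dirichletUnitTheorem.w₀},
        (μ w.1 / (w.1.mult : ℝ) - μ Units.dirichletUnitTheorem.w₀ /
          ((Units.dirichletUnitTheorem.w₀ (K := L)).mult : ℝ)) * l w = 0 := by
    intro l
    have hmem : l ∈ Submodule.span ℝ
        (Units.unitLattice L : Set (Units.dirichletUnitTheorem.logSpace L)) := by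
      rw [Units.dirichletUnitTheorem.unitLattice_span_eq_top]; trivial
    induction hmem using Submodule.span_induction with
    | mem x hx =>
      obtain ⟨v, -, rfl⟩ := hx
      obtain ⟨v, rfl⟩ : ∃ v', Additive.ofMul v' = v := ⟨_, rfl⟩
      have hw₀ := Units.dirichletUnitTheorem.sum_logEmbedding_component v
      have h0 : ((Units.dirichletUnitTheorem.w₀ (K := L)).mult : ℝ) ≠ 0 := by
        exact_mod_cast InfinitePlace.mult_ne_zero
      simp only [sub_mul, Finset.sum_sub_distrib, ← Finset.mul_sum]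
      rw [show ∑ x : {w : InfinitePlace L // w ≠ Units.dirichletUnitTheorem.w₀},
          (Units.logEmbedding L).toIntLinearMap (Additive.ofMul v) x = _ from hw₀]
      have h2 : ∀ w : {w : InfinitePlace L // w ≠ Units.dirichletUnitTheorem.w₀},
          μ w.1 / (w.1.mult : ℝ) * (Units.logEmbedding L).toIntLinearMap (Additive.ofMul v) w =
            μ w.1 * Real.log (w.1 (algebraMap (𝓞 L) L v)) := fun w => by
        have : (w.1.mult : ℝ) ≠ 0 := by exact_mod_cast InfinitePlace.mult_ne_zero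
        show μ w.1 / (w.1.mult : ℝ) * ((w.1.mult : ℝ) * _) = _
        field_simp
        rfl
      simp only [h2]
      have h3 := hvan v
      rw [Fintype.sum_eq_add_sum_subtype_ne _ (Units.dirichletUnitTheorem.w₀ (K := L))] at h3
      refine Eq.trans ?_ h3
      field_simp
      ring_nf
    | zero => simp
    | add x y _ _ hx hy => simp [mul_add, Finset.sum_add_distrib, hx, hy]
    | smul c x _ hx =>
      simp only [Pi.smul_apply, smul_eq_mul, mul_left_comm _ c, ← Finset.mul_sum, hx, mul_zero]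
  have heq : ∀ w : InfinitePlace L, μ w / (w.mult : ℝ) =
      μ Units.dirichletUnitTheorem.w₀ / ((Units.dirichletUnitTheorem.w₀ (K := L)).mult : ℝ) := by
    intro w
    by_cases hw : w = Units.dirichletUnitTheorem.w₀
    · rw [hw]
    · have := hlog (Pi.single ⟨w, hw⟩ 1)
      simpa [Pi.single_apply, sub_eq_zero] using this
  funext i
  have hc : ∀ p, (T.placeL p).IsComplex := by
    intro p
    rw [← InfinitePlace.not_isReal_iff_isComplex]
    intro hr
    refine InfinitePlace.not_isReal_iff_isComplex.mpr (T.Φ.isComplex p.1) ?_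
    have := InfinitePlace.IsReal.comap (algebraMap M L) hr
    rw [placeL, InfinitePlace.comap_mk] at this
    split_ifs at this
    exacts [T.tau_comp_comp p.1 ▸ this, T.τ_ext p.1 ▸ this]
  have h1 := (heq (T.placeL (i, false))).trans (heq (T.placeL (i, true))).symm
  rw [hμp, hμp, InfinitePlace.mult_isComplex ⟨_, hc (i, false)⟩,
    InfinitePlace.mult_isComplex ⟨_, hc (i, true)⟩] at h1
  simp at h1
  simpa using (show lam i = 0 by linarith)

theorem span_ell_normOne :
    Submodule.span ℝ (Set.range fun u : T.normOne => T.ell (T.uL u)) = ⊤ := by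
  classical
  by_contra hne
  obtain ⟨f, hf, hle⟩ := Submodule.exists_le_ker_of_lt_top _ (lt_top_iff_ne_top.mpr hne)
  refine hf ?_
  set lam : ι → ℝ := fun i => f (Pi.single i 1)
  have hfl : ∀ x, f x = ∑ i, lam i * x i := fun x => by
    conv_lhs => rw [pi_eq_sum_univ' x]
    simp [lam, mul_comm]
  have h0 : lam = 0 := T.eq_zero_of_forall_units lam fun v => by
    set vc : (𝓞 L)ˣ := v / Units.map (T.cO : 𝓞 L →* 𝓞 L) v with hvc
    have hcc : Units.map (T.cO : 𝓞 L →* 𝓞 L) (Units.map (T.cO : 𝓞 L →* 𝓞 L) v) = v :=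
      Units.ext (T.cO_cO _)
    have hmem : vc ∈ T.normOne := by
      rw [normOne, MonoidHom.mem_ker, MonoidHom.mul_apply, MonoidHom.id_apply, hvc, map_div, hcc]
      simp [div_mul_div_cancel]
    have h1 := hle (Submodule.subset_span ⟨⟨vc, hmem⟩, rfl⟩)
    rw [LinearMap.mem_ker, hfl] at h1
    set x := algebraMap (𝓞 L) L v
    have hx : x ≠ 0 := by simp [x]
    have e : T.uL ⟨vc, hmem⟩ * T.c x = x := by
      show algebraMap (𝓞 L) L (vc : 𝓞 L) * T.c x = x
      rw [← T.coe_cO, ← map_mul, hvc]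
      congr 1
      exact (Units.val_mul (v / Units.map (T.cO : 𝓞 L →* 𝓞 L) v) _).symm.trans
        (by rw [div_mul_cancel])
    have e2 := congrArg T.ell e
    rw [T.ell_mul (T.uL_ne_zero _) ((map_ne_zero T.c).mpr hx), T.ell_c, ← sub_eq_add_neg,
      sub_eq_iff_eq_add] at e2
    simp only [e2, Pi.add_apply, ← two_mul, mul_left_comm _ (2 : ℝ), ← Finset.mul_sum] at h1
    simpa using h1
  ext x
  simp [hfl, h0]

/-- Every vector is within bounded distance of the lattice of units. -/
theorem exists_covering :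
    ∃ R : ℝ, 0 ≤ R ∧ ∀ s : ι → ℝ, ∃ u : T.normOne, ‖s + T.ell (T.uL u)‖ ≤ R := by
  classical
  let φ : Additive T.normOne →+ (ι → ℝ) :=
    AddMonoidHom.mk' (fun u => T.ell (T.uL (Additive.toMul u))) fun a b => T.ell_uL_mul _ _
  obtain ⟨b, hbs, hspan, hli⟩ :=
    exists_linearIndependent ℝ (Set.range fun u : T.normOne => T.ell (T.uL u))
  rw [T.span_ell_normOne] at hspan
  have : Fintype b := (hli.set_finite_of_isNoetherian).fintype
  choose g hg using fun v : b => hbs v.2
  refine ⟨∑ v : b, ‖(v : ι → ℝ)‖, Finset.sum_nonneg fun _ _ => norm_nonneg _, fun s => ?_⟩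
  obtain ⟨r, hr⟩ := (Submodule.mem_span_range_iff_exists_fun ℝ).mp
    (show s ∈ Submodule.span ℝ (Set.range (Subtype.val : b → ι → ℝ)) by
      rw [Subtype.range_coe, hspan]; trivial)
  refine ⟨Additive.toMul (∑ v : b, (-⌊r v⌋) • Additive.ofMul (g v)), ?_⟩
  have e : T.ell (T.uL (Additive.toMul (∑ v : b, (-⌊r v⌋) • Additive.ofMul (g v)))) =
      ∑ v : b, ((-⌊r v⌋ : ℤ) : ℝ) • (v : ι → ℝ) := by
    show φ _ = _
    rw [map_sum]
    refine Finset.sum_congr rfl fun v _ => ?_
    rw [map_zsmul, ← Int.cast_smul_eq_zsmul ℝ]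
    congr 1
    exact hg v
  rw [e, ← hr, ← Finset.sum_add_distrib]
  refine (norm_sum_le _ _).trans (Finset.sum_le_sum fun v _ => ?_)
  rw [← add_smul, Int.cast_neg, ← sub_eq_add_neg, norm_smul, Real.norm_eq_abs, Int.self_sub_floor,
    abs_of_nonneg (Int.fract_nonneg _)]
  exact mul_le_of_le_one_left (norm_nonneg _) (Int.fract_lt_one _).le

theorem finite_shift_le (R : ℝ) (s : ι → ℝ) :
    {u : T.normOne | ‖s + T.ell (T.uL u)‖ ≤ R}.Finite :=
  (T.finite_normOne_ell_le (R + ‖s‖)).subset fun u hu => by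
    simp only [Set.mem_ofPred_eq] at hu ⊢
    have h := norm_le_norm_add_norm_sub' (T.ell (T.uL u)) (-s)
    rw [norm_neg, sub_neg_eq_add, add_comm _ s] at h
    linarith

/-- A compactly supported partition of unity for the translates by the units. -/
structure Weight where
  w : (ι → ℝ) → ℝ
  R : ℝ
  cont : Continuous w
  supp : ∀ s, w s ≠ 0 → ‖s‖ ≤ R
  bound : ∀ s, |w s| ≤ 1
  tsum_eq : ∀ s, ∑' u : T.normOne, w (s + T.ell (T.uL u)) = 1

theorem exists_weight : Nonempty T.Weight := by
  classical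
  obtain ⟨R, hR0, hR⟩ := T.exists_covering
  set g : (ι → ℝ) → ℝ := fun s => max 0 (R + 1 - ‖s‖) with hg
  have hg0 : ∀ s, 0 ≤ g s := fun s => le_max_left _ _
  have hgc : Continuous g := continuous_const.max (continuous_const.sub continuous_norm)
  have hgs : ∀ s, g s ≠ 0 → ‖s‖ ≤ R + 1 := fun s hs => by
    by_contra! h
    exact hs (max_eq_left (by linarith))
  set G : (ι → ℝ) → ℝ := fun s => ∑' u : T.normOne, g (s + T.ell (T.uL u)) with hG
  have hGsum : ∀ s, Summable fun u : T.normOne => g (s + T.ell (T.uL u)) := fun s =>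
    summable_of_hasFiniteSupport ((T.finite_shift_le (R + 1) s).subset fun u hu => hgs _ hu)
  have hG1 : ∀ s, 1 ≤ G s := fun s => by
    obtain ⟨u, hu⟩ := hR s
    refine le_trans ?_ ((hGsum s).le_tsum u fun v _ => hg0 _)
    exact le_max_of_le_right (by linarith)
  have hGc : Continuous G := by
    refine continuous_iff_continuousAt.mpr fun s => ?_
    have hev : G =ᶠ[nhds s] fun x => ∑ u ∈ (T.finite_shift_le (R + 2) s).toFinset,
        g (x + T.ell (T.uL u)) := by
      filter_upwards [Metric.ball_mem_nhds s one_pos] with x hx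
      refine tsum_eq_sum fun u hu => ?_
      by_contra h
      rw [Set.Finite.mem_toFinset, Set.mem_ofPred_eq] at hu
      have h1 := norm_le_norm_add_norm_sub' (s + T.ell (T.uL u)) (x + T.ell (T.uL u))
      rw [add_sub_add_right_eq_sub, norm_sub_rev, ← dist_eq_norm] at h1
      rw [Metric.mem_ball] at hx
      have := hgs _ h
      exact hu (by linarith)
    refine ContinuousAt.congr ?_ hev.symm
    exact (continuous_finsetSum _ fun u _ => hgc.comp (continuous_add_const _)).continuousAt
  refine ⟨⟨fun s => g s / G s, R + 1, hgc.div hGc fun s => (zero_lt_one.trans_le (hG1 s)).ne',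
    fun s hs => hgs s fun h => hs (by simp [h]), fun s => ?_, fun s => ?_⟩⟩
  · rw [abs_div, abs_of_nonneg (hg0 s), abs_of_pos (zero_lt_one.trans_le (hG1 s)),
      div_le_one (zero_lt_one.trans_le (hG1 s))]
    refine le_trans (le_of_eq ?_) ((hGsum s).le_tsum 1 fun v _ => hg0 _)
    rw [T.uL_one, T.ell_one, add_zero]
  · have hinv : ∀ u : T.normOne, G (s + T.ell (T.uL u)) = G s := fun u => by
      simp only [hG]
      conv_rhs => rw [← (Equiv.mulLeft u).tsum_eq]
      refine tsum_congr fun v => ?_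
      rw [Equiv.coe_mulLeft, T.ell_uL_mul, add_assoc]
    simp only [hinv, tsum_div_const]
    exact div_self (zero_lt_one.trans_le (hG1 s)).ne'

end Setting

end FLTAgent.LanglandsTunnell.Seed

end
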